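import Mathlib

/-!
# Gauss reductions

`GaussRed A π F Fb` is a partial reduction `F → Fb` of function fields extending the residue map
of a valuation ring `A` of the constants, given on a subring `V`. Families with independent
reductions (`RedIndep`) allow normalisation (`exists_smul`) and adapted bases of subspaces
(`exists_basis`), so the integral part of a subspace reduces onto one of the same dimension
(`finrank_redSub`).
-/

set_option autoImplicit false
set_option linter.style.haveILetI false
set_option linter.unusedSectionVars false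

noncomputable section

open Module

namespace FLTAgent.Reduction

variable {K k F Fb : Type*} [Field K] [Field k] [Field F] [Field Fb] [Algebra K F] [Algebra k Fb]

/-- A reduction of the function field `F/K` to `Fb/k` extending `π : A →+* k`. -/
structure GaussRed (A : ValuationSubring K) (π : A →+* k) (F Fb : Type*) [Field F] [Field Fb]
    [Algebra K F] [Algebra k Fb] where
  V : Subring F
  red : F → Fb
  red_one : red 1 = 1
  red_add : ∀ {y z : F}, y ∈ V → z ∈ V → red (y + z) = red y + red z
  red_mul : ∀ {y z : F}, y ∈ V → z ∈ V → red (y * z) = red y * red z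
  const_mem : ∀ a : A, algebraMap K F a ∈ V
  red_const : ∀ a : A, red (algebraMap K F a) = algebraMap k Fb (π a)
  inv_mem : ∀ {y : F}, y ∈ V → red y ≠ 0 → y⁻¹ ∈ V
  red_surj : ∀ w : Fb, ∃ y ∈ V, red y = w
  res_surj : Function.Surjective π

namespace GaussRed

variable {A : ValuationSubring K} {π : A →+* k} (G : GaussRed A π F Fb)
include G

theorem red_zero : G.red 0 = 0 := by
  have := G.red_add G.V.zero_mem G.V.zero_mem
  simpa using this

theorem red_neg {y : F} (hy : y ∈ G.V) : G.red (-y) = -G.red y := by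
  have := G.red_add hy (G.V.neg_mem hy)
  rw [add_neg_cancel, red_zero] at this
  exact eq_neg_of_add_eq_zero_right this.symm

theorem red_sub {y z : F} (hy : y ∈ G.V) (hz : z ∈ G.V) : G.red (y - z) = G.red y - G.red z := by
  rw [sub_eq_add_neg, G.red_add hy (G.V.neg_mem hz), G.red_neg hz, sub_eq_add_neg]

theorem red_pow {y : F} (hy : y ∈ G.V) (n : ℕ) : G.red (y ^ n) = G.red y ^ n := by
  induction n with
  | zero => simpa using G.red_one
  | succ n ih => rw [pow_succ, G.red_mul (pow_mem hy n) hy, ih, pow_succ]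

theorem red_sum {ι : Type*} (s : Finset ι) (y : ι → F) (hy : ∀ i ∈ s, y i ∈ G.V) :
    G.red (∑ i ∈ s, y i) = ∑ i ∈ s, G.red (y i) := by
  classical
  induction s using Finset.induction with
  | empty => simpa using G.red_zero
  | insert a s ha ih =>
    have hs : ∀ i ∈ s, y i ∈ G.V := fun i hi => hy i (Finset.mem_insert_of_mem hi)
    rw [Finset.sum_insert ha, Finset.sum_insert ha,
      G.red_add (hy a (Finset.mem_insert_self a s)) (G.V.sum_mem hs), ih hs]

theorem red_prod {ι : Type*} (s : Finset ι) (y : ι → F) (hy : ∀ i ∈ s, y i ∈ G.V) :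
    G.red (∏ i ∈ s, y i) = ∏ i ∈ s, G.red (y i) := by
  classical
  induction s using Finset.induction with
  | empty => simpa using G.red_one
  | insert a s ha ih =>
    have hs : ∀ i ∈ s, y i ∈ G.V := fun i hi => hy i (Finset.mem_insert_of_mem hi)
    rw [Finset.prod_insert ha, Finset.prod_insert ha,
      G.red_mul (hy a (Finset.mem_insert_self a s)) (G.V.prod_mem hs), ih hs]

theorem smul_mem (a : A) {y : F} (hy : y ∈ G.V) : (a : K) • y ∈ G.V := by
  rw [Algebra.smul_def]
  exact G.V.mul_mem (G.const_mem a) hy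

theorem red_smul (a : A) {y : F} (hy : y ∈ G.V) : G.red ((a : K) • y) = π a • G.red y := by
  rw [Algebra.smul_def, G.red_mul (G.const_mem a) hy, G.red_const, Algebra.smul_def]

theorem smul_mem' {c : K} (hc : c ∈ A) {y : F} (hy : y ∈ G.V) : c • y ∈ G.V :=
  G.smul_mem ⟨c, hc⟩ hy

theorem res_eq_zero_iff (a : A) : π a = 0 ↔ ¬ IsUnit a := by
  have hmax := IsLocalRing.eq_maximalIdeal (RingHom.ker_isMaximal_of_surjective π G.res_surj)
  rw [← RingHom.mem_ker, hmax, IsLocalRing.mem_maximalIdeal, mem_nonunits_iff]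

theorem res_ne_zero_inv_mem {a : A} (h : π a ≠ 0) : (a : K)⁻¹ ∈ A := by
  obtain ⟨u, hu⟩ : IsUnit a := by
    by_contra h'
    exact h ((G.res_eq_zero_iff a).mpr h')
  have h1 : (a : K) * ((u⁻¹ : Aˣ) : A) = 1 := by
    rw [← hu]
    exact congrArg Subtype.val u.mul_inv
  rw [inv_eq_of_mul_eq_one_right h1]
  exact ((u⁻¹ : Aˣ) : A).2

theorem res_inv_of_notMem {c : K} (hc : c ∉ A) :
    π ⟨c⁻¹, (A.mem_or_inv_mem c).resolve_left hc⟩ = 0 := by
  by_contra h
  have := G.res_ne_zero_inv_mem h
  simp only [inv_inv] at this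
  exact hc this

/-- A family with linearly independent reductions. -/
def RedIndep {ι : Type*} (b : ι → F) : Prop :=
  (∀ i, b i ∈ G.V) ∧ LinearIndependent k fun i => G.red (b i)

theorem exists_max_of_field {ι : Type*} [Fintype ι] [Nonempty ι] (c : ι → K)
    (hc : ∃ i, c i ≠ 0) : ∃ i, c i ≠ 0 ∧ ∀ j, c j / c i ∈ A := by
  obtain ⟨i, -, hi⟩ := Finset.exists_max_image Finset.univ (fun i => A.valuation (c i))
    Finset.univ_nonempty
  have hne : c i ≠ 0 := by
    intro h0
    obtain ⟨j, hj⟩ := hc
    have := hi j (Finset.mem_univ j)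
    rw [h0, map_zero, le_zero_iff, map_eq_zero] at this
    exact hj this
  refine ⟨i, hne, fun j => ?_⟩
  rw [← A.valuation_le_one_iff, map_div₀]
  exact div_le_one_of_le₀ (hi j (Finset.mem_univ j)) zero_le

theorem red_sum_smul {ι : Type*} [Fintype ι] {b : ι → F} (hb : ∀ i, b i ∈ G.V) (a : ι → A) :
    G.red (∑ i, (a i : K) • b i) = ∑ i, π (a i) • G.red (b i) := by
  rw [G.red_sum _ _ fun i _ => G.smul_mem _ (hb i)]
  exact Finset.sum_congr rfl fun i _ => G.red_smul _ (hb i)

namespace RedIndep

variable {G} {ι : Type*} {b : ι → F}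

theorem coeff_mem [Fintype ι] (hb : G.RedIndep b) {c : ι → K} (h : (∑ i, c i • b i) ∈ G.V)
    (i : ι) : c i ∈ A := by
  classical
  by_contra hi
  haveI : Nonempty ι := ⟨i⟩
  have hne : ∃ j, c j ≠ 0 := ⟨i, fun h0 => hi (h0 ▸ A.zero_mem)⟩
  obtain ⟨i₀, hi₀, hmax⟩ := exists_max_of_field G c hne
  have hbad : c i₀ ∉ A := fun h0 => hi (by
    simpa [div_mul_cancel₀ _ hi₀] using A.mul_mem _ _ (hmax i) h0)
  let a : ι → A := fun j => ⟨c j / c i₀, hmax j⟩
  have hinv : (c i₀)⁻¹ ∈ A := (A.mem_or_inv_mem _).resolve_left hbad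
  have heq : ((⟨(c i₀)⁻¹, hinv⟩ : A) : K) • (∑ j, c j • b j) = ∑ j, (a j : K) • b j := by
    rw [Finset.smul_sum]
    refine Finset.sum_congr rfl fun j _ => ?_
    rw [smul_smul, inv_mul_eq_div]
  have h1 := congrArg G.red heq
  rw [G.red_smul _ h, G.res_inv_of_notMem hbad, zero_smul, G.red_sum_smul hb.1] at h1
  have h2 := (Fintype.linearIndependent_iff.mp hb.2) _ h1.symm i₀
  have h3 : a i₀ = 1 := Subtype.ext (div_self hi₀)
  rw [h3, map_one] at h2
  exact one_ne_zero h2

theorem linearIndependent [Fintype ι] (hb : G.RedIndep b) : LinearIndependent K b := by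
  rw [Fintype.linearIndependent_iff]
  intro c hc
  by_contra hne
  push Not at hne
  obtain ⟨i, hi⟩ := hne
  haveI : Nonempty ι := ⟨i⟩
  obtain ⟨i₀, hi₀, hmax⟩ := exists_max_of_field G c ⟨i, hi⟩
  let a : ι → A := fun j => ⟨c j / c i₀, hmax j⟩
  have heq : (∑ j, (a j : K) • b j) = (c i₀)⁻¹ • (∑ j, c j • b j) := by
    rw [Finset.smul_sum]
    refine Finset.sum_congr rfl fun j _ => ?_
    rw [smul_smul, inv_mul_eq_div]
  rw [hc, smul_zero] at heq
  have h1 := congrArg G.red heq
  rw [G.red_sum_smul hb.1, G.red_zero] at h1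
  have h2 := (Fintype.linearIndependent_iff.mp hb.2) _ h1 i₀
  rw [show a i₀ = 1 from Subtype.ext (div_self hi₀), map_one] at h2
  exact one_ne_zero h2

theorem comp {κ : Type*} (hb : G.RedIndep b) (f : κ → ι) (hf : Function.Injective f) :
    G.RedIndep (b ∘ f) :=
  ⟨fun i => hb.1 _, hb.2.comp f hf⟩

/-- Normalisation of a nonzero element of the span. -/
theorem exists_smul [Fintype ι] (hb : G.RedIndep b) {y : F}
    (hy : y ∈ Submodule.span K (Set.range b)) (h0 : y ≠ 0) :
    ∃ c : K, c ≠ 0 ∧ c • y ∈ G.V ∧ G.red (c • y) ≠ 0 := by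
  classical
  obtain ⟨c, rfl⟩ := (Submodule.mem_span_range_iff_exists_fun K).mp hy
  obtain ⟨i, hi⟩ : ∃ i, c i ≠ 0 := by
    by_contra h
    push Not at h
    exact h0 (by simp [h])
  haveI : Nonempty ι := ⟨i⟩
  obtain ⟨i₀, hi₀, hmax⟩ := exists_max_of_field G c ⟨i, hi⟩
  let a : ι → A := fun j => ⟨c j / c i₀, hmax j⟩
  have heq : (c i₀)⁻¹ • (∑ j, c j • b j) = ∑ j, (a j : K) • b j := by
    rw [Finset.smul_sum]
    refine Finset.sum_congr rfl fun j _ => ?_
    rw [smul_smul, inv_mul_eq_div]
  refine ⟨(c i₀)⁻¹, inv_ne_zero hi₀, ?_, ?_⟩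
  · rw [heq]
    exact G.V.sum_mem fun j _ => G.smul_mem _ (hb.1 j)
  · rw [heq, G.red_sum_smul hb.1]
    intro h
    have h2 := (Fintype.linearIndependent_iff.mp hb.2) _ h i₀
    rw [show a i₀ = 1 from Subtype.ext (div_self hi₀), map_one] at h2
    exact one_ne_zero h2

/-- Every subspace of the span has a basis with independent reductions; its first vector can be
any given element with nonzero reduction. -/
theorem exists_basis [Fintype ι] (hb : G.RedIndep b) :
    ∀ W : Submodule K F, W ≤ Submodule.span K (Set.range b) →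
      ∃ (n : ℕ) (w : Fin n → F), G.RedIndep w ∧ Submodule.span K (Set.range w) = W := by
  classical
  intro W
  induction hn : finrank K W using Nat.strong_induction_on generalizing W with
  | _ n ih =>
    intro hW
    rcases eq_or_ne W ⊥ with rfl | hWne
    · exact ⟨0, Fin.elim0, ⟨fun i => i.elim0, linearIndependent_empty_type⟩, by simp⟩
    obtain ⟨y, hyW, hy0⟩ := Submodule.exists_mem_ne_zero_of_ne_bot hWne
    obtain ⟨c, hc0, hcV, hcred⟩ := hb.exists_smul (hW hyW) hy0
    set w₀ : F := c • y with hw₀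
    have hw₀W : w₀ ∈ W := W.smul_mem c hyW
    obtain ⟨d, hd⟩ := (Submodule.mem_span_range_iff_exists_fun K).mp (hW hw₀W)
    have hdA : ∀ i, d i ∈ A := fun i => hb.coeff_mem (hd ▸ hcV) i
    obtain ⟨i₀, hi₀⟩ : ∃ i, π ⟨d i, hdA i⟩ ≠ 0 := by
      by_contra h
      push Not at h
      apply hcred
      have := G.red_sum_smul hb.1 (fun i => ⟨d i, hdA i⟩)
      rw [hd] at this
      rw [this]
      simp [h]
    have hd0 : d i₀ ≠ 0 := fun h0 => hi₀ (by
      rw [show (⟨d i₀, hdA i₀⟩ : A) = 0 from Subtype.ext h0, map_zero])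
    set S : Submodule K F := Submodule.span K (Set.range fun i : {i // i ≠ i₀} => b i) with hS
    set W' : Submodule K F := W ⊓ S with hW'
    haveI : FiniteDimensional K (Submodule.span K (Set.range b)) :=
      FiniteDimensional.span_of_finite K (Set.finite_range b)
    haveI : FiniteDimensional K W := Submodule.finiteDimensional_of_le hW
    have hw₀S : w₀ ∉ S := by
      intro h
      obtain ⟨e, he⟩ := (Submodule.mem_span_range_iff_exists_fun K).mp h
      have key : ∑ i, (d i - if h : i ≠ i₀ then e ⟨i, h⟩ else 0) • b i = 0 := by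
        simp only [sub_smul, Finset.sum_sub_distrib]
        rw [hd, sub_eq_zero, ← he]
        symm
        rw [← Finset.sum_filter_add_sum_filter_not Finset.univ (fun i => i ≠ i₀)
          (fun i => (if h : i ≠ i₀ then e ⟨i, h⟩ else 0) • b i)]
        rw [Finset.sum_eq_zero (s := Finset.univ.filter fun i => ¬ i ≠ i₀)
          (fun i hi => by rw [dif_neg (Finset.mem_filter.mp hi).2, zero_smul]), add_zero]
        rw [Finset.sum_subtype (p := fun i => i ≠ i₀) (Finset.univ.filter fun i => i ≠ i₀)
          (fun i => by simp)]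
        exact Finset.sum_congr rfl fun i _ => by rw [dif_pos i.2]
      have := Fintype.linearIndependent_iff.mp hb.linearIndependent _ key i₀
      simp only [ne_eq, not_true_eq_false, dite_false, sub_zero] at this
      exact hd0 this
    have hlt : finrank K W' < n := hn ▸ Submodule.finrank_lt_finrank_of_lt
      (lt_of_le_not_ge inf_le_left fun h => hw₀S (h hw₀W).2)
    obtain ⟨m, w, hw, hwspan⟩ := ih _ hlt W' rfl (inf_le_left.trans hW)
    have hwW' : ∀ i, w i ∈ W' := fun i => hwspan ▸ Submodule.subset_span ⟨i, rfl⟩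
    refine ⟨m + 1, Fin.cons w₀ w, ⟨fun i => ?_, ?_⟩, ?_⟩
    · refine Fin.cases ?_ ?_ i
      · simpa using hcV
      · intro j; simpa using hw.1 j
    · rw [show (fun i => G.red (Fin.cons (α := fun _ => F) w₀ w i))
          = Fin.cons (G.red w₀) (fun i => G.red (w i)) from
        funext fun i => Fin.cases (by simp) (fun j => by simp) i, linearIndependent_finCons]
      refine ⟨hw.2, fun hmem => ?_⟩
      have hle : Submodule.span k (Set.range fun i => G.red (w i)) ≤
          Submodule.span k (Set.range fun i : {i // i ≠ i₀} => G.red (b i)) := by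
        rw [Submodule.span_le]
        rintro _ ⟨j, rfl⟩
        obtain ⟨e, he⟩ := (Submodule.mem_span_range_iff_exists_fun K).mp (hwW' j).2
        have heA : ∀ i, e i ∈ A := fun i =>
          RedIndep.coeff_mem (G := G) (b := fun i : {i // i ≠ i₀} => b i)
            (hb.comp _ Subtype.val_injective) (he ▸ hw.1 j) i
        have := G.red_sum_smul (fun i : {i // i ≠ i₀} => hb.1 i) (fun i => ⟨e i, heA i⟩)
        rw [he] at this
        rw [SetLike.mem_coe]
        change G.red (w j) ∈ _
        rw [this]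
        exact Submodule.sum_mem _ fun i _ => Submodule.smul_mem _ _ (Submodule.subset_span ⟨i, rfl⟩)
      obtain ⟨e, he⟩ := (Submodule.mem_span_range_iff_exists_fun k).mp (hle hmem)
      have hd' := G.red_sum_smul hb.1 (fun i => ⟨d i, hdA i⟩)
      rw [hd] at hd'
      have key : ∑ i, (π ⟨d i, hdA i⟩ - if h : i ≠ i₀ then e ⟨i, h⟩ else 0) • G.red (b i)
          = 0 := by
        simp only [sub_smul, Finset.sum_sub_distrib]
        rw [← hd', sub_eq_zero, ← he]
        symm
        rw [← Finset.sum_filter_add_sum_filter_not Finset.univ (fun i => i ≠ i₀)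
          (fun i => (if h : i ≠ i₀ then e ⟨i, h⟩ else 0) • G.red (b i))]
        rw [Finset.sum_eq_zero (s := Finset.univ.filter fun i => ¬ i ≠ i₀)
          (fun i hi => by rw [dif_neg (Finset.mem_filter.mp hi).2, zero_smul]), add_zero]
        rw [Finset.sum_subtype (p := fun i => i ≠ i₀) (Finset.univ.filter fun i => i ≠ i₀)
          (fun i => by simp)]
        exact Finset.sum_congr rfl fun i _ => by rw [dif_pos i.2]
      have h3 := Fintype.linearIndependent_iff.mp hb.2 _ key i₀
      simp only [ne_eq, not_true_eq_false, dite_false, sub_zero] at h3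
      exact hi₀ h3
    · refine le_antisymm ?_ ?_
      · rw [Submodule.span_le]
        rintro _ ⟨i, rfl⟩
        refine Fin.cases ?_ ?_ i
        · simpa using hw₀W
        · intro j; simpa using (hwW' j).1
      · intro z hz
        obtain ⟨e, he⟩ := (Submodule.mem_span_range_iff_exists_fun K).mp (hW hz)
        have hmem : z - (e i₀ / d i₀) • w₀ ∈ W' := by
          refine ⟨W.sub_mem hz (W.smul_mem _ hw₀W), ?_⟩
          rw [← he, ← hd, Finset.smul_sum, ← Finset.sum_sub_distrib]
          refine Submodule.sum_mem _ fun i _ => ?_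
          rcases eq_or_ne i i₀ with rfl | hne
          · rw [smul_smul, div_mul_cancel₀ _ hd0, sub_self]
            exact Submodule.zero_mem _
          · rw [smul_smul, ← sub_smul]
            exact Submodule.smul_mem _ _ (Submodule.subset_span ⟨⟨i, hne⟩, rfl⟩)
        rw [← hwspan] at hmem
        have hsub : Set.range w ⊆ Set.range (Fin.cons (α := fun _ => F) w₀ w) := by
          rintro _ ⟨j, rfl⟩
          exact ⟨j.succ, by simp⟩
        have h0 : w₀ ∈ Submodule.span K (Set.range (Fin.cons (α := fun _ => F) w₀ w)) :=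
          Submodule.subset_span ⟨0, by simp⟩
        have := Submodule.add_mem _ (Submodule.span_mono hsub hmem)
          (Submodule.smul_mem _ (e i₀ / d i₀) h0)
        simpa using this

end RedIndep

/-- The reductions of the integral elements of a subspace. -/
def redSub (W : Submodule K F) : Submodule k Fb where
  carrier := {w | ∃ y ∈ W, y ∈ G.V ∧ G.red y = w}
  zero_mem' := ⟨0, W.zero_mem, G.V.zero_mem, G.red_zero⟩
  add_mem' := by
    rintro _ _ ⟨y, hy, hyV, rfl⟩ ⟨z, hz, hzV, rfl⟩
    exact ⟨y + z, W.add_mem hy hz, G.V.add_mem hyV hzV, G.red_add hyV hzV⟩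
  smul_mem' := by
    rintro c _ ⟨y, hy, hyV, rfl⟩
    obtain ⟨a, rfl⟩ := G.res_surj c
    exact ⟨(a : K) • y, W.smul_mem _ hy, G.smul_mem a hyV, G.red_smul a hyV⟩

theorem mem_redSub {W : Submodule K F} {w : Fb} :
    w ∈ G.redSub W ↔ ∃ y ∈ W, y ∈ G.V ∧ G.red y = w := Iff.rfl

theorem redSub_mono {W W' : Submodule K F} (h : W ≤ W') : G.redSub W ≤ G.redSub W' :=
  fun _ ⟨y, hy, hyV, hw⟩ => ⟨y, h hy, hyV, hw⟩

theorem redSub_span_eq {n : ℕ} {w : Fin n → F} (hw : G.RedIndep w) :
    G.redSub (Submodule.span K (Set.range w)) = Submodule.span k (Set.range fun i => G.red (w i)) := by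
  refine le_antisymm ?_ ?_
  · rintro _ ⟨y, hy, hyV, rfl⟩
    obtain ⟨c, rfl⟩ := (Submodule.mem_span_range_iff_exists_fun K).mp hy
    have hcA := fun i => hw.coeff_mem hyV i
    have := G.red_sum_smul hw.1 (fun i => ⟨c i, hcA i⟩)
    rw [this]
    exact Submodule.sum_mem _ fun i _ => Submodule.smul_mem _ _ (Submodule.subset_span ⟨i, rfl⟩)
  · rw [Submodule.span_le]
    rintro _ ⟨i, rfl⟩
    exact ⟨w i, Submodule.subset_span ⟨i, rfl⟩, hw.1 i, rfl⟩

theorem finrank_redSub {ι : Type*} [Fintype ι] {b : ι → F} (hb : G.RedIndep b)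
    {W : Submodule K F} (hW : W ≤ Submodule.span K (Set.range b)) :
    finrank k (G.redSub W) = finrank K W ∧ FiniteDimensional k (G.redSub W) := by
  obtain ⟨n, w, hw, rfl⟩ := hb.exists_basis W hW
  rw [G.redSub_span_eq hw]
  refine ⟨?_, FiniteDimensional.span_of_finite k (Set.finite_range _)⟩
  rw [finrank_span_eq_card hw.2, finrank_span_eq_card hw.linearIndependent]

end GaussRed

end FLTAgent.Reduction
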