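import Mathlib
import Fermat.Agent.FF.PlacesBasic
import Fermat.Prelude.Def_AlgebraicCurve_Repartitions

/-!
# The properties of a curve used by the reduction theory

`CurveData K F g` records principal divisors of degree zero, degree one places, residues,
constants and Riemann-Roch in large degree. From these: vanishing orders (`Vanish`), values at
places (`valAt`), divisors of functions (`divOf`, `poleDiv`), functions of prescribed exact order
(`exists_exact`) and sets of `g` places in general position (`exists_general_position`).
-/

set_option autoImplicit false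
set_option linter.style.haveILetI false
set_option linter.unusedSectionVars false

noncomputable section

open AlgebraicCurve Module

namespace FLTAgent.Reduction

variable {K F : Type*} [Field K] [Field F] [Algebra K F]

/-- `f` vanishes to order at least `n` at `v`. -/
def Vanish (v : Place K F) (f : F) (n : ℤ) : Prop := f = 0 ∨ n ≤ v.ord f

theorem mem_L_iff {D : Divisor K F} {f : F} :
    f ∈ riemannRochSpace D ↔ ∀ v : Place K F, Vanish v f (-D v) :=
  mem_riemannRochSpace_iff

namespace Vanish

variable {v : Place K F} {f g : F} {m n : ℤ}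

theorem zero_left : Vanish v (0 : F) n := Or.inl rfl

theorem mono (h : Vanish v f m) (hn : n ≤ m) : Vanish v f n := h.imp id (le_trans hn)

theorem add (hf : Vanish v f n) (hg : Vanish v g n) : Vanish v (f + g) n := by
  rcases eq_or_ne f 0 with rfl | hf0
  · simpa using hg
  rcases eq_or_ne g 0 with rfl | hg0
  · simpa using hf
  rcases eq_or_ne (f + g) 0 with h0 | h0
  · exact Or.inl h0
  · have := FF.ord_add_ge v hf0 hg0 h0
    have := hf.resolve_left hf0
    have := hg.resolve_left hg0
    exact Or.inr (by omega)

theorem neg (hf : Vanish v f n) : Vanish v (-f) n := by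
  rcases hf with rfl | h
  · exact Or.inl neg_zero
  · exact Or.inr (by rwa [FF.ord_neg])

theorem sub (hf : Vanish v f n) (hg : Vanish v g n) : Vanish v (f - g) n := by
  rw [sub_eq_add_neg]
  exact hf.add hg.neg

theorem mul (hf : Vanish v f m) (hg : Vanish v g n) : Vanish v (f * g) (m + n) := by
  rcases eq_or_ne f 0 with rfl | hf0
  · exact Or.inl (zero_mul g)
  rcases eq_or_ne g 0 with rfl | hg0
  · exact Or.inl (mul_zero f)
  · exact Or.inr (by
      rw [v.ord_mul hf0 hg0]
      have := hf.resolve_left hf0
      have := hg.resolve_left hg0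
      omega)

theorem mul_zero' (hf : Vanish v f 0) (hg : Vanish v g n) : Vanish v (f * g) n := by
  simpa using hf.mul hg

theorem const (c : K) : Vanish v (algebraMap K F c) 0 := Or.inr (by simp)

theorem one : Vanish v (1 : F) 0 := Or.inr (by simp)

theorem smul (c : K) (hf : Vanish v f n) : Vanish v (c • f) n := by
  rw [Algebra.smul_def]
  exact (const c).mul_zero' hf

theorem pow (hf : Vanish v f m) (k : ℕ) : Vanish v (f ^ k) (k * m) := by
  induction k with
  | zero => simpa using one
  | succ k ih =>
    rw [pow_succ]
    refine (ih.mul hf).mono ?_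
    push_cast
    linarith

theorem zero_iff : Vanish v f 0 ↔ 0 ≤ v.ord f := by
  constructor
  · rintro (rfl | h)
    · simp
    · exact h
  · exact Or.inr

theorem self (f : F) : Vanish v f (v.ord f) := Or.inr le_rfl

theorem sum {ι : Type*} (s : Finset ι) (φ : ι → F) (h : ∀ i ∈ s, Vanish v (φ i) n) :
    Vanish v (∑ i ∈ s, φ i) n := by
  classical
  induction s using Finset.induction with
  | empty => simpa using zero_left
  | insert a s ha ih =>
    rw [Finset.sum_insert ha]
    exact (h a (Finset.mem_insert_self a s)).add
      (ih fun i hi => h i (Finset.mem_insert_of_mem hi))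

end Vanish

/-- The facts about a curve of genus `g` over an algebraically closed field that we use. -/
structure CurveData (K F : Type*) [Field K] [Field F] [Algebra K F] (g : ℕ) : Prop where
  exists_divisor : ∀ f : F, f ≠ 0 → ∃ D : Divisor K F,
    (∀ v : Place K F, D v = v.ord f) ∧ Divisor.degree D = 0
  deg_one : ∀ v : Place K F, v.deg = 1
  residue : ∀ (v : Place K F) (f : F), 0 ≤ v.ord f →
    ∃ c : K, Vanish v (f - algebraMap K F c) 1
  const : ∀ f : F, (∀ v : Place K F, 0 ≤ v.ord f) → ∃ c : K, algebraMap K F c = f
  finite_L : ∀ D : Divisor K F, FiniteDimensional K (riemannRochSpace D)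
  riemann : ∀ D : Divisor K F,
    Divisor.degree D + 1 - g ≤ (finrank K (riemannRochSpace D) : ℤ)
  riemann_eq : ∃ C : ℤ, ∀ D : Divisor K F, C ≤ Divisor.degree D →
    (finrank K (riemannRochSpace D) : ℤ) = Divisor.degree D + 1 - g

/-- The dimension of `L(D)`. -/
abbrev ell (D : Divisor K F) : ℕ := finrank K (riemannRochSpace D)

open Classical in
/-- The divisor of a function (`0` if it does not exist). -/
def divOf (f : F) : Divisor K F :=
  if h : ∃ D : Divisor K F, ∀ v : Place K F, D v = v.ord f then h.choose else 0

open Classical in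
/-- The value of `f` at `v` (junk if `f` has a pole there). -/
def valAt (v : Place K F) (f : F) : K :=
  if h : ∃ c : K, Vanish v (f - algebraMap K F c) 1 then h.choose else 0

/-- The divisor of poles of `f`. -/
def poleDiv (f : F) : Divisor K F := (divOf f).mapRange (fun n : ℤ => max 0 (-n)) (by simp)

theorem valAt_eq {v : Place K F} {f : F} {c : K} (h : Vanish v (f - algebraMap K F c) 1) :
    valAt v f = c := by
  classical
  have hex : ∃ c : K, Vanish v (f - algebraMap K F c) 1 := ⟨c, h⟩
  rw [valAt, dif_pos hex]
  have h2 := h.sub hex.choose_spec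
  rw [sub_sub_sub_cancel_left, ← map_sub] at h2
  rcases h2 with h0 | h1
  · exact sub_eq_zero.mp ((map_eq_zero _).mp h0)
  · rw [FF.ord_algebraMap] at h1
    omega

theorem valAt_algebraMap (v : Place K F) (c : K) : valAt v (algebraMap K F c) = c :=
  valAt_eq (Or.inl (sub_self _))

theorem valAt_zero (v : Place K F) : valAt v (0 : F) = 0 := by
  simpa using valAt_algebraMap v (0 : K)

theorem valAt_one (v : Place K F) : valAt v (1 : F) = 1 := by
  simpa using valAt_algebraMap v (1 : K)

theorem valAt_eq_zero_of_vanish {v : Place K F} {f : F} (h : Vanish v f 1) : valAt v f = 0 :=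
  valAt_eq (by simpa using h)

namespace CurveData

variable {g : ℕ} (hC : CurveData K F g)
include hC

theorem divOf_apply (f : F) (v : Place K F) : divOf f v = v.ord f := by
  classical
  have h : ∃ D : Divisor K F, ∀ v : Place K F, D v = v.ord f := by
    rcases eq_or_ne f 0 with rfl | hf
    · exact ⟨0, fun v => by simp⟩
    · obtain ⟨D, hD, -⟩ := hC.exists_divisor f hf
      exact ⟨D, hD⟩
  rw [divOf, dif_pos h]
  exact h.choose_spec v

theorem degree_divOf (f : F) : Divisor.degree (divOf f : Divisor K F) = 0 := by
  rcases eq_or_ne f 0 with rfl | hf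
  · rw [show (divOf (0 : F) : Divisor K F) = 0 from
      Finsupp.ext fun v => by simp [hC.divOf_apply], map_zero]
  · obtain ⟨D, hD, hdeg⟩ := hC.exists_divisor f hf
    rwa [show (divOf f : Divisor K F) = D from
      Finsupp.ext fun v => by rw [hC.divOf_apply, hD]]

theorem divOf_mul {f f' : F} (hf : f ≠ 0) (hf' : f' ≠ 0) :
    (divOf (f * f') : Divisor K F) = divOf f + divOf f' :=
  Finsupp.ext fun v => by
    simp only [Finsupp.add_apply, hC.divOf_apply, v.ord_mul hf hf']

theorem divOf_inv (f : F) : (divOf f⁻¹ : Divisor K F) = -divOf f :=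
  Finsupp.ext fun v => by simp only [Finsupp.neg_apply, hC.divOf_apply, v.ord_inv]

theorem poleDiv_apply (f : F) (v : Place K F) : poleDiv f v = max 0 (-v.ord f) := by
  rw [poleDiv, Finsupp.mapRange_apply, hC.divOf_apply]

theorem isPrincipal_divOf {f : F} (hf : f ≠ 0) : Divisor.IsPrincipal (divOf f : Divisor K F) :=
  ⟨f, hf, hC.divOf_apply f⟩

theorem degree_eq_sum (D : Divisor K F) : Divisor.degree D = D.sum fun _ n => n := by
  induction D using Finsupp.induction with
  | zero => simp
  | single_add v n D hv hn ih =>
    rw [map_add, Divisor.degree_single, hC.deg_one, ih,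
      Finsupp.sum_add_index' (fun _ => rfl) (fun _ _ _ => rfl), Finsupp.sum_single_index rfl]
    simp

theorem degree_single (v : Place K F) (n : ℤ) :
    Divisor.degree (Finsupp.single v n : Divisor K F) = n := by
  simp [hC.deg_one]

theorem degree_nonneg {D : Divisor K F} (h : 0 ≤ D) : 0 ≤ Divisor.degree D := by
  rw [hC.degree_eq_sum]
  exact Finset.sum_nonneg fun v _ => h v

theorem degree_mono {D E : Divisor K F} (h : D ≤ E) : Divisor.degree D ≤ Divisor.degree E := by
  have := hC.degree_nonneg (D := E - D) (sub_nonneg.mpr h)
  rw [map_sub] at this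
  omega

theorem eq_of_le_of_degree_eq {D E : Divisor K F} (h : D ≤ E)
    (he : Divisor.degree D = Divisor.degree E) : D = E := by
  classical
  have hd : Divisor.degree (E - D) = 0 := by rw [map_sub, he, sub_self]
  rw [hC.degree_eq_sum] at hd
  have h0 : (0 : Divisor K F) ≤ E - D := sub_nonneg.mpr h
  have hz : E - D = 0 := by
    ext v
    by_contra hv
    have hv' := Finsupp.mem_support_iff.mpr hv
    exact hv ((Finset.sum_eq_zero_iff_of_nonneg fun w _ => h0 w).mp hd v hv')
  exact (sub_eq_zero.mp hz).symm

theorem exists_valAt {v : Place K F} {f : F} (hf : Vanish v f 0) :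
    Vanish v (f - algebraMap K F (valAt v f)) 1 := by
  obtain ⟨c, hc⟩ := hC.residue v f (Vanish.zero_iff.mp hf)
  rwa [valAt_eq hc]

theorem valAt_add {v : Place K F} {f f' : F} (hf : Vanish v f 0) (hf' : Vanish v f' 0) :
    valAt v (f + f') = valAt v f + valAt v f' := by
  refine valAt_eq ?_
  rw [map_add, add_sub_add_comm]
  exact (hC.exists_valAt hf).add (hC.exists_valAt hf')

theorem valAt_sub {v : Place K F} {f f' : F} (hf : Vanish v f 0) (hf' : Vanish v f' 0) :
    valAt v (f - f') = valAt v f - valAt v f' := by
  refine valAt_eq ?_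
  rw [map_sub, sub_sub_sub_comm]
  exact (hC.exists_valAt hf).sub (hC.exists_valAt hf')

theorem valAt_mul {v : Place K F} {f f' : F} (hf : Vanish v f 0) (hf' : Vanish v f' 0) :
    valAt v (f * f') = valAt v f * valAt v f' := by
  refine valAt_eq ?_
  have h1 : f * f' - algebraMap K F (valAt v f * valAt v f')
      = (f - algebraMap K F (valAt v f)) * f'
        + algebraMap K F (valAt v f) * (f' - algebraMap K F (valAt v f')) := by
    rw [map_mul]; ring
  rw [h1]
  exact ((hC.exists_valAt hf).mul hf').add
    (Vanish.mul_zero' (Vanish.const _) (hC.exists_valAt hf'))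

theorem valAt_smul {v : Place K F} (c : K) {f : F} (hf : Vanish v f 0) :
    valAt v (c • f) = c * valAt v f := by
  rw [Algebra.smul_def, hC.valAt_mul (Vanish.const c) hf, valAt_algebraMap]

theorem vanish_one_iff {v : Place K F} {f : F} (hf : Vanish v f 0) :
    Vanish v f 1 ↔ valAt v f = 0 := by
  refine ⟨valAt_eq_zero_of_vanish, fun h => ?_⟩
  simpa [h] using hC.exists_valAt hf

theorem exists_C : ∃ C : ℤ, ∀ D : Divisor K F, C ≤ Divisor.degree D →
    (ell D : ℤ) = Divisor.degree D + 1 - g := hC.riemann_eq

omit hC in
theorem L_mono {D E : Divisor K F} (h : D ≤ E) : riemannRochSpace D ≤ riemannRochSpace E :=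
  fun f hf => mem_L_iff.mpr fun v => (mem_L_iff.mp hf v).mono (neg_le_neg (h v))

theorem L_zero_eq_one {f : F} (hf : f ∈ riemannRochSpace (0 : Divisor K F)) :
    ∃ c : K, algebraMap K F c = f :=
  hC.const f fun v => Vanish.zero_iff.mp (by simpa using mem_L_iff.mp hf v)

omit hC in
theorem one_mem_L {D : Divisor K F} (h : 0 ≤ D) : (1 : F) ∈ riemannRochSpace D :=
  mem_L_iff.mpr fun v => Vanish.one.mono (neg_nonpos.mpr (h v))

theorem ell_sub_single (D : Divisor K F) (Q : Place K F) :
    ell D ≤ ell (D - Finsupp.single Q 1) + 1 := by
  classical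
  obtain ⟨t, ht, htord⟩ := FF.exists_ord_eq Q (D Q)
  haveI := hC.finite_L D
  have hreg : ∀ f : riemannRochSpace D, Vanish Q ((f : F) * t) 0 := fun f => by
    have := (mem_L_iff.mp f.2 Q).mul (Vanish.self (v := Q) t)
    rw [htord, neg_add_cancel] at this
    exact this
  let φ : riemannRochSpace D →ₗ[K] K :=
    { toFun := fun f => valAt Q ((f : F) * t)
      map_add' := fun f f' => by
        simp only [Submodule.coe_add, add_mul]
        exact hC.valAt_add (hreg f) (hreg f')
      map_smul' := fun c f => by
        simp only [Submodule.coe_smul, Algebra.smul_mul_assoc, RingHom.id_apply, smul_eq_mul]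
        exact hC.valAt_smul c (hreg f) }
  have hker : (LinearMap.ker φ).map (riemannRochSpace D).subtype
      ≤ riemannRochSpace (D - Finsupp.single Q 1) := by
    rintro _ ⟨f, hf, rfl⟩
    refine mem_L_iff.mpr fun v => ?_
    simp only [Finsupp.sub_apply, Submodule.subtype_apply]
    by_cases hv : v = Q
    · subst hv
      have h1 : Vanish v ((f : F) * t) 1 := (hC.vanish_one_iff (hreg f)).mpr hf
      have h2 := h1.mul (Vanish.self (v := v) t⁻¹)
      rw [mul_assoc, mul_inv_cancel₀ ht, mul_one, Place.ord_inv, htord] at h2
      refine h2.mono ?_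
      simp
    · simpa [Finsupp.single_apply, Ne.symm hv] using mem_L_iff.mp f.2 v
  haveI := hC.finite_L (D - Finsupp.single Q 1)
  have h1 := LinearMap.finrank_range_add_finrank_ker φ
  have h2 : finrank K (LinearMap.range φ) ≤ 1 :=
    (Submodule.finrank_le _).trans_eq (finrank_self K)
  have h3 : finrank K (LinearMap.ker φ) ≤ ell (D - Finsupp.single Q 1) := by
    rw [← Submodule.finrank_map_subtype_eq]
    exact Submodule.finrank_mono hker
  simp only [ell] at *
  omega

/-- In large degree there is a function with prescribed exact order at `Q`. -/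
theorem exists_exact {D : Divisor K F} (Q : Place K F) (C : ℤ)
    (hCC : ∀ D : Divisor K F, C ≤ Divisor.degree D → (ell D : ℤ) = Divisor.degree D + 1 - g)
    (hdeg : C + 1 ≤ Divisor.degree D) :
    ∃ f ∈ riemannRochSpace D, f ≠ 0 ∧ Q.ord f = -D Q := by
  classical
  by_contra hcon
  push Not at hcon
  have hle : riemannRochSpace D ≤ riemannRochSpace (D - Finsupp.single Q 1) := by
    intro f hf
    refine mem_L_iff.mpr fun v => ?_
    simp only [Finsupp.sub_apply]
    by_cases hv : v = Q
    · subst hv
      rcases eq_or_ne f 0 with rfl | hf0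
      · exact Vanish.zero_left
      · have := hcon f hf hf0
        have := (mem_L_iff.mp hf v).resolve_left hf0
        refine Or.inr ?_
        rw [Finsupp.single_eq_same]
        omega
    · simpa [Finsupp.single_apply, Ne.symm hv] using mem_L_iff.mp hf v
  haveI := hC.finite_L (D - Finsupp.single Q 1)
  have h1 := Submodule.finrank_mono hle
  have h2 := hCC D (by omega)
  have hdeg' : Divisor.degree (D - Finsupp.single Q 1) = Divisor.degree D - 1 := by
    rw [map_sub, hC.degree_single]
  have h3 := hCC (D - Finsupp.single Q 1) (by omega)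
  simp only [ell] at *
  omega

/-- Among infinitely many places there are `g` in general position. -/
theorem exists_general_position {T : Set (Place K F)} (hT : T.Infinite) :
    ∃ s : Finset (Place K F), (↑s : Set (Place K F)) ⊆ T ∧ s.card = g ∧
      ell (∑ v ∈ s, Finsupp.single v (1 : ℤ)) = 1 := by
  classical
  obtain ⟨C, hCC⟩ := hC.exists_C
  set D : Finset (Place K F) → Divisor K F := fun s => ∑ v ∈ s, Finsupp.single v (1 : ℤ) with hD
  have hDdeg : ∀ s : Finset (Place K F), Divisor.degree (D s) = s.card := fun s => by
    simp [hD, map_sum, hC.deg_one]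
  have hD0 : ∀ s : Finset (Place K F), 0 ≤ D s := fun s =>
    Finset.sum_nonneg fun v _ => Finsupp.single_nonneg.mpr zero_le_one
  have key : ∀ s : Finset (Place K F), (↑s : Set (Place K F)) ⊆ T →
      (ell (D s) : ℤ) = s.card + 1 - g →
      ∃ t : Finset (Place K F), (↑t : Set (Place K F)) ⊆ T ∧ t.card = g ∧ ell (D t) = 1 := by
    intro s
    induction s using Finset.strongInduction with
    | _ s ih =>
      intro hsT hs
      by_cases h1 : ell (D s) ≤ 1
      · haveI := hC.finite_L (D s)
        have hpos : 0 < ell (D s) := by
          haveI : Nontrivial (riemannRochSpace (D s)) :=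
            ⟨⟨1, one_mem_L (hD0 s)⟩, 0, fun h => one_ne_zero (congrArg Subtype.val h)⟩
          exact finrank_pos
        exact ⟨s, hsT, by omega, by omega⟩
      · obtain ⟨Q, hQs, hQ⟩ : ∃ Q ∈ s, ¬ riemannRochSpace (D s)
            ≤ riemannRochSpace (D s - Finsupp.single Q 1) := by
          by_contra hall
          push Not at hall
          apply h1
          have hle : riemannRochSpace (D s) ≤ riemannRochSpace (0 : Divisor K F) := by
            intro f hf
            refine mem_L_iff.mpr fun v => ?_
            by_cases hv : v ∈ s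
            · have := mem_L_iff.mp (hall v hv hf) v
              simpa [hD, Finsupp.finsetSum_apply, Finsupp.single_apply, hv] using this
            · simpa [hD, Finsupp.finsetSum_apply, Finsupp.single_apply, hv] using
                mem_L_iff.mp hf v
          have hle' : riemannRochSpace (0 : Divisor K F) ≤ Submodule.span K {(1 : F)} := by
            intro f hf
            obtain ⟨c, rfl⟩ := hC.L_zero_eq_one hf
            exact Submodule.mem_span_singleton.mpr ⟨c, (Algebra.algebraMap_eq_smul_one c).symm⟩
          refine (Submodule.finrank_mono (hle.trans hle')).trans ?_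
          simp [finrank_span_singleton (K := K) (one_ne_zero : (1 : F) ≠ 0)]
        have herase : D (s.erase Q) = D s - Finsupp.single Q 1 := by
          simp only [hD]
          rw [← Finset.sum_erase_add s _ hQs, add_sub_cancel_right]
        refine ih (s.erase Q) (Finset.erase_ssubset hQs)
          ((Finset.coe_subset.mpr (Finset.erase_subset Q s)).trans hsT) ?_
        haveI := hC.finite_L (D s)
        have hlt : ell (D s - Finsupp.single Q 1) < ell (D s) := by
          refine Submodule.finrank_lt_finrank_of_lt (lt_of_le_not_ge (L_mono ?_) hQ)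
          exact sub_le_self _ (Finsupp.single_nonneg.mpr zero_le_one)
        have := hC.ell_sub_single (D s) Q
        have hc := Finset.card_erase_add_one hQs
        rw [herase]
        omega
  obtain ⟨s, hsT, hscard⟩ := hT.exists_subset_card_eq (C.toNat)
  exact key s hsT (by rw [hCC (D s) (by rw [hDdeg]; omega), hDdeg])

end CurveData

end FLTAgent.Reduction
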