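import Mathlib
import Fermat.Agent.Reduction.PlacesCurve
import Fermat.Agent.Reduction.PlacesGauss

/-!
# Good parameters

A `GoodParam` is an integral function `x` with nonconstant reduction of the same degree, on curves
of equal genus `g`. Riemann-Roch gives bounded pole spaces `polesLe x n` of equal dimension on
both sides for large `n`; lifting a frame over `k(x)` of the reduction gives one over `K(x)`
(`exists_frame`), so finitely many functions lie in the span of a family with independent
reductions (`exists_redIndep_span`). `exists_clear` clears poles by normalised linear factors.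
-/

set_option autoImplicit false
set_option linter.style.haveILetI false
set_option linter.unusedSectionVars false

noncomputable section

open AlgebraicCurve Module

namespace FLTAgent.Reduction

section Complement

theorem exists_complement_family {K V : Type*} [Field K] [AddCommGroup V] [Module K V]
    {W U : Submodule K V} [FiniteDimensional K U] (hle : W ≤ U) (n : ℕ)
    (hn : finrank K W + n = finrank K U) :
    ∃ e : Fin n → V, (∀ i, e i ∈ U) ∧ ∀ c : Fin n → K, (∑ i, c i • e i) ∈ W → c = 0 := by
  obtain ⟨Cc, hCc⟩ := Submodule.exists_isCompl (W.comap U.subtype)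
  have hdimC : finrank K Cc = n := by
    have h1 := Submodule.finrank_add_eq_of_isCompl hCc
    have h2 := (Submodule.comapSubtypeEquivOfLe hle).finrank_eq
    omega
  let bas := Module.finBasisOfFinrankEq K Cc hdimC
  refine ⟨fun i => (bas i).1.1, fun i => (bas i).1.2, fun c hc => ?_⟩
  have hmemC : (∑ i, c i • (bas i).1) ∈ Cc :=
    Submodule.sum_mem _ fun i _ => Submodule.smul_mem _ _ (bas i).2
  have hmemW : (∑ i, c i • (bas i).1) ∈ W.comap U.subtype := by
    simpa using hc
  have h0 := Submodule.disjoint_def.mp hCc.disjoint _ hmemW hmemC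
  have h1 : ∑ i, c i • bas i = 0 := Subtype.ext (by simpa using h0)
  exact funext (Fintype.linearIndependent_iff.mp bas.linearIndependent c h1)

end Complement

section OneField

variable {K F : Type*} [Field K] [Field F] [Algebra K F]

/-- `f` is regular where `x` is. -/
def RegAway (x f : F) : Prop := ∀ P : Place K F, 0 ≤ P.ord x → Vanish P f 0

/-- The divisor `n · (poles of x) - D`. -/
def boundDiv (x : F) (n : ℕ) (D : Divisor K F) : Divisor K F := (n : ℤ) • poleDiv x - D

/-- Functions with poles bounded by `n · (poles of x)`. -/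
abbrev polesLe (x : F) (n : ℕ) : Submodule K F := riemannRochSpace (boundDiv x n (0 : Divisor K F))

theorem ord_aeval_of_neg {v : Place K F} {z : F} (hz : v.ord z < 0) (p : Polynomial K)
    (hp : p ≠ 0) :
    Polynomial.aeval z p ≠ 0 ∧ v.ord (Polynomial.aeval z p) = p.natDegree * v.ord z := by
  have hz0 : z ≠ 0 := fun h => by simp [h] at hz
  induction hn : p.natDegree using Nat.strong_induction_on generalizing p with
  | _ n ih =>
    rcases Nat.eq_zero_or_pos n with rfl | hpos
    · obtain ⟨c, rfl⟩ : ∃ c, p = Polynomial.C c := ⟨_, Polynomial.eq_C_of_natDegree_eq_zero hn⟩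
      refine ⟨by simpa [map_eq_zero] using hp, ?_⟩
      simp
    · set q := p.divX with hq
      have hqdeg : q.natDegree = n - 1 := by rw [hq, Polynomial.natDegree_divX_eq_natDegree_tsub_one, hn]
      have hq0 : q ≠ 0 := by
        intro h0
        have := Polynomial.X_mul_divX_add p
        rw [← hq, h0, mul_zero, zero_add] at this
        rw [← this, Polynomial.natDegree_C] at hn
        omega
      obtain ⟨hne, hord⟩ := ih (n - 1) (by omega) q hq0 hqdeg
      have hsplit : Polynomial.aeval z p = z * Polynomial.aeval z q + algebraMap K F (p.coeff 0) := by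
        conv_lhs => rw [← Polynomial.X_mul_divX_add p]
        rw [map_add, map_mul, Polynomial.aeval_X, Polynomial.aeval_C]
      rw [hsplit]
      have hneg : v.ord (z * Polynomial.aeval z q) = (n : ℤ) * v.ord z := by
        rw [v.ord_mul hz0 hne, hord, Nat.cast_sub hpos]
        push_cast
        ring
      obtain ⟨h1, h2⟩ := FF.ord_add_of_lt v (mul_ne_zero hz0 hne)
        (g := algebraMap K F (p.coeff 0)) (Or.inr (by
          rw [hneg, FF.ord_algebraMap]
          exact mul_neg_of_pos_of_neg (by exact_mod_cast hpos) hz))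
      exact ⟨h1, h2.trans hneg⟩

theorem linearIndependent_pow_of_ord_neg {v : Place K F} {z : F} (hz : v.ord z < 0) (n : ℕ) :
    LinearIndependent K fun a : Fin n => z ^ (a : ℕ) := by
  rw [Fintype.linearIndependent_iff]
  intro c hc i
  set p : Polynomial K := ∑ a : Fin n, Polynomial.C (c a) * Polynomial.X ^ (a : ℕ) with hp
  have h0 : p = 0 := by
    by_contra hne
    apply (ord_aeval_of_neg hz p hne).1
    rw [hp, map_sum, ← hc]
    exact Finset.sum_congr rfl fun a _ => by simp [Algebra.smul_def]
  have := congrArg (fun q : Polynomial K => q.coeff (i : ℕ)) h0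
  simpa [hp, Polynomial.finsetSum_coeff, Polynomial.coeff_X_pow, Fin.val_inj] using this

namespace CurveData

variable {g : ℕ} (hC : CurveData K F g)
include hC

theorem boundDiv_apply (x : F) (n : ℕ) (D : Divisor K F) (v : Place K F) :
    boundDiv x n D v = n * max 0 (-v.ord x) - D v := by
  simp [boundDiv, hC.poleDiv_apply]

theorem mem_L_bound {x : F} {n : ℕ} {D : Divisor K F} {f : F} :
    f ∈ riemannRochSpace (boundDiv x n D) ↔
      ∀ v : Place K F, Vanish v f (D v - n * max 0 (-v.ord x)) := by
  simp only [mem_L_iff, hC.boundDiv_apply, neg_sub]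

theorem degree_boundDiv (x : F) (n : ℕ) (D : Divisor K F) :
    Divisor.degree (boundDiv x n D) = n * Divisor.degree (poleDiv x : Divisor K F) - Divisor.degree D := by
  rw [boundDiv, map_sub, map_zsmul, smul_eq_mul]

theorem mem_polesLe {x : F} {n : ℕ} {f : F} :
    f ∈ (polesLe x n : Submodule K F) ↔ ∀ v : Place K F, Vanish v f (-(n * max 0 (-v.ord x))) := by
  simp [polesLe, hC.mem_L_bound]

theorem L_bound_le_polesLe {x : F} {n : ℕ} {D : Divisor K F} (hD : 0 ≤ D) :
    riemannRochSpace (boundDiv x n D) ≤ polesLe x n :=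
  L_mono fun v => by
    have := hD v
    simp only [hC.boundDiv_apply, Finsupp.zero_apply] at this ⊢
    omega

theorem polesLe_mono (x : F) {m n : ℕ} (h : m ≤ n) : (polesLe x m : Submodule K F) ≤ polesLe x n :=
  fun f hf => hC.mem_polesLe.mpr fun v => (hC.mem_polesLe.mp hf v).mono (by
    have : (m : ℤ) * max 0 (-v.ord x) ≤ n * max 0 (-v.ord x) :=
      mul_le_mul_of_nonneg_right (by exact_mod_cast h) (le_max_left _ _)
    omega)

theorem regAway_of_mem_polesLe {x : F} {n : ℕ} {f : F} (hf : f ∈ (polesLe x n : Submodule K F)) :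
    RegAway (K := K) x f := fun P hP => by
  have := hC.mem_polesLe.mp hf P
  rwa [max_eq_left (by omega), mul_zero, neg_zero] at this

theorem exists_mem_polesLe {x : F} {f : F} (hf : RegAway (K := K) x f) :
    ∃ n : ℕ, f ∈ (polesLe x n : Submodule K F) := by
  refine ⟨∑ P ∈ (divOf f : Divisor K F).support, (P.ord f).natAbs, hC.mem_polesLe.mpr fun v => ?_⟩
  rcases le_or_gt 0 (v.ord x) with hv | hv
  · rw [max_eq_left (by omega), mul_zero, neg_zero]
    exact hf v hv
  · rcases eq_or_ne (v.ord f) 0 with h0 | h0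
    · refine Or.inr ?_
      rw [h0]
      have : 0 ≤ (↑(∑ P ∈ (divOf f : Divisor K F).support, (P.ord f).natAbs) : ℤ) *
          max 0 (-v.ord x) := mul_nonneg (Nat.cast_nonneg _) (le_max_left _ _)
      omega
    · refine Or.inr ?_
      have hmem : v ∈ (divOf f : Divisor K F).support := by
        rw [Finsupp.mem_support_iff, hC.divOf_apply]; exact h0
      have h1 := Finset.single_le_sum (f := fun P : Place K F => (P.ord f).natAbs)
        (fun _ _ => Nat.zero_le _) hmem
      set S := ∑ P ∈ (divOf f : Divisor K F).support, (P.ord f).natAbs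
      have h2 : (S : ℤ) * 1 ≤ S * max 0 (-v.ord x) :=
        mul_le_mul_of_nonneg_left (by omega) (Nat.cast_nonneg _)
      omega

theorem mul_mem_polesLe {x : F} {m n : ℕ} {f f' : F} (hf : f ∈ (polesLe x m : Submodule K F))
    (hf' : f' ∈ (polesLe x n : Submodule K F)) : f * f' ∈ (polesLe x (m + n) : Submodule K F) :=
  hC.mem_polesLe.mpr fun v => ((hC.mem_polesLe.mp hf v).mul (hC.mem_polesLe.mp hf' v)).mono
    (le_of_eq (by push_cast; ring))

theorem one_mem_polesLe (x : F) (n : ℕ) : (1 : F) ∈ (polesLe x n : Submodule K F) :=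
  hC.mem_polesLe.mpr fun v => Vanish.one.mono (neg_nonpos.mpr (by positivity))

theorem self_mem_polesLe (x : F) : x ∈ (polesLe x 1 : Submodule K F) :=
  hC.mem_polesLe.mpr fun v => (Vanish.self x).mono (by simp; omega)

theorem pow_mem_polesLe {x : F} {m : ℕ} {f : F} (hf : f ∈ (polesLe x m : Submodule K F)) (i : ℕ) :
    f ^ i ∈ (polesLe x (i * m) : Submodule K F) := by
  induction i with
  | zero => simpa using hC.one_mem_polesLe x 0
  | succ i ih =>
    rw [pow_succ, Nat.succ_mul]
    exact hC.mul_mem_polesLe ih hf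

theorem finite_L' (D : Divisor K F) : Module.Finite K (riemannRochSpace D) := hC.finite_L D

end CurveData

end OneField

variable {K k F Fb : Type*} [Field K] [Field k] [Field F] [Field Fb] [Algebra K F] [Algebra k Fb]
variable {A : ValuationSubring K} {π : A →+* k}

/-- `x` is a parameter whose degree is preserved by reduction. -/
structure GoodParam (G : GaussRed A π F Fb) (g : ℕ) (x : F) : Prop where
  curve : CurveData K F g
  curveBar : CurveData k Fb g
  mem : x ∈ G.V
  not_const : ∀ c : k, G.red x ≠ algebraMap k Fb c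
  deg_eq : Divisor.degree (poleDiv x : Divisor K F) = Divisor.degree (poleDiv (G.red x) : Divisor k Fb)

namespace GoodParam

variable {G : GaussRed A π F Fb} {g : ℕ} {x : F} (hx : GoodParam G g x)
include hx

theorem red_ne_zero : G.red x ≠ 0 := fun h => hx.not_const 0 (by simpa using h)

theorem ne_zero : x ≠ 0 := fun h => hx.red_ne_zero (by rw [h, G.red_zero])

theorem exists_pole_bar : ∃ Q : Place k Fb, Q.ord (G.red x) < 0 := by
  by_contra h
  push Not at h
  obtain ⟨c, hc⟩ := hx.curveBar.const _ h
  exact hx.not_const c hc.symm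

theorem degree_pos : 1 ≤ Divisor.degree (poleDiv x : Divisor K F) := by
  rw [hx.deg_eq]
  obtain ⟨Q, hQ⟩ := hx.exists_pole_bar
  have h := hx.curveBar.degree_mono (D := Finsupp.single Q 1) (E := poleDiv (G.red x)) (fun v => by
    rw [hx.curveBar.poleDiv_apply]
    by_cases hv : v = Q
    · subst hv; simp; omega
    · simp [Ne.symm hv])
  rwa [hx.curveBar.degree_single] at h

/-- The degree of the parameter. -/
def _root_.FLTAgent.Reduction.paramDeg (x : F) : ℕ :=
  (Divisor.degree (poleDiv x : Divisor K F)).toNat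

local notation "ψ" => paramDeg (K := K) x

theorem degree_poleDiv : Divisor.degree (poleDiv x : Divisor K F) = (ψ : ℤ) := by
  have := hx.degree_pos
  simp only [paramDeg]
  omega

theorem degree_poleDiv_bar : Divisor.degree (poleDiv (G.red x) : Divisor k Fb) = (ψ : ℤ) := by
  rw [← hx.deg_eq, hx.degree_poleDiv]

theorem paramDeg_pos : 1 ≤ ψ := by
  have := hx.degree_pos
  simp only [paramDeg]
  omega

theorem le_mul_paramDeg (n : ℕ) : (n : ℤ) ≤ n * (ψ : ℤ) :=
  le_mul_of_one_le_right (Nat.cast_nonneg n) (by exact_mod_cast hx.paramDeg_pos)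

/-- A uniform bound from which Riemann's equality holds on both curves. -/
theorem exists_bound : ∃ C : ℕ,
    (∀ D : Divisor K F, (C : ℤ) ≤ Divisor.degree D → (ell D : ℤ) = Divisor.degree D + 1 - g) ∧
    (∀ D : Divisor k Fb, (C : ℤ) ≤ Divisor.degree D → (ell D : ℤ) = Divisor.degree D + 1 - g) := by
  obtain ⟨C, hC⟩ := hx.curve.exists_C
  obtain ⟨C', hC'⟩ := hx.curveBar.exists_C
  exact ⟨(max C C').toNat, fun D hD => hC D (by omega), fun D hD => hC' D (by omega)⟩

/-- A bound from which Riemann's equality holds on both curves. -/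
def bound : ℕ := hx.exists_bound.choose

theorem ell_bound {n : ℕ} {D : Divisor K F} (h : (hx.bound : ℤ) + Divisor.degree D ≤ n * (ψ : ℤ)) :
    (ell (boundDiv x n D) : ℤ) = n * (ψ : ℤ) - Divisor.degree D + 1 - g := by
  rw [hx.exists_bound.choose_spec.1 _ (by
    rw [hx.curve.degree_boundDiv, hx.degree_poleDiv]
    simp only [bound] at h; omega), hx.curve.degree_boundDiv, hx.degree_poleDiv]

theorem ell_bound_bar {n : ℕ} {D : Divisor k Fb}
    (h : (hx.bound : ℤ) + Divisor.degree D ≤ n * (ψ : ℤ)) :
    (ell (boundDiv (G.red x) n D) : ℤ) = n * (ψ : ℤ) - Divisor.degree D + 1 - g := by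
  rw [hx.exists_bound.choose_spec.2 _ (by
    rw [hx.curveBar.degree_boundDiv, hx.degree_poleDiv_bar]
    simp only [bound] at h; omega), hx.curveBar.degree_boundDiv, hx.degree_poleDiv_bar]

theorem finrank_polesLe {n : ℕ} (h : hx.bound ≤ n) :
    (finrank K (polesLe x n : Submodule K F) : ℤ) = n * (ψ : ℤ) + 1 - g := by
  have := hx.le_mul_paramDeg n
  have h2 := hx.ell_bound (n := n) (D := (0 : Divisor K F)) (by rw [map_zero]; omega)
  rw [map_zero] at h2
  simp only [ell, polesLe] at *
  omega

theorem finrank_polesLe_bar {n : ℕ} (h : hx.bound ≤ n) :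
    (finrank k (polesLe (G.red x) n : Submodule k Fb) : ℤ) = n * (ψ : ℤ) + 1 - g := by
  have := hx.le_mul_paramDeg n
  have h2 := hx.ell_bound_bar (n := n) (D := (0 : Divisor k Fb)) (by rw [map_zero]; omega)
  rw [map_zero] at h2
  simp only [ell, polesLe] at *
  omega

theorem mem_A_of_algebraMap_mem {c : K} (h : algebraMap K F c ∈ G.V) : c ∈ A := by
  have h1 : G.RedIndep (fun _ : Fin 1 => (1 : F)) :=
    ⟨fun _ => G.V.one_mem, linearIndependent_unique_iff.mpr (by rw [G.red_one]; exact one_ne_zero)⟩
  exact h1.coeff_mem (c := fun _ => c) (by simpa [Algebra.smul_def] using h) 0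

/-! ### Basic elements -/

/-- The normalised linear polynomial in `x` vanishing at `c`. -/
def _root_.FLTAgent.Reduction.linFactor (A : ValuationSubring K) (x : F) (c : K) : F :=
  open Classical in if c ∈ A then x - algebraMap K F c else 1 - c⁻¹ • x

theorem linFactor_mem (c : K) : linFactor A x c ∈ G.V := by
  unfold linFactor
  split_ifs with hc
  · exact G.V.sub_mem hx.mem (G.const_mem ⟨c, hc⟩)
  · exact G.V.sub_mem G.V.one_mem (G.smul_mem' ((A.mem_or_inv_mem c).resolve_left hc) hx.mem)

theorem red_linFactor_of_mem (c : A) :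
    G.red (linFactor A x (c : K)) = G.red x - algebraMap k Fb (π c) := by
  rw [linFactor, if_pos c.2, G.red_sub hx.mem (G.const_mem c), G.red_const]

theorem red_linFactor_of_notMem {c : K} (hc : c ∉ A) : G.red (linFactor A x c) = 1 := by
  have hinv := (A.mem_or_inv_mem c).resolve_left hc
  rw [linFactor, if_neg hc, G.red_sub G.V.one_mem (G.smul_mem' hinv hx.mem), G.red_one,
    G.red_smul ⟨_, hinv⟩ hx.mem, G.res_inv_of_notMem hc, zero_smul, sub_zero]

theorem red_linFactor_ne_zero (c : K) : G.red (linFactor A x c) ≠ 0 := by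
  by_cases hc : c ∈ A
  · rw [hx.red_linFactor_of_mem ⟨c, hc⟩, sub_ne_zero]
    exact hx.not_const _
  · rw [hx.red_linFactor_of_notMem hc]
    exact one_ne_zero

theorem linFactor_mem_polesLe (c : K) : linFactor A x c ∈ (polesLe x 1 : Submodule K F) := by
  have h1 := hx.curve.self_mem_polesLe x
  have h2 := hx.curve.one_mem_polesLe x 1
  unfold linFactor
  split_ifs with hc
  · rw [Algebra.algebraMap_eq_smul_one]
    exact Submodule.sub_mem _ h1 (Submodule.smul_mem _ _ h2)
  · exact Submodule.sub_mem _ h2 (Submodule.smul_mem _ _ h1)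

theorem vanish_linFactor {P : Place K F} (hP : 0 ≤ P.ord x) :
    Vanish P (linFactor A x (valAt P x)) 1 := by
  have h := hx.curve.exists_valAt (Vanish.zero_iff.mpr hP)
  unfold linFactor
  split_ifs with hc
  · exact h
  · have hne : valAt P x ≠ 0 := fun h0 => hc (h0 ▸ A.zero_mem)
    have : (1 : F) - (valAt P x)⁻¹ • x =
        (-(valAt P x)⁻¹) • (x - algebraMap K F (valAt P x)) := by
      rw [smul_sub, neg_smul, Algebra.algebraMap_eq_smul_one, smul_smul, neg_mul,
        inv_mul_cancel₀ hne, neg_smul, one_smul]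
      ring
    rw [this]
    exact h.smul _

/-- An integral function, regular away from the poles of `x`, with nonzero reduction, vanishing
to a prescribed order at given finite places. -/
theorem exists_clear (D : Divisor K F) : ∃ u : F, u ∈ G.V ∧ G.red u ≠ 0 ∧ RegAway (K := K) x u ∧
    ∀ P : Place K F, 0 ≤ P.ord x → Vanish P u (D P) := by
  classical
  set u : F := ∏ P ∈ D.support, linFactor A x (valAt P x) ^ (D P).toNat with hu
  have hm : ∀ P ∈ D.support, linFactor A x (valAt P x) ^ (D P).toNat ∈ G.V := fun P _ =>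
    pow_mem (hx.linFactor_mem _) _
  have hreg : ∀ c : K, RegAway (K := K) x (linFactor A x c) := fun c =>
    hx.curve.regAway_of_mem_polesLe (hx.linFactor_mem_polesLe c)
  have hprod : ∀ (s : Finset (Place K F)) (P : Place K F), 0 ≤ P.ord x →
      Vanish P (∏ Q ∈ s, linFactor A x (valAt Q x) ^ (D Q).toNat) 0 := by
    intro s P hP
    induction s using Finset.induction with
    | empty => simpa using Vanish.one
    | insert a s ha ih =>
      rw [Finset.prod_insert ha]
      exact Vanish.mul_zero' (by simpa using (hreg _ P hP).pow (D a).toNat) ih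
  refine ⟨u, G.V.prod_mem hm, ?_, fun P hP => hprod _ P hP, fun P hP => ?_⟩
  · rw [hu, G.red_prod _ _ hm, Finset.prod_ne_zero_iff]
    intro P _
    rw [G.red_pow (hx.linFactor_mem _)]
    exact pow_ne_zero _ (hx.red_linFactor_ne_zero _)
  · by_cases hPD : P ∈ D.support
    · rw [hu, ← Finset.mul_prod_erase _ _ hPD]
      have h1 := ((hx.vanish_linFactor hP).pow (D P).toNat).mul (hprod (D.support.erase P) P hP)
      exact h1.mono (by omega)
    · rw [Finsupp.notMem_support_iff.mp hPD]
      exact hprod _ P hP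

/-- For any element, an integral multiplier making it regular away from the poles of `x`. -/
theorem exists_clear_poles (y : F) : ∃ u : F, u ∈ G.V ∧ G.red u ≠ 0 ∧ RegAway (K := K) x u ∧
    RegAway (K := K) x (u * y) := by
  obtain ⟨u, hu, hu0, hureg, hvan⟩ := hx.exists_clear (poleDiv y)
  refine ⟨u, hu, hu0, hureg, fun P hP => ?_⟩
  have h1 := (hvan P hP).mul (Vanish.self (v := P) y)
  rw [hx.curve.poleDiv_apply] at h1
  exact h1.mono (by omega)

/-! ### A frame -/

theorem exists_basis_bar : ∃ (n₀ : ℕ) (e : Fin ψ → Fb), (∀ i, e i ∈ (polesLe (G.red x) n₀ : Submodule k Fb)) ∧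
    ∀ M, LinearIndependent k fun p : Fin M × Fin ψ => G.red x ^ (p.1 : ℕ) * e p.2 := by
  classical
  set xb := G.red x with hxb
  obtain ⟨n₀, hn₀⟩ : ∃ n : ℕ, n = hx.bound + 1 := ⟨_, rfl⟩
  haveI := hx.curveBar.finite_L' (boundDiv xb n₀ (0 : Divisor k Fb))
  haveI := hx.curveBar.finite_L' (boundDiv xb hx.bound (0 : Divisor k Fb))
  set W : Submodule k Fb := (polesLe xb hx.bound).map (LinearMap.mulLeft k xb) with hW
  have hWle : W ≤ polesLe xb n₀ := by
    rintro _ ⟨f, hf, rfl⟩
    have := hx.curveBar.mul_mem_polesLe (hx.curveBar.self_mem_polesLe xb) hf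
    rwa [Nat.add_comm, ← hn₀] at this
  have hinj : Function.Injective (LinearMap.mulLeft k xb) :=
    mul_right_injective₀ hx.red_ne_zero
  have hWdim : finrank k W = finrank k (polesLe xb hx.bound) :=
    (Submodule.equivMapOfInjective _ hinj _).finrank_eq.symm
  obtain ⟨e, he, hmod⟩ := exists_complement_family hWle ψ (by
    have h3 := hx.finrank_polesLe_bar (n := hx.bound) le_rfl
    have h4 := hx.finrank_polesLe_bar (n := n₀) (by omega)
    rw [← hxb] at h3 h4
    rw [hWdim]
    have h5 : (n₀ : ℤ) * (ψ : ℤ) = hx.bound * (ψ : ℤ) + (ψ : ℤ) := by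
      rw [hn₀]; push_cast; ring
    omega)
  refine ⟨n₀, e, he, fun M => ?_⟩
  induction M with
  | zero => exact linearIndependent_empty_type
  | succ M ih =>
    rw [Fintype.linearIndependent_iff] at ih ⊢
    intro c hc
    rw [Fintype.sum_prod_type, Fin.sum_univ_succ] at hc
    simp only [Fin.val_zero, pow_zero, one_mul, Fin.val_succ, pow_succ] at hc
    set h : Fb := ∑ a : Fin M, ∑ i, c (a.succ, i) • (xb ^ (a : ℕ) * e i) with hh
    have hc' : (∑ i, c (0, i) • e i) + xb * h = 0 := by
      rw [← hc, hh, Finset.mul_sum]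
      refine congrArg _ (Finset.sum_congr rfl fun a _ => ?_)
      rw [Finset.mul_sum]
      refine Finset.sum_congr rfl fun i _ => ?_
      rw [mul_smul_comm]
      ring_nf
    have hsum : (∑ i, c (0, i) • e i) ∈ (polesLe xb n₀ : Submodule k Fb) :=
      Submodule.sum_mem _ fun i _ => Submodule.smul_mem _ _ (he i)
    have hmem : h ∈ (polesLe xb hx.bound : Submodule k Fb) := by
      rw [hx.curveBar.mem_polesLe]
      intro v
      rcases le_or_gt 0 (v.ord xb) with hv | hv
      · rw [max_eq_left (by omega), mul_zero, neg_zero, hh]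
        refine Vanish.sum _ _ fun a _ => Vanish.sum _ _ fun i _ => Vanish.smul _ ?_
        exact Vanish.mul_zero'
          (by simpa using (Vanish.zero_iff.mpr hv).pow (a : ℕ))
          (hx.curveBar.regAway_of_mem_polesLe (he i) v hv)
      · have hval : h = xb⁻¹ * -(∑ i, c (0, i) • e i) := by
          rw [eq_neg_of_add_eq_zero_left hc', neg_neg, ← mul_assoc,
            inv_mul_cancel₀ hx.red_ne_zero, one_mul]
        rw [hval]
        refine ((Vanish.self xb⁻¹).mul (hx.curveBar.mem_polesLe.mp hsum v).neg).mono ?_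
        rw [Place.ord_inv, max_eq_right (by omega)]
        simp only [hn₀, Nat.cast_add, Nat.cast_one, add_mul, one_mul]
        omega
    have h0 : (fun i => c (0, i)) = 0 := by
      apply hmod
      rw [eq_neg_of_add_eq_zero_left hc', ← mul_neg]
      exact ⟨-h, Submodule.neg_mem _ hmem, rfl⟩
    have hh0 : h = 0 := by
      have : (∑ i, c (0, i) • e i) = 0 := by
        rw [show (fun i => c (0, i) • e i) = fun _ => (0 : Fb) from
          funext fun i => by rw [congrFun h0 i, Pi.zero_apply, zero_smul]]
        simp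
      rw [this, zero_add] at hc'
      exact (mul_eq_zero.mp hc').resolve_left hx.red_ne_zero
    have h1 := ih (fun p => c (p.1.succ, p.2)) (by rw [Fintype.sum_prod_type]; exact hh0)
    rintro ⟨a, i⟩
    exact Fin.cases (congrFun h0 i) (fun a => h1 (a, i)) a

/-- Integral functions, regular away from the poles of `x`, giving a frame. -/
theorem exists_frame : ∃ (n₀ : ℕ) (e : Fin ψ → F), (∀ i, e i ∈ G.V ∧ e i ∈ (polesLe x n₀ : Submodule K F)) ∧
    ∀ M, G.RedIndep fun p : Fin M × Fin ψ => x ^ (p.1 : ℕ) * e p.2 := by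
  classical
  obtain ⟨n₁, eb, -, hind⟩ := hx.exists_basis_bar
  choose y hy hyred using fun i => G.red_surj (eb i)
  choose u hu hu0 hureg huy using fun i => hx.exists_clear_poles (y i)
  set U : F := ∏ i, u i with hU
  have hUV : U ∈ G.V := G.V.prod_mem fun i _ => hu i
  have hU0 : G.red U ≠ 0 := by
    rw [hU, G.red_prod _ _ fun i _ => hu i]
    exact Finset.prod_ne_zero_iff.mpr fun i _ => hu0 i
  have hreg : ∀ i, RegAway (K := K) x (U * y i) := fun i P hP => by
    rw [hU, ← Finset.prod_erase_mul _ _ (Finset.mem_univ i), mul_assoc]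
    refine Vanish.mul_zero' ?_ (huy i P hP)
    induction (Finset.univ.erase i) using Finset.induction with
    | empty => simpa using Vanish.one
    | insert a s ha ih =>
      rw [Finset.prod_insert ha]
      exact Vanish.mul_zero' (hureg a P hP) ih
  choose n hn using fun i => hx.curve.exists_mem_polesLe (hreg i)
  refine ⟨Finset.univ.sup n, fun i => U * y i, fun i => ⟨G.V.mul_mem hUV (hy i),
    hx.curve.polesLe_mono x (Finset.le_sup (Finset.mem_univ i)) (hn i)⟩, fun M => ⟨?_, ?_⟩⟩
  · intro p
    exact G.V.mul_mem (pow_mem hx.mem _) (G.V.mul_mem hUV (hy _))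
  · have h1 : (fun p : Fin M × Fin ψ => G.red (x ^ (p.1 : ℕ) * (U * y p.2)))
        = (LinearMap.mulLeft k (G.red U)) ∘ fun p : Fin M × Fin ψ => G.red x ^ (p.1 : ℕ) * eb p.2 := by
      funext p
      rw [G.red_mul (pow_mem hx.mem _) (G.V.mul_mem hUV (hy _)), G.red_pow hx.mem,
        G.red_mul hUV (hy _), hyred]
      simp only [Function.comp_apply, LinearMap.mulLeft_apply]
      ring
    rw [h1]
    exact (hind M).map' _ (LinearMap.ker_eq_bot.mpr (mul_right_injective₀ hU0))

theorem redIndep_pow (M : ℕ) : G.RedIndep fun a : Fin M => x ^ (a : ℕ) := by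
  obtain ⟨Q, hQ⟩ := hx.exists_pole_bar
  refine ⟨fun a => pow_mem hx.mem _, ?_⟩
  have : (fun a : Fin M => G.red (x ^ (a : ℕ))) = fun a : Fin M => G.red x ^ (a : ℕ) :=
    funext fun a => G.red_pow hx.mem _
  rw [this]
  exact linearIndependent_pow_of_ord_neg hQ M

/-- Finitely many functions lie in the span of a family with independent reductions. -/
theorem exists_redIndep_span (s : Finset F) : ∃ (ι : Type) (_ : Fintype ι) (b : ι → F),
    G.RedIndep b ∧ ∀ f ∈ s, f ∈ Submodule.span K (Set.range b) := by
  classical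
  obtain ⟨n₀, e, he, hind⟩ := hx.exists_frame
  set E : ℕ → Submodule K F := fun M => Submodule.span K
    (Set.range fun p : Fin M × Fin ψ => x ^ (p.1 : ℕ) * e p.2) with hE
  set Pw : ℕ → Submodule K F := fun M => Submodule.span K
    (Set.range fun a : Fin M => x ^ (a : ℕ)) with hPw
  have hEmono : ∀ {a b : ℕ}, a ≤ b → E a ≤ E b := fun {a b} hab => Submodule.span_mono (by
    rintro _ ⟨p, rfl⟩
    exact ⟨(Fin.castLE hab p.1, p.2), rfl⟩)
  have hmul : ∀ {a b : ℕ} {u z : F}, u ∈ Pw a → z ∈ E b → u * z ∈ E (a + b) := by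
    intro a b u z hu hz
    have h := Submodule.mul_mem_mul hu hz
    rw [hPw, hE, Submodule.span_mul_span] at h
    refine Submodule.span_le.mpr ?_ h
    rintro _ ⟨_, ⟨i, rfl⟩, _, ⟨p, rfl⟩, rfl⟩
    refine Submodule.subset_span ⟨(⟨(i : ℕ) + p.1, by omega⟩, p.2), ?_⟩
    simp [pow_add, mul_assoc]
  have key : ∀ f : F, ∃ (M : ℕ) (w : F), w ∈ Pw M ∧ w ≠ 0 ∧ w * f ∈ E M := by
    intro f
    set d : ℕ := (Divisor.degree (poleDiv f : Divisor K F)).toNat with hd
    set M := hx.bound + n₀ * ψ + d + 2 with hM
    set N := M + n₀ with hN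
    by_contra hcon
    push Not at hcon
    rcases eq_or_ne f 0 with rfl | hf0
    · exact hcon M 1 (Submodule.subset_span ⟨⟨0, by omega⟩, by simp⟩) one_ne_zero
        (by simp)
    have hli : LinearIndependent K (Sum.elim (fun p : Fin M × Fin ψ => x ^ (p.1 : ℕ) * e p.2)
        (fun a : Fin M => x ^ (a : ℕ) * f)) := by
      refine LinearIndependent.sum_type (hind M).linearIndependent
        ((hx.redIndep_pow M).linearIndependent.map' (LinearMap.mulRight K f)
          (LinearMap.ker_eq_bot.mpr (mul_left_injective₀ hf0))) ?_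
      rw [Submodule.disjoint_def]
      intro v hv1 hv2
      have hcomp : (fun a : Fin M => x ^ (a : ℕ) * f) = (LinearMap.mulRight K f) ∘
          fun a : Fin M => x ^ (a : ℕ) := rfl
      rw [hcomp, Set.range_comp, ← Submodule.map_span] at hv2
      obtain ⟨w, hw, rfl⟩ := hv2
      by_contra hne
      exact hcon M w hw (fun h0 => hne (by simp [h0])) hv1
    have hdeg : Divisor.degree (poleDiv f : Divisor K F) = (d : ℤ) := by
      have := hx.curve.degree_nonneg (D := (poleDiv f : Divisor K F)) fun v => by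
        rw [hx.curve.poleDiv_apply]; exact le_max_left _ _
      omega
    have hmem : ∀ (m : ℕ) (z : F), z ∈ (polesLe (K := K) x m : Submodule K F) → m ≤ N →
        z ∈ riemannRochSpace (boundDiv (K := K) x N (-poleDiv f)) := by
      intro m z hz hmN
      refine hx.curve.mem_L_bound.mpr fun v =>
        (hx.curve.mem_polesLe.mp (hx.curve.polesLe_mono x hmN hz) v).mono ?_
      rw [Finsupp.neg_apply, hx.curve.poleDiv_apply]
      omega
    have hle : Submodule.span K (Set.range (Sum.elim
        (fun p : Fin M × Fin ψ => x ^ (p.1 : ℕ) * e p.2) (fun a : Fin M => x ^ (a : ℕ) * f)))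
        ≤ riemannRochSpace (boundDiv x N (-poleDiv f)) := by
      rw [Submodule.span_le]
      rintro _ ⟨(p | a), rfl⟩
      · exact hmem _ _ (hx.curve.mul_mem_polesLe
          (hx.curve.pow_mem_polesLe (hx.curve.self_mem_polesLe x) _) (he p.2).2) (by omega)
      · refine hx.curve.mem_L_bound.mpr fun v => ?_
        have h1 := hx.curve.mem_polesLe.mp (hx.curve.polesLe_mono x (show (a : ℕ) * 1 ≤ N by omega)
          (hx.curve.pow_mem_polesLe (hx.curve.self_mem_polesLe x) a)) v
        refine (h1.mul (Vanish.self f)).mono ?_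
        rw [Finsupp.neg_apply, hx.curve.poleDiv_apply]
        omega
    haveI := hx.curve.finite_L' (boundDiv x N (-poleDiv f))
    have h1 := Submodule.finrank_mono hle
    rw [finrank_span_eq_card hli, Fintype.card_sum, Fintype.card_prod, Fintype.card_fin,
      Fintype.card_fin] at h1
    have h2 := hx.ell_bound (n := N) (D := -(poleDiv f : Divisor K F)) (by
      rw [map_neg, hdeg]
      have := hx.le_mul_paramDeg N
      omega)
    rw [map_neg, hdeg] at h2
    have h1' : ((M * ψ + M : ℕ) : ℤ) ≤ ell (boundDiv (K := K) x N (-poleDiv f)) := by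
      exact_mod_cast h1
    push_cast at h1'
    have h3 : (N : ℤ) * (ψ : ℤ) = M * ψ + n₀ * ψ := by
      rw [hN]; push_cast; ring
    have hM' : (M : ℤ) = hx.bound + n₀ * ψ + d + 2 := by rw [hM]; push_cast; ring
    omega
  have all : ∀ t : Finset F, ∃ (M : ℕ) (w : F), w ∈ Pw M ∧ w ≠ 0 ∧ ∀ f ∈ t, w * f ∈ E M := by
    intro t
    induction t using Finset.induction with
    | empty => exact ⟨1, 1, Submodule.subset_span ⟨0, by simp⟩, one_ne_zero, by simp⟩
    | insert a t ha ih =>
      obtain ⟨M1, w1, hw1, hw10, hw1t⟩ := ih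
      obtain ⟨M2, w2, hw2, hw20, hw2a⟩ := key a
      refine ⟨M1 + M2, w1 * w2, ?_, mul_ne_zero hw10 hw20, fun f hf => ?_⟩
      · have h := Submodule.mul_mem_mul hw1 hw2
        rw [hPw, Submodule.span_mul_span] at h
        refine Submodule.span_le.mpr ?_ h
        rintro _ ⟨_, ⟨i, rfl⟩, _, ⟨j, rfl⟩, rfl⟩
        exact Submodule.subset_span ⟨⟨(i : ℕ) + j, by omega⟩, by simp [pow_add]⟩
      · rcases Finset.mem_insert.mp hf with rfl | hf
        · rw [mul_assoc]
          exact hmul hw1 hw2a
        · rw [mul_comm w1, mul_assoc, add_comm]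
          exact hmul hw2 (hw1t f hf)
  obtain ⟨M, w, hw, hw0, hws⟩ := all s
  obtain ⟨c, hc, hcV, hcred⟩ := (hx.redIndep_pow M).exists_smul hw hw0
  set u := c • w with hu
  have hu0 : u ≠ 0 := fun h => hcred (by rw [h, G.red_zero])
  have huinv : G.red u⁻¹ ≠ 0 := by
    intro h
    have := G.red_mul hcV (G.inv_mem hcV hcred)
    rw [mul_inv_cancel₀ hu0, G.red_one, h, mul_zero] at this
    exact one_ne_zero this
  refine ⟨Fin M × Fin ψ, inferInstance, fun p => u⁻¹ * (x ^ (p.1 : ℕ) * e p.2), ⟨fun p =>
    G.V.mul_mem (G.inv_mem hcV hcred) ((hind M).1 p), ?_⟩, fun f hf => ?_⟩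
  · have h1 : (fun p : Fin M × Fin ψ => G.red (u⁻¹ * (x ^ (p.1 : ℕ) * e p.2)))
        = (LinearMap.mulLeft k (G.red u⁻¹)) ∘ fun p : Fin M × Fin ψ =>
          G.red (x ^ (p.1 : ℕ) * e p.2) := by
      funext p
      rw [G.red_mul (G.inv_mem hcV hcred) ((hind M).1 p)]
      rfl
    rw [h1]
    exact (hind M).2.map' _ (LinearMap.ker_eq_bot.mpr (mul_right_injective₀ huinv))
  · have h1 : u * f ∈ E M := by
      rw [hu, smul_mul_assoc]
      exact Submodule.smul_mem _ _ (hws f hf)
    have h2 : (fun p : Fin M × Fin ψ => u⁻¹ * (x ^ (p.1 : ℕ) * e p.2)) = (LinearMap.mulLeft K u⁻¹) ∘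
        fun p : Fin M × Fin ψ => x ^ (p.1 : ℕ) * e p.2 := rfl
    rw [h2, Set.range_comp, ← Submodule.map_span]
    exact ⟨u * f, h1, by simp [LinearMap.mulLeft_apply, inv_mul_cancel_left₀ hu0]⟩

end GoodParam

end FLTAgent.Reduction
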