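import Mathlib
import Fermat.Agent.Reduction.PlacesParam

/-!
# Reduction of functions regular away from the poles of a parameter

For a good parameter `x`, functions regular away from the poles of `x` reduce to such functions
(`red_regAway`), `x⁻¹` is again a good parameter (`GoodParam.inv`), every function can be
normalised (`exists_smul`), and by equality of dimensions bounded functions lift (`redSub_polesLe`,
`exists_lift`). Hence division with bounded remainder (`exists_decomp`).
-/

set_option autoImplicit false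
set_option linter.style.haveILetI false
set_option linter.unusedSectionVars false

noncomputable section

open AlgebraicCurve Module

namespace FLTAgent.Reduction

variable {K k F Fb : Type*} [Field K] [Field k] [Field F] [Field Fb] [Algebra K F] [Algebra k Fb]
variable {A : ValuationSubring K} {π : A →+* k}

namespace GaussRed

variable (G : GaussRed A π F Fb)
include G

theorem ne_zero_of_red {y : F} (h : G.red y ≠ 0) : y ≠ 0 := fun h0 => h (by rw [h0, G.red_zero])

theorem red_inv {y : F} (hy : y ∈ G.V) (h : G.red y ≠ 0) : G.red y⁻¹ = (G.red y)⁻¹ := by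
  have h1 := G.red_mul hy (G.inv_mem hy h)
  rw [mul_inv_cancel₀ (G.ne_zero_of_red h), G.red_one] at h1
  exact eq_inv_of_mul_eq_one_right h1.symm

end GaussRed

namespace GoodParam

variable {G : GaussRed A π F Fb} {g : ℕ} {x : F} (hx : GoodParam G g x)
include hx

local notation "ψ" => paramDeg (K := K) x

theorem red_regAway {y : F} (hy : y ∈ G.V) (hreg : RegAway (K := K) x y) :
    RegAway (K := k) (G.red x) (G.red y) := by
  classical
  intro Q hQ
  by_contra hbad
  have hy0 : G.red y ≠ 0 := fun h => hbad (Or.inl h)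
  have hneg : Q.ord (G.red y) < 0 := not_le.mp fun h => hbad (Or.inr h)
  obtain ⟨n₀, e, he, hind⟩ := hx.exists_frame
  obtain ⟨m, hm⟩ := hx.curve.exists_mem_polesLe hreg
  obtain ⟨B, hB⟩ : ∃ B : ℕ, B = ∑ i, (Q.ord (G.red (e i))).natAbs := ⟨_, rfl⟩
  obtain ⟨C', hC'⟩ : ∃ C' : ℕ, C' = n₀ * ψ + 2 := ⟨_, rfl⟩
  obtain ⟨M, hM⟩ : ∃ M : ℕ, M = hx.bound + (B + 1 + C') * m + 1 := ⟨_, rfl⟩
  set fam : (Fin M × Fin ψ) ⊕ Fin C' → F :=
    Sum.elim (fun p => x ^ (p.1 : ℕ) * e p.2) (fun t => y ^ (B + 1 + (t : ℕ))) with hfam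
  have hred : G.RedIndep fam := by
    refine ⟨?_, ?_⟩
    · rintro (p | t)
      · exact (hind M).1 p
      · exact pow_mem hy _
    have heq : (fun i => G.red (fam i)) = Sum.elim
        (fun p : Fin M × Fin ψ => G.red (x ^ (p.1 : ℕ) * e p.2))
        (fun t : Fin C' => (LinearMap.mulLeft k (G.red y ^ (B + 1))) (G.red y ^ (t : ℕ))) := by
      funext i
      rcases i with p | t
      · rfl
      · simp only [hfam, Sum.elim_inr, G.red_pow hy, LinearMap.mulLeft_apply, ← pow_add]
    rw [heq]
    refine LinearIndependent.sum_type (hind M).2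
      ((linearIndependent_pow_of_ord_neg hneg C').map' _
        (LinearMap.ker_eq_bot.mpr (mul_right_injective₀ (pow_ne_zero _ hy0)))) ?_
    rw [Submodule.disjoint_def]
    intro v hv1 hv2
    have hlow : Vanish Q v (-(B : ℤ)) := by
      obtain ⟨c, rfl⟩ := (Submodule.mem_span_range_iff_exists_fun k).mp hv1
      refine Vanish.sum _ _ fun p _ => Vanish.smul _ ?_
      rw [G.red_mul (pow_mem hx.mem _) (he p.2).1, G.red_pow hx.mem]
      refine ((((Vanish.zero_iff.mpr hQ).pow (p.1 : ℕ))).mul (Vanish.self (G.red (e p.2)))).mono ?_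
      have := Finset.single_le_sum (f := fun i => (Q.ord (G.red (e i))).natAbs)
        (fun _ _ => Nat.zero_le _) (Finset.mem_univ p.2)
      rw [← hB] at this
      simp only [mul_zero, zero_add]
      omega
    rw [← Function.comp_def, Set.range_comp, ← Submodule.map_span] at hv2
    obtain ⟨w, hw, rfl⟩ := hv2
    obtain ⟨c, hc⟩ := (Submodule.mem_span_range_iff_exists_fun k).mp hw
    set p : Polynomial k := ∑ a : Fin C', Polynomial.C (c a) * Polynomial.X ^ (a : ℕ) with hp
    have hwp : w = Polynomial.aeval (G.red y) p := by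
      rw [hp, map_sum, ← hc]
      exact Finset.sum_congr rfl fun a _ => by simp [Algebra.smul_def]
    by_contra hne
    have hp0 : p ≠ 0 := fun h0 => hne (by rw [hwp, h0, map_zero, map_zero])
    obtain ⟨h1, h2⟩ := ord_aeval_of_neg hneg p hp0
    rw [LinearMap.mulLeft_apply, hwp] at hne hlow
    have h3 := hlow.resolve_left hne
    rw [Q.ord_mul (pow_ne_zero _ hy0) h1, h2, FF.ord_pow] at h3
    have h4 : ((p.natDegree : ℤ)) * Q.ord (G.red y) ≤ 0 :=
      mul_nonpos_of_nonneg_of_nonpos (Nat.cast_nonneg _) hneg.le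
    have h5 : ((B + 1 : ℕ) : ℤ) * Q.ord (G.red y) ≤ ((B + 1 : ℕ) : ℤ) * (-1) :=
      mul_le_mul_of_nonneg_left (by omega) (Nat.cast_nonneg _)
    push_cast at h3 h5
    omega
  haveI := hx.curve.finite_L' (boundDiv x (M + n₀) (0 : Divisor K F))
  have hle : Submodule.span K (Set.range fam) ≤ polesLe x (M + n₀) := by
    rw [Submodule.span_le]
    rintro _ ⟨(p | t), rfl⟩
    · exact hx.curve.polesLe_mono x (by omega) (hx.curve.mul_mem_polesLe
        (hx.curve.pow_mem_polesLe (hx.curve.self_mem_polesLe x) _) (he p.2).2)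
    · refine hx.curve.polesLe_mono x ?_ (hx.curve.pow_mem_polesLe hm _)
      have h1 : (B + 1 + (t : ℕ)) * m ≤ (B + 1 + C') * m := Nat.mul_le_mul_right m (by omega)
      omega
  have h1 := Submodule.finrank_mono hle
  rw [finrank_span_eq_card hred.linearIndependent, Fintype.card_sum, Fintype.card_prod,
    Fintype.card_fin, Fintype.card_fin, Fintype.card_fin] at h1
  have h2 := hx.finrank_polesLe (n := M + n₀) (by omega)
  have h1' : ((M * ψ + C' : ℕ) : ℤ) ≤
      finrank K (polesLe x (M + n₀) : Submodule K F) := by exact_mod_cast h1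
  have h3 : ((M + n₀ : ℕ) : ℤ) * (ψ : ℤ) = (M : ℤ) * ψ + (n₀ : ℤ) * ψ := by push_cast; ring
  have h6 : (C' : ℤ) = (n₀ : ℤ) * ψ + 2 := by rw [hC']; push_cast; rfl
  push_cast at h1'
  omega

theorem inv : GoodParam G g x⁻¹ where
  curve := hx.curve
  curveBar := hx.curveBar
  mem := G.inv_mem hx.mem hx.red_ne_zero
  not_const c hc := by
    rw [G.red_inv hx.mem hx.red_ne_zero] at hc
    exact hx.not_const c⁻¹ (by rw [map_inv₀, ← hc, inv_inv])
  deg_eq := by
    have e1 : (poleDiv x⁻¹ : Divisor K F) = poleDiv x + divOf x := Finsupp.ext fun v => by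
      rw [Finsupp.add_apply, hx.curve.poleDiv_apply, hx.curve.poleDiv_apply, hx.curve.divOf_apply,
        v.ord_inv]
      omega
    have e2 : (poleDiv (G.red x)⁻¹ : Divisor k Fb) = poleDiv (G.red x) + divOf (G.red x) :=
      Finsupp.ext fun v => by
        rw [Finsupp.add_apply, hx.curveBar.poleDiv_apply, hx.curveBar.poleDiv_apply,
          hx.curveBar.divOf_apply, v.ord_inv]
        omega
    rw [G.red_inv hx.mem hx.red_ne_zero, e1, e2, map_add, map_add, hx.curve.degree_divOf,
      hx.curveBar.degree_divOf, hx.deg_eq]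

theorem red_mem_polesLe {n : ℕ} {y : F} (hy : y ∈ G.V) (h : y ∈ (polesLe x n : Submodule K F)) :
    G.red y ∈ (polesLe (G.red x) n : Submodule k Fb) := by
  have h1 := hx.red_regAway hy (hx.curve.regAway_of_mem_polesLe h)
  have hinv := G.inv_mem hx.mem hx.red_ne_zero
  have hreg : RegAway (K := K) x⁻¹ (x⁻¹ ^ n * y) := by
    intro P hP
    rw [P.ord_inv] at hP
    refine (((Vanish.self x⁻¹).pow n).mul (hx.curve.mem_polesLe.mp h P)).mono ?_
    rw [P.ord_inv, max_eq_right hP]
    omega
  have h2 := hx.inv.red_regAway (G.V.mul_mem (pow_mem hinv n) hy) hreg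
  rw [G.red_mul (pow_mem hinv n) hy, G.red_pow hinv, G.red_inv hx.mem hx.red_ne_zero] at h2
  rw [hx.curveBar.mem_polesLe]
  intro Q
  rcases le_or_gt 0 (Q.ord (G.red x)) with hQ | hQ
  · rw [max_eq_left (by omega), mul_zero, neg_zero]
    exact h1 Q hQ
  · have h3 := h2 Q (by rw [Q.ord_inv]; omega)
    have h4 := ((Vanish.self (v := Q) (G.red x)).pow n).mul h3
    rw [← mul_assoc, ← mul_pow, mul_inv_cancel₀ hx.red_ne_zero, one_pow, one_mul] at h4
    refine h4.mono ?_
    rw [max_eq_right (by omega), add_zero, mul_neg, neg_neg]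

theorem finrank_redSub_L (D : Divisor K F) :
    finrank k (G.redSub (riemannRochSpace D)) = finrank K (riemannRochSpace D) ∧
      FiniteDimensional k (G.redSub (riemannRochSpace D)) := by
  classical
  haveI := hx.curve.finite_L' D
  obtain ⟨s, hs⟩ := (Module.Finite.iff_fg.mp (hx.curve.finite_L' D) :
    (riemannRochSpace D : Submodule K F).FG)
  obtain ⟨ι, _, b, hb, hmem⟩ := hx.exists_redIndep_span s
  exact G.finrank_redSub hb (by rw [← hs]; exact Submodule.span_le.mpr fun f hf => hmem f hf)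

theorem exists_smul {y : F} (hy : y ≠ 0) : ∃ c : K, c ≠ 0 ∧ c • y ∈ G.V ∧ G.red (c • y) ≠ 0 := by
  obtain ⟨ι, _, b, hb, hmem⟩ := hx.exists_redIndep_span {y}
  exact hb.exists_smul (hmem y (Finset.mem_singleton_self y)) hy

theorem smul_mem_iff {c : K} {u : F} (hu : u ∈ G.V) (hu0 : G.red u ≠ 0) (h : c • u ∈ G.V) :
    c ∈ A := by
  refine hx.mem_A_of_algebraMap_mem ?_
  have h1 := G.V.mul_mem h (G.inv_mem hu hu0)
  rwa [smul_mul_assoc, mul_inv_cancel₀ (G.ne_zero_of_red hu0), ← Algebra.algebraMap_eq_smul_one]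
    at h1

/-- An element with zero reduction is a small multiple of one with nonzero reduction. -/
theorem exists_eq_smul {y : F} (hy : y ∈ G.V) (hy0 : y ≠ 0) :
    ∃ (a : A) (u : F), (a : K) ≠ 0 ∧ u ∈ G.V ∧ G.red u ≠ 0 ∧ y = (a : K) • u := by
  obtain ⟨c, hc, hcV, hcred⟩ := hx.exists_smul hy0
  have hy' : c⁻¹ • (c • y) = y := by rw [smul_smul, inv_mul_cancel₀ hc, one_smul]
  have hcA : c⁻¹ ∈ A := hx.smul_mem_iff hcV hcred (by rwa [hy'])
  exact ⟨⟨c⁻¹, hcA⟩, c • y, inv_ne_zero hc, hcV, hcred, hy'.symm⟩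

theorem redSub_polesLe {n : ℕ} (h : hx.bound ≤ n) :
    G.redSub (polesLe x n) = (polesLe (G.red x) n : Submodule k Fb) := by
  haveI := hx.curveBar.finite_L' (boundDiv (G.red x) n (0 : Divisor k Fb))
  refine Submodule.eq_of_le_of_finrank_eq ?_ ?_
  · rintro _ ⟨y, hy, hyV, rfl⟩
    exact hx.red_mem_polesLe hyV hy
  · have h1 := (hx.finrank_redSub_L (boundDiv x n 0)).1
    have h2 := hx.finrank_polesLe h
    have h3 := hx.finrank_polesLe_bar h
    simp only [polesLe] at *
    omega

theorem exists_lift {n : ℕ} (h : hx.bound ≤ n) {f : Fb}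
    (hf : f ∈ (polesLe (G.red x) n : Submodule k Fb)) :
    ∃ y : F, y ∈ (polesLe x n : Submodule K F) ∧ y ∈ G.V ∧ G.red y = f := by
  rw [← hx.redSub_polesLe h] at hf
  exact hf

theorem exists_lift_reg {f : Fb} (hf : RegAway (K := k) (G.red x) f) :
    ∃ y : F, y ∈ G.V ∧ RegAway (K := K) x y ∧ G.red y = f := by
  obtain ⟨n, hn⟩ := hx.curveBar.exists_mem_polesLe hf
  obtain ⟨y, hy, hyV, hyf⟩ := hx.exists_lift (le_max_right n hx.bound)
    (hx.curveBar.polesLe_mono _ (le_max_left n hx.bound) hn)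
  exact ⟨y, hyV, hx.curve.regAway_of_mem_polesLe hy, hyf⟩

/-- Two functions without common zeros generate everything, with bounds. -/
theorem exists_coprime_sum {h f₀ : Fb} {m d n' : ℕ} (hn' : hx.bound ≤ n')
    (hh : h ∈ (polesLe (G.red x) m : Submodule k Fb))
    (hf₀ : f₀ ∈ (polesLe (G.red x) d : Submodule k Fb))
    (hexact : ∀ Q : Place k Fb, Q.ord (G.red x) < 0 → Q.ord f₀ = (d : ℤ) * Q.ord (G.red x))
    (hh0 : h ≠ 0) (hf₀0 : f₀ ≠ 0)
    (hcop : ∀ Q : Place k Fb, 0 ≤ Q.ord (G.red x) → 0 < Q.ord f₀ → Q.ord h = 0)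
    {f : Fb} (hf : f ∈ (polesLe (G.red x) (n' + d + m) : Submodule k Fb)) :
    ∃ z u : Fb, z ∈ (polesLe (G.red x) (n' + d) : Submodule k Fb) ∧
      u ∈ (polesLe (G.red x) (n' + m) : Submodule k Fb) ∧ f = h * z + f₀ * u := by
  classical
  set xb := G.red x with hxb
  haveI := hx.curveBar.finite_L' (boundDiv xb (n' + d + m) (0 : Divisor k Fb))
  haveI := hx.curveBar.finite_L' (boundDiv xb (n' + d) (0 : Divisor k Fb))
  haveI := hx.curveBar.finite_L' (boundDiv xb (n' + m) (0 : Divisor k Fb))
  haveI := hx.curveBar.finite_L' (boundDiv xb n' (0 : Divisor k Fb))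
  set S : Submodule k Fb := (polesLe xb (n' + d)).map (LinearMap.mulLeft k h) with hS
  set T : Submodule k Fb := (polesLe xb (n' + m)).map (LinearMap.mulLeft k f₀) with hT
  have hSle : S ≤ polesLe xb (n' + d + m) := by
    rintro _ ⟨z, hz, rfl⟩
    have := hx.curveBar.mul_mem_polesLe hh hz
    rwa [add_comm] at this
  have hTle : T ≤ polesLe xb (n' + d + m) := by
    rintro _ ⟨u, hu, rfl⟩
    have := hx.curveBar.mul_mem_polesLe hf₀ hu
    rwa [show n' + d + m = d + (n' + m) by ring]
  have hinter : S ⊓ T ≤ (polesLe xb n').map (LinearMap.mulLeft k (h * f₀)) := by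
    rintro _ ⟨⟨z, hz, rfl⟩, ⟨u, hu, hzu⟩⟩
    simp only [LinearMap.mulLeft_apply] at hzu
    refine ⟨z / f₀, hx.curveBar.mem_polesLe.mpr fun Q => ?_, ?_⟩
    · rcases le_or_gt 0 (Q.ord xb) with hQ | hQ
      · rw [max_eq_left (by omega), mul_zero, neg_zero]
        by_cases hzero : 0 < Q.ord f₀
        · have he : z / f₀ = u * h⁻¹ := by field_simp; linear_combination hzu.symm
          rw [he]
          refine (hx.curveBar.regAway_of_mem_polesLe hu Q hQ).mul_zero' ?_
          exact Vanish.zero_iff.mpr (by rw [Q.ord_inv, hcop Q hQ hzero]; rfl)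
        · rw [div_eq_mul_inv]
          refine (hx.curveBar.regAway_of_mem_polesLe hz Q hQ).mul_zero' ?_
          exact Vanish.zero_iff.mpr (by rw [Q.ord_inv]; omega)
      · rw [div_eq_mul_inv]
        refine ((hx.curveBar.mem_polesLe.mp hz Q).mul (Vanish.self f₀⁻¹)).mono ?_
        rw [Q.ord_inv, hexact Q hQ, max_eq_right (by omega)]
        push_cast
        ring_nf
        omega
    · simp only [LinearMap.mulLeft_apply]
      field_simp
  have dS : finrank k S = finrank k (polesLe xb (n' + d) : Submodule k Fb) :=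
    (Submodule.equivMapOfInjective _ (mul_right_injective₀ hh0) _).finrank_eq.symm
  have dT : finrank k T = finrank k (polesLe xb (n' + m) : Submodule k Fb) :=
    (Submodule.equivMapOfInjective _ (mul_right_injective₀ hf₀0) _).finrank_eq.symm
  haveI : FiniteDimensional k S := Submodule.finiteDimensional_of_le hSle
  haveI : FiniteDimensional k T := Submodule.finiteDimensional_of_le hTle
  have dI := (Submodule.finrank_mono hinter).trans (Submodule.finrank_map_le _ _)
  have dsum := Submodule.finrank_sup_add_finrank_inf_eq S T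
  have e1 := hx.finrank_polesLe_bar (n := n') hn'
  have e2 := hx.finrank_polesLe_bar (n := n' + d) (by omega)
  have e3 := hx.finrank_polesLe_bar (n := n' + m) (by omega)
  have e4 := hx.finrank_polesLe_bar (n := n' + d + m) (by omega)
  rw [← hxb] at e1 e2 e3 e4
  simp only [Nat.cast_add, add_mul] at e2 e3 e4
  have hall : S ⊔ T = polesLe xb (n' + d + m) :=
    Submodule.eq_of_le_of_finrank_le (sup_le hSle hTle) (by omega)
  rw [← hall] at hf
  obtain ⟨_, ⟨z, hz, rfl⟩, _, ⟨u, hu, rfl⟩, rfl⟩ := Submodule.mem_sup.mp hf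
  exact ⟨z, u, hz, hu, rfl⟩

/-- Division with bounded remainder by an integral polynomial in the parameter. -/
theorem exists_decomp {p : F} {d n' m : ℕ} (hn' : hx.bound ≤ n') (hp : p ∈ G.V)
    (hpd : p ∈ (polesLe x d : Submodule K F)) (hp0 : G.red p ≠ 0)
    (hexact : ∀ Q : Place k Fb, Q.ord (G.red x) < 0 → Q.ord (G.red p) = (d : ℤ) * Q.ord (G.red x))
    {y : F} (hy : y ∈ G.V) (hyn : y ∈ (polesLe x (n' + d + m) : Submodule K F)) :
    ∃ w z : F, w ∈ G.V ∧ w ∈ (polesLe x (n' + d) : Submodule K F) ∧ z ∈ G.V ∧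
      z ∈ (polesLe x (n' + m) : Submodule K F) ∧ y = w + p * z := by
  classical
  set S : Set F := {s | s ∈ (polesLe x (n' + d) : Submodule K F) ∧ s ∈ G.V} with hS
  set T : Set F := {s | ∃ z, z ∈ (polesLe x (n' + m) : Submodule K F) ∧ z ∈ G.V ∧ s = p * z}
    with hT
  have hSV : ∀ s ∈ S ∪ T, s ∈ G.V := by
    rintro s (hs | ⟨z, -, hz, rfl⟩)
    · exact hs.2
    · exact G.V.mul_mem hp hz
  have hTle : ∀ s ∈ S ∪ T, s ∈ (polesLe x (n' + d + m) : Submodule K F) := by
    rintro s (hs | ⟨z, hz, -, rfl⟩)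
    · exact hx.curve.polesLe_mono x (by omega) hs.1
    · have := hx.curve.mul_mem_polesLe hpd hz
      rwa [show n' + d + m = d + (n' + m) by ring]
  have hspan : (polesLe (G.red x) (n' + d + m) : Submodule k Fb)
      ≤ Submodule.span k (G.red '' (S ∪ T)) := by
    intro f hf
    obtain ⟨z, u, hz, hu, rfl⟩ := hx.exists_coprime_sum (h := 1) (f₀ := G.red p) (m := m) (d := d)
      hn' (hx.curveBar.one_mem_polesLe _ m) (hx.red_mem_polesLe hp hpd) hexact one_ne_zero hp0
      (fun Q _ _ => Q.ord_one) hf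
    obtain ⟨zl, hzl, hzlV, rfl⟩ := hx.exists_lift (by omega) hz
    obtain ⟨ul, hul, hulV, rfl⟩ := hx.exists_lift (by omega) hu
    refine Submodule.add_mem _ ?_ ?_
    · rw [one_mul]
      exact Submodule.subset_span ⟨zl, Or.inl ⟨hzl, hzlV⟩, rfl⟩
    · exact Submodule.subset_span ⟨p * ul, Or.inr ⟨ul, hul, hulV, rfl⟩, G.red_mul hp hulV⟩
  obtain ⟨b, hb, hbspan, hbli⟩ := exists_linearIndependent k (G.red '' (S ∪ T))
  haveI := hx.curveBar.finite_L' (boundDiv (G.red x) (n' + d + m) (0 : Divisor k Fb))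
  have hble : Submodule.span k b ≤ polesLe (G.red x) (n' + d + m) := by
    rw [hbspan, Submodule.span_le]
    rintro _ ⟨s, hs, rfl⟩
    exact hx.red_mem_polesLe (hSV s hs) (hTle s hs)
  haveI : FiniteDimensional k (Submodule.span k b) := Submodule.finiteDimensional_of_le hble
  haveI : Fintype b := by
    have hfin : b.Finite := by
      have h1 : LinearIndependent k (fun v : b => (⟨(v : Fb), Submodule.subset_span v.2⟩ :
          Submodule.span k b)) := LinearIndependent.of_comp (Submodule.span k b).subtype hbli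
      exact Set.finite_coe_iff.mp h1.finite
    exact hfin.fintype
  choose f hf hff using fun v : b => hb v.2
  have hfam : G.RedIndep f := ⟨fun v => hSV _ (hf v), by simpa [hff] using hbli⟩
  have heq : Submodule.span k b = polesLe (G.red x) (n' + d + m) :=
    le_antisymm hble (by rw [hbspan]; exact hspan)
  haveI := hx.curve.finite_L' (boundDiv x (n' + d + m) (0 : Divisor K F))
  have hfull : Submodule.span K (Set.range f) = polesLe x (n' + d + m) := by
    refine Submodule.eq_of_le_of_finrank_eq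
      (Submodule.span_le.mpr fun _ ⟨v, hv⟩ => hv ▸ hTle _ (hf v)) ?_
    rw [finrank_span_eq_card hfam.linearIndependent]
    have h1 : finrank k (Submodule.span k b) = Fintype.card b := by
      rw [← finrank_span_eq_card hbli, Subtype.range_coe]
    rw [heq] at h1
    have h2 := hx.finrank_polesLe (n := n' + d + m) (by omega)
    have h3 := hx.finrank_polesLe_bar (n := n' + d + m) (by omega)
    omega
  rw [← hfull] at hyn
  obtain ⟨c, rfl⟩ := (Submodule.mem_span_range_iff_exists_fun K).mp hyn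
  have hcA := fun v => hfam.coeff_mem hy v
  suffices h : ∀ s : Finset b, ∃ w z : F, w ∈ G.V ∧ w ∈ (polesLe x (n' + d) : Submodule K F) ∧
      z ∈ G.V ∧ z ∈ (polesLe x (n' + m) : Submodule K F) ∧
      (∑ v ∈ s, c v • f v) = w + p * z from h Finset.univ
  intro s
  induction s using Finset.induction with
  | empty => exact ⟨0, 0, G.V.zero_mem, zero_mem _, G.V.zero_mem, zero_mem _, by simp⟩
  | insert a s ha ih =>
    obtain ⟨w, z, hw, hwn, hz, hzn, hs⟩ := ih
    rw [Finset.sum_insert ha, hs]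
    rcases hf a with h | ⟨z', hz', hz'V, h⟩
    · exact ⟨c a • f a + w, z, G.V.add_mem (G.smul_mem' (hcA a) h.2) hw,
        Submodule.add_mem _ (Submodule.smul_mem _ _ h.1) hwn, hz, hzn, by ring⟩
    · refine ⟨w, c a • z' + z, hw, hwn, G.V.add_mem (G.smul_mem' (hcA a) hz'V) hz,
        Submodule.add_mem _ (Submodule.smul_mem _ _ hz') hzn, ?_⟩
      rw [h, Algebra.smul_def, Algebra.smul_def]
      ring

end GoodParam

end FLTAgent.Reduction
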