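import Mathlib
import Fermat.Agent.Reduction.PlacesLattice

/-!
# Centres of places

For a place `P` in the unit disc of a good parameter (`IsDisc`), values of integral functions
regular away from the poles reduce to values at a unique place of the special fibre, the centre of
`P` (`exists_centre`, `isCentre_unique`). Existence: otherwise a combination of functions with
zero reduced value at `P` would avoid the finitely many candidate places.
-/

set_option autoImplicit false
set_option linter.style.haveILetI false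
set_option linter.unusedSectionVars false

noncomputable section

open AlgebraicCurve Module

namespace FLTAgent.Reduction

variable {K k F Fb : Type*} [Field K] [Field k] [Field F] [Field Fb] [Algebra K F] [Algebra k Fb]
variable {A : ValuationSubring K} {π : A →+* k}

/-- The place `P` lies in the unit disc of the parameter. -/
def IsDisc (A : ValuationSubring K) (x : F) (P : Place K F) : Prop :=
  0 ≤ P.ord x ∧ valAt P x ∈ A

/-- Effective divisors supported in the unit disc. -/
def SuppDisc (A : ValuationSubring K) (x : F) (D : Divisor K F) : Prop :=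
  0 ≤ D ∧ ∀ P, D P ≠ 0 → IsDisc A x P

open Classical in
/-- The reduction of the value at a place. -/
def resVal (π : A →+* k) (P : Place K F) (y : F) : k :=
  if h : valAt P y ∈ A then π ⟨_, h⟩ else 0

theorem resVal_of_eq (P : Place K F) (y : F) (a : A) (h : valAt P y = (a : K)) :
    resVal π P y = π a := by
  have hmem : valAt P y ∈ A := h ▸ a.2
  rw [resVal, dif_pos hmem]
  exact congrArg π (Subtype.ext h)

/-- `Q` is the centre of `P`. -/
def IsCentre (G : GaussRed A π F Fb) (x : F) (P : Place K F) (Q : Place k Fb) : Prop :=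
  0 ≤ Q.ord (G.red x) ∧
    ∀ y ∈ G.V, RegAway (K := K) x y → valAt Q (G.red y) = resVal π P y

namespace GoodParam

variable {G : GaussRed A π F Fb} {g : ℕ} {x : F} (hx : GoodParam G g x)
include hx

local notation "ψ" => paramDeg (K := K) x

theorem regAway_one : RegAway (K := K) x (1 : F) := fun _ _ => Vanish.one

theorem regAway_const (c : K) : RegAway (K := K) x (algebraMap K F c) := fun _ _ => Vanish.const c

theorem regAway_self : RegAway (K := K) x x := fun _ hP => Vanish.zero_iff.mpr hP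

theorem regAway_bar_self : RegAway (K := k) (G.red x) (G.red x) :=
  fun _ hQ => Vanish.zero_iff.mpr hQ

theorem exists_poly : ∀ (d : ℕ) (D : Divisor K F), SuppDisc A x D → Divisor.degree D = d →
    ∃ p : F, p ∈ G.V ∧ p ∈ (polesLe x d : Submodule K F) ∧ G.red p ≠ 0 ∧
      (∀ Q : Place k Fb, Q.ord (G.red x) < 0 → Q.ord (G.red p) = (d : ℤ) * Q.ord (G.red x)) ∧
      ∀ P : Place K F, 0 ≤ P.ord x → Vanish P p (D P) := by
  classical
  intro d
  induction d with
  | zero =>
    intro D hD hdeg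
    have hD0 : D = 0 :=
      (hx.curve.eq_of_le_of_degree_eq (D := 0) hD.1 (by rw [map_zero, hdeg]; rfl)).symm
    refine ⟨1, G.V.one_mem, hx.curve.one_mem_polesLe x 0, by rw [G.red_one]; exact one_ne_zero,
      fun Q _ => by simp [G.red_one], fun P _ => ?_⟩
    rw [hD0]
    exact Vanish.one
  | succ d ih =>
    intro D hD hdeg
    obtain ⟨P₀, hP₀⟩ : ∃ P, D P ≠ 0 := by
      by_contra h
      push Not at h
      rw [show D = 0 from Finsupp.ext h, map_zero] at hdeg
      omega
    have hdisc := hD.2 P₀ hP₀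
    have h1 : 1 ≤ D P₀ := by
      have : 0 ≤ D P₀ := hD.1 P₀
      omega
    have hD' : SuppDisc A x (D - Finsupp.single P₀ 1) := by
      refine ⟨fun P => ?_, fun P hP => ?_⟩
      · simp only [Finsupp.sub_apply, Finsupp.zero_apply]
        by_cases h : P = P₀
        · subst h; rw [Finsupp.single_eq_same]; omega
        · rw [Finsupp.single_eq_of_ne h]
          have : 0 ≤ D P := hD.1 P
          omega
      · by_cases h : P = P₀
        · exact h ▸ hdisc
        · exact hD.2 P (by simpa [Finsupp.single_eq_of_ne h] using hP)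
    obtain ⟨p, hp, hpd, hp0, hexact, hvan⟩ :=
      ih _ hD' (by rw [map_sub, hdeg, hx.curve.degree_single]; push_cast; ring)
    set l := linFactor A x (valAt P₀ x) with hl
    have hlred := hx.red_linFactor_of_mem ⟨_, hdisc.2⟩
    have hl0 := hx.red_linFactor_ne_zero (valAt P₀ x)
    refine ⟨l * p, G.V.mul_mem (hx.linFactor_mem _) hp, ?_, ?_, fun Q hQ => ?_, fun P hP => ?_⟩
    · have := hx.curve.mul_mem_polesLe (hx.linFactor_mem_polesLe (valAt P₀ x)) hpd
      rwa [add_comm] at this
    · rw [G.red_mul (hx.linFactor_mem _) hp]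
      exact mul_ne_zero hl0 hp0
    · rw [G.red_mul (hx.linFactor_mem _) hp, Q.ord_mul hl0 hp0, hexact Q hQ, hlred]
      have h2 := FF.ord_add_of_lt Q (f := G.red x)
        (g := -algebraMap k Fb (π ⟨_, hdisc.2⟩)) hx.red_ne_zero
        (Or.inr (by rw [FF.ord_neg, FF.ord_algebraMap]; exact hQ))
      rw [← sub_eq_add_neg] at h2
      rw [h2.2]
      push_cast
      ring
    · by_cases h : P = P₀
      · subst h
        refine ((hx.vanish_linFactor hP).mul (hvan P hP)).mono ?_
        simp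
      · have := ((hx.curve.regAway_of_mem_polesLe (hx.linFactor_mem_polesLe (valAt P₀ x))) P hP).mul
          (hvan P hP)
        simpa [Finsupp.single_eq_of_ne h] using this

theorem valAt_mem {P : Place K F} (hP : IsDisc A x P) {y : F} (hy : y ∈ G.V)
    (hreg : RegAway (K := K) x y) : valAt P y ∈ A := by
  classical
  obtain ⟨p, hp, hpd, hp0, hexact, hvan⟩ := hx.exists_poly 1 (Finsupp.single P 1)
    ⟨Finsupp.single_nonneg.mpr zero_le_one, fun Q hQ => by
      rcases eq_or_ne Q P with rfl | h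
      · exact hP
      · exact absurd (Finsupp.single_eq_of_ne h) hQ⟩ (by rw [hx.curve.degree_single]; rfl)
  have hvanP : Vanish P p 1 := by simpa using hvan P hP.1
  obtain ⟨s, hs⟩ := (Module.Finite.iff_fg.mp (hx.curve.finite_L' (boundDiv x (hx.bound + 1) (0 : Divisor K F))) :
    (polesLe x (hx.bound + 1) : Submodule K F).FG)
  obtain ⟨ι, _, b, hb, hmem⟩ := hx.exists_redIndep_span s
  obtain ⟨n, w, hw, hwspan⟩ := hb.exists_basis (polesLe x (hx.bound + 1))
    (by rw [← hs]; exact Submodule.span_le.mpr fun f hf => hmem f hf)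
  set μ : Fin n → K := fun i => valAt P (w i) with hμ
  have hwmem : ∀ i, w i ∈ (polesLe x (hx.bound + 1) : Submodule K F) := fun i => by
    rw [← hwspan]
    exact Submodule.subset_span ⟨i, rfl⟩
  have hwreg : ∀ i, Vanish P (w i) 0 := fun i =>
    hx.curve.regAway_of_mem_polesLe (hwmem i) P hP.1
  have key : ∀ z : F, z ∈ G.V → RegAway (K := K) x z →
      ∃ c : Fin n → A, valAt P z = ∑ i, (c i : K) * μ i := by
    intro z hz hzreg
    obtain ⟨m, hm⟩ := hx.curve.exists_mem_polesLe hzreg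
    obtain ⟨w', z', hw'V, hw', hz'V, hz', rfl⟩ := hx.exists_decomp (d := 1) (n' := hx.bound) (m := m)
      le_rfl hp hpd hp0 hexact hz (hx.curve.polesLe_mono x (Nat.le_add_left m _) hm)
    rw [← hwspan] at hw'
    obtain ⟨c, rfl⟩ := (Submodule.mem_span_range_iff_exists_fun K).mp hw'
    have hz'reg := hx.curve.regAway_of_mem_polesLe hz' P hP.1
    refine ⟨fun i => ⟨c i, hw.coeff_mem hw'V i⟩, valAt_eq ?_⟩
    rw [map_sum, add_sub_right_comm, ← Finset.sum_sub_distrib]
    refine Vanish.add (Vanish.sum _ _ fun i _ => ?_) (by simpa using hvanP.mul hz'reg)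
    rw [map_mul, ← Algebra.smul_def, ← smul_sub]
    exact (hx.curve.exists_valAt (hwreg i)).smul _
  obtain ⟨c₁, hc₁⟩ := key 1 G.V.one_mem hx.regAway_one
  rw [valAt_one] at hc₁
  obtain ⟨i, hi⟩ : ∃ i, μ i ≠ 0 := by
    by_contra h
    push Not at h
    simp [h] at hc₁
  haveI : Nonempty (Fin n) := ⟨i⟩
  obtain ⟨i₀, hi₀, hmax⟩ := G.exists_max_of_field μ ⟨i, hi⟩
  have key2 : ∀ z : F, z ∈ G.V → RegAway (K := K) x z → valAt P z / μ i₀ ∈ A := by
    intro z hz hzreg
    obtain ⟨c, hc⟩ := key z hz hzreg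
    rw [hc, Finset.sum_div]
    exact A.toSubring.sum_mem fun j _ => by
      rw [mul_div_assoc]; exact A.mul_mem _ _ (c j).2 (hmax j)
  have hwV := hw.1 i₀
  have hwi : RegAway (K := K) x (w i₀) :=
    hx.curve.regAway_of_mem_polesLe (hwmem i₀)
  have h2 := key2 (w i₀ * w i₀) (G.V.mul_mem hwV hwV) fun Q hQ => (hwi Q hQ).mul_zero' (hwi Q hQ)
  rw [hx.curve.valAt_mul (hwi P hP.1) (hwi P hP.1)] at h2
  have h3 : μ i₀ ∈ A := by simpa [hμ, mul_div_assoc, div_self hi₀] using h2
  simpa [div_mul_cancel₀ _ hi₀] using A.mul_mem _ _ (key2 y hy hreg) h3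

theorem resVal_add {P : Place K F} (hP : IsDisc A x P) {y z : F} (hy : y ∈ G.V)
    (hyr : RegAway (K := K) x y) (hz : z ∈ G.V) (hzr : RegAway (K := K) x z) :
    resVal π P (y + z) = resVal π P y + resVal π P z := by
  rw [resVal_of_eq P (y + z) (⟨_, hx.valAt_mem hP hy hyr⟩ + ⟨_, hx.valAt_mem hP hz hzr⟩)
    (hx.curve.valAt_add (hyr P hP.1) (hzr P hP.1)),
    resVal_of_eq P y ⟨_, hx.valAt_mem hP hy hyr⟩ rfl,
    resVal_of_eq P z ⟨_, hx.valAt_mem hP hz hzr⟩ rfl, map_add]

theorem resVal_mul {P : Place K F} (hP : IsDisc A x P) {y z : F} (hy : y ∈ G.V)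
    (hyr : RegAway (K := K) x y) (hz : z ∈ G.V) (hzr : RegAway (K := K) x z) :
    resVal π P (y * z) = resVal π P y * resVal π P z := by
  rw [resVal_of_eq P (y * z) (⟨_, hx.valAt_mem hP hy hyr⟩ * ⟨_, hx.valAt_mem hP hz hzr⟩)
    (hx.curve.valAt_mul (hyr P hP.1) (hzr P hP.1)),
    resVal_of_eq P y ⟨_, hx.valAt_mem hP hy hyr⟩ rfl,
    resVal_of_eq P z ⟨_, hx.valAt_mem hP hz hzr⟩ rfl, map_mul]

theorem resVal_const (P : Place K F) (a : A) : resVal π P (algebraMap K F (a : K)) = π a :=
  resVal_of_eq P _ a (valAt_algebraMap P _)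

theorem resVal_eq_zero_of_red {P : Place K F} (hP : IsDisc A x P) {y : F} (hy : y ∈ G.V)
    (hyr : RegAway (K := K) x y) (h : G.red y = 0) : resVal π P y = 0 := by
  rcases eq_or_ne y 0 with rfl | hy0
  · rw [resVal_of_eq P (0 : F) 0 (valAt_zero P), map_zero]
  obtain ⟨a, u, ha, hu, hu0, rfl⟩ := hx.exists_eq_smul hy hy0
  have hur : RegAway (K := K) x u := fun Q hQ => by
    simpa [smul_smul, inv_mul_cancel₀ ha] using (hyr Q hQ).smul (a : K)⁻¹
  rw [G.red_smul a hu, smul_eq_zero] at h
  rw [resVal_of_eq P _ (a * ⟨_, hx.valAt_mem hP hu hur⟩) (hx.curve.valAt_smul _ (hur P hP.1)),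
    map_mul, h.resolve_right hu0, zero_mul]

theorem resVal_congr {P : Place K F} (hP : IsDisc A x P) {y z : F} (hy : y ∈ G.V)
    (hyr : RegAway (K := K) x y) (hz : z ∈ G.V) (hzr : RegAway (K := K) x z)
    (h : G.red y = G.red z) : resVal π P y = resVal π P z := by
  have hr : RegAway (K := K) x (y - z) := fun Q hQ => (hyr Q hQ).sub (hzr Q hQ)
  have h0 := hx.resVal_eq_zero_of_red hP (G.V.sub_mem hy hz) hr (by rw [G.red_sub hy hz, h, sub_self])
  have h1 := hx.resVal_add hP (G.V.sub_mem hy hz) hr hz hzr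
  rwa [sub_add_cancel, h0, zero_add] at h1

/-- Subtract the value at `P`. -/
theorem exists_shift {P : Place K F} (hP : IsDisc A x P) {y : F} (hy : y ∈ G.V)
    (hyr : RegAway (K := K) x y) :
    ∃ y' : F, y' ∈ G.V ∧ RegAway (K := K) x y' ∧ resVal π P y' = 0 ∧ Vanish P y' 1 ∧
      G.red y' = G.red y - algebraMap k Fb (resVal π P y) := by
  set a : A := ⟨_, hx.valAt_mem hP hy hyr⟩
  refine ⟨y - algebraMap K F (a : K), G.V.sub_mem hy (G.const_mem a),
    fun Q hQ => (hyr Q hQ).sub (Vanish.const _), ?_, hx.curve.exists_valAt (hyr P hP.1), ?_⟩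
  · rw [resVal_of_eq P _ 0 (valAt_eq_zero_of_vanish (hx.curve.exists_valAt (hyr P hP.1))), map_zero]
  · rw [G.red_sub hy (G.const_mem a), G.red_const, resVal_of_eq P y a rfl]

/-- A place in the disc has a centre. -/
theorem exists_centre [Infinite k] {P : Place K F} (hP : IsDisc A x P) :
    ∃ Q : Place k Fb, IsCentre G x P Q := by
  classical
  by_contra hcon
  push Not at hcon
  have hsep : ∀ Q : Place k Fb, 0 ≤ Q.ord (G.red x) →
      ∃ y, y ∈ G.V ∧ RegAway (K := K) x y ∧ resVal π P y = 0 ∧ valAt Q (G.red y) ≠ 0 := by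
    intro Q hQ
    have hcQ : ∃ y ∈ G.V, RegAway (K := K) x y ∧ valAt Q (G.red y) ≠ resVal π P y := by
      by_contra h
      push Not at h
      exact hcon Q ⟨hQ, h⟩
    obtain ⟨y, hy, hyr, hne⟩ := hcQ
    obtain ⟨y', hy', hyr', h0, -, hred⟩ := hx.exists_shift hP hy hyr
    refine ⟨y', hy', hyr', h0, ?_⟩
    rw [hred, hx.curveBar.valAt_sub (hx.red_regAway hy hyr Q hQ) (Vanish.const _),
      valAt_algebraMap, sub_ne_zero]
    exact hne
  obtain ⟨p, hp, hpd, hp0, hexact, hvan⟩ := hx.exists_poly 1 (Finsupp.single P 1)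
    ⟨Finsupp.single_nonneg.mpr zero_le_one, fun Q hQ => by
      rcases eq_or_ne Q P with rfl | h
      · exact hP
      · exact absurd (Finsupp.single_eq_of_ne h) hQ⟩ (by rw [hx.curve.degree_single]; rfl)
  have hpr := hx.curve.regAway_of_mem_polesLe hpd
  have hpv : resVal π P p = 0 := by
    have : Vanish P p 1 := by simpa using hvan P hP.1
    rw [resVal_of_eq P p 0 (valAt_eq_zero_of_vanish this), map_zero]
  set f₀ := G.red p
  set Z : Finset (Place k Fb) := (divOf f₀ : Divisor k Fb).support.filter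
    (fun Q => 0 ≤ Q.ord (G.red x) ∧ 0 < Q.ord f₀) with hZ
  have hZmem : ∀ Q, Q ∈ Z ↔ 0 ≤ Q.ord (G.red x) ∧ 0 < Q.ord f₀ := fun Q => by
    rw [hZ, Finset.mem_filter, Finsupp.mem_support_iff, hx.curveBar.divOf_apply]
    constructor
    · exact fun h => h.2
    · exact fun h => ⟨by omega, h⟩
  choose y hy hyr hy0 hyne using fun Q : Z => hsep Q ((hZmem Q).mp Q.2).1
  -- a combination of the `y` avoiding finitely many hyperplanes
  let idx : Z ≃ Fin Z.card := Z.equivFin
  let poly : Z → Polynomial k := fun Q =>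
    ∑ j : Z, Polynomial.C (valAt (Q : Place k Fb) (G.red (y j))) * Polynomial.X ^ (idx j : ℕ)
  have hpoly : ∀ Q, poly Q ≠ 0 := fun Q h => by
    have := congrArg (fun q : Polynomial k => q.coeff (idx Q : ℕ)) h
    simp [poly, Polynomial.finsetSum_coeff, Polynomial.coeff_X_pow, Fin.val_inj] at this
    exact hyne Q this
  obtain ⟨t, ht⟩ : ∃ t : k, (∏ Q, poly Q).eval t ≠ 0 := by
    by_contra h
    push Not at h
    have h0 : (∏ Q, poly Q) = 0 := Polynomial.funext fun r => (h r).trans Polynomial.eval_zero.symm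
    exact Finset.prod_ne_zero_iff.mpr (fun Q _ => hpoly Q) h0
  rw [Polynomial.eval_prod, Finset.prod_ne_zero_iff] at ht
  obtain ⟨a, ha⟩ := G.res_surj t
  let H : F := ∑ j : Z, ((a ^ (idx j : ℕ) : A) : K) • y j
  have hHV : H ∈ G.V := G.V.sum_mem fun j _ => G.smul_mem _ (hy j)
  have hHr : RegAway (K := K) x H := fun Q hQ => Vanish.sum _ _ fun j _ => (hyr j Q hQ).smul _
  have hH0 : resVal π P H = 0 := by
    have : ∀ s : Finset Z, resVal π P (∑ j ∈ s, ((a ^ (idx j : ℕ) : A) : K) • y j) = 0 := by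
      intro s
      induction s using Finset.induction with
      | empty =>
        rw [Finset.sum_empty]
        exact hx.resVal_eq_zero_of_red hP G.V.zero_mem (fun _ _ => Vanish.zero_left) G.red_zero
      | insert i s hi ih =>
        rw [Finset.sum_insert hi, hx.resVal_add hP (G.smul_mem _ (hy i))
          (fun Q hQ => (hyr i Q hQ).smul _) (G.V.sum_mem fun j _ => G.smul_mem _ (hy j))
          (fun Q hQ => Vanish.sum _ _ fun j _ => (hyr j Q hQ).smul _), ih, add_zero,
          Algebra.smul_def, hx.resVal_mul hP (G.const_mem _) (hx.regAway_const _) (hy i) (hyr i),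
          hy0 i, mul_zero]
    exact this Finset.univ
  have hHval : ∀ Q : Z, valAt (Q : Place k Fb) (G.red H) = (poly Q).eval t := by
    intro Q
    refine valAt_eq ?_
    rw [G.red_sum _ _ fun j _ => G.smul_mem _ (hy j)]
    simp only [poly, Polynomial.eval_finsetSum, Polynomial.eval_mul, Polynomial.eval_C,
      Polynomial.eval_pow, Polynomial.eval_X, map_sum]
    rw [← Finset.sum_sub_distrib]
    refine Vanish.sum _ _ fun j _ => ?_
    rw [G.red_smul _ (hy j), map_pow, ha, mul_comm, map_mul, ← Algebra.smul_def, ← smul_sub]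
    exact (hx.curveBar.exists_valAt
      (hx.red_regAway (hy j) (hyr j) _ ((hZmem Q).mp Q.2).1)).smul _
  obtain ⟨Q₁, hQ₁, hQ₁'⟩ : ∃ Q : Place k Fb, 0 ≤ Q.ord (G.red x) ∧ 0 < Q.ord f₀ := by
    by_contra h
    push Not at h
    obtain ⟨c, hc⟩ := hx.curveBar.const f₀⁻¹ fun Q => by
      rw [Q.ord_inv]
      rcases le_or_gt 0 (Q.ord (G.red x)) with hQ | hQ
      · have := h Q hQ; omega
      · rw [hexact Q hQ]; omega
    obtain ⟨Q, hQ⟩ := hx.exists_pole_bar
    have := hexact Q hQ
    rw [show f₀ = (algebraMap k Fb c)⁻¹ by rw [hc, inv_inv], Q.ord_inv, FF.ord_algebraMap]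
      at this
    omega
  have hHred : G.red H ≠ 0 := fun h0 => ht ⟨Q₁, (hZmem Q₁).mpr ⟨hQ₁, hQ₁'⟩⟩ (Finset.mem_univ _)
    (by rw [← hHval, h0, valAt_zero])
  obtain ⟨m, hm⟩ := hx.curve.exists_mem_polesLe hHr
  obtain ⟨z, u, hz, hu, h1⟩ := hx.exists_coprime_sum (n' := hx.bound) (d := 1) (f₀ := f₀) (f := 1)
    le_rfl (hx.red_mem_polesLe hHV hm) (hx.red_mem_polesLe hp hpd) hexact hHred hp0
    (fun Q hQ hQ' => by
      have hval := hHval ⟨Q, (hZmem Q).mpr ⟨hQ, hQ'⟩⟩
      have hne : valAt Q (G.red H) ≠ 0 := hval ▸ ht _ (Finset.mem_univ _)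
      have hv := hx.red_regAway hHV hHr Q hQ
      rcases lt_or_eq_of_le (Vanish.zero_iff.mp hv) with hlt | heq
      · exact absurd (valAt_eq_zero_of_vanish (Or.inr hlt)) hne
      · exact heq.symm)
    (hx.curveBar.one_mem_polesLe _ _)
  obtain ⟨zl, hzl, hzlV, rfl⟩ := hx.exists_lift (by omega) hz
  obtain ⟨ul, hul, hulV, rfl⟩ := hx.exists_lift (by omega) hu
  have hzr := hx.curve.regAway_of_mem_polesLe hzl
  have hur := hx.curve.regAway_of_mem_polesLe hul
  have hmulr : ∀ {s t : F}, RegAway (K := K) x s → RegAway (K := K) x t →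
      RegAway (K := K) x (s * t) := fun hs ht Q hQ => (hs Q hQ).mul_zero' (ht Q hQ)
  have hcongr := hx.resVal_congr hP (y := H * zl + p * ul) (z := 1)
    (G.V.add_mem (G.V.mul_mem hHV hzlV) (G.V.mul_mem hp hulV))
    (fun Q hQ => (hmulr hHr hzr Q hQ).add (hmulr hpr hur Q hQ)) G.V.one_mem hx.regAway_one
    (by rw [G.red_add (G.V.mul_mem hHV hzlV) (G.V.mul_mem hp hulV), G.red_mul hHV hzlV,
      G.red_mul hp hulV, G.red_one, h1])
  rw [hx.resVal_add hP (G.V.mul_mem hHV hzlV) (hmulr hHr hzr) (G.V.mul_mem hp hulV)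
    (hmulr hpr hur), hx.resVal_mul hP hHV hHr hzlV hzr, hx.resVal_mul hP hp hpr hulV hur, hH0, hpv,
    zero_mul, zero_mul, add_zero, resVal_of_eq P (1 : F) 1 (valAt_one P), map_one] at hcongr
  exact zero_ne_one hcongr

/-- The centre is unique. -/
theorem isCentre_unique {P : Place K F} {Q Q' : Place k Fb} (h : IsCentre G x P Q)
    (h' : IsCentre G x P Q') : Q = Q' := by
  classical
  by_contra hne
  obtain ⟨n, hn⟩ : ∃ n : ℕ, n = hx.bound + 2 := ⟨_, rfl⟩
  have hdeg : (hx.bound : ℤ) + 1 ≤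
      Divisor.degree (boundDiv (G.red x) n (Finsupp.single Q 1 : Divisor k Fb)) := by
    rw [hx.curveBar.degree_boundDiv, hx.degree_poleDiv_bar, hx.curveBar.degree_single]
    have := hx.le_mul_paramDeg n
    omega
  obtain ⟨f, hf, hf0, hford⟩ := hx.curveBar.exists_exact Q' hx.bound
    hx.exists_bound.choose_spec.2 hdeg
  have hf' := hx.curveBar.mem_L_bound.mp hf
  have hfQ' : Q'.ord f = 0 := by
    rw [hford, hx.curveBar.boundDiv_apply, max_eq_left (by have := h'.1; omega),
      Finsupp.single_eq_of_ne (fun e => hne e.symm)]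
    simp
  have hfQ : Vanish Q f 1 := by
    have := hf' Q
    rwa [Finsupp.single_eq_same, max_eq_left (by have := h.1; omega), mul_zero, sub_zero] at this
  have hfle : f ∈ (polesLe (G.red x) n : Submodule k Fb) :=
    hx.curveBar.L_bound_le_polesLe (Finsupp.single_nonneg.mpr zero_le_one) hf
  obtain ⟨y, hy, hyV, rfl⟩ := hx.exists_lift (by omega) hfle
  have hyr := hx.curve.regAway_of_mem_polesLe hy
  have h1 := h.2 y hyV hyr
  have h2 := h'.2 y hyV hyr
  rw [valAt_eq_zero_of_vanish hfQ] at h1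
  rw [← h1] at h2
  have hfQ'1 := (hx.curveBar.vanish_one_iff (Vanish.zero_iff.mpr hfQ'.ge)).mpr h2
  have := hfQ'1.resolve_left hf0
  omega

end GoodParam

end FLTAgent.Reduction
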