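import Mathlib
import Fermat.Agent.Reduction.PlacesCentre

/-!
# Centres and divisors on one chart

`centreMap` sends a place of the disc of `x` to its centre and the others to a pole of the reduced
parameter. On that chart it is compatible with divisors (`ord_red`): the reductions of the
functions bounded by a divisor fill the space bounded by its image (`redSub_boundDiv`, by
induction on the degree), which gives the orders of reductions (`ord_red_of_regAway`).
-/

set_option autoImplicit false
set_option linter.style.haveILetI false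
set_option linter.unusedSectionVars false

noncomputable section

open AlgebraicCurve Module

namespace FLTAgent.Reduction

variable {K k F Fb : Type*} [Field K] [Field k] [Field F] [Field Fb] [Algebra K F] [Algebra k Fb]
variable {A : ValuationSubring K} {π : A →+* k} [Infinite k]
variable {G : GaussRed A π F Fb} {g : ℕ} {x : F}

open Classical in
/-- The centre map of a chart; places outside the chart go to a pole of the parameter. -/
def centreMap (hx : GoodParam G g x) (P : Place K F) : Place k Fb :=
  if h : IsDisc A x P then (hx.exists_centre h).choose else hx.exists_pole_bar.choose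

namespace GoodParam

variable (hx : GoodParam G g x)
include hx

local notation "ψ" => paramDeg (K := K) x

theorem isCentre_centreMap {P : Place K F} (hP : IsDisc A x P) :
    IsCentre G x P (centreMap hx P) := by
  rw [centreMap, dif_pos hP]
  exact (hx.exists_centre hP).choose_spec

theorem ord_centreMap_nonneg {P : Place K F} (hP : IsDisc A x P) :
    0 ≤ (centreMap hx P).ord (G.red x) := (hx.isCentre_centreMap hP).1

theorem ord_centreMap_neg {P : Place K F} (hP : ¬ IsDisc A x P) :
    (centreMap hx P).ord (G.red x) < 0 := by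
  rw [centreMap, dif_neg hP]
  exact hx.exists_pole_bar.choose_spec

theorem centreMap_eq {P : Place K F} (hP : IsDisc A x P) {Q : Place k Fb}
    (h : IsCentre G x P Q) : centreMap hx P = Q :=
  hx.isCentre_unique (hx.isCentre_centreMap hP) h

theorem mapDomain_nonneg {D : Divisor K F} (hD : 0 ≤ D) (Q : Place k Fb) :
    0 ≤ Finsupp.mapDomain (centreMap hx) D Q := by
  classical
  rw [Finsupp.mapDomain, Finsupp.sum_apply]
  refine Finset.sum_nonneg fun P _ => ?_
  dsimp only
  rw [Finsupp.single_apply]
  split_ifs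
  · exact hD P
  · exact le_rfl

theorem mapDomain_pole {D : Divisor K F} (hD : SuppDisc A x D) {Q : Place k Fb}
    (hQ : Q.ord (G.red x) < 0) : Finsupp.mapDomain (centreMap hx) D Q = 0 := by
  classical
  rw [Finsupp.mapDomain, Finsupp.sum_apply]
  refine Finset.sum_eq_zero fun P hP => ?_
  dsimp only
  rw [Finsupp.single_apply, if_neg]
  rintro rfl
  have := hx.ord_centreMap_nonneg (hD.2 P (Finsupp.mem_support_iff.mp hP))
  omega

theorem degree_mapDomain (D : Divisor K F) :
    Divisor.degree (Finsupp.mapDomain (centreMap hx) D) = Divisor.degree D := by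
  rw [hx.curveBar.degree_eq_sum, hx.curve.degree_eq_sum]
  exact Finsupp.sum_mapDomain_index (fun _ => rfl) (fun _ _ _ => rfl)

theorem red_mem_redSub_of_vanish {D : Divisor K F} {d : ℕ} (hD : SuppDisc A x D)
    (hd : Divisor.degree D = d) {n : ℕ} (hn : hx.bound + d ≤ n) {y : F} (hy : y ∈ G.V)
    (hvan : ∀ P : Place K F, 0 ≤ P.ord x → Vanish P y (D P))
    (hred : G.red y ∈ (polesLe (G.red x) n : Submodule k Fb)) :
    G.red y ∈ G.redSub (riemannRochSpace (boundDiv x n D)) := by
  obtain ⟨n', rfl⟩ : ∃ n', n = n' + d := ⟨n - d, by omega⟩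
  obtain ⟨p, hp, hpd, hp0, hexact, hpvan⟩ := hx.exists_poly d D hD hd
  obtain ⟨z₀, hz₀n, hz₀V, hz₀⟩ := hx.exists_lift (n := n' + d) (by omega) hred
  have hyreg : RegAway (K := K) x y := fun P hP => (hvan P hP).mono (hD.1 P)
  have hmem : ∀ y' : F, y' ∈ (polesLe x (n' + d) : Submodule K F) →
      (∀ P : Place K F, 0 ≤ P.ord x → Vanish P y' (D P)) →
      y' ∈ riemannRochSpace (boundDiv x (n' + d) D) := by
    intro y' hy' hv
    refine hx.curve.mem_L_bound.mpr fun P => ?_
    rcases le_or_gt 0 (P.ord x) with hP | hP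
    · rw [max_eq_left (by omega), mul_zero, sub_zero]
      exact hv P hP
    · have h0 : D P = 0 := by
        by_contra h
        have := (hD.2 P h).1
        omega
      rw [h0, zero_sub]
      exact hx.curve.mem_polesLe.mp hy' P
  rcases eq_or_ne (y - z₀) 0 with h0 | h0
  · rw [sub_eq_zero] at h0
    exact ⟨y, hmem y (h0 ▸ hz₀n) hvan, hy, rfl⟩
  obtain ⟨a, w, ha, hw, hw0, hyz⟩ := hx.exists_eq_smul (G.V.sub_mem hy hz₀V) h0
  have hwreg : RegAway (K := K) x w := fun P hP => by
    have := ((hyreg P hP).sub (hx.curve.regAway_of_mem_polesLe hz₀n P hP)).smul (a : K)⁻¹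
    rwa [hyz, smul_smul, inv_mul_cancel₀ ha, one_smul] at this
  obtain ⟨m, hm⟩ := hx.curve.exists_mem_polesLe hwreg
  obtain ⟨w₁, w₂, hw₁V, hw₁, hw₂V, hw₂, hwdec⟩ := hx.exists_decomp (n' := n') (m := m) (by omega)
    hp hpd hp0 hexact hw (hx.curve.polesLe_mono x (Nat.le_add_left m _) hm)
  have ha0 : π a = 0 := by
    have h1 := congrArg G.red hyz
    rw [G.red_sub hy hz₀V, hz₀, sub_self, G.red_smul a hw] at h1
    exact (smul_eq_zero.mp h1.symm).resolve_right hw0
  refine ⟨z₀ + (a : K) • w₁,
    hmem _ (Submodule.add_mem _ hz₀n (Submodule.smul_mem _ _ hw₁)) (fun P hP => ?_),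
    G.V.add_mem hz₀V (G.smul_mem a hw₁V), ?_⟩
  · have he : z₀ + (a : K) • w₁ = y - (a : K) • (p * w₂) := by
      rw [hwdec, smul_add] at hyz
      linear_combination -hyz
    rw [he]
    refine (hvan P hP).sub (Vanish.smul _ ?_)
    simpa using (hpvan P hP).mul (hx.curve.regAway_of_mem_polesLe hw₂ P hP)
  · rw [G.red_add hz₀V (G.smul_mem a hw₁V), hz₀, G.red_smul a hw₁V, ha0, zero_smul, add_zero]

theorem redSub_boundDiv : ∀ (d : ℕ) (D : Divisor K F), SuppDisc A x D → Divisor.degree D = d →
    ∀ n : ℕ, hx.bound + d + 1 ≤ n →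
      G.redSub (riemannRochSpace (boundDiv x n D))
        = riemannRochSpace (boundDiv (G.red x) n (Finsupp.mapDomain (centreMap hx) D)) := by
  classical
  intro d
  induction d with
  | zero =>
    intro D hD hdeg n hn
    have hD0 : D = 0 :=
      (hx.curve.eq_of_le_of_degree_eq (D := 0) hD.1 (by rw [map_zero, hdeg]; rfl)).symm
    rw [hD0, Finsupp.mapDomain_zero]
    exact hx.redSub_polesLe (by omega)
  | succ d ih =>
    intro D hD hdeg n hn
    set Db := Finsupp.mapDomain (centreMap hx) D with hDb
    have hlow : (n : ℤ) ≤ n * (ψ : ℤ) := hx.le_mul_paramDeg n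
    have hdimF := hx.ell_bound (n := n) (D := D) (by rw [hdeg]; push_cast; omega)
    have hdimFb := hx.ell_bound_bar (n := n) (D := Db)
      (by rw [hDb, hx.degree_mapDomain, hdeg]; push_cast; omega)
    rw [hDb, hx.degree_mapDomain] at hdimFb
    rw [← hDb] at hdimFb
    haveI := (hx.finrank_redSub_L (boundDiv x n D)).2
    symm
    refine Submodule.eq_of_le_of_finrank_eq (fun f hf => ?_) ?_
    swap
    · rw [(hx.finrank_redSub_L (boundDiv x n D)).1]
      simp only [ell] at hdimF hdimFb
      omega
    rcases eq_or_ne f 0 with rfl | hf0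
    · exact zero_mem _
    obtain ⟨P₀, hP₀⟩ : ∃ P, D P ≠ 0 := by
      by_contra h
      push Not at h
      rw [show D = 0 from Finsupp.ext h, map_zero] at hdeg
      omega
    have hdisc := hD.2 P₀ hP₀
    set D' := D - Finsupp.single P₀ 1 with hD'def
    have hD' : SuppDisc A x D' := by
      refine ⟨fun P => ?_, fun P hP => ?_⟩
      · simp only [hD'def, Finsupp.sub_apply, Finsupp.zero_apply]
        have h0 : 0 ≤ D P := hD.1 P
        by_cases h : P = P₀
        · subst h; rw [Finsupp.single_eq_same]; omega
        · rw [Finsupp.single_eq_of_ne h]; omega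
      · by_cases h : P = P₀
        · exact h ▸ hdisc
        · exact hD.2 P (by simpa [hD'def, Finsupp.single_eq_of_ne h] using hP)
    have hdeg' : Divisor.degree D' = (d : ℤ) := by
      rw [hD'def, map_sub, hdeg, hx.curve.degree_single]; push_cast; ring
    set Q := centreMap hx P₀ with hQdef
    have hQfin : 0 ≤ Q.ord (G.red x) := hx.ord_centreMap_nonneg hdisc
    set Db' := Finsupp.mapDomain (centreMap hx) D' with hDb'
    have hDbeq : Db = Db' + Finsupp.single Q 1 := by
      rw [hDb, hDb', hD'def, hQdef, ← Finsupp.mapDomain_single (f := centreMap hx),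
        ← Finsupp.mapDomain_add, sub_add_cancel]
    have hIH := ih D' hD' hdeg' n (by omega)
    have hfv := hx.curveBar.mem_L_bound.mp hf
    -- `f` and `z` lift
    have hfD' : f ∈ riemannRochSpace (boundDiv (G.red x) n Db') := by
      refine hx.curveBar.mem_L_bound.mpr fun v => (hfv v).mono ?_
      rw [hDbeq, Finsupp.add_apply]
      by_cases hv : v = Q
      · subst hv; rw [Finsupp.single_eq_same]; omega
      · rw [Finsupp.single_eq_of_ne hv]; omega
    obtain ⟨z, hz, hz0, hzord⟩ := hx.curveBar.exists_exact Q hx.bound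
      hx.exists_bound.choose_spec.2 (D := boundDiv (G.red x) n Db') (by
        rw [hx.curveBar.degree_boundDiv, hx.degree_poleDiv_bar, hDb', hx.degree_mapDomain, hdeg']
        omega)
    rw [hx.curveBar.boundDiv_apply, max_eq_left (by omega), mul_zero, zero_sub, neg_neg] at hzord
    rw [← hIH] at hfD'
    obtain ⟨F₁, hF₁, hF₁V, hF₁red⟩ := hfD'
    have hz' := hz
    rw [← hIH] at hz'
    obtain ⟨Z, hZ, hZV, hZred⟩ := hz'
    -- a denominator for `f / z`
    set h := f * z⁻¹ with hh
    have hhQ : Vanish Q h 1 := by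
      have hq := hfv Q
      rw [max_eq_left (by omega), mul_zero, sub_zero, hDbeq, Finsupp.add_apply,
        Finsupp.single_eq_same] at hq
      refine (hq.mul (Vanish.self z⁻¹)).mono ?_
      rw [Q.ord_inv, hzord]
      omega
    set B : Divisor k Fb := (poleDiv h).filter (fun v => 0 ≤ v.ord (G.red x)) with hB
    have hB0 : 0 ≤ B := fun v => by
      rw [hB, Finsupp.filter_apply]
      split_ifs
      · rw [hx.curveBar.poleDiv_apply]; exact le_max_left _ _
      · exact le_rfl
    have hBQ : B Q = 0 := by
      rw [hB, Finsupp.filter_apply, if_pos hQfin, hx.curveBar.poleDiv_apply]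
      rcases hhQ with h0 | h1
      · rw [h0, Q.ord_zero]; rfl
      · omega
    obtain ⟨N, hN⟩ : ∃ N : ℕ, N = (Divisor.degree B).toNat + hx.bound + 1 := ⟨_, rfl⟩
    obtain ⟨b, hb, hb0, hbord⟩ := hx.curveBar.exists_exact Q hx.bound
      hx.exists_bound.choose_spec.2 (D := boundDiv (G.red x) N B) (by
        rw [hx.curveBar.degree_boundDiv, hx.degree_poleDiv_bar]
        have := hx.le_mul_paramDeg N
        have := hx.curveBar.degree_nonneg hB0
        omega)
    rw [hx.curveBar.boundDiv_apply, max_eq_left (by omega), mul_zero, hBQ, sub_zero, neg_zero]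
      at hbord
    have hbv := hx.curveBar.mem_L_bound.mp hb
    have hbreg : RegAway (K := k) (G.red x) b := fun v hv => by
      refine (hbv v).mono ?_
      rw [max_eq_left (by omega), mul_zero, sub_zero]
      exact hB0 v
    have hareg : RegAway (K := k) (G.red x) (b * h) := fun v hv => by
      refine ((hbv v).mul (Vanish.self h)).mono ?_
      rw [max_eq_left (by omega), mul_zero, sub_zero, hB, Finsupp.filter_apply, if_pos hv,
        hx.curveBar.poleDiv_apply]
      omega
    have haQ : Vanish Q (b * h) 1 := (Vanish.zero_iff.mpr hbord.ge).mul_zero' hhQ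
    obtain ⟨α, hαV, hαr, hαred⟩ := hx.exists_lift_reg hareg
    obtain ⟨α', hα'V, hα'r, -, hα'van, hα'red⟩ := hx.exists_shift hdisc hαV hαr
    rw [← (hx.isCentre_centreMap hdisc).2 α hαV hαr, hαred, ← hQdef,
      valAt_eq_zero_of_vanish haQ, map_zero, sub_zero] at hα'red
    obtain ⟨β, hβV, hβr, hβred⟩ := hx.exists_lift_reg hbreg
    obtain ⟨β', hβ'V, hβ'r, -, hβ'van, hβ'red⟩ := hx.exists_shift hdisc hβV hβr
    rw [← (hx.isCentre_centreMap hdisc).2 β hβV hβr, hβred, ← hQdef] at hβ'red
    set c : k := valAt Q b with hc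
    have hc0 : c ≠ 0 := fun h0 => by
      have := ((hx.curveBar.vanish_one_iff (Vanish.zero_iff.mpr hbord.ge)).mpr h0).resolve_left hb0
      omega
    set y := α' * Z - β' * F₁ with hy
    have hyV : y ∈ G.V := G.V.sub_mem (G.V.mul_mem hα'V hZV) (G.V.mul_mem hβ'V hF₁V)
    have hyvan : ∀ P : Place K F, 0 ≤ P.ord x → Vanish P y (D P) := by
      intro P hP
      have hZP := hx.curve.mem_L_bound.mp hZ P
      have hFP := hx.curve.mem_L_bound.mp hF₁ P
      rw [max_eq_left (by omega), mul_zero, sub_zero] at hZP hFP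
      by_cases h : P = P₀
      · subst h
        have e : D P = 1 + D' P := by simp [hD'def]
        rw [e]
        exact (hα'van.mul hZP).sub (hβ'van.mul hFP)
      · have e : D P = D' P := by simp [hD'def, Finsupp.single_eq_of_ne h]
        rw [e]
        exact ((hα'r P hP).mul_zero' hZP).sub ((hβ'r P hP).mul_zero' hFP)
    have hyred : G.red y = c • f := by
      rw [hy, G.red_sub (G.V.mul_mem hα'V hZV) (G.V.mul_mem hβ'V hF₁V), G.red_mul hα'V hZV,
        G.red_mul hβ'V hF₁V, hα'red, hβ'red, hF₁red, hZred, Algebra.smul_def, hh]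
      field_simp
      ring
    have hmem := hx.red_mem_redSub_of_vanish hD hdeg (n := n) (by omega) hyV hyvan
      (by rw [hyred]; exact Submodule.smul_mem _ _ (hx.curveBar.L_bound_le_polesLe
        (hx.mapDomain_nonneg hD.1) hf))
    rw [hyred] at hmem
    have := Submodule.smul_mem _ c⁻¹ hmem
    rwa [smul_smul, inv_mul_cancel₀ hc0, one_smul] at this

theorem ord_red_of_regAway {y : F} (hy : y ∈ G.V) (hyr : RegAway (K := K) x y)
    (hy0 : G.red y ≠ 0) {Q : Place k Fb} (hQ : 0 ≤ Q.ord (G.red x)) :
    Q.ord (G.red y) = Finsupp.mapDomain (centreMap hx) (divOf y : Divisor K F) Q := by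
  classical
  set D : Divisor K F := (divOf y).filter (fun P => IsDisc A x P) with hDdef
  set D₀ : Divisor K F := (divOf y).filter (fun P => ¬ IsDisc A x P) with hD₀def
  have hsum : (divOf y : Divisor K F) = D + D₀ := (Finsupp.filter_add_filter_not _ _).symm
  have hD₀Q : Finsupp.mapDomain (centreMap hx) D₀ Q = 0 := by
    rw [Finsupp.mapDomain, Finsupp.sum_apply]
    refine Finset.sum_eq_zero fun P hP => ?_
    dsimp only
    rw [Finsupp.single_apply, if_neg]
    rintro rfl
    rw [hD₀def, Finsupp.support_filter, Finset.mem_filter] at hP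
    have := hx.ord_centreMap_neg hP.2
    omega
  rw [hsum, Finsupp.mapDomain_add, Finsupp.add_apply, hD₀Q, add_zero]
  have hDP : ∀ P, D P = if IsDisc A x P then P.ord y else 0 := fun P => by
    rw [hDdef, Finsupp.filter_apply, hx.curve.divOf_apply]
  have hD : SuppDisc A x D := by
    refine ⟨fun P => ?_, fun P hP => ?_⟩
    · rw [hDP, Finsupp.zero_apply]
      split_ifs with h
      · exact Vanish.zero_iff.mp (hyr P h.1)
      · exact le_rfl
    · rw [hDP] at hP
      exact Classical.byContradiction fun h => hP (if_neg h)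
  obtain ⟨d, hd⟩ : ∃ d : ℕ, Divisor.degree D = d :=
    ⟨_, (Int.toNat_of_nonneg (hx.curve.degree_nonneg hD.1)).symm⟩
  obtain ⟨m, hm⟩ := hx.curve.exists_mem_polesLe hyr
  obtain ⟨n, hn⟩ : ∃ n : ℕ, n = hx.bound + d + 1 + m := ⟨_, rfl⟩
  have hyv : ∀ P : Place K F, 0 ≤ P.ord x → Vanish P y (D P) := fun P hP => by
    rw [hDP]
    split_ifs
    · exact Vanish.self y
    · exact hyr P hP
  have hmem := hx.red_mem_redSub_of_vanish hD hd (n := n) (by omega) hy hyv
    (hx.red_mem_polesLe hy (hx.curve.polesLe_mono x (by omega) hm))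
  have heq := hx.redSub_boundDiv d D hD hd n (by omega)
  set Db := Finsupp.mapDomain (centreMap hx) D with hDb
  refine le_antisymm ?_ ?_
  · obtain ⟨f, hf, hf0, hford⟩ := hx.curveBar.exists_exact Q hx.bound
      hx.exists_bound.choose_spec.2 (D := boundDiv (G.red x) n Db) (by
        rw [hx.curveBar.degree_boundDiv, hx.degree_poleDiv_bar, hDb, hx.degree_mapDomain, hd]
        have := hx.le_mul_paramDeg n
        omega)
    rw [hx.curveBar.boundDiv_apply, max_eq_left (by omega), mul_zero, zero_sub, neg_neg] at hford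
    rw [← heq] at hf
    obtain ⟨z, hz, hzV, hzred⟩ := hf
    -- a factor vanishing outside the disc, with reduction one
    set S := (divOf y : Divisor K F).support.filter fun P => 0 ≤ P.ord x ∧ ¬ IsDisc A x P with hS
    have hSnot : ∀ P ∈ S, valAt P x ∉ A := fun P hP hc =>
      (Finset.mem_filter.mp hP).2.2 ⟨(Finset.mem_filter.mp hP).2.1, hc⟩
    set u : F := ∏ P ∈ S, linFactor A x (valAt P x) ^ (P.ord y).toNat with hu
    have hmV : ∀ P ∈ S, linFactor A x (valAt P x) ^ (P.ord y).toNat ∈ G.V := fun P _ =>
      pow_mem (hx.linFactor_mem _) _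
    have huV : u ∈ G.V := G.V.prod_mem hmV
    have hured : G.red u = 1 := by
      rw [hu, G.red_prod _ _ hmV]
      refine Finset.prod_eq_one fun P hP => ?_
      rw [G.red_pow (hx.linFactor_mem _), hx.red_linFactor_of_notMem (hSnot P hP), one_pow]
    have hprod : ∀ (T : Finset (Place K F)) (P : Place K F), 0 ≤ P.ord x →
        Vanish P (∏ R ∈ T, linFactor A x (valAt R x) ^ (R.ord y).toNat) 0 := by
      intro T P hP
      induction T using Finset.induction with
      | empty => simpa using Vanish.one
      | insert a s ha ih =>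
        rw [Finset.prod_insert ha]
        exact Vanish.mul_zero' (by simpa using ((hx.curve.regAway_of_mem_polesLe
          (hx.linFactor_mem_polesLe (valAt a x))) P hP).pow (a.ord y).toNat) ih
    set q := z * u * y⁻¹ with hq
    have hqV : q ∈ G.V := G.V.mul_mem (G.V.mul_mem hzV huV) (G.inv_mem hy hy0)
    have hqreg : RegAway (K := K) x q := by
      intro P hP
      have hzP := hx.curve.mem_L_bound.mp hz P
      rw [max_eq_left (by omega), mul_zero, sub_zero, hDP] at hzP
      by_cases hdisc : IsDisc A x P
      · rw [if_pos hdisc] at hzP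
        refine ((hzP.mul (hprod S P hP)).mul (Vanish.self y⁻¹)).mono ?_
        rw [P.ord_inv]; omega
      · rw [if_neg hdisc] at hzP
        by_cases hPS : P ∈ S
        · have huP : Vanish P u ((P.ord y).toNat : ℤ) := by
            rw [hu, ← Finset.mul_prod_erase _ _ hPS]
            exact (((hx.vanish_linFactor hP).pow (P.ord y).toNat).mul
              (hprod (S.erase P) P hP)).mono (by simp)
          refine ((hzP.mul huP).mul (Vanish.self y⁻¹)).mono ?_
          rw [P.ord_inv]; omega
        · have hy' : P.ord y = 0 := by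
            by_contra hne
            exact hPS (Finset.mem_filter.mpr
              ⟨Finsupp.mem_support_iff.mpr (by rwa [hx.curve.divOf_apply]), hP, hdisc⟩)
          refine ((hzP.mul (hprod S P hP)).mul (Vanish.self y⁻¹)).mono ?_
          rw [P.ord_inv, hy']; omega
    have hqbar := hx.red_regAway hqV hqreg Q hQ
    rw [hq, G.red_mul (G.V.mul_mem hzV huV) (G.inv_mem hy hy0), G.red_mul hzV huV, hured, mul_one,
      hzred, G.red_inv hy hy0] at hqbar
    have := hqbar.resolve_left (mul_ne_zero hf0 (inv_ne_zero hy0))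
    rw [Q.ord_mul hf0 (inv_ne_zero hy0), Q.ord_inv, hford] at this
    omega
  · rw [heq] at hmem
    have := hx.curveBar.mem_L_bound.mp hmem Q
    rw [max_eq_left (by omega), mul_zero, sub_zero] at this
    exact this.resolve_left hy0

/-- Compatibility with divisors in the chart. -/
theorem ord_red {u : F} (hu : u ∈ G.V) (hu0 : G.red u ≠ 0) {Q : Place k Fb}
    (hQ : 0 ≤ Q.ord (G.red x)) :
    Q.ord (G.red u) = Finsupp.mapDomain (centreMap hx) (divOf u : Divisor K F) Q := by
  obtain ⟨p, hp, hp0, hpr, hpu⟩ := hx.exists_clear_poles u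
  have h1 := hx.ord_red_of_regAway (G.V.mul_mem hp hu) hpu
    (by rw [G.red_mul hp hu]; exact mul_ne_zero hp0 hu0) hQ
  have h2 := hx.ord_red_of_regAway hp hpr hp0 hQ
  rw [G.red_mul hp hu, Q.ord_mul hp0 hu0,
    hx.curve.divOf_mul (G.ne_zero_of_red hp0) (G.ne_zero_of_red hu0), Finsupp.mapDomain_add,
    Finsupp.add_apply] at h1
  omega

end GoodParam

end FLTAgent.Reduction
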