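import Mathlib
import Fermat.Agent.Reduction.PlacesDivisor

/-!
# The reduction of places

`redMap` glues the centre maps of the charts of `x` and `x⁻¹`. It is a reduction of places
compatible with divisors (`IsRed`, proved in `isRed`): it preserves degree and principal divisors
(`degree_mapDomain`, `mapDomain_principal`), computes values of functions regular on a fibre
(`value_of_regFibre`) and is the only such map (`unique`).
-/

set_option autoImplicit false
set_option linter.style.haveILetI false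
set_option linter.unusedSectionVars false

noncomputable section

open AlgebraicCurve Module

namespace FLTAgent.Reduction

variable {K k F Fb : Type*} [Field K] [Field k] [Field F] [Field Fb] [Algebra K F] [Algebra k Fb]
variable {A : ValuationSubring K} {π : A →+* k}

/-- `r` is a reduction of places, compatible with divisors of functions. -/
structure IsRed (G : GaussRed A π F Fb) (g : ℕ) (r : Place K F → Place k Fb) : Prop where
  curve : CurveData K F g
  curveBar : ∃ g', CurveData k Fb g'
  scale : ∀ y : F, y ≠ 0 → ∃ c : K, c ≠ 0 ∧ c • y ∈ G.V ∧ G.red (c • y) ≠ 0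
  ord_eq : ∀ u ∈ G.V, G.red u ≠ 0 → ∀ Q : Place k Fb,
    Q.ord (G.red u) = Finsupp.mapDomain r (divOf u : Divisor K F) Q

/-- `y` is regular at every place with reduction `Q`. -/
def RegFibre (r : Place K F → Place k Fb) (Q : Place k Fb) (y : F) : Prop :=
  ∀ P : Place K F, r P = Q → Vanish P y 0

theorem mapDomain_apply_eq_sum {α β : Type*} [DecidableEq β] (f : α → β) (D : α →₀ ℤ) (b : β) :
    Finsupp.mapDomain f D b = ∑ a ∈ D.support.filter (fun a => f a = b), D a := by
  rw [Finsupp.mapDomain, Finsupp.sum_apply, Finset.sum_filter]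
  refine Finset.sum_congr rfl fun a _ => ?_
  dsimp only
  rw [Finsupp.single_apply]

theorem le_mapDomain_of_nonneg {α β : Type*} (f : α → β) (D : α →₀ ℤ) (b : β)
    (h : ∀ a, f a = b → 0 ≤ D a) {a : α} (ha : f a = b) :
    D a ≤ Finsupp.mapDomain f D b := by
  classical
  rw [mapDomain_apply_eq_sum]
  by_cases hz : D a = 0
  · rw [hz]
    exact Finset.sum_nonneg fun i hi => h i (Finset.mem_filter.mp hi).2
  · exact Finset.single_le_sum (f := fun a => D a)
      (fun i hi => h i (Finset.mem_filter.mp hi).2)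
      (Finset.mem_filter.mpr ⟨Finsupp.mem_support_iff.mpr hz, ha⟩)

theorem add_le_mapDomain_of_nonneg {α β : Type*} (f : α → β) (D : α →₀ ℤ) (b : β)
    (h : ∀ a, f a = b → 0 ≤ D a) {a a' : α} (ha : f a = b) (ha' : f a' = b) (hne : a ≠ a') :
    D a + D a' ≤ Finsupp.mapDomain f D b := by
  classical
  have h1 := le_mapDomain_of_nonneg f (D.erase a) b (fun i hi => by
    by_cases e : i = a
    · rw [e, Finsupp.erase_same]
    · rw [Finsupp.erase_ne e]; exact h i hi) ha'
  rw [Finsupp.erase_ne (Ne.symm hne)] at h1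
  conv_rhs => rw [← Finsupp.single_add_erase a D, Finsupp.mapDomain_add, Finsupp.mapDomain_single,
    ha, Finsupp.add_apply, Finsupp.single_eq_same]
  omega

theorem valAt_inv {g : ℕ} (hC : CurveData K F g) {P : Place K F} {y : F} (hy : y ≠ 0)
    (h : P.ord y = 0) : valAt P y ≠ 0 ∧ valAt P y⁻¹ = (valAt P y)⁻¹ := by
  have hv : Vanish P y 0 := Or.inr h.ge
  have hv' : Vanish P y⁻¹ 0 := Or.inr (by rw [P.ord_inv, h]; rfl)
  have h1 := hC.valAt_mul hv hv'
  rw [mul_inv_cancel₀ hy, valAt_one] at h1
  exact ⟨left_ne_zero_of_mul (h1 ▸ one_ne_zero), eq_inv_of_mul_eq_one_right h1.symm⟩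

theorem disc_inv_of_not_disc (G : GaussRed A π F Fb) {g : ℕ} (hC : CurveData K F g) {y : F}
    (hy : y ≠ 0) {P : Place K F} (h : ¬ IsDisc A y P) :
    IsDisc A y⁻¹ P ∧ resVal π P y⁻¹ = 0 := by
  rcases lt_or_ge (P.ord y) 0 with hneg | hpos
  · have hv : valAt P y⁻¹ = 0 := valAt_eq_zero_of_vanish (Or.inr (by rw [P.ord_inv]; omega))
    exact ⟨⟨by rw [P.ord_inv]; omega, hv ▸ A.zero_mem⟩,
      by rw [resVal_of_eq P y⁻¹ 0 hv, map_zero]⟩
  · have hc : valAt P y ∉ A := fun hc => h ⟨hpos, hc⟩
    have hord : P.ord y = 0 := by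
      by_contra hne
      exact hc (valAt_eq_zero_of_vanish (v := P) (f := y) (Or.inr (by omega)) ▸ A.zero_mem)
    obtain ⟨-, hv⟩ := valAt_inv hC hy hord
    have hinv := (A.mem_or_inv_mem _).resolve_left hc
    exact ⟨⟨by rw [P.ord_inv, hord]; rfl, hv ▸ hinv⟩,
      by rw [resVal_of_eq P y⁻¹ ⟨_, hinv⟩ hv]; exact G.res_inv_of_notMem hc⟩

section Map

variable [Infinite k] {G : GaussRed A π F Fb} {g : ℕ} {x : F}

open Classical in
/-- The reduction of places attached to a good parameter. -/
def redMap (hx : GoodParam G g x) (P : Place K F) : Place k Fb :=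
  if IsDisc A x P then centreMap hx P else centreMap hx.inv P

namespace GoodParam

variable (hx : GoodParam G g x)
include hx

theorem isDisc_inv {P : Place K F} (h : ¬ IsDisc A x P) : IsDisc A x⁻¹ P :=
  (disc_inv_of_not_disc G hx.curve hx.ne_zero h).1

theorem ord_centreMap_inv_neg {P : Place K F} (h : ¬ IsDisc A x P) :
    (centreMap hx.inv P).ord (G.red x) < 0 := by
  obtain ⟨hd, hz⟩ := disc_inv_of_not_disc G hx.curve hx.ne_zero h
  obtain ⟨hreg, hval⟩ := hx.inv.isCentre_centreMap hd
  have h1 := hval _ hx.inv.mem hx.inv.regAway_self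
  rw [hz] at h1
  have h2 := ((hx.curveBar.vanish_one_iff (Vanish.zero_iff.mpr hreg)).mpr h1).resolve_left
    hx.inv.red_ne_zero
  rw [G.red_inv hx.mem hx.red_ne_zero, Place.ord_inv] at h2
  omega

theorem ord_centreMap_pos {P : Place K F} (h : ¬ IsDisc A x⁻¹ P) :
    0 < (centreMap hx P).ord (G.red x) := by
  obtain ⟨hd, hz⟩ := disc_inv_of_not_disc G hx.curve (inv_ne_zero hx.ne_zero) h
  rw [inv_inv] at hd hz
  obtain ⟨hreg, hval⟩ := hx.isCentre_centreMap hd
  have h1 := hval _ hx.mem hx.regAway_self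
  rw [hz] at h1
  have h2 := ((hx.curveBar.vanish_one_iff (Vanish.zero_iff.mpr hreg)).mpr h1).resolve_left
    hx.red_ne_zero
  omega

theorem centreMap_inv_eq {P : Place K F} (h : IsDisc A x P) (h' : IsDisc A x⁻¹ P) :
    centreMap hx.inv P = centreMap hx P := by
  have hord : P.ord x = 0 := by
    have := h'.1
    rw [P.ord_inv] at this
    have := h.1
    omega
  obtain ⟨hne, hv⟩ := valAt_inv hx.curve hx.ne_zero hord
  set a : A := ⟨_, h.2⟩
  set a' : A := ⟨_, h'.2⟩
  have hunit : π a * π a' = 1 := by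
    rw [← map_mul]
    convert map_one π
    exact Subtype.ext (by simp [a, a', hv, mul_inv_cancel₀ hne])
  have hcentre := hx.isCentre_centreMap h
  generalize centreMap hx P = Q at hcentre ⊢
  obtain ⟨hQreg, hQval⟩ := hcentre
  have hvx : valAt Q (G.red x) = π a := by
    rw [hQval x hx.mem hx.regAway_self]
    exact resVal_of_eq P x a rfl
  have hQ0 : Q.ord (G.red x) = 0 := by
    by_contra hne'
    have : valAt Q (G.red x) = 0 :=
      valAt_eq_zero_of_vanish (v := Q) (f := G.red x) (Or.inr (by omega))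
    rw [hvx] at this
    rw [this, zero_mul] at hunit
    exact zero_ne_one hunit
  refine hx.inv.centreMap_eq h' ⟨?_, fun y hy hyr => ?_⟩
  · rw [G.red_inv hx.mem hx.red_ne_zero, Place.ord_inv, hQ0]; rfl
  obtain ⟨m, hm⟩ := hx.curve.exists_mem_polesLe hyr
  have hxm := pow_mem hx.mem m
  have hreg' : RegAway (K := K) x (y * x ^ m) := by
    intro P' hP'
    refine ((hx.curve.mem_polesLe.mp hm P').mul ((Vanish.self x).pow m)).mono ?_
    rw [P'.ord_inv, neg_neg, max_eq_right hP']
    omega
  have h1 := hQval _ (G.V.mul_mem hy hxm) hreg'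
  have hregx : RegAway (K := K) x (x ^ m) := fun P' hP' => by
    simpa using (Vanish.zero_iff.mpr hP').pow m
  have h2 := hQval _ hxm hregx
  have hvy : valAt P y ∈ A := hx.inv.valAt_mem h' hy hyr
  have hvxm : valAt P (x ^ m) ∈ A := hx.valAt_mem h hxm hregx
  have hyQ : Vanish Q (G.red y) 0 := hx.inv.red_regAway hy hyr Q
    (by rw [G.red_inv hx.mem hx.red_ne_zero, Place.ord_inv, hQ0]; rfl)
  have hxQ : Vanish Q (G.red (x ^ m)) 0 := hx.red_regAway hxm hregx Q hQreg
  have hyP : Vanish P y 0 := hyr P h'.1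
  have hxP : Vanish P (x ^ m) 0 := hregx P h.1
  rw [G.red_mul hy hxm, hx.curveBar.valAt_mul hyQ hxQ, h2,
    resVal_of_eq P (y * x ^ m) (⟨_, hvy⟩ * ⟨_, hvxm⟩) (hx.curve.valAt_mul hyP hxP), map_mul,
    ← resVal_of_eq P y ⟨_, hvy⟩ rfl, ← resVal_of_eq P (x ^ m) ⟨_, hvxm⟩ rfl] at h1
  refine mul_right_cancel₀ ?_ h1
  rw [← h2, G.red_pow hx.mem]
  intro h0
  have h3 := ((hx.curveBar.vanish_one_iff (by simpa [G.red_pow hx.mem] using hxQ)).mpr h0)
  have h4 := h3.resolve_left (pow_ne_zero m hx.red_ne_zero)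
  rw [FF.ord_pow, hQ0] at h4
  omega

theorem redMap_eq_iff {Q : Place k Fb} (hQ : 0 ≤ Q.ord (G.red x)) (P : Place K F) :
    redMap hx P = Q ↔ centreMap hx P = Q := by
  by_cases h : IsDisc A x P
  · simp [redMap, h]
  · simp only [redMap, if_neg h]
    constructor <;> rintro rfl
    · exact absurd hQ (not_le.mpr (hx.ord_centreMap_inv_neg h))
    · exact absurd hQ (not_le.mpr (hx.ord_centreMap_neg h))

theorem redMap_eq_iff_inv {Q : Place k Fb} (hQ : Q.ord (G.red x) < 0) (P : Place K F) :
    redMap hx P = Q ↔ centreMap hx.inv P = Q := by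
  by_cases h' : IsDisc A x⁻¹ P
  · by_cases h : IsDisc A x P
    · simp [redMap, h, hx.centreMap_inv_eq h h']
    · simp [redMap, h]
  · have h : IsDisc A x P := by
      by_contra h
      exact h' (hx.isDisc_inv h)
    simp only [redMap, if_pos h]
    constructor <;> rintro rfl
    · exact absurd hQ (not_lt.mpr (hx.ord_centreMap_pos h').le)
    · have := hx.inv.ord_centreMap_neg h'
      rw [G.red_inv hx.mem hx.red_ne_zero, Place.ord_inv] at this
      omega

/-- The reduction of places is compatible with divisors. -/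
theorem isRed : IsRed G g (redMap hx) where
  curve := hx.curve
  curveBar := ⟨_, hx.curveBar⟩
  scale _ hy := hx.exists_smul hy
  ord_eq u hu hu0 Q := by
    classical
    rcases le_or_gt 0 (Q.ord (G.red x)) with hQ | hQ
    · rw [hx.ord_red hu hu0 hQ, mapDomain_apply_eq_sum, mapDomain_apply_eq_sum]
      refine Finset.sum_congr (Finset.filter_congr fun P _ => ?_) fun _ _ => rfl
      exact (hx.redMap_eq_iff hQ P).symm
    · rw [hx.inv.ord_red hu hu0 (by rw [G.red_inv hx.mem hx.red_ne_zero, Place.ord_inv]; omega),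
        mapDomain_apply_eq_sum, mapDomain_apply_eq_sum]
      refine Finset.sum_congr (Finset.filter_congr fun P _ => ?_) fun _ _ => rfl
      exact (hx.redMap_eq_iff_inv hQ P).symm

theorem regFibre_of_regAway {y : F} (hy : RegAway (K := K) x y) {Q : Place k Fb}
    (hQ : 0 ≤ Q.ord (G.red x)) : RegFibre (redMap hx) Q y := by
  intro P hP
  by_cases h : IsDisc A x P
  · exact hy P h.1
  · rw [hx.redMap_eq_iff hQ] at hP
    exact absurd hQ (not_le.mpr (hP ▸ hx.ord_centreMap_neg h))

theorem exists_uniformizer {Q : Place k Fb} (hQ : 0 ≤ Q.ord (G.red x)) :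
    ∃ s ∈ G.V, Q.ord (G.red s) = 1 ∧ RegFibre (redMap hx) Q s := by
  obtain ⟨n, hn⟩ : ∃ n : ℕ, n = hx.bound + 2 := ⟨_, rfl⟩
  obtain ⟨f, hf, hf0, hord⟩ := hx.curveBar.exists_exact Q hx.bound hx.exists_bound.choose_spec.2
    (D := boundDiv (G.red x) n (Finsupp.single Q 1 : Divisor k Fb)) (by
      rw [hx.curveBar.degree_boundDiv, hx.degree_poleDiv_bar, hx.curveBar.degree_single]
      have := hx.le_mul_paramDeg n
      omega)
  rw [hx.curveBar.boundDiv_apply, max_eq_left (by omega), mul_zero, zero_sub, neg_neg,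
    Finsupp.single_eq_same] at hord
  obtain ⟨s, hs, hsV, rfl⟩ := hx.exists_lift (n := n) (by omega)
    (hx.curveBar.L_bound_le_polesLe (Finsupp.single_nonneg.mpr zero_le_one) hf)
  exact ⟨s, hsV, hord, hx.regFibre_of_regAway (hx.curve.regAway_of_mem_polesLe hs) hQ⟩

theorem infinite_finite_image : (Set.range (redMap hx) ∩ {Q | 0 ≤ Q.ord (G.red x)}).Infinite := by
  classical
  have hex : ∀ c : k, ∃ P : Place K F, IsDisc A x P ∧ resVal π P x = c := by
    intro c
    obtain ⟨a, rfl⟩ := G.res_surj c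
    have hne : x - algebraMap K F (a : K) ≠ 0 := fun h => hx.not_const (π a) (by
      rw [sub_eq_zero.mp h, G.red_const])
    obtain ⟨P, hP⟩ : ∃ P : Place K F, 0 < P.ord (x - algebraMap K F (a : K)) := by
      by_contra h
      push Not at h
      obtain ⟨d, hd⟩ := hx.curve.const (x - algebraMap K F (a : K))⁻¹ fun P => by
        have := h P; rw [P.ord_inv]; omega
      have hxval : x = algebraMap K F (d⁻¹ + a) := by
        rw [map_add, map_inv₀, hd, inv_inv, sub_add_cancel]
      have hd' : d⁻¹ + (a : K) ∈ A := hx.mem_A_of_algebraMap_mem (hxval ▸ hx.mem)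
      exact hx.not_const _ ((congrArg G.red hxval).trans (G.red_const ⟨_, hd'⟩))
    have hv : valAt P x = a := valAt_eq (Or.inr (by omega))
    have hreg : 0 ≤ P.ord x := by
      rw [← sub_add_cancel x (algebraMap K F (a : K))]
      exact Vanish.zero_iff.mp ((Vanish.zero_iff.mpr hP.le).add (Vanish.const _))
    exact ⟨P, ⟨hreg, hv ▸ a.2⟩, resVal_of_eq P x a hv⟩
  choose P hP hPv using hex
  refine Set.infinite_of_injective_forall_mem (f := fun c => redMap hx (P c)) (fun c c' hcc => ?_)
    fun c => ⟨⟨_, rfl⟩, ?_⟩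
  · simp only [redMap, if_pos (hP _)] at hcc
    rw [← hPv c, ← hPv c', ← (hx.isCentre_centreMap (hP c)).2 x hx.mem hx.regAway_self,
      ← (hx.isCentre_centreMap (hP c')).2 x hx.mem hx.regAway_self, hcc]
  · show 0 ≤ Place.ord _ _
    simp only [redMap, if_pos (hP _)]
    exact hx.ord_centreMap_nonneg (hP c)

end GoodParam

end Map

namespace IsRed

variable {G : GaussRed A π F Fb} {g : ℕ} {r : Place K F → Place k Fb} (hr : IsRed G g r)
include hr

theorem mapDomain_divOf {u : F} (hu : u ∈ G.V) (hu0 : G.red u ≠ 0) :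
    Finsupp.mapDomain r (divOf u : Divisor K F) = divOf (G.red u) :=
  Finsupp.ext fun Q => by rw [← hr.ord_eq u hu hu0 Q, hr.curveBar.choose_spec.divOf_apply]

theorem divOf_smul {c : K} (hc : c ≠ 0) {f : F} (hf : f ≠ 0) :
    (divOf (c • f) : Divisor K F) = divOf f := by
  rw [Algebra.smul_def, hr.curve.divOf_mul (by simpa using hc) hf, add_eq_right]
  exact Finsupp.ext fun v => by rw [hr.curve.divOf_apply, FF.ord_algebraMap, Finsupp.zero_apply]

theorem degree_mapDomain (D : Divisor K F) :
    Divisor.degree (Finsupp.mapDomain r D) = Divisor.degree D := by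
  rw [hr.curveBar.choose_spec.degree_eq_sum, hr.curve.degree_eq_sum]
  exact Finsupp.sum_mapDomain_index (fun _ => rfl) (fun _ _ _ => rfl)

theorem mapDomain_nonneg {D : Divisor K F} (hD : 0 ≤ D) : 0 ≤ Finsupp.mapDomain r D := fun Q => by
  classical
  rw [mapDomain_apply_eq_sum, Finsupp.zero_apply]
  exact Finset.sum_nonneg fun P _ => hD P

theorem mapDomain_principal {D : Divisor K F} (hD : D ∈ Divisor.principal (K := K) (F := F)) :
    Finsupp.mapDomain r D ∈ Divisor.principal (K := k) (F := Fb) := by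
  obtain ⟨f, hf, hDf⟩ := hD
  obtain ⟨c, hc, hcV, hcr⟩ := hr.scale f hf
  have : D = divOf (c • f) := Finsupp.ext fun v => by
    rw [hr.divOf_smul hc hf, hr.curve.divOf_apply, hDf]
  rw [this, hr.mapDomain_divOf hcV hcr]
  exact hr.curveBar.choose_spec.isPrincipal_divOf hcr

/-- Values of functions regular on a fibre. -/
theorem value_of_regFibre {Q : Place k Fb} {y : F} (hy : y ∈ G.V) (hreg : RegFibre r Q y)
    {P : Place K F} (hP : r P = Q) :
    valAt P y ∈ A ∧ Vanish Q (G.red y) 0 ∧ valAt Q (G.red y) = resVal π P y := by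
  have hregdiv : ∀ (u : F), RegFibre r Q u → ∀ P', r P' = Q → 0 ≤ (divOf u : Divisor K F) P' :=
    fun u hu P' hP' => by rw [hr.curve.divOf_apply]; exact Vanish.zero_iff.mp (hu P' hP')
  have hkey : ∀ u, u ∈ G.V → G.red u ≠ 0 → RegFibre r Q u → P.ord u ≤ Q.ord (G.red u) := by
    intro u hu hu0 hur
    rw [hr.ord_eq u hu hu0, ← hr.curve.divOf_apply]
    exact le_mapDomain_of_nonneg r _ Q (hregdiv u hur) hP
  have hred : Vanish Q (G.red y) 0 := by
    rcases eq_or_ne (G.red y) 0 with h0 | h0
    · exact Or.inl h0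
    · refine Or.inr (le_trans ?_ (hkey y hy h0 hreg))
      exact Vanish.zero_iff.mp (hreg P hP)
  have hcA : valAt P y ∈ A := by
    by_contra hc
    have hinv := (A.mem_or_inv_mem _).resolve_left hc
    set u := 1 - (valAt P y)⁻¹ • y
    have hu : u ∈ G.V := G.V.sub_mem G.V.one_mem (G.smul_mem' hinv hy)
    have hu1 : G.red u = 1 := by
      rw [G.red_sub G.V.one_mem (G.smul_mem' hinv hy), G.red_one, G.red_smul ⟨_, hinv⟩ hy,
        G.res_inv_of_notMem hc, zero_smul, sub_zero]
    have hne : valAt P y ≠ 0 := fun h0 => hc (h0 ▸ A.zero_mem)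
    have hvan : Vanish P u 1 := by
      have : u = (-(valAt P y)⁻¹) • (y - algebraMap K F (valAt P y)) := by
        rw [smul_sub, Algebra.algebraMap_eq_smul_one, smul_smul, neg_mul, inv_mul_cancel₀ hne,
          neg_smul, neg_smul, one_smul]
        simp only [u]
        ring
      rw [this]
      exact (hr.curve.exists_valAt (hreg P hP)).smul _
    have hur : RegFibre r Q u := fun P' hP' => Vanish.one.sub ((hreg P' hP').smul _)
    have h1 := hkey u hu (by rw [hu1]; exact one_ne_zero) hur
    have h2 := hvan.resolve_left (G.ne_zero_of_red (by rw [hu1]; exact one_ne_zero))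
    rw [hu1, Q.ord_one] at h1
    omega
  refine ⟨hcA, hred, ?_⟩
  set a : A := ⟨_, hcA⟩
  rw [resVal_of_eq P y a rfl]
  refine valAt_eq ?_
  have hred' : G.red (y - algebraMap K F (a : K)) = G.red y - algebraMap k Fb (π a) := by
    rw [G.red_sub hy (G.const_mem a), G.red_const]
  rw [← hred']
  rcases eq_or_ne (G.red (y - algebraMap K F (a : K))) 0 with h0 | h0
  · exact Or.inl h0
  · refine Or.inr (le_trans ?_ (hkey _ (G.V.sub_mem hy (G.const_mem a)) h0
      fun P' hP' => (hreg P' hP').sub (Vanish.const _)))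
    exact (hr.curve.exists_valAt (hreg P hP)).resolve_left (G.ne_zero_of_red h0)

/-- Two compatible reductions agree. -/
theorem unique {r' : Place K F → Place k Fb} (hr' : IsRed G g r') : r = r' := by
  classical
  set δ : Divisor K F →+ Divisor k Fb :=
    Finsupp.mapDomain.addMonoidHom r - Finsupp.mapDomain.addMonoidHom r' with hδ
  have hδapp : ∀ D, δ D = Finsupp.mapDomain r D - Finsupp.mapDomain r' D := fun _ => rfl
  have hδdiv : ∀ f : F, f ≠ 0 → δ (divOf f) = 0 := by
    intro f hf
    obtain ⟨c, hc, hcV, hcr⟩ := hr.scale f hf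
    rw [← hr.divOf_smul hc hf, hδapp, hr.mapDomain_divOf hcV hcr, hr'.mapDomain_divOf hcV hcr,
      sub_self]
  have hbound : ∀ E : Divisor K F, 0 ≤ E → ∀ Q,
      -Divisor.degree E ≤ δ E Q ∧ δ E Q ≤ Divisor.degree E := by
    intro E hE Q
    rw [hδapp, Finsupp.sub_apply]
    have key : ∀ {s : Place K F → Place k Fb}, IsRed G g s →
        0 ≤ Finsupp.mapDomain s E Q ∧ Finsupp.mapDomain s E Q ≤ Divisor.degree E := by
      intro s hs
      refine ⟨hs.mapDomain_nonneg hE Q, ?_⟩
      have h := hr.curveBar.choose_spec.degree_mono (D := Finsupp.single Q (Finsupp.mapDomain s E Q))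
        (E := Finsupp.mapDomain s E) fun Q' => by
          by_cases e : Q' = Q
          · subst e; rw [Finsupp.single_eq_same]
          · rw [Finsupp.single_eq_of_ne e]; exact hs.mapDomain_nonneg hE Q'
      rw [hr.curveBar.choose_spec.degree_single, hs.degree_mapDomain] at h
      exact h
    have := key hr
    have := key hr'
    omega
  have hdeg0 : ∀ D : Divisor K F, Divisor.degree D = 0 → ∀ P₀ : Place K F, δ D = 0 := by
    intro D hD P₀
    ext Q
    rw [Finsupp.zero_apply]
    by_contra hne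
    obtain ⟨N, hN⟩ : ∃ N : ℕ, N = 2 * g + 1 := ⟨_, rfl⟩
    set D' : Divisor K F := Finsupp.single P₀ (g : ℤ) + N • D with hD'
    have hD'deg : Divisor.degree D' = g := by
      rw [hD', map_add, map_nsmul, hD, smul_zero, add_zero, hr.curve.degree_single]
    haveI := hr.curve.finite_L' D'
    have hpos : 0 < finrank K (riemannRochSpace D') := by
      have := hr.curve.riemann D'
      rw [hD'deg] at this
      omega
    haveI := Module.finrank_pos_iff.mp hpos
    obtain ⟨⟨f, hf⟩, hf0⟩ := exists_ne (0 : riemannRochSpace D')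
    have hf0' : f ≠ 0 := fun h => hf0 (Subtype.ext h)
    set E : Divisor K F := divOf f + D' with hE
    have hE0 : 0 ≤ E := fun P => by
      have := (mem_L_iff.mp hf P).resolve_left hf0'
      rw [hE, Finsupp.add_apply, hr.curve.divOf_apply, Finsupp.zero_apply]
      omega
    have hEdeg : Divisor.degree E = g := by
      rw [hE, map_add, hr.curve.degree_divOf, zero_add, hD'deg]
    have h1 := hbound E hE0 Q
    have h2 := hbound (Finsupp.single P₀ (g : ℤ))
      (Finsupp.single_nonneg.mpr (Nat.cast_nonneg g)) Q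
    rw [hEdeg, hE, map_add, hδdiv f hf0', zero_add, hD', map_add, map_nsmul, Finsupp.add_apply,
      Finsupp.smul_apply, nsmul_eq_mul] at h1
    rw [hr.curve.degree_single] at h2
    rcases lt_or_gt_of_ne hne with h | h
    · have : (N : ℤ) * δ D Q ≤ (N : ℤ) * (-1) :=
        mul_le_mul_of_nonneg_left (by omega) (Nat.cast_nonneg _)
      omega
    · have : (N : ℤ) * 1 ≤ (N : ℤ) * δ D Q :=
        mul_le_mul_of_nonneg_left (by omega) (Nat.cast_nonneg _)
      omega
  funext P
  by_contra hne
  have hconst : ∀ P', r P' = r P := by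
    intro P'
    have h := hdeg0 (Finsupp.single P' 1 - Finsupp.single P 1)
      (by rw [map_sub, hr.curve.degree_single, hr.curve.degree_single, sub_self]) P
    rw [map_sub, hδapp, hδapp, Finsupp.mapDomain_single, Finsupp.mapDomain_single,
      Finsupp.mapDomain_single, Finsupp.mapDomain_single] at h
    have h' := congrArg (fun D : Divisor k Fb => D (r P)) h
    simp only [Finsupp.sub_apply, Finsupp.single_eq_same, Finsupp.zero_apply,
      Finsupp.single_eq_of_ne hne] at h'
    by_contra hP'
    rw [Finsupp.single_eq_of_ne (Ne.symm hP')] at h'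
    by_cases e : r P = r' P'
    · rw [← e, Finsupp.single_eq_same] at h'; omega
    · rw [Finsupp.single_eq_of_ne e] at h'; omega
  obtain ⟨w, hw, hwo⟩ := FF.exists_ord_eq (r P) 1
  obtain ⟨u, hu, rfl⟩ := G.red_surj w
  have h := hr.ord_eq u hu hw (r P)
  rw [hwo] at h
  have hmap : Finsupp.mapDomain r (divOf u : Divisor K F)
      = Finsupp.single (r P) (Divisor.degree (divOf u : Divisor K F)) := by
    have hc : r = fun _ => r P := funext hconst
    rw [hr.curve.degree_eq_sum, hc, Finsupp.mapDomain, Finsupp.single_sum]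
  rw [hmap, hr.curve.degree_divOf, Finsupp.single_zero, Finsupp.zero_apply] at h
  omega

end IsRed

end FLTAgent.Reduction
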