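import Mathlib
import Fermat.Agent.Reduction.PlacesMap
import Fermat.Agent.FF.RiemannRoch
import Fermat.Agent.FF.PlacesMain

/-!
# Curve axioms and normalisation

`curveData_of_isFF` proves `CurveData` for function fields over algebraically closed fields.
`exists_smul_of_finrank`: if a parameter keeps its degree under a Gauss reduction, every function
has a scalar multiple with nonzero reduction (expand in a frame lifted from the reduction).
-/

set_option autoImplicit false
set_option linter.style.haveILetI false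
set_option linter.unusedSectionVars false

noncomputable section

open AlgebraicCurve Module IntermediateField

namespace FLTAgent.Reduction

section Curve

variable (K F : Type*) [Field K] [Field F] [Algebra K F] [IsAlgClosed K] [FF.IsFF K F]

/-- A function field over an algebraically closed field satisfies the curve axioms. -/
theorem curveData_of_isFF : CurveData K F (genusFF K F) where
  exists_divisor := (FF.hasPrincipalDivisors (K := K) (F := F)).exists_divisor
  deg_one := FF.deg_eq_one
  residue v f hf := by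
    obtain ⟨c, hc⟩ := FF.exists_residue v ((FF.mem_iff v f).mpr (Or.inr hf))
    refine ⟨c, ?_⟩
    rcases hc with rfl | hc
    · exact Or.inl (sub_self _)
    · exact Or.inr (by omega)
  const f hf := by
    obtain ⟨c, hc⟩ := FF.mem_range_of_forall_ord_nonneg hf
    exact ⟨c, hc⟩
  finite_L D := FF.finiteDimensional_riemannRochSpace D
  riemann D := FF.degree_add_one_sub_genusFF_le_ell D
  riemann_eq := ⟨2 * (genusFF K F : ℤ) - 1, fun D hD => FF.ell_eq_of_large (by omega)⟩

variable {K F}

theorem degree_poleDiv_eq {x : F} (hx : Transcendental K x) [Algebra.IsSeparable K⟮x⟯ F] :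
    Divisor.degree (poleDiv x : Divisor K F) = finrank K⟮x⟯ F := by
  rw [← FF.degree_poleDivisor hx]
  exact congrArg _ (Finsupp.ext fun v => by
    rw [(curveData_of_isFF K F).poleDiv_apply, FF.poleDivisor_apply])

end Curve

namespace GaussRed

open Polynomial

variable {K k F Fb : Type*} [Field K] [Field k] [Field F] [Field Fb] [Algebra K F] [Algebra k Fb]
variable {A : ValuationSubring K} {π : A →+* k} (G : GaussRed A π F Fb)

/-- Comparison of degrees over a parameter makes every function normalisable. -/
theorem exists_smul_of_finrank {g : ℕ} (hCb : CurveData k Fb g) {x : F} (hx : x ∈ G.V)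
    (hnc : ∀ c : k, G.red x ≠ algebraMap k Fb c)
    [FiniteDimensional K⟮x⟯ F] [FiniteDimensional k⟮G.red x⟯ Fb]
    (hfin : finrank K⟮x⟯ F = finrank k⟮G.red x⟯ Fb) :
    ∀ y : F, y ≠ 0 → ∃ c : K, c ≠ 0 ∧ c • y ∈ G.V ∧ G.red (c • y) ≠ 0 := by
  classical
  obtain ⟨Q, hQ⟩ : ∃ Q : Place k Fb, Q.ord (G.red x) < 0 := by
    by_contra h
    push Not at h
    obtain ⟨c, hc⟩ := hCb.const _ h
    exact hnc c hc.symm
  obtain ⟨n, hn⟩ : ∃ n, finrank k⟮G.red x⟯ Fb = n := ⟨_, rfl⟩
  choose e he hered using fun i => G.red_surj (Module.finBasisOfFinrankEq k⟮G.red x⟯ Fb hn i)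
  have hli : LinearIndependent k⟮G.red x⟯ fun i => G.red (e i) := by
    simp only [hered]; exact (Module.finBasisOfFinrankEq k⟮G.red x⟯ Fb hn).linearIndependent
  -- the frame
  have hpow : ∀ M, G.RedIndep fun a : Fin M => x ^ (a : ℕ) := fun M => by
    refine ⟨fun a => pow_mem hx _, ?_⟩
    rw [show (fun a : Fin M => G.red (x ^ (a : ℕ))) = fun a : Fin M => G.red x ^ (a : ℕ) from
      funext fun a => G.red_pow hx _]
    exact linearIndependent_pow_of_ord_neg hQ M
  have hframe : ∀ M, G.RedIndep fun p : Fin M × Fin n => x ^ (p.1 : ℕ) * e p.2 := by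
    intro M
    refine ⟨fun p => G.V.mul_mem (pow_mem hx _) (he _), ?_⟩
    rw [show (fun p : Fin M × Fin n => G.red (x ^ (p.1 : ℕ) * e p.2))
        = fun p : Fin M × Fin n => G.red x ^ (p.1 : ℕ) * G.red (e p.2) from
      funext fun p => by rw [G.red_mul (pow_mem hx _) (he _), G.red_pow hx]]
    rw [Fintype.linearIndependent_iff]
    intro c hc
    rw [Fintype.sum_prod_type, Finset.sum_comm] at hc
    let b : Fin n → k⟮G.red x⟯ := fun i => ⟨∑ a : Fin M, c (a, i) • G.red x ^ (a : ℕ),
      sum_mem fun a _ => IntermediateField.smul_mem _ (pow_mem (mem_adjoin_simple_self k _) _)⟩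
    have hb := Fintype.linearIndependent_iff.mp hli b (by
      rw [← hc]
      refine Finset.sum_congr rfl fun i _ => ?_
      show (∑ a : Fin M, c (a, i) • G.red x ^ (a : ℕ)) * G.red (e i) = _
      rw [Finset.sum_mul]
      exact Finset.sum_congr rfl fun a _ => smul_mul_assoc _ _ _)
    rintro ⟨a, i⟩
    exact Fintype.linearIndependent_iff.mp (linearIndependent_pow_of_ord_neg hQ M)
      (fun a => c (a, i)) (congrArg Subtype.val (hb i)) a
  -- clearing denominators
  have haeval : ∀ (p : K[X]) (M : ℕ), p.natDegree < M →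
      Polynomial.aeval x p = ∑ a : Fin M, p.coeff a • x ^ (a : ℕ) := fun p M hM => by
    rw [aeval_eq_sum_range' hM, Finset.sum_range]
  have hclear : ∀ b : Fin n → K⟮x⟯, ∃ (M : ℕ) (s : K[X]) (P : Fin n → K[X]),
      Polynomial.aeval x s ≠ 0 ∧ s.natDegree < M ∧ (∀ i, (P i).natDegree < M) ∧
      ∀ i, Polynomial.aeval x s * (b i : F) = Polynomial.aeval x (P i) := by
    intro b
    choose p q hpq using fun i => (mem_adjoin_simple_iff K (b i : F)).mp (b i).2
    set q' : Fin n → K[X] := fun i => if Polynomial.aeval x (q i) = 0 then 1 else q i with hq'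
    set p' : Fin n → K[X] := fun i => if Polynomial.aeval x (q i) = 0 then 0 else p i with hp'
    have hq0 : ∀ i, Polynomial.aeval x (q' i) ≠ 0 := fun i => by
      simp only [hq']
      split_ifs with h
      · simp
      · exact h
    have hpq' : ∀ i, Polynomial.aeval x (q' i) * (b i : F) = Polynomial.aeval x (p' i) := fun i => by
      simp only [hq', hp']
      split_ifs with h
      · rw [hpq i, h, div_zero, mul_zero, map_zero]
      · rw [hpq i, mul_div_cancel₀ _ h]
    set s := ∏ i, q' i with hs
    set P : Fin n → K[X] := fun i => p' i * ∏ j ∈ Finset.univ.erase i, q' j with hP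
    refine ⟨s.natDegree + (∑ i, (P i).natDegree) + 1, s, P, ?_, by omega, fun i => ?_, fun i => ?_⟩
    · rw [hs, map_prod]
      exact Finset.prod_ne_zero_iff.mpr fun i _ => hq0 i
    · have := Finset.single_le_sum (f := fun i => (P i).natDegree) (fun _ _ => Nat.zero_le _)
        (Finset.mem_univ i)
      omega
    · rw [hs, ← Finset.prod_erase_mul _ _ (Finset.mem_univ i), hP, map_mul, map_mul, mul_assoc,
        hpq', mul_comm]
  have hind : LinearIndependent K⟮x⟯ e := by
    rw [Fintype.linearIndependent_iff]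
    intro b hb i
    obtain ⟨M, s, P, hs, -, hPM, hsP⟩ := hclear b
    have h0 : ∑ p : Fin M × Fin n, (P p.2).coeff p.1 • (x ^ (p.1 : ℕ) * e p.2) = 0 := by
      rw [Fintype.sum_prod_type, Finset.sum_comm]
      have h1 : ∑ i, Polynomial.aeval x (P i) * e i = 0 := by
        simp only [← hsP, mul_assoc, ← Finset.mul_sum]
        rw [show ∑ i, (b i : F) * e i = 0 from hb, mul_zero]
      rw [← h1]
      refine Finset.sum_congr rfl fun i _ => ?_
      rw [haeval _ M (hPM i), Finset.sum_mul]
      exact Finset.sum_congr rfl fun a _ => (smul_mul_assoc _ _ _).symm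
    have h2 : P i = 0 := Polynomial.ext fun a => by
      rw [Polynomial.coeff_zero]
      by_cases ha : a < M
      · exact Fintype.linearIndependent_iff.mp (hframe M).linearIndependent _ h0 (⟨a, ha⟩, i)
      · exact Polynomial.coeff_eq_zero_of_natDegree_lt (by have := hPM i; omega)
    have h3 := hsP i
    rw [h2, map_zero, mul_eq_zero] at h3
    exact Subtype.ext (h3.resolve_left hs)
  have hspan : Submodule.span K⟮x⟯ (Set.range e) = ⊤ :=
    hind.span_eq_top_of_card_eq_finrank' (by rw [Fintype.card_fin, hfin, hn])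
  intro y hy
  obtain ⟨b, hb⟩ := (Submodule.mem_span_range_iff_exists_fun K⟮x⟯).mp
    (hspan.symm ▸ Submodule.mem_top : y ∈ Submodule.span K⟮x⟯ (Set.range e))
  obtain ⟨M, s, P, hs, hsM, hPM, hsP⟩ := hclear b
  have hsy : Polynomial.aeval x s * y
      ∈ Submodule.span K (Set.range fun p : Fin M × Fin n => x ^ (p.1 : ℕ) * e p.2) := by
    rw [← hb, Finset.mul_sum]
    refine Submodule.sum_mem _ fun i _ => ?_
    show Polynomial.aeval x s * ((b i : F) * e i) ∈ _
    rw [← mul_assoc, hsP i, haeval _ M (hPM i), Finset.sum_mul]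
    refine Submodule.sum_mem _ fun a _ => ?_
    rw [smul_mul_assoc]
    exact Submodule.smul_mem _ _ (Submodule.subset_span ⟨(a, i), rfl⟩)
  obtain ⟨c, hc, hcV, hcr⟩ := (hframe M).exists_smul hsy (mul_ne_zero hs hy)
  obtain ⟨d, hd, hdV, hdr⟩ := (hpow M).exists_smul (y := Polynomial.aeval x s)
    (by rw [haeval s M hsM]; exact Submodule.sum_mem _ fun a _ =>
      Submodule.smul_mem _ _ (Submodule.subset_span ⟨a, rfl⟩)) hs
  refine ⟨c / d, div_ne_zero hc hd, ?_⟩
  have hdinv := G.inv_mem hdV hdr
  have heq : (c / d) • y = (c • (Polynomial.aeval x s * y)) * (d • Polynomial.aeval x s)⁻¹ := by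
    have hd' : algebraMap K F d ≠ 0 := by simpa using hd
    rw [Algebra.smul_def, Algebra.smul_def, Algebra.smul_def, map_div₀]
    field_simp
  rw [heq]
  refine ⟨G.V.mul_mem hcV hdinv, ?_⟩
  rw [G.red_mul hcV hdinv]
  refine mul_ne_zero hcr fun h0 => ?_
  have h1 := G.red_mul hdV hdinv
  rw [mul_inv_cancel₀ (fun h => hdr (by rw [h, G.red_zero])), G.red_one, h0, mul_zero] at h1
  exact one_ne_zero h1

end GaussRed

end FLTAgent.Reduction
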