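import Fermat.Agent.Reduction.GaussCuspCount
import Fermat.Agent.FF.RiemannRoch
import Fermat.Agent.FF.Differentials
import Fermat.Agent.Reduction.InputsCurve

/-!
# A lower bound for the genus

`genusFF_lower`: if `k(X₀(d))`, `d ∣ M`, has genus `0`, it is `k(x)` (`exists_generator_of_genus_zero`);
the full fibres of `x` over `s` distinct cusp values lie among the at most `cuspCount M` poles of
`j`, so the inequality of Riemann-Hurwitz (`riemannHurwitz_ge`) gives
`(s - 2) n - cuspCount M ≤ 2 g - 2` with `n = ψ(M) / ψ(d)` the degree of `x`.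
-/

set_option autoImplicit false

noncomputable section

open ModularCurve IntermediateField AlgebraicCurve
open scoped IntermediateField

namespace FLTAgent.Reduction

open FLTAgent.ModularCosets

section generic

variable {K F : Type*} [Field K] [Field F] [Algebra K F] [IsAlgClosed K] [FF.IsFF K F]

/-- The inequality of Riemann-Hurwitz, with the ramification over a finite set of places. -/
theorem riemannHurwitz_ge {x : F} (hx : FF.IsSep K x) (S : Finset (Place K F)) :
    -2 * (Module.finrank K⟮x⟯ F : ℤ) + ∑ v ∈ S, ((FF.ramX x v : ℤ) - 1) ≤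
      2 * (genusFF K F : ℤ) - 2 := by
  classical
  have := hx.separable
  have hdx := FF.D_ne_zero_of_isSep hx
  rw [← FF.degree_canonicalDivisorOf hdx, ← FF.degree_poleDivisor hx.transcendental]
  set E : Divisor K F := ∑ v ∈ S, Finsupp.single v ((FF.ramX x v : ℤ) - 1) with hE
  have hEv : ∀ v, E v = if v ∈ S then (FF.ramX x v : ℤ) - 1 else 0 := fun v => by
    rw [hE, Finsupp.finsetSum_apply]
    simp only [Finsupp.single_apply]
    rw [Finset.sum_ite_eq']
  have hdeg : Divisor.degree E = ∑ v ∈ S, ((FF.ramX x v : ℤ) - 1) := by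
    rw [hE, map_sum]
    refine Finset.sum_congr rfl fun v _ => ?_
    rw [Divisor.degree_single, FF.deg_eq_one, Nat.cast_one, mul_one]
  have hle : E - (2 : ℤ) • FF.poleDivisor x ≤ canonicalDivisorOf hdx := fun v => by
    have hr := FF.ramX_pos hx v
    simp only [Finsupp.sub_apply, Finsupp.smul_apply, FF.poleDivisor_apply,
      canonicalDivisorOf_apply, hEv, smul_eq_mul]
    rcases lt_or_ge (v.ord x) 0 with h | h
    · have h1 := FF.ord_sub_one_le_ordDifferential_D v hdx
      have h2 := FF.ord_eq_neg_ramX hx v h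
      split_ifs <;> omega
    · have h1 := FF.ramX_sub_one_le_ordDifferential hx v h
      split_ifs <;> omega
  have hmono := (curveData_of_isFF K F).degree_mono hle
  rw [map_sub, map_zsmul, hdeg, smul_eq_mul] at hmono
  linarith

/-- A function field of genus `0` is rational. -/
theorem exists_generator_of_genus_zero (hg : genusFF K F = 0) :
    ∃ x : F, Transcendental K x ∧ K⟮x⟯ = ⊤ := by
  classical
  obtain ⟨v₀⟩ := FF.place_nonempty (K := K) (F := F)
  have hC := curveData_of_isFF K F
  have hell : ∀ m : ℕ, ell (Finsupp.single v₀ (m : ℤ) : Divisor K F) = m + 1 := fun m => by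
    have h := FF.ell_eq_of_large (D := (Finsupp.single v₀ (m : ℤ) : Divisor K F))
      (by rw [hC.degree_single, hg]; omega)
    rw [hC.degree_single, hg] at h
    simp only [ell, FF.ell] at h ⊢
    omega
  have := hC.finite_L' (Finsupp.single v₀ ((1 : ℕ) : ℤ) : Divisor K F)
  obtain ⟨x, hx, hxc⟩ : ∃ x ∈ riemannRochSpace (Finsupp.single v₀ ((1 : ℕ) : ℤ) : Divisor K F),
      x ∉ (algebraMap K F).range := by
    by_contra hcon
    push Not at hcon
    have h1 : riemannRochSpace (Finsupp.single v₀ ((1 : ℕ) : ℤ) : Divisor K F) ≤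
        Submodule.span K {(1 : F)} := fun y hy => by
      obtain ⟨c, rfl⟩ := hcon y hy
      exact Submodule.mem_span_singleton.mpr ⟨c, by rw [Algebra.smul_def, mul_one]⟩
    have h2 := Submodule.finrank_mono h1
    rw [finrank_span_singleton one_ne_zero] at h2
    have h3 := hell 1
    simp only [ell] at h3
    omega
  have hxt : Transcendental K x := fun halg => hxc (by
    obtain ⟨c, hc⟩ := FF.mem_range_of_not_transcendental (K := K) (not_not_intro halg)
    exact ⟨c, hc⟩)
  have hord : ∀ v, v ≠ v₀ → Vanish v x 0 := fun v hv => by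
    have h := mem_L_iff.mp hx v
    rwa [Finsupp.single_eq_of_ne (by exact hv), neg_zero] at h
  have hx1 : Vanish v₀ x (-1) := by
    have h := mem_L_iff.mp hx v₀
    rwa [Finsupp.single_eq_same] at h
  have hneg : v₀.ord x < 0 := by
    by_contra hcon
    push Not at hcon
    refine hxc (FF.mem_range_of_forall_ord_nonneg fun v => ?_)
    rcases eq_or_ne v v₀ with rfl | hv
    · exact hcon
    · exact Vanish.zero_iff.mp (hord v hv)
  refine ⟨x, hxt, eq_top_iff.mpr fun y _ => ?_⟩
  -- functions with a single pole are polynomials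
  have hpoly : ∀ (m : ℕ) (z : F),
      z ∈ riemannRochSpace (Finsupp.single v₀ (m : ℤ) : Divisor K F) → z ∈ K⟮x⟯ := by
    intro m z hz
    have := hC.finite_L' (Finsupp.single v₀ (m : ℤ) : Divisor K F)
    have hmem : ∀ i : Fin (m + 1),
        x ^ (i : ℕ) ∈ riemannRochSpace (Finsupp.single v₀ (m : ℤ) : Divisor K F) := fun i =>
      mem_L_iff.mpr fun v => by
        rcases eq_or_ne v v₀ with rfl | hv
        · rw [Finsupp.single_eq_same]
          refine (hx1.pow i).mono ?_
          have := i.2
          omega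
        · rw [Finsupp.single_eq_of_ne hv, neg_zero]
          simpa using (hord v hv).pow i
    have hspan : Submodule.span K (Set.range fun i : Fin (m + 1) => x ^ (i : ℕ)) =
        riemannRochSpace (Finsupp.single v₀ (m : ℤ) : Divisor K F) := by
      refine Submodule.eq_of_le_of_finrank_eq
        (Submodule.span_le.mpr (by rintro _ ⟨i, rfl⟩; exact hmem i)) ?_
      rw [finrank_span_eq_card (linearIndependent_pow_of_ord_neg hneg (m + 1)), Fintype.card_fin]
      exact (hell m).symm
    rw [← hspan] at hz
    refine (Submodule.span_le (p := Subalgebra.toSubmodule K⟮x⟯.toSubalgebra)).mpr ?_ hz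
    rintro _ ⟨i, rfl⟩
    exact pow_mem (mem_adjoin_simple_self K x) _
  -- clear the poles of `y`
  rcases eq_or_ne y 0 with rfl | hy
  · exact zero_mem _
  set D : Divisor K F := FF.poleDivisor y
  set m := (Divisor.degree D).toNat
  have hpos : 0 < ell ((Finsupp.single v₀ (m : ℤ) : Divisor K F) - D) := by
    have := hC.riemann ((Finsupp.single v₀ (m : ℤ) : Divisor K F) - D)
    rw [map_sub, hC.degree_single, hg] at this
    simp only [ell] at *
    omega
  obtain ⟨b, hb, hb0⟩ := FF.exists_ne_zero_of_ell_pos hpos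
  have hDnn : ∀ v, 0 ≤ D v := fun v => by rw [FF.poleDivisor_apply]; exact le_max_left _ _
  have hb1 : b ∈ K⟮x⟯ := hpoly m b (mem_L_iff.mpr fun v => by
    refine (mem_L_iff.mp hb v).mono ?_
    rw [Finsupp.sub_apply]
    have := hDnn v
    omega)
  have hyb : y * b ∈ K⟮x⟯ := hpoly m _ (mem_L_iff.mpr fun v => by
    refine ((Vanish.self y).mul (mem_L_iff.mp hb v)).mono ?_
    rw [Finsupp.sub_apply, FF.poleDivisor_apply]
    omega)
  have := div_mem hyb hb1
  rwa [mul_div_cancel_right₀ _ hb0] at this

/-- The genus bound over a rational subfield: `E = K(x)` inside `F`, with chosen places of `E`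
over the poles of `jE`. -/
private theorem genus_lower_of_rational {E : Type*} [Field E] [Algebra K E] [FF.IsFF K E]
    (ι : E →ₐ[K] F) {jE : E} {jT : F} (hιj : ι jE = jT) [FiniteDimensional K⟮jT⟯ F]
    [Algebra.IsSeparable K⟮jT⟯ F] (hg : genusFF K E = 0) {a b C : ℕ}
    (hdegE : Module.finrank K⟮jE⟯ E = a) (hdegF : Module.finrank K⟮jT⟯ F = b) {α : Type*}
    (s : Finset α) (pl : α → Place K E) (hpl : ∀ c, (pl c).ord jE < 0)
    (hinj : Set.InjOn pl (s : Set α))
    (hC : ∀ S : Finset (Place K F), (∀ v ∈ S, v.ord jT < 0) → S.card ≤ C) :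
    ∃ n : ℕ, a * n = b ∧ ((s.card : ℤ) - 2) * n - C ≤ 2 * (genusFF K F : ℤ) - 2 := by
  classical
  obtain ⟨x, hxt, hxtop⟩ := exists_generator_of_genus_zero (K := K) (F := E) hg
  set X := ι x with hX
  have hXmap : K⟮x⟯.map ι = K⟮X⟯ := by rw [adjoin_map, Set.image_singleton, hX]
  have hjmap : K⟮jE⟯.map ι = K⟮jT⟯ := by rw [adjoin_map, Set.image_singleton, hιj]
  have hjX : K⟮jT⟯ ≤ K⟮X⟯ := by
    rw [← hXmap, ← hjmap, hxtop]
    exact IntermediateField.map_mono ι le_top
  have hXt : Transcendental K X := fun halg => hxt (by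
    obtain ⟨p, hp, hpx⟩ := halg
    exact ⟨p, hp, (ι : E →+* F).injective (by
      show ι (Polynomial.aeval x p) = ι 0
      rw [← Polynomial.aeval_algHom_apply, hpx, map_zero])⟩)
  let : Algebra K⟮jT⟯ K⟮X⟯ := (IntermediateField.inclusion hjX).toRingHom.toAlgebra
  have : IsScalarTower K⟮jT⟯ K⟮X⟯ F := IsScalarTower.of_algebraMap_eq fun _ => rfl
  have : FiniteDimensional K⟮X⟯ F := Module.Finite.of_restrictScalars_finite K⟮jT⟯ K⟮X⟯ F
  have : Algebra.IsSeparable K⟮X⟯ F :=
    Algebra.isSeparable_tower_top_of_isSeparable K⟮jT⟯ K⟮X⟯ F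
  have hsep : FF.IsSep K X := ⟨hXt, inferInstance, inferInstance⟩
  set n := Module.finrank K⟮X⟯ F with hn
  refine ⟨n, ?_, ?_⟩
  · have hψd : IntermediateField.relfinrank K⟮jT⟯ K⟮X⟯ = a := by
      rw [← hjmap, ← hXmap, relfinrank_map_map, hxtop, relfinrank_top_right, hdegE]
    have h := relfinrank_mul_relfinrank hjX (le_top : K⟮X⟯ ≤ ⊤)
    rw [hψd, relfinrank_top_right, relfinrank_top_right, hdegF] at h
    exact h
  -- the poles of `j`
  have hfinS : {v : Place K F | v.ord (jT) < 0}.Finite :=
    (FF.finite_ord_ne_zero (jT)).subset fun v hv => ne_of_lt hv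
  set S := hfinS.toFinset with hS
  have hmemS : ∀ v, v ∈ S ↔ v.ord (jT) < 0 := fun v => Set.Finite.mem_toFinset _
  have hcard : S.card ≤ C := hC S fun v hv => (hmemS v).mp hv
  -- the values of `x` at the chosen cusps
  have : FiniteDimensional K⟮x⟯ E := FiniteDimensional.of_finrank_pos (by
    rw [hxtop, IntermediateField.finrank_top]; exact one_pos)
  have : Algebra.IsSeparable K⟮x⟯ E :=
    ⟨fun y => isSeparable_algebraMap (⟨y, by rw [hxtop]; trivial⟩ : K⟮x⟯)⟩
  have hsepE : FF.IsSep K x := ⟨hxt, inferInstance, inferInstance⟩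
  choose idx hidx using FF.exists_index (K := K) hsepE
  have hdeg1 : ∀ i : Option K, ∀ u v : Place K E,
      0 < u.ord (FF.loc x i) → 0 < v.ord (FF.loc x i) → u = v := by
    intro i u v hu hv
    have hs := FF.isSep_loc hsepE i
    have := hs.separable
    by_contra hne
    have h1 := FF.degree_zeroDivisor (K := K) hs.transcendental
    rw [FF.adjoin_loc hsepE i, hxtop, IntermediateField.finrank_top] at h1
    have h2 := (curveData_of_isFF K E).degree_mono
      (D := Finsupp.single u 1 + Finsupp.single v 1) (E := FF.zeroDivisor (FF.loc x i)) fun w => by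
        rw [Finsupp.add_apply, FF.zeroDivisor_apply, Finsupp.single_apply, Finsupp.single_apply]
        split_ifs with e1 e2 e2
        · exact absurd (e1.trans e2.symm) hne
        · subst e1; omega
        · subst e2; omega
        · omega
    rw [map_add, (curveData_of_isFF K E).degree_single, (curveData_of_isFF K E).degree_single,
      h1] at h2
    omega
  set T : Finset (Option K) := s.image (fun c => idx (pl c)) with hT
  have hTcard : T.card = s.card := by
    refine Finset.card_image_of_injOn fun c hc c' hc' h => hinj hc hc' ?_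
    exact hdeg1 _ _ _ (hidx _) (h.symm ▸ hidx _)
  have hιloc : ∀ i : Option K, ι (FF.loc x i) = FF.loc X i := fun i => by
    cases i with
    | none => show ι x⁻¹ = X⁻¹; rw [map_inv₀]
    | some c =>
      show ι (x - algebraMap K E c) = X - algebraMap K F c
      rw [map_sub, AlgHom.commutes]
  -- the fibres lie over the poles of `j`
  set Sc : Option K → Finset (Place K F) := fun i => S.filter fun w => 0 < w.ord (FF.loc X i)
  have hfibre : ∀ i ∈ T, ∀ w : Place K F, 0 < w.ord (FF.loc X i) → w.ord (jT) < 0 := by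
    intro i hi w hw
    obtain ⟨c, -, rfl⟩ := Finset.mem_image.mp hi
    set v := pl c
    have hl0 : FF.loc x (idx v) ≠ 0 := fun h0 => by
      have := hidx v
      rw [h0] at this
      simp at this
    let O : ValuationSubring E := w.toValuationSubring.comap (ι : E →+* F)
    have hOK : ∀ a : K, algebraMap K E a ∈ O := fun a => by
      show ι (algebraMap K E a) ∈ w.toValuationSubring
      rw [AlgHom.commutes]
      exact w.algebraMap_mem' a
    have hlinv : (FF.loc x (idx v))⁻¹ ∉ O := fun hmem => by
      have h1 : ι (FF.loc x (idx v))⁻¹ ∈ w.toValuationSubring := hmem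
      rw [map_inv₀, hιloc] at h1
      have h2 := FF.ord_nonneg_of_mem_placeRing w h1
      rw [w.ord_inv] at h2
      omega
    obtain ⟨u, hu⟩ := FF.exists_place_eq O hOK fun h => hlinv (h ▸ trivial)
    have huv : u = v := by
      refine hdeg1 (idx v) u v ?_ (hidx v)
      by_contra hcon
      push Not at hcon
      refine hlinv ?_
      rw [← hu]
      exact (FF.mem_iff u _).mpr (Or.inr (by rw [u.ord_inv]; omega))
    by_contra hcon
    push Not at hcon
    have hj : jE ∈ O := by
      show ι (jE) ∈ w.toValuationSubring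
      rw [hιj]
      exact (FF.mem_iff w _).mpr (Or.inr hcon)
    rw [← hu, huv] at hj
    exact absurd (hpl c) (not_lt.mpr (FF.ord_nonneg_of_mem_placeRing v hj))
  have hsum : ∀ i ∈ T, ∑ w ∈ Sc i, (FF.ramX X w : ℤ) = n := by
    intro i hi
    have hs := FF.isSep_loc hsep i
    have := hs.separable
    have h1 := FF.degree_zeroDivisor (K := K) hs.transcendental
    rw [FF.adjoin_loc hsep i, FF.degree_eq_sum,
      Finsupp.sum_of_support_subset _ (s := Sc i) (fun w hw => ?_) _ (fun _ _ => rfl)] at h1
    · rw [hn, ← h1]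
      refine Finset.sum_congr rfl fun w hw => ?_
      have hp := (Finset.mem_filter.mp hw).2
      rw [FF.zeroDivisor_apply, max_eq_right hp.le, (FF.ord_loc_eq_ramX hsep hp).1]
    · have hne := Finsupp.mem_support_iff.mp hw
      rw [FF.zeroDivisor_apply] at hne
      have hp : 0 < w.ord (FF.loc X i) := by omega
      exact Finset.mem_filter.mpr ⟨(hmemS w).mpr (hfibre i hi w hp), hp⟩
  have hdisj : (T : Set (Option K)).PairwiseDisjoint Sc := fun i _ i' _ hne =>
    Finset.disjoint_left.mpr fun w hw hw' =>
      hne (FF.index_unique hsep (Finset.mem_filter.mp hw).2 (Finset.mem_filter.mp hw').2)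
  have hle : ((s.card : ℤ) * n) ≤ ∑ w ∈ S, (FF.ramX X w : ℤ) := by
    calc (s.card : ℤ) * n = ∑ i ∈ T, ∑ w ∈ Sc i, (FF.ramX X w : ℤ) := by
          rw [Finset.sum_congr rfl hsum, Finset.sum_const, hTcard, nsmul_eq_mul]
      _ = ∑ w ∈ T.biUnion Sc, (FF.ramX X w : ℤ) := (Finset.sum_biUnion hdisj).symm
      _ ≤ _ := Finset.sum_le_sum_of_subset_of_nonneg
          (Finset.biUnion_subset.mpr fun i _ => Finset.filter_subset _ _)
          fun w _ _ => Int.natCast_nonneg _
  have hRH := riemannHurwitz_ge hsep S
  rw [Finset.sum_sub_distrib, Finset.sum_const, nsmul_eq_mul, mul_one, ← hn] at hRH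
  have hc : (S.card : ℤ) ≤ C := by exact_mod_cast hcard
  nlinarith

end generic

/-! ### Levels `d ∣ M` -/

variable {M d : ℕ} [NeZero M] [NeZero d] {k : Type*} [Field k] [IsAlgClosed k]

omit [IsAlgClosed k] in
theorem fullC_mono (hd : d ∣ M) : modularFunctionFieldFullC k d ≤ modularFunctionFieldFullC k M := by
  rw [modularFunctionFieldFullC, IntermediateField.adjoin_le_iff]
  rintro _ ⟨e, he, hed, rfl⟩
  have := he
  exact jqModCd_mem_full k M (hed.trans hd)

/-- The genus bound. -/
theorem genusFF_lower (hd : d ∣ M) (φ : zetaRing M →+* k) (ψ : zetaRing d →+* k)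
    (hg : genusFF k ↥(modularFunctionFieldFullC k d) = 0) (s : Finset (CosetIdx d))
    (hinj : Set.InjOn (cuspPlace ψ) (s : Set (CosetIdx d))) :
    ∃ n : ℕ, dedekindPsi d * n = dedekindPsi M ∧
      ((s.card : ℤ) - 2) * n - cuspCount M ≤
        2 * (genusFF k ↥(modularFunctionFieldFullC k M) : ℤ) - 2 := by
  have := isFF_fullC ψ
  have := isFF_fullC φ
  have := finiteDimensional_jF φ
  have := isSeparable_jF φ
  exact genus_lower_of_rational (IntermediateField.inclusion (fullC_mono hd))
    (jE := jF d k) (jT := jF M k) (Subtype.ext rfl) hg (finrank_jF ψ) (finrank_jF φ) s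
    (cuspPlace ψ) (cuspPlace_ord_jF ψ) hinj (card_poles_le φ)

end FLTAgent.Reduction
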