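import Mathlib
import Fermat.Prelude.Def_ModularCurve_LaurentCoeff

/-!
# An irreducibility criterion in `k((u))`

`natDegree_minpoly_eq_card`: let the `r γ` be distinct, with symmetric functions in `k[J]`
(`J` of negative order), and let `v` be a compatible family (`IsSymFamily`) with positive order
away from `γ₀`. Then `r γ₀` has degree `|Γ|` over `k(J)`. Otherwise the product of the `v γ` over
the other orbits would be Galois invariant and integral over `k[J]`, hence in `k[J]`, whose
nonzero elements have nonpositive order (`mem_polyJ_of_isIntegral`, `order_nonpos_of_mem_polyJ`).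
-/

set_option autoImplicit false

noncomputable section

open Polynomial ModularCurve
open scoped IntermediateField

namespace FLTAgent.Reduction

section Sym

variable {R : Type*} [CommRing R] {Γ : Type*} [Fintype Γ] [DecidableEq Γ]

/-- The characteristic polynomial of a family. -/
def famPoly (v : Γ → R) : R[X] := ∏ γ, (X - C (v γ))

/-- The interpolation numerator of the family `v` at the nodes `r`. -/
def famLagrange (r v : Γ → R) : R[X] := ∑ γ, C (v γ) * ∏ δ ∈ Finset.univ.erase γ, (X - C (r δ))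

theorem famPoly_monic (v : Γ → R) : (famPoly v).Monic :=
  monic_prod_of_monic _ _ fun γ _ => monic_X_sub_C (v γ)

theorem famPoly_eval_self (v : Γ → R) (γ : Γ) : (famPoly v).eval (v γ) = 0 := by
  rw [famPoly, eval_prod]
  exact Finset.prod_eq_zero (Finset.mem_univ γ) (by simp)

theorem famPoly_derivative_eval (r : Γ → R) (γ : Γ) :
    (derivative (famPoly r)).eval (r γ) = ∏ δ ∈ Finset.univ.erase γ, (r γ - r δ) := by
  rw [famPoly, derivative_prod_finset, eval_finsetSum]
  rw [Finset.sum_eq_single γ]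
  · simp [eval_prod]
  · intro δ _ hδ
    simp only [derivative_X_sub_C, mul_one, eval_prod]
    exact Finset.prod_eq_zero (Finset.mem_erase.mpr ⟨hδ.symm, Finset.mem_univ γ⟩) (by simp)
  · exact fun h => absurd (Finset.mem_univ γ) h

theorem famLagrange_eval (r v : Γ → R) (γ : Γ) :
    (famLagrange r v).eval (r γ) = v γ * (derivative (famPoly r)).eval (r γ) := by
  rw [famPoly_derivative_eval, famLagrange, eval_finsetSum, Finset.sum_eq_single γ]
  · simp [eval_prod]
  · intro δ _ hδ
    simp only [eval_mul, eval_prod]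
    rw [Finset.prod_eq_zero (Finset.mem_erase.mpr ⟨hδ.symm, Finset.mem_univ γ⟩) (by simp),
      mul_zero]
  · exact fun h => absurd (Finset.mem_univ γ) h

theorem famLagrange_natDegree_lt [Nontrivial R] [Nonempty Γ] (r v : Γ → R) :
    (famLagrange r v).natDegree < Fintype.card Γ := by
  have hpos : 0 < Fintype.card Γ := Fintype.card_pos
  refine lt_of_le_of_lt (natDegree_sum_le_of_forall_le _ _ (n := Fintype.card Γ - 1) fun γ _ => ?_)
    (by omega)
  refine (natDegree_C_mul_le _ _).trans ?_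
  refine (natDegree_prod_le _ _).trans ?_
  simp [Finset.card_erase_of_mem]

variable {S : Type*} [CommRing S] (f : R →+* S)

theorem famPoly_map (v : Γ → R) : (famPoly v).map f = famPoly (f ∘ v) := by
  simp [famPoly, Polynomial.map_prod]

theorem famLagrange_map (r v : Γ → R) :
    (famLagrange r v).map f = famLagrange (f ∘ r) (f ∘ v) := by
  simp [famLagrange, Polynomial.map_sum, Polynomial.map_prod]

/-- `r` are the roots of a polynomial with coefficients in the subring `P`, and `v` is compatible. -/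
structure IsSymFamily (P : Subring R) (r v : Γ → R) : Prop where
  coeff_root : ∀ i, (famPoly r).coeff i ∈ P
  coeff_poly : ∀ i, (famPoly v).coeff i ∈ P
  coeff_lagrange : ∀ i, (famLagrange r v).coeff i ∈ P

theorem IsSymFamily.map {P : Subring R} {r v : Γ → R} (h : IsSymFamily P r v) {Q : Subring S}
    (hPQ : ∀ x ∈ P, f x ∈ Q) : IsSymFamily Q (f ∘ r) (f ∘ v) := by
  constructor <;> intro i
  · rw [← famPoly_map, coeff_map]; exact hPQ _ (h.coeff_root i)
  · rw [← famPoly_map, coeff_map]; exact hPQ _ (h.coeff_poly i)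
  · rw [← famLagrange_map, coeff_map]; exact hPQ _ (h.coeff_lagrange i)

end Sym

section PolyJ

variable {R : Type*} [CommRing R]

/-- The subring `R[J]` of `R((u))`. -/
def polyJ (J : LaurentSeries R) : Subring (LaurentSeries R) :=
  (eval₂RingHom (HahnSeries.C : R →+* LaurentSeries R) J).range

theorem mem_polyJ_iff {J x : LaurentSeries R} :
    x ∈ polyJ J ↔ ∃ p : R[X], p.eval₂ HahnSeries.C J = x := by
  simp [polyJ]

theorem coeffMap_C {S : Type*} [CommRing S] (f : R →+* S) (a : R) :
    coeffMap f (HahnSeries.C a) = HahnSeries.C (f a) := by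
  simp [HahnSeries.C_apply]

theorem coeffMap_mem_polyJ {S : Type*} [CommRing S] (f : R →+* S) {J x : LaurentSeries R}
    (hx : x ∈ polyJ J) : coeffMap f x ∈ polyJ (coeffMap f J) := by
  obtain ⟨p, rfl⟩ := mem_polyJ_iff.mp hx
  refine mem_polyJ_iff.mpr ⟨p.map f, ?_⟩
  rw [eval₂_map, hom_eval₂]
  congr 1
  ext1 a
  simp

end PolyJ

section Field

variable {k : Type*} [Field k]

theorem order_nonneg_sum {x : LaurentSeries k} {y : LaurentSeries k} (hy : y ≠ 0)
    (hlt : y.order < x.order ∨ x = 0) : (x + y) ≠ 0 ∧ (x + y).order = y.order := by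
  rcases eq_or_ne x 0 with rfl | hx
  · simpa using hy
  have hlt' : y.order < x.order := hlt.resolve_right hx
  have hc : (x + y).coeff y.order = y.coeff y.order := by
    rw [HahnSeries.coeff_add, HahnSeries.coeff_eq_zero_of_lt_order hlt', zero_add]
  have hne : (x + y).coeff y.order ≠ 0 := by
    rw [hc]; exact fun h => hy (HahnSeries.coeff_order_eq_zero.mp h)
  have hne0 : x + y ≠ 0 := HahnSeries.ne_zero_of_coeff_ne_zero hne
  refine ⟨hne0, le_antisymm (HahnSeries.order_le_of_coeff_ne_zero hne) ?_⟩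
  exact (le_min hlt'.le le_rfl).trans (HahnSeries.min_order_le_order_add hne0)

/-- A nonzero polynomial in a series of negative order has order `deg * order`. -/
theorem order_eval₂_eq {J : LaurentSeries k} (hJ : J.order < 0) {p : k[X]} (hp : p ≠ 0) :
    p.eval₂ HahnSeries.C J ≠ 0 ∧
      (p.eval₂ HahnSeries.C J).order = (p.natDegree : ℤ) * J.order := by
  have hJ0 : J ≠ 0 := fun h => by simp [h] at hJ
  induction hn : p.natDegree generalizing p with
  | zero =>
    obtain ⟨a, rfl⟩ := natDegree_eq_zero.mp hn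
    have ha : a ≠ 0 := fun h => hp (by simp [h])
    simp [eval₂_C, ha]
  | succ n ih =>
    have hq : p.divX ≠ 0 := fun h => by
      have := divX_eq_zero_iff.mp h
      rw [this, natDegree_C] at hn
      omega
    have hqn : p.divX.natDegree = n := by rw [natDegree_divX_eq_natDegree_tsub_one, hn]; omega
    obtain ⟨hqne, hqord⟩ := ih hq hqn
    have hy : p.divX.eval₂ HahnSeries.C J * J ≠ 0 := mul_ne_zero hqne hJ0
    have hyord : (p.divX.eval₂ HahnSeries.C J * J).order = ((n + 1 : ℕ) : ℤ) * J.order := by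
      rw [HahnSeries.order_mul hqne hJ0, hqord]; push_cast; ring
    have hdec : p.eval₂ HahnSeries.C J =
        HahnSeries.C (p.coeff 0) + p.divX.eval₂ HahnSeries.C J * J := by
      conv_lhs => rw [← divX_mul_X_add p]
      simp [eval₂_add, eval₂_mul, add_comm]
    have key := order_nonneg_sum (x := HahnSeries.C (p.coeff 0)) hy (Or.inl (by
      rw [hyord, HahnSeries.order_C]
      exact mul_neg_of_pos_of_neg (by exact_mod_cast n.succ_pos) hJ))
    rw [hdec]
    exact ⟨key.1, key.2.trans hyord⟩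

theorem eval₂_C_injective {J : LaurentSeries k} (hJ : J.order < 0) :
    Function.Injective (eval₂RingHom (HahnSeries.C : k →+* LaurentSeries k) J) := by
  rw [injective_iff_map_eq_zero]
  intro p hp
  by_contra h
  exact (order_eval₂_eq hJ h).1 hp

theorem order_nonpos_of_mem_polyJ {J x : LaurentSeries k} (hJ : J.order < 0) (hx : x ∈ polyJ J) :
    x.order ≤ 0 := by
  obtain ⟨p, rfl⟩ := mem_polyJ_iff.mp hx
  rcases eq_or_ne p 0 with rfl | hp
  · simp
  · rw [(order_eval₂_eq hJ hp).2]
    exact mul_nonpos_of_nonneg_of_nonpos (by positivity) hJ.le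

theorem algebraMap_eq_C : algebraMap k (LaurentSeries k) = HahnSeries.C := by
  ext1 a
  rw [algebraMap_laurentSeries_eq_single]
  simp [HahnSeries.C_apply]

theorem eval₂_mem_adjoin (J : LaurentSeries k) (p : k[X]) :
    p.eval₂ HahnSeries.C J ∈ k⟮J⟯ := by
  rw [← algebraMap_eq_C, ← aeval_def]
  exact IntermediateField.algebra_adjoin_le_adjoin _ _ (aeval_mem_adjoin_singleton k J)

theorem polyJ_le_adjoin (J : LaurentSeries k) : polyJ J ≤ (k⟮J⟯).toSubring := by
  intro x hx
  obtain ⟨p, rfl⟩ := mem_polyJ_iff.mp hx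
  exact eval₂_mem_adjoin J p

theorem mem_adjoin_iff_div_polyJ {J x : LaurentSeries k} :
    x ∈ k⟮J⟯ ↔ ∃ p q : k[X], x = p.eval₂ HahnSeries.C J / q.eval₂ HahnSeries.C J := by
  rw [IntermediateField.mem_adjoin_simple_iff]
  simp [aeval_def, algebraMap_eq_C]

/-- An element of `k(J)` integral over `k[J]` lies in `k[J]`. -/
theorem mem_polyJ_of_isIntegral {J x : LaurentSeries k} (hJ : J.order < 0) (hx : x ∈ k⟮J⟯)
    {P : (LaurentSeries k)[X]} (hP : P.Monic) (hcoeff : ∀ i, P.coeff i ∈ polyJ J)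
    (heval : P.eval x = 0) : x ∈ polyJ J := by
  set e := eval₂RingHom (HahnSeries.C : k →+* LaurentSeries k) J
  have he : Function.Injective e := eval₂_C_injective hJ
  let φ : FractionRing k[X] →+* LaurentSeries k := IsFractionRing.lift he
  have hφ : ∀ p : k[X], φ (algebraMap _ _ p) = e p := fun p => IsFractionRing.lift_algebraMap he p
  obtain ⟨a, b, rfl⟩ := mem_adjoin_iff_div_polyJ.mp hx
  let z : FractionRing k[X] := algebraMap _ _ a / algebraMap _ _ b
  have hz : φ z = e a / e b := by simp [z, map_div₀, hφ]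
  have hlift : P ∈ Polynomial.lifts e := (lifts_iff_coeff_lifts P).mpr fun i => hcoeff i
  obtain ⟨P', hP'map, -, hP'monic⟩ := lifts_and_natDegree_eq_and_monic hlift hP
  have hzint : IsIntegral k[X] z := by
    refine ⟨P', hP'monic, φ.injective ?_⟩
    rw [map_zero, hom_eval₂, hz, show φ.comp (algebraMap k[X] _) = e from RingHom.ext hφ,
      ← eval_map, hP'map]
    exact heval
  obtain ⟨c, hc⟩ := IsIntegrallyClosed.isIntegral_iff.mp hzint
  refine mem_polyJ_iff.mpr ⟨c, ?_⟩
  change e c = e a / e b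
  rw [← hz, ← hc, hφ]

theorem order_prod {ι : Type*} (s : Finset ι) (f : ι → LaurentSeries k)
    (hf : ∀ i ∈ s, f i ≠ 0) : (∏ i ∈ s, f i).order = ∑ i ∈ s, (f i).order := by
  induction s using Finset.cons_induction with
  | empty => simp
  | cons a s ha ih =>
    rw [Finset.prod_cons, Finset.sum_cons, HahnSeries.order_mul (hf a (Finset.mem_cons_self a s))
      (Finset.prod_ne_zero_iff.mpr fun i hi => hf i (Finset.mem_cons_of_mem hi)),
      ih fun i hi => hf i (Finset.mem_cons_of_mem hi)]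

variable {Γ : Type*} [Fintype Γ] [DecidableEq Γ]

/-- The abstract irreducibility criterion. -/
theorem natDegree_minpoly_eq_card {J : LaurentSeries k} (hJ : J.order < 0)
    {r v : Γ → LaurentSeries k} (hr : Function.Injective r)
    (hv : IsSymFamily (polyJ J) r v) (γ₀ : Γ) (hne : ∀ γ, v γ ≠ 0)
    (hord : ∀ γ, γ ≠ γ₀ → 0 < (v γ).order) :
    IsIntegral (k⟮J⟯) (r γ₀) ∧ (minpoly (k⟮J⟯) (r γ₀)).natDegree = Fintype.card Γ := by
  classical
  set K₀ := k⟮J⟯
  have hKJ : ∀ x ∈ polyJ J, x ∈ K₀ := fun x hx => polyJ_le_adjoin J hx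
  have hliftR : famPoly r ∈ lifts (algebraMap K₀ (LaurentSeries k)) :=
    (lifts_iff_coeff_lifts _).mpr fun i => ⟨⟨_, hKJ _ (hv.coeff_root i)⟩, rfl⟩
  obtain ⟨Φ, hΦmap, -, hΦm⟩ := lifts_and_natDegree_eq_and_monic hliftR (famPoly_monic r)
  have hliftG : famLagrange r v ∈ lifts (algebraMap K₀ (LaurentSeries k)) :=
    (lifts_iff_coeff_lifts _).mpr fun i => ⟨⟨_, hKJ _ (hv.coeff_lagrange i)⟩, rfl⟩
  obtain ⟨G, hG⟩ := (mem_lifts _).mp hliftG
  have hΦsep : Φ.Separable := by
    rw [← separable_map (algebraMap K₀ (LaurentSeries k)), hΦmap, famPoly]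
    exact separable_prod_X_sub_C_iff.mpr hr
  have hΦsplit : (Φ.map (algebraMap K₀ (LaurentSeries k))).Splits := by
    rw [hΦmap, famPoly]; exact Splits.prod fun γ _ => Splits.X_sub_C _
  have hroot : ∀ x, aeval x Φ = 0 ↔ ∃ γ, r γ = x := by
    intro x
    rw [aeval_def, ← eval_map, hΦmap, famPoly, eval_prod, Finset.prod_eq_zero_iff]
    simp [sub_eq_zero, eq_comm]
  have hint : IsIntegral K₀ (r γ₀) := ⟨Φ, hΦm, (hroot _).mpr ⟨γ₀, rfl⟩⟩
  refine ⟨hint, ?_⟩
  set P := minpoly K₀ (r γ₀) with hPdef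
  let T : Finset Γ := Finset.univ.filter fun γ => aeval (r γ) P ≠ 0
  have hγ₀T : γ₀ ∉ T := by simp [T, P, minpoly.aeval]
  -- degree bookkeeping
  have hPdvd : P ∣ Φ := minpoly.dvd _ _ ((hroot _).mpr ⟨γ₀, rfl⟩)
  have hPsplit : (P.map (algebraMap K₀ (LaurentSeries k))).Splits :=
    hΦsplit.of_dvd (map_ne_zero hΦm.ne_zero) (Polynomial.map_dvd _ hPdvd)
  have hPsep : P.Separable := hΦsep.of_dvd hPdvd
  have hdeg : P.natDegree = (Tᶜ).card := by
    rw [← natDegree_map (algebraMap K₀ (LaurentSeries k)), hPsplit.natDegree_eq_card_roots]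
    have hnd : (P.map (algebraMap K₀ (LaurentSeries k))).roots.Nodup := nodup_roots hPsep.map
    rw [← Multiset.toFinset_card_of_nodup hnd, ← Finset.card_image_of_injective Tᶜ hr]
    congr 1
    ext x
    simp only [Multiset.mem_toFinset, mem_roots', IsRoot.def, eval_map, ← aeval_def,
      Finset.mem_image, Finset.mem_compl, Finset.mem_filter, T, Finset.mem_univ, true_and,
      not_not]
    constructor
    · rintro ⟨-, hx⟩
      obtain ⟨γ, rfl⟩ := (hroot x).mp (aeval_eq_zero_of_dvd_aeval_eq_zero hPdvd hx)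
      exact ⟨γ, hx, rfl⟩
    · rintro ⟨γ, hγ, rfl⟩
      exact ⟨map_ne_zero (minpoly.ne_zero hint), hγ⟩
  -- Galois closure
  let E := IntermediateField.adjoin K₀ (Φ.rootSet (LaurentSeries k))
  have hrE : ∀ γ, r γ ∈ E := fun γ => IntermediateField.subset_adjoin _ _ (by
    rw [mem_rootSet_of_ne hΦm.ne_zero]; exact (hroot _).mpr ⟨γ, rfl⟩)
  have : Φ.IsSplittingField K₀ E := IntermediateField.adjoin_rootSet_isSplittingField hΦsplit
  have : IsGalois K₀ E := IsGalois.of_separable_splitting_field hΦsep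
  have : FiniteDimensional K₀ E := IsSplittingField.finiteDimensional E Φ
  have hder : ∀ γ, aeval (r γ) (derivative Φ) ≠ 0 := by
    intro γ
    rw [aeval_def, ← eval_map, ← derivative_map, hΦmap, famPoly_derivative_eval]
    exact Finset.prod_ne_zero_iff.mpr fun δ hδ =>
      sub_ne_zero.mpr fun h => (Finset.mem_erase.mp hδ).1 (hr h).symm
  have hval : ∀ γ, v γ = aeval (r γ) G / aeval (r γ) (derivative Φ) := by
    intro γ
    rw [eq_div_iff (hder γ), aeval_def, ← eval_map, ← derivative_map, hΦmap,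
      aeval_def, ← eval_map, hG, famLagrange_eval]
  let rE : Γ → E := fun γ => ⟨r γ, hrE γ⟩
  let vE : Γ → E := fun γ => aeval (rE γ) G / aeval (rE γ) (derivative Φ)
  have hcoe : ∀ (x : E) (Q : K₀[X]), ((aeval x Q : E) : LaurentSeries k) = aeval (x : LaurentSeries k) Q :=
    fun x Q => (aeval_algHom_apply E.val x Q).symm
  have hvE : ∀ γ, (vE γ : LaurentSeries k) = v γ := by
    intro γ
    simp only [vE, IntermediateField.coe_div, hcoe, rE]
    exact (hval γ).symm
  have hperm : ∀ (σ : E ≃ₐ[K₀] E) (γ : Γ), ∃ δ, σ (rE γ) = rE δ := by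
    intro σ γ
    have h0 : aeval (σ (rE γ)) Φ = 0 := by
      rw [aeval_algHom_apply, (Subtype.ext (by rw [hcoe]; exact (hroot _).mpr ⟨γ, rfl⟩) :
        aeval (rE γ) Φ = 0), map_zero]
    obtain ⟨δ, hδ⟩ := (hroot _).mp (by rw [← hcoe, h0]; rfl)
    exact ⟨δ, Subtype.ext hδ.symm⟩
  choose π hπ using hperm
  have hπT : ∀ σ γ, (π σ γ ∈ T ↔ γ ∈ T) := by
    intro σ γ
    have hc : ∀ δ, aeval (r δ) P = 0 ↔ aeval (rE δ) P = 0 := fun δ => by
      rw [show r δ = ((rE δ : E) : LaurentSeries k) from rfl, ← hcoe]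
      exact ZeroMemClass.coe_eq_zero
    simp only [T, Finset.mem_filter, Finset.mem_univ, true_and, ne_eq, hc, ← hπ,
      aeval_algHom_apply, map_eq_zero]
  have hπinj : ∀ σ, Function.Injective (π σ) := by
    intro σ a b h
    have := congrArg rE h
    rw [← hπ, ← hπ] at this
    exact hr (congrArg Subtype.val (σ.injective this))
  let z : E := ∏ γ ∈ T, vE γ
  have hz : z ∈ (⊥ : IntermediateField K₀ E) := by
    rw [IsGalois.mem_bot_iff_fixed]
    intro σ
    have hmap : ∀ γ, σ (vE γ) = vE (π σ γ) := fun γ => by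
      simp only [vE, map_div₀, ← aeval_algHom_apply, hπ]
    rw [map_prod, Finset.prod_congr rfl fun γ _ => hmap γ,
      ← Finset.prod_image (f := vE) (g := π σ) fun a _ b _ h => hπinj σ h]
    congr 1
    apply Finset.eq_of_subset_of_card_le
    · intro x hx
      obtain ⟨γ, hγ, rfl⟩ := Finset.mem_image.mp hx
      exact (hπT σ γ).mpr hγ
    · rw [Finset.card_image_of_injective _ (hπinj σ)]
  obtain ⟨c, hc⟩ := IntermediateField.mem_bot.mp hz
  have hzv : ((z : E) : LaurentSeries k) = ∏ γ ∈ T, v γ := by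
    simp [z, hvE]
  have hzmem : (∏ γ ∈ T, v γ) ∈ K₀ := by
    rw [← hzv, ← hc]
    exact c.2
  -- integrality over `k[J]`
  let : Algebra (polyJ J) (LaurentSeries k) := (polyJ J).subtype.toAlgebra
  have hvint : ∀ γ, IsIntegral (polyJ J) (v γ) := by
    intro γ
    have hl : famPoly v ∈ lifts (algebraMap (polyJ J) (LaurentSeries k)) :=
      (lifts_iff_coeff_lifts _).mpr fun i => ⟨⟨_, hv.coeff_poly i⟩, rfl⟩
    obtain ⟨Q, hQ, -, hQm⟩ := lifts_and_natDegree_eq_and_monic hl (famPoly_monic v)
    exact ⟨Q, hQm, by rw [← eval_map, hQ, famPoly_eval_self]⟩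
  obtain ⟨Q, hQm, hQ⟩ := IsIntegral.prod (R := polyJ J) (f := v) (s := T) fun γ _ => hvint γ
  have hzP : (∏ γ ∈ T, v γ) ∈ polyJ J :=
    mem_polyJ_of_isIntegral hJ hzmem (hQm.map (algebraMap (polyJ J) (LaurentSeries k)))
      (fun i => by rw [coeff_map]; exact (Q.coeff i).2) (by rw [eval_map]; exact hQ)
  have hle := order_nonpos_of_mem_polyJ hJ hzP
  rw [order_prod T v fun γ _ => hne γ] at hle
  have hT : T = ∅ := by
    by_contra hT
    have hpos : 0 < ∑ γ ∈ T, (v γ).order :=
      Finset.sum_pos (fun γ hγ => hord γ fun h => hγ₀T (h ▸ hγ))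
        (Finset.nonempty_iff_ne_empty.mpr hT)
    omega
  rw [hdeg, hT]
  simp

end Field

end FLTAgent.Reduction
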