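import Mathlib

/-!
# Exponents of a modular unit of level `N`

`unitExp N d = μ (N / d) · rad N / (N / d)`. Their sum is `φ (rad N) > 0`
(`sum_unitExp_eq_totient`, `sum_unitExp_pos`) and the weighted sum
`∑ unitExp N d · gcd (d, n)² · N / d` vanishes for proper divisors `n` of `N`
(`sum_unitExp_order`): a unit built from `Δ (d z) / Δ (z)` with these exponents has positive order
at every cusp coset other than infinity.
-/

set_option autoImplicit false

open Finset ArithmeticFunction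
open scoped ArithmeticFunction.Moebius

namespace FLTAgent.Reduction

/-- The product of the primes dividing `N`. -/
def radN (N : ℕ) : ℕ := ∏ p ∈ N.primeFactors, p

theorem radN_pos (N : ℕ) : 0 < radN N :=
  Finset.prod_pos fun _ hp => (Nat.mem_primeFactors.mp hp).1.pos

theorem radN_dvd (N : ℕ) : radN N ∣ N := Nat.prod_primeFactors_dvd N

theorem dvd_radN {N s : ℕ} (hN : N ≠ 0) (hs : s ∣ N) (hsq : Squarefree s) : s ∣ radN N := by
  rw [← Nat.prod_primeFactors_of_squarefree hsq]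
  exact Finset.prod_dvd_prod_of_subset _ _ _ (Nat.primeFactors_mono hs hN)

/-- The exponent of `Δ(d z) / Δ(z)`. -/
def unitExp (N d : ℕ) : ℤ := μ (N / d) * ((radN N / (N / d) : ℕ) : ℤ)

theorem sum_unitExp_eq_totient {N : ℕ} (hN : N ≠ 0) :
    ∑ d ∈ N.divisors, unitExp N d = (Nat.totient (radN N) : ℤ) := by
  simp only [unitExp]
  rw [Nat.sum_div_divisors N (fun s => μ s * ((radN N / s : ℕ) : ℤ))]
  have h1 := (sum_eq_iff_sum_mul_moebius_eq (R := ℤ) (f := fun n => (Nat.totient n : ℤ))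
    (g := fun n => (n : ℤ))).mp (fun n _ => by exact_mod_cast Nat.sum_totient n) (radN N)
    (radN_pos N)
  rw [← h1]
  refine Eq.trans ?_ (Nat.sum_divisorsAntidiagonal (fun a b => (μ a : ℤ) * (b : ℤ))).symm
  refine (Finset.sum_subset (Nat.divisors_subset_of_dvd hN (radN_dvd N)) ?_).symm
  intro s hs hs'
  have : ¬ Squarefree s := fun hsq => hs' (Nat.mem_divisors.mpr
    ⟨dvd_radN hN (Nat.mem_divisors.mp hs).1 hsq, (radN_pos N).ne'⟩)
  simp [moebius_eq_zero_of_not_squarefree this]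

theorem sum_unitExp_pos {N : ℕ} (hN : N ≠ 0) : 0 < ∑ d ∈ N.divisors, unitExp N d := by
  rw [sum_unitExp_eq_totient hN]
  exact_mod_cast Nat.totient_pos.mpr (radN_pos N)

theorem gcd_mul_prime_div {N n s p : ℕ} (hN : N ≠ 0) (hp : p.Prime) (hn : n ∣ N / p)
    (hps : ¬ p ∣ s) (hs : s * p ∣ N) : Nat.gcd (N / s) n = Nat.gcd (N / (s * p)) n := by
  obtain ⟨t, rfl⟩ := hs
  have hs0 : s ≠ 0 := fun h => hN (by simp [h])
  rw [Nat.mul_assoc, Nat.mul_div_cancel_left _ (Nat.pos_of_ne_zero hs0), ← Nat.mul_assoc,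
    Nat.mul_div_cancel_left _ (Nat.pos_of_ne_zero (Nat.mul_ne_zero hs0 hp.ne_zero))]
  have hn' : n ∣ s * t := by
    rwa [Nat.mul_comm s p, Nat.mul_assoc, Nat.mul_div_cancel_left _ hp.pos] at hn
  refine Nat.dvd_antisymm ?_ (Nat.gcd_dvd_gcd_of_dvd_left _ (Dvd.intro_left _ rfl))
  refine Nat.dvd_gcd ?_ (Nat.gcd_dvd_right _ _)
  refine (Nat.gcd_dvd_gcd_of_dvd_right _ hn').trans ?_
  rw [Nat.gcd_mul_right, (Nat.Prime.coprime_iff_not_dvd hp).mpr hps, one_mul]

theorem exists_prime_dvd_div {N n : ℕ} (hN : N ≠ 0) (hn : n ∣ N) (hne : n ≠ N) :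
    ∃ p, p.Prime ∧ p ∣ N ∧ n ∣ N / p := by
  obtain ⟨t, rfl⟩ := hn
  have ht : t ≠ 1 := fun h => hne (by simp [h])
  obtain ⟨p, hp, u, rfl⟩ := Nat.exists_prime_and_dvd ht
  refine ⟨p, hp, ⟨n * u, by ring⟩, ⟨u, ?_⟩⟩
  rw [show n * (p * u) = p * (n * u) by ring, Nat.mul_div_cancel_left _ hp.pos]

theorem sum_moebius_gcd_sq_eq_zero {N n : ℕ} (hN : N ≠ 0) (hn : n ∣ N) (hne : n ≠ N) :
    ∑ s ∈ N.divisors, μ s * ((Nat.gcd (N / s) n : ℤ) ^ 2) = 0 := by
  obtain ⟨p, hp, hpN, hnp⟩ := exists_prime_dvd_div hN hn hne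
  rw [← Finset.sum_filter_of_ne (p := fun s => Squarefree s) (fun s _ h => by
    by_contra hsq
    exact h (by simp [moebius_eq_zero_of_not_squarefree hsq]))]
  have hmem : ∀ s ∈ N.divisors.filter (fun s => Squarefree s), ¬ p ∣ s →
      s * p ∈ N.divisors.filter (fun s => Squarefree s) ∧
        μ (s * p) * ((Nat.gcd (N / (s * p)) n : ℤ) ^ 2) =
          -(μ s * ((Nat.gcd (N / s) n : ℤ) ^ 2)) := by
    intro s hs hps
    obtain ⟨hsd, hsq⟩ := Finset.mem_filter.mp hs
    have hcop : Nat.Coprime s p := ((Nat.Prime.coprime_iff_not_dvd hp).mpr hps).symm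
    have hdvd : s * p ∣ N := hcop.mul_dvd_of_dvd_of_dvd (Nat.mem_divisors.mp hsd).1 hpN
    refine ⟨Finset.mem_filter.mpr ⟨Nat.mem_divisors.mpr ⟨hdvd, hN⟩,
      (Nat.squarefree_mul hcop).mpr ⟨hsq, hp.prime.squarefree⟩⟩, ?_⟩
    rw [isMultiplicative_moebius.map_mul_of_coprime hcop, moebius_apply_prime hp,
      ← gcd_mul_prime_div hN hp hnp hps hdvd]
    ring
  have hdiv : ∀ s ∈ N.divisors.filter (fun s => Squarefree s), p ∣ s →
      s / p ∈ N.divisors.filter (fun s => Squarefree s) ∧ ¬ p ∣ s / p ∧ s / p * p = s := by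
    intro s hs hps
    obtain ⟨hsd, hsq⟩ := Finset.mem_filter.mp hs
    obtain ⟨t, rfl⟩ := hps
    rw [Nat.mul_div_cancel_left _ hp.pos]
    refine ⟨Finset.mem_filter.mpr ⟨Nat.mem_divisors.mpr
      ⟨(Dvd.intro_left _ rfl).trans (Nat.mem_divisors.mp hsd).1, hN⟩, hsq.of_mul_right⟩, ?_,
      Nat.mul_comm _ _⟩
    intro h
    exact hp.not_isUnit (hsq p (mul_dvd_mul_left p h))
  refine Finset.sum_involution (fun s _ => if p ∣ s then s / p else s * p) ?_ ?_ ?_ ?_
  · intro s hs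
    by_cases hps : p ∣ s
    · obtain ⟨h1, h2, h3⟩ := hdiv s hs hps
      have h4 := (hmem _ h1 h2).2
      rw [h3] at h4
      simp only [if_pos hps, h4]
      ring
    · simp only [if_neg hps, (hmem s hs hps).2]
      ring
  · intro s hs _ h
    have hs0 : s ≠ 0 := (Finset.mem_filter.mp hs).2.ne_zero
    by_cases hps : p ∣ s
    · rw [if_pos hps] at h
      exact absurd h (Nat.div_lt_self (Nat.pos_of_ne_zero hs0) hp.one_lt).ne
    · rw [if_neg hps] at h
      exact hp.ne_one ((mul_eq_left₀ hs0).mp h)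
  · intro s hs
    by_cases hps : p ∣ s
    · rw [if_pos hps]; exact (hdiv s hs hps).1
    · rw [if_neg hps]; exact (hmem s hs hps).1
  · intro s hs
    by_cases hps : p ∣ s
    · simp only [if_pos hps, if_neg (hdiv s hs hps).2.1, (hdiv s hs hps).2.2]
    · simp only [if_neg hps, if_pos (dvd_mul_left p s), Nat.mul_div_cancel _ hp.pos]

/-- The order of the unit at a coset with lower left entry `n`. -/
theorem sum_unitExp_order {N n : ℕ} (hN : N ≠ 0) (hn : n ∣ N) (hne : n ≠ N) :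
    ∑ d ∈ N.divisors, unitExp N d * ((Nat.gcd d n * Nat.gcd d n * (N / d) : ℕ) : ℤ) = 0 := by
  have h := sum_moebius_gcd_sq_eq_zero hN hn hne
  rw [← Nat.sum_div_divisors N (fun d => unitExp N d *
    ((Nat.gcd d n * Nat.gcd d n * (N / d) : ℕ) : ℤ))]
  calc ∑ s ∈ N.divisors, unitExp N (N / s) *
        ((Nat.gcd (N / s) n * Nat.gcd (N / s) n * (N / (N / s)) : ℕ) : ℤ)
      = (radN N : ℤ) * ∑ s ∈ N.divisors, μ s * ((Nat.gcd (N / s) n : ℤ) ^ 2) := by
        rw [Finset.mul_sum]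
        refine Finset.sum_congr rfl fun s hs => ?_
        have hsN := (Nat.mem_divisors.mp hs).1
        rw [unitExp, Nat.div_div_self hsN hN]
        by_cases hsq : Squarefree s
        · have h2 : ((radN N / s : ℕ) : ℤ) * (s : ℤ) = radN N := by
            exact_mod_cast Nat.div_mul_cancel (dvd_radN hN hsN hsq)
          generalize radN N / s = m at h2 ⊢
          push_cast
          linear_combination (μ s * ((Nat.gcd (N / s) n : ℤ) ^ 2)) * h2
        · simp [moebius_eq_zero_of_not_squarefree hsq]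
    _ = 0 := by rw [h, mul_zero]

end FLTAgent.Reduction
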