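import Mathlib
import Fermat.Agent.ModularCosets.Transfer
import Fermat.Agent.Modular.JFun
import Fermat.Agent.Reduction.GaussExponents

/-!
# The modular unit

The series of `∏ (Δ (d z) / Δ (z)) ^ (- unitExp N d)` at each coset (`gaussUnit`), over any ring
with a suitable root of unity and compatibly with base change (`map_gaussUnit`). Its order is
positive away from the coset of infinity (`order_gaussUnit_pos`, from `sum_unitExp_order`), and
over `ℂ` it is the expansion of the nowhere vanishing function `unitFn` (`unitFn_pair`).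
-/

set_option autoImplicit false

noncomputable section

open UpperHalfPlane ModularCurve CongruenceSubgroup
open scoped MatrixGroups

namespace FLTAgent.Reduction

open FLTAgent.ModularCosets

section Series

variable (R : Type*) [CommRing R]

/-- The series of `Δ`. -/
def etaSer : LaurentSeries R :=
  HahnSeries.single (1 : ℤ) 1 *
    HahnSeries.ofPowerSeries ℤ R (dedekindEtaUnit.map (Int.castRingHom R))

/-- The series of `Δ⁻¹`. -/
def etaSerInv : LaurentSeries R :=
  HahnSeries.single (-1 : ℤ) 1 *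
    HahnSeries.ofPowerSeries ℤ R (dedekindEtaUnitInv.map (Int.castRingHom R))

theorem etaSer_mul_inv : etaSer R * etaSerInv R = 1 := by
  rw [etaSer, etaSerInv, mul_mul_mul_comm, HahnSeries.single_mul_single, ← map_mul, ← map_mul,
    dedekindEtaUnit_mul_inv, map_one, map_one, add_neg_cancel, mul_one, mul_one,
    HahnSeries.single_zero_one]

/-- The series of `Δ` as a unit. -/
def etaUnit : (LaurentSeries R)ˣ :=
  ⟨etaSer R, etaSerInv R, etaSer_mul_inv R, by rw [mul_comm]; exact etaSer_mul_inv R⟩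

open Classical in
/-- The natural number `n` as a unit, when it is one. -/
def natU (n : ℕ) : Rˣ := if h : IsUnit (n : R) then h.unit else 1

variable {R}

theorem natU_val {n : ℕ} (h : IsUnit (n : R)) : (natU R n : R) = n := by
  rw [natU, dif_pos h]; exact h.unit_spec

theorem isUnit_natCast_of_dvd {N D : ℕ} (hN : IsUnit (N : R)) (hD : D ∣ N) : IsUnit (D : R) := by
  obtain ⟨e, rfl⟩ := hD
  rw [Nat.cast_mul] at hN
  exact isUnit_of_mul_isUnit_left hN

/-- The series of `Δ (d γ z) / Δ (γ z)` in `q ^ (1 / N)`. -/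
def deltaQuot (ζ : Rˣ) (N a b D : ℕ) : (LaurentSeries R)ˣ :=
  Units.map (HahnSeries.C : R →+* LaurentSeries R).toMonoidHom ((natU R D) ^ 12)⁻¹ *
    Units.map (cuspExp ζ N a b D).toMonoidHom (etaUnit R) *
      (Units.map (qScale R N).toMonoidHom (etaUnit R))⁻¹

variable (R) in
/-- The series of the modular unit at the coset `c`. -/
def gaussUnit (ζ : Rˣ) {N : ℕ} [NeZero N] (c : CosetIdx N) : (LaurentSeries R)ˣ :=
  ∏ d : DivIdx N, deltaQuot ζ N (triData (d : ℕ) c.rep).a (triData (d : ℕ) c.rep).b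
    (triData (d : ℕ) c.rep).D ^ (-unitExp N d)

variable {S : Type*} [CommRing S] (f : R →+* S)

theorem coeffMap_etaSer : coeffMap f (etaSer R) = etaSer S := by
  rw [etaSer, etaSer, map_mul, coeffMap_single, map_one, coeffMap_ofPowerSeries,
    ← RingHom.comp_apply (PowerSeries.map f) (PowerSeries.map (Int.castRingHom R)),
    ← PowerSeries.map_comp, RingHom.ext_int (f.comp (Int.castRingHom R)) (Int.castRingHom S)]

theorem map_etaUnit : Units.map (coeffMap f).toMonoidHom (etaUnit R) = etaUnit S :=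
  Units.ext (coeffMap_etaSer f)

theorem map_natU {n : ℕ} (h : IsUnit (n : R)) : Units.map f.toMonoidHom (natU R n) = natU S n := by
  refine Units.ext ?_
  rw [natU_val (by simpa using h.map f)]
  simp [natU_val h]

theorem map_deltaQuot (ζ : Rˣ) {N D : ℕ} (hN : IsUnit (N : R)) (a b : ℕ) (hD : D ∣ N) :
    Units.map (coeffMap f).toMonoidHom (deltaQuot ζ N a b D) =
      deltaQuot (Units.map f.toMonoidHom ζ) N a b D := by
  refine Units.ext ?_
  rw [deltaQuot, deltaQuot, map_mul, map_mul, map_inv (Units.map (coeffMap f).toMonoidHom)]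
  congr 1
  · congr 1
    · congr 1
      · rw [← map_natU f (isUnit_natCast_of_dvd hN hD), ← map_pow, ← map_inv]
        refine Units.ext ?_
        simp
      · refine Units.ext ?_
        show coeffMap f (cuspExp ζ N a b D (etaSer R)) = cuspExp _ N a b D (etaSer S)
        rw [coeffMap_cuspExp, coeffMap_etaSer]
        rfl
    · congr 1
      refine Units.ext ?_
      show coeffMap f (qScale R N (etaSer R)) = qScale S N (etaSer S)
      rw [coeffMap_qScale, coeffMap_etaSer]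

theorem map_gaussUnit (ζ : Rˣ) {N : ℕ} [NeZero N] (hN : IsUnit (N : R)) (c : CosetIdx N) :
    Units.map (coeffMap f).toMonoidHom (gaussUnit R ζ c) =
      gaussUnit S (Units.map f.toMonoidHom ζ) c := by
  rw [gaussUnit, gaussUnit, map_prod]
  refine Finset.prod_congr rfl fun d _ => ?_
  rw [map_zpow, map_deltaQuot f ζ hN _ _ ((triData (d : ℕ) c.rep).D_dvd.trans d.dvd)]

theorem coeffMap_gaussUnit (ζ : Rˣ) {N : ℕ} [NeZero N] (hN : IsUnit (N : R)) (c : CosetIdx N) :
    coeffMap f (gaussUnit R ζ c : LaurentSeries R) =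
      (gaussUnit S (Units.map f.toMonoidHom ζ) c : LaurentSeries S) := by
  rw [← map_gaussUnit f ζ hN c]
  rfl

end Series

section Order

variable {k : Type*} [Field k]

theorem order_twist (c : kˣ) (x : LaurentSeries k) : (twist c x).order = x.order := by
  rcases eq_or_ne x 0 with rfl | hx
  · simp
  have h0 : (twist c x).coeff x.order ≠ 0 := by
    rw [twist_coeff]
    exact mul_ne_zero (Units.ne_zero _) fun h => hx (HahnSeries.coeff_order_eq_zero.mp h)
  refine le_antisymm (HahnSeries.order_le_of_coeff_ne_zero h0) ?_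
  refine HahnSeries.order_le_of_coeff_ne_zero ?_
  intro h
  have hne : twist c x ≠ 0 := HahnSeries.ne_zero_of_coeff_ne_zero h0
  refine hne (HahnSeries.coeff_order_eq_zero.mp ?_)
  rw [twist_coeff, h, mul_zero]

theorem order_qScale {m : ℕ} (hm : m ≠ 0) {x : LaurentSeries k} (hx : x ≠ 0) :
    (qScale k m x).order = m * x.order := by
  have h0 : (qScale k m x).coeff ((m : ℤ) * x.order) ≠ 0 := by
    rw [qScale_coeff_mul hm]
    exact fun h => hx (HahnSeries.coeff_order_eq_zero.mp h)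
  refine le_antisymm (HahnSeries.order_le_of_coeff_ne_zero h0) ?_
  have hne : qScale k m x ≠ 0 := HahnSeries.ne_zero_of_coeff_ne_zero h0
  by_contra hlt
  push Not at hlt
  apply hne
  apply HahnSeries.coeff_order_eq_zero.mp
  by_cases hdvd : (m : ℤ) ∣ (qScale k m x).order
  · obtain ⟨i, hi⟩ := hdvd
    rw [hi, qScale_coeff_mul hm]
    refine HahnSeries.coeff_eq_zero_of_lt_order ?_
    rw [hi] at hlt
    exact lt_of_mul_lt_mul_left hlt (Int.natCast_nonneg m)
  · exact qScale_coeff_of_not_dvd hm _ hdvd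

theorem order_etaSer : (etaSer k).order = 1 := by
  have h1 : (etaSer k).coeff 1 = 1 := by
    rw [etaSer, HahnSeries.coeff_single_mul, sub_self, one_mul,
      show (0 : ℤ) = ((0 : ℕ) : ℤ) from rfl, HahnSeries.ofPowerSeries_apply_coeff,
      PowerSeries.coeff_map, PowerSeries.coeff_zero_eq_constantCoeff, constantCoeff_dedekindEtaUnit,
      map_one]
  refine le_antisymm (HahnSeries.order_le_of_coeff_ne_zero (by rw [h1]; exact one_ne_zero)) ?_
  by_contra hlt
  push Not at hlt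
  have hne : etaSer k ≠ 0 := (etaUnit k).ne_zero
  apply hne
  apply HahnSeries.coeff_order_eq_zero.mp
  rw [etaSer, HahnSeries.coeff_single_mul, one_mul]
  exact ofPowerSeries_coeff_of_neg _ (by rw [← etaSer]; omega)

/-- The order, as a homomorphism on units. -/
def ordHom : (LaurentSeries k)ˣ →* Multiplicative ℤ where
  toFun x := Multiplicative.ofAdd (x : LaurentSeries k).order
  map_one' := by simp
  map_mul' x y := by
    rw [← ofAdd_add, Units.val_mul, HahnSeries.order_mul x.ne_zero y.ne_zero]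

theorem ordHom_apply (x : (LaurentSeries k)ˣ) :
    (ordHom x).toAdd = (x : LaurentSeries k).order := rfl

theorem order_deltaQuot (ζ : kˣ) {N a b D : ℕ} (hm : a * (N / D) ≠ 0) (hN : N ≠ 0) :
    (deltaQuot ζ N a b D : LaurentSeries k).order = ((a * (N / D) : ℕ) : ℤ) - N := by
  rw [← ordHom_apply, deltaQuot]
  simp only [map_mul, map_inv, map_pow, toAdd_mul, toAdd_inv, toAdd_pow, ordHom_apply]
  have h1 : ((Units.map (HahnSeries.C : k →+* LaurentSeries k).toMonoidHom
      (natU k D) : (LaurentSeries k)ˣ) : LaurentSeries k).order = 0 := HahnSeries.order_C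
  have h2 : ((Units.map (cuspExp ζ N a b D).toMonoidHom (etaUnit k) : (LaurentSeries k)ˣ) :
      LaurentSeries k).order = ((a * (N / D) : ℕ) : ℤ) := by
    show (cuspExp ζ N a b D (etaSer k)).order = _
    have hne : twist (ζ ^ ((b : ℤ) * ((N / D : ℕ) : ℤ))) (etaSer k) ≠ 0 :=
      (Units.map (twist (ζ ^ ((b : ℤ) * ((N / D : ℕ) : ℤ)))).toMonoidHom (etaUnit k)).ne_zero
    rw [cuspExp_apply, order_qScale hm hne, order_twist, order_etaSer, mul_one]
  have h3 : ((Units.map (qScale k N).toMonoidHom (etaUnit k) : (LaurentSeries k)ˣ) :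
      LaurentSeries k).order = (N : ℤ) := by
    show (qScale k N (etaSer k)).order = _
    rw [order_qScale hN (show etaSer k ≠ 0 from (etaUnit k).ne_zero), order_etaSer, mul_one]
  simp only [RingHom.toMonoidHom_eq_coe] at h1 h2 h3 ⊢
  rw [h1, h2, h3]
  simp [sub_eq_add_neg]

theorem triData_a_eq_gcd {d : ℕ} {γ : SL(2, ℤ)} (t : TriData d γ) :
    t.a = Int.gcd ((d : ℤ) * γ 0 0) (γ 1 0) := by
  have e00 := congrFun (congrFun t.eq 0) 0
  have e10 := congrFun (congrFun t.eq 1) 0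
  simp [diagOne, upperTri, Matrix.mul_apply, Fin.sum_univ_two] at e00 e10
  have hg : Int.gcd (t.g 0 0) (t.g 1 0) = 1 := by
    rw [← Int.isCoprime_iff_gcd_eq_one]
    have h := t.g.2
    rw [Matrix.det_fin_two] at h
    exact ⟨t.g 1 1, -t.g 0 1, by linear_combination h⟩
  rw [e00, e10, Int.gcd_mul_right, hg, one_mul, Int.natAbs_natCast]

theorem triData_a_rep {N : ℕ} [NeZero N] (c : CosetIdx N) (d : ℕ) (t : TriData d c.rep) :
    t.a = Nat.gcd d c.a := by
  rw [triData_a_eq_gcd t]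
  have h10 : c.rep 1 0 = (c.a : ℤ) := rfl
  have hcop : Int.gcd (c.rep 0 0) (c.a : ℤ) = 1 := by
    rw [← Int.isCoprime_iff_gcd_eq_one]
    have h := c.rep.2
    rw [Matrix.det_fin_two, h10] at h
    exact ⟨c.rep 1 1, -c.rep 0 1, by linear_combination h⟩
  rw [h10]
  simp only [Int.gcd_def, Int.natAbs_natCast, Int.natAbs_mul] at hcop ⊢
  exact Nat.Coprime.gcd_mul_right_cancel d hcop

theorem order_gaussUnit (ζ : kˣ) {N : ℕ} [NeZero N] (c : CosetIdx N) (hc : c.a ≠ N) :
    (gaussUnit k ζ c : LaurentSeries k).order = N * ∑ d ∈ N.divisors, unitExp N d := by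
  rw [← ordHom_apply, gaussUnit, map_prod, toAdd_prod]
  have key : ∀ d : DivIdx N, (ordHom (deltaQuot ζ N (triData (d : ℕ) c.rep).a
      (triData (d : ℕ) c.rep).b (triData (d : ℕ) c.rep).D ^ (-unitExp N d))).toAdd =
      N * unitExp N d -
        unitExp N d * ((Nat.gcd d c.a * Nat.gcd d c.a * (N / d) : ℕ) : ℤ) := by
    intro d
    set t := triData (d : ℕ) c.rep with ht
    have hD : N / t.D = t.a * (N / (d : ℕ)) := by
      have hd : (d : ℕ) ≠ 0 := NeZero.ne _
      have hk : t.D * (t.a * (N / (d : ℕ))) = N := by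
        rw [← mul_assoc, mul_comm t.D t.a, t.mul_eq, Nat.mul_div_cancel' d.dvd]
      exact Nat.div_eq_of_eq_mul_right (Nat.pos_of_ne_zero t.D_ne) hk.symm
    rw [map_zpow, toAdd_zpow, ordHom_apply, order_deltaQuot ζ
      (div_pos_of_mul_eq (NeZero.ne N) (t.D_dvd.trans d.dvd) t.a_ne) (NeZero.ne N), hD,
      triData_a_rep c _ t, smul_eq_mul]
    push_cast
    ring
  rw [Finset.sum_congr rfl fun d _ => key d,
    Finset.sum_coe_sort N.divisors (fun d => (N : ℤ) * unitExp N d -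
      unitExp N d * ((Nat.gcd d c.a * Nat.gcd d c.a * (N / d) : ℕ) : ℤ)),
    Finset.sum_sub_distrib, sum_unitExp_order (NeZero.ne N) c.a_dvd hc, sub_zero, Finset.mul_sum]

/-- The unit has positive order away from the coset of infinity. -/
theorem order_gaussUnit_pos (ζ : kˣ) {N : ℕ} [NeZero N] (c : CosetIdx N) (hc : c.a ≠ N) :
    0 < (gaussUnit k ζ c : LaurentSeries k).order := by
  rw [order_gaussUnit ζ c hc]
  exact mul_pos (by exact_mod_cast Nat.pos_of_ne_zero (NeZero.ne N))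
    (sum_unitExp_pos (NeZero.ne N))

end Order

section Analytic

open FLTAgent.Modular

local notation "Δ" => ModularForm.discriminant

theorem discriminant_smul (g : SL(2, ℤ)) (z : ℍ) :
    Δ (g • z) = ((g 1 0 : ℂ) * z + g 1 1) ^ (12 : ℕ) * Δ z := by
  have hD := SlashInvariantForm.slash_action_eqn'' (Γ := 𝒮ℒ) (k := 12) CuspForm.discriminant
    (γ := (g : GL (Fin 2) ℝ)) ⟨g, rfl⟩ z
  simp only [CuspForm.coe_discriminant] at hD
  rw [ModularGroup.sl_moeb, hD]
  simp [UpperHalfPlane.denom]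

theorem discriminant_diff : DifferentiableOn ℂ (Δ ∘ ofComplex) {z : ℂ | 0 < z.im} :=
  UpperHalfPlane.mdifferentiable_iff.1 (CuspFormClass.holo CuspForm.discriminant)

theorem discriminant_qExp : HasQExp 1 Δ (etaSer ℂ) := hasQExp_discriminant

variable {d : ℕ} [NeZero d] {γ : SL(2, ℤ)}

theorem diag_smul_eq (t : TriData d γ) (z : ℍ) :
    triSmul d 0 1 (γ • z) = t.g • triSmul t.a t.b t.D z ∧
      ((t.g 1 0 : ℂ) * triSmul t.a t.b t.D z + t.g 1 1) * t.D = (γ 1 0 : ℂ) * z + γ 1 1 := by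
  have e00 := congrFun (congrFun t.eq 0) 0
  have e01 := congrFun (congrFun t.eq 0) 1
  have e10 := congrFun (congrFun t.eq 1) 0
  have e11 := congrFun (congrFun t.eq 1) 1
  simp [diagOne, upperTri, Matrix.mul_apply, Fin.sum_univ_two] at e00 e01 e10 e11
  have c00 := congrArg (Int.cast : ℤ → ℂ) e00
  have c01 := congrArg (Int.cast : ℤ → ℂ) e01
  have c10 := congrArg (Int.cast : ℤ → ℂ) e10
  have c11 := congrArg (Int.cast : ℤ → ℂ) e11
  push_cast at c00 c01 c10 c11
  have hD : (t.D : ℂ) ≠ 0 := by exact_mod_cast t.D_ne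
  refine ⟨UpperHalfPlane.ext ?_, ?_⟩
  · rw [coe_triSmul, coe_specialLinearGroup_apply, coe_specialLinearGroup_apply, coe_triSmul]
    simp only [algebraMap_int_eq, eq_intCast, Complex.ofReal_intCast, Nat.cast_one, div_one,
      Int.cast_zero, add_zero, Int.cast_natCast]
    have hcancel : ∀ G00 G01 G10 G11 w : ℂ,
        (G00 * (w / (t.D : ℂ)) + G01) / (G10 * (w / (t.D : ℂ)) + G11)
          = (G00 * w + G01 * t.D) / (G10 * w + G11 * t.D) := fun G00 G01 G10 G11 w => by
      rw [mul_div_assoc', mul_div_assoc', div_add' _ _ _ hD, div_add' _ _ _ hD,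
        div_div_div_cancel_right₀ hD]
    rw [mul_div_assoc']
    refine Eq.trans ?_ (hcancel _ _ _ _ _).symm
    congr 1
    · linear_combination (z : ℂ) * c00 + c01
    · linear_combination (z : ℂ) * c10 + c11
  · rw [coe_triSmul]
    field_simp
    push_cast
    linear_combination -(z : ℂ) * c10 - c11

/-- `z ↦ Δ (d z) / Δ (z)` at `γ z`. -/
def deltaFn (d : ℕ) [NeZero d] (γ : SL(2, ℤ)) (z : ℍ) : ℂ :=
  Δ (triSmul d 0 1 (γ • z)) / Δ (γ • z)

theorem deltaFn_eq (t : TriData d γ) (z : ℍ) :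
    deltaFn d γ z = ((t.D : ℂ) ^ 12)⁻¹ * Δ (triSmul t.a t.b t.D z) / Δ z := by
  obtain ⟨h1, h2⟩ := diag_smul_eq t z
  have hD : (t.D : ℂ) ^ 12 ≠ 0 := pow_ne_zero _ (by exact_mod_cast t.D_ne)
  have hγ : ((γ 1 0 : ℂ) * z + γ 1 1) ^ 12 * Δ z ≠ 0 := by
    rw [← discriminant_smul]; exact ModularForm.discriminant_ne_zero _
  have hX := congrArg (fun w : ℂ => w ^ 12) h2
  simp only [mul_pow] at hX
  rw [deltaFn, h1, discriminant_smul, discriminant_smul, ← hX]
  rw [← hX] at hγ
  have hG : ((t.g 1 0 : ℂ) * triSmul t.a t.b t.D z + t.g 1 1) ^ 12 ≠ 0 :=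
    (mul_ne_zero_iff.mp (mul_ne_zero_iff.mp hγ).1).1
  generalize ((t.g 1 0 : ℂ) * triSmul t.a t.b t.D z + t.g 1 1) ^ 12 = G at hG ⊢
  field_simp

theorem deltaFn_ne_zero (d : ℕ) [NeZero d] (γ : SL(2, ℤ)) (z : ℍ) : deltaFn d γ z ≠ 0 :=
  div_ne_zero (ModularForm.discriminant_ne_zero _) (ModularForm.discriminant_ne_zero _)

theorem deltaFn_mul_of_mem {δ : SL(2, ℤ)} (hδ : δ ∈ Gamma0 d) (γ : SL(2, ℤ)) :
    deltaFn d (δ * γ) = deltaFn d γ := by
  funext z
  obtain ⟨k, hk⟩ := exists_diag_mul_of_mem_Gamma0 (N := d) (γ := δ) hδ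
  have hu : upperTri ((d : ℕ) : ℤ) ((0 : ℕ) : ℤ) ((1 : ℕ) : ℤ) = diagOne ((d : ℕ) : ℤ) := by
    simp [upperTri, diagOne]
  have h := deltaFn_eq (d := d) (γ := δ)
    ⟨k, d, 0, 1, Nat.mul_one _, Nat.one_pos, hk.trans (by rw [hu])⟩ (γ • z)
  rw [show deltaFn d (δ * γ) z = deltaFn d δ (γ • z) by simp [deltaFn, mul_smul], h, deltaFn]
  simp

/-- A nowhere zero holomorphic function with its expansion, a unit. -/
def IsUnitPair (h : ℝ) (hh : 0 < h) (f : ℍ → ℂ) (U : (LaurentSeries ℂ)ˣ) : Prop :=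
  (f, (U : LaurentSeries ℂ)) ∈ holPairs h hh ∧ ∀ z, f z ≠ 0

variable {h : ℝ} {hh : 0 < h} {f g : ℍ → ℂ} {U V : (LaurentSeries ℂ)ˣ}

theorem isUnitPair_one : IsUnitPair h hh (fun _ => 1) 1 :=
  ⟨(holPairs h hh).one_mem, fun _ => one_ne_zero⟩

theorem IsUnitPair.mul (hf : IsUnitPair h hh f U) (hg : IsUnitPair h hh g V) :
    IsUnitPair h hh (f * g) (U * V) :=
  ⟨(holPairs h hh).mul_mem hf.1 hg.1, fun z => mul_ne_zero (hf.2 z) (hg.2 z)⟩

theorem IsUnitPair.inv (hf : IsUnitPair h hh f U) : IsUnitPair h hh f⁻¹ U⁻¹ := by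
  refine ⟨⟨?_, ?_⟩, fun z => inv_ne_zero (hf.2 z)⟩
  · exact (mem_holPairs.mp hf.1).1.inv fun z _ => hf.2 _
  · rw [Units.val_inv_eq_inv_val]
    exact (mem_holPairs.mp hf.1).2.inv hh

theorem IsUnitPair.pow (hf : IsUnitPair h hh f U) (n : ℕ) : IsUnitPair h hh (f ^ n) (U ^ n) := by
  induction n with
  | zero => simpa using! isUnitPair_one
  | succ n ih => rw [pow_succ, pow_succ]; exact ih.mul hf

theorem IsUnitPair.zpow (hf : IsUnitPair h hh f U) (n : ℤ) :
    IsUnitPair h hh (f ^ n) (U ^ n) := by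
  obtain ⟨m, rfl | rfl⟩ := n.eq_nat_or_neg
  · rw [zpow_natCast, zpow_natCast]; exact hf.pow m
  · rw [zpow_neg, zpow_neg, zpow_natCast, zpow_natCast]; exact (hf.pow m).inv

theorem IsUnitPair.prod {ι : Type*} (s : Finset ι) {F : ι → ℍ → ℂ}
    {W : ι → (LaurentSeries ℂ)ˣ} (hF : ∀ i ∈ s, IsUnitPair h hh (F i) (W i)) :
    IsUnitPair h hh (∏ i ∈ s, F i) (∏ i ∈ s, W i) := by
  induction s using Finset.cons_induction with
  | empty => simpa using! isUnitPair_one
  | cons i s hi ih =>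
    rw [Finset.prod_cons, Finset.prod_cons]
    exact (hF i (Finset.mem_cons_self i s)).mul (ih fun j hj => hF j (Finset.mem_cons_of_mem hj))

theorem deltaFn_pair {N : ℕ} [NeZero N] (t : TriData d γ) (hd : d ∣ N) :
    IsUnitPair (N : ℝ) (nat_pos_real N) (deltaFn d γ)
      (deltaQuot (zetaU N) N t.a t.b t.D) := by
  refine ⟨?_, deltaFn_ne_zero d γ⟩
  have hDN : t.D ∣ N := t.D_dvd.trans hd
  have hnum : ((fun z => Δ (triSmul t.a t.b t.D z)), cuspExp (zetaU N) N t.a t.b t.D (etaSer ℂ)) ∈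
      holPairs (N : ℝ) (nat_pos_real N) :=
    triPair_mem discriminant_diff discriminant_qExp N t.a t.b t.D hDN _
  have hden : IsUnitPair (N : ℝ) (nat_pos_real N) Δ
      (Units.map (qScale ℂ N).toMonoidHom (etaUnit ℂ)) := by
    refine ⟨⟨discriminant_diff, ?_⟩, ModularForm.discriminant_ne_zero⟩
    have h1 := hasQExp_triSmul discriminant_qExp N 1 0 1 (one_dvd N)
    have hz : (fun z => Δ (triSmul 1 0 1 z)) = Δ := funext fun z => by
      congr 1; exact UpperHalfPlane.ext (by simp [coe_triSmul])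
    rw [hz, cuspExp_apply] at h1
    simpa [etaUnit, twist_one] using! h1
  have hC : ((fun _ => ((t.D : ℂ) ^ 12)⁻¹), (HahnSeries.C ((t.D : ℂ) ^ 12)⁻¹ : LaurentSeries ℂ)) ∈
      holPairs (N : ℝ) (nat_pos_real N) :=
    ⟨differentiableOn_const (c := ((t.D : ℂ) ^ 12)⁻¹), hasQExp_C _ _⟩
  have hprod := (holPairs (N : ℝ) (nat_pos_real N)).mul_mem
    ((holPairs (N : ℝ) (nat_pos_real N)).mul_mem hC hnum) hden.inv.1
  have hD : IsUnit ((t.D : ℕ) : ℂ) := isUnit_iff_ne_zero.mpr (by exact_mod_cast t.D_ne)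
  have heq : deltaFn d γ =
      (fun _ => ((t.D : ℂ) ^ 12)⁻¹) * (fun z => Δ (triSmul t.a t.b t.D z)) * Δ⁻¹ :=
    funext fun z => by rw [deltaFn_eq t z]; simp [div_eq_mul_inv]
  have hser : (deltaQuot (zetaU N) N t.a t.b t.D : LaurentSeries ℂ) =
      (HahnSeries.C ((t.D : ℂ) ^ 12)⁻¹ : LaurentSeries ℂ) *
        (cuspExp (zetaU N) N t.a t.b t.D (etaSer ℂ) : LaurentSeries ℂ) *
        (((Units.map (qScale ℂ N).toMonoidHom (etaUnit ℂ))⁻¹ : (LaurentSeries ℂ)ˣ) :
          LaurentSeries ℂ) := by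
    rw [deltaQuot, Units.val_mul, Units.val_mul]
    have hu : (((natU ℂ t.D ^ 12)⁻¹ : ℂˣ) : ℂ) = ((t.D : ℂ) ^ 12)⁻¹ := by
      rw [Units.val_inv_eq_inv_val, Units.val_pow_eq_pow_val, natU_val hD]
    rw [Units.coe_map, RingHom.toMonoidHom_eq_coe, MonoidHom.coe_coe, hu]
    rfl
  rw [heq, hser]
  exact hprod

/-- The modular unit, at `γ z`. -/
def unitFn (N : ℕ) [NeZero N] (γ : SL(2, ℤ)) : ℍ → ℂ :=
  ∏ d : DivIdx N, deltaFn (d : ℕ) γ ^ (-unitExp N d)

theorem unitFn_smul {N : ℕ} [NeZero N] (γ γ' : SL(2, ℤ)) (z : ℍ) :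
    unitFn N γ (γ' • z) = unitFn N (γ * γ') z := by
  simp [unitFn, Finset.prod_apply, deltaFn, mul_smul]

theorem unitFn_mul_of_mem {N : ℕ} [NeZero N] {δ : SL(2, ℤ)} (hδ : δ ∈ Gamma0 N) (γ : SL(2, ℤ)) :
    unitFn N (δ * γ) = unitFn N γ := by
  refine Finset.prod_congr rfl fun d _ => ?_
  rw [deltaFn_mul_of_mem]
  rw [mem_Gamma0_iff_conj] at hδ ⊢
  exact dvd_trans (Int.natCast_dvd_natCast.mpr d.dvd) hδ

theorem unitFn_pair {N : ℕ} [NeZero N] (c : CosetIdx N) :
    IsUnitPair (N : ℝ) (nat_pos_real N) (unitFn N c.rep) (gaussUnit ℂ (zetaU N) c) :=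
  IsUnitPair.prod _ fun d _ => (deltaFn_pair (triData (d : ℕ) c.rep) d.dvd).zpow _

end Analytic

end FLTAgent.Reduction
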