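import Mathlib
import Fermat.Agent.ModularCosets.LevelOne
import Fermat.Agent.ModularCosets.Sigma
import Fermat.Agent.Reduction.GaussCore
import Fermat.Agent.Reduction.GaussUnit

/-!
# Families of functions on the cosets of `Γ₀(N)`

A `CosetFamily` is a family of holomorphic functions on the cosets with expansions over
`zetaRing N = ℤ[ζ, 1 / N]`; examples are `jdFamily`, `jTopFamily` and `unitFamily`. Symmetric
expressions in two families are polynomials in `j` over `zetaRing N` (`CosetFamily.isSymFamily`):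
they are invariant under `SL₂(ℤ)`, hence polynomials in `j` over `ℂ`, and the coefficients are
read off from the expansion (`mem_polyJ_of_invariant`).
-/

set_option autoImplicit false

noncomputable section

open UpperHalfPlane ModularCurve CongruenceSubgroup
open scoped MatrixGroups

namespace FLTAgent.Reduction

open FLTAgent.ModularCosets FLTAgent.Modular

section Reindex

variable {R : Type*} [CommRing R] {Γ : Type*} [Fintype Γ] [DecidableEq Γ]

theorem famPoly_comp_equiv (e : Γ ≃ Γ) (v : Γ → R) : famPoly (v ∘ e) = famPoly v :=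
  Equiv.prod_comp e (fun γ => Polynomial.X - Polynomial.C (v γ))

theorem famLagrange_comp_equiv (e : Γ ≃ Γ) (r v : Γ → R) :
    famLagrange (r ∘ e) (v ∘ e) = famLagrange r v := by
  unfold famLagrange
  refine Fintype.sum_equiv e _ _ fun γ => ?_
  simp only [Function.comp_apply]
  congr 1
  refine Finset.prod_equiv e (fun δ => ?_) fun δ _ => rfl
  simp

theorem polyJ_C_mem (J : LaurentSeries R) (a : R) : HahnSeries.C a ∈ polyJ J :=
  mem_polyJ_iff.mpr ⟨Polynomial.C a, Polynomial.eval₂_C _ _⟩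

end Reindex

/-- The ring `ℤ[ζ, 1 / N]` inside `ℂ`. -/
def zetaRing (N : ℕ) : Subring ℂ := Subring.closure {((zetaU N : ℂˣ) : ℂ), ((N : ℂ))⁻¹}

theorem zetaU_mem (N : ℕ) : ((zetaU N : ℂˣ) : ℂ) ∈ zetaRing N :=
  Subring.subset_closure (Set.mem_insert _ _)

theorem natCast_inv_mem (N : ℕ) : ((N : ℂ))⁻¹ ∈ zetaRing N :=
  Subring.subset_closure (Set.mem_insert_of_mem _ rfl)

variable (N : ℕ) [NeZero N]

theorem zetaU_val_pow : ((zetaU N : ℂˣ) : ℂ) ^ N = 1 := by
  rw [← Units.val_pow_eq_pow_val, (zetaU_primitive N).pow_eq_one, Units.val_one]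

/-- `exp (2πi / N)` in `ℤ[ζ, 1 / N]`. -/
def zetaB : (zetaRing N)ˣ where
  val := ⟨(zetaU N : ℂ), zetaU_mem N⟩
  inv := ⟨(zetaU N : ℂ), zetaU_mem N⟩ ^ (N - 1)
  val_inv := Subtype.ext (by
    show ((zetaU N : ℂˣ) : ℂ) * ((zetaU N : ℂˣ) : ℂ) ^ (N - 1) = 1
    rw [← pow_succ', Nat.sub_add_cancel (NeZero.pos N), zetaU_val_pow])
  inv_val := Subtype.ext (by
    show ((zetaU N : ℂˣ) : ℂ) ^ (N - 1) * ((zetaU N : ℂˣ) : ℂ) = 1
    rw [← pow_succ, Nat.sub_add_cancel (NeZero.pos N), zetaU_val_pow])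

theorem map_zetaB : Units.map ((zetaRing N).subtype : zetaRing N →* ℂ) (zetaB N) = zetaU N :=
  Units.ext rfl

theorem isUnit_natCast_zetaRing : IsUnit (N : zetaRing N) :=
  IsUnit.of_mul_eq_one (⟨((N : ℂ))⁻¹, natCast_inv_mem N⟩ : zetaRing N) (Subtype.ext (by
    simp [NeZero.ne N]))

/-- `j` in the variable `q ^ (1 / N)`. -/
def jUp (R : Type*) [CommRing R] : LaurentSeries R := qScale R N (jqModC R)

theorem coeffMap_jUp {R S : Type*} [CommRing R] [CommRing S] (f : R →+* S) :
    coeffMap f (jUp N R) = jUp N S := by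
  rw [jUp, jUp, coeffMap_qScale, coeffMap_jqModC]

/-- A family of holomorphic functions on the cosets with expansions over `ℤ[ζ, 1 / N]`. -/
structure CosetFamily where
  /-- the functions -/
  F : SL(2, ℤ) → ℍ → ℂ
  /-- their expansions -/
  ser : CosetIdx N → LaurentSeries (zetaRing N)
  smul : ∀ (γ γ' : SL(2, ℤ)) (z : ℍ), F γ (γ' • z) = F (γ * γ') z
  inv : ∀ {δ : SL(2, ℤ)}, δ ∈ Gamma0 N → ∀ γ : SL(2, ℤ), F (δ * γ) = F γ
  mem : ∀ c : CosetIdx N, (F c.rep, coeffMap (zetaRing N).subtype (ser c)) ∈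
    holPairs (N : ℝ) (nat_pos_real N)

variable {N}

/-- The coset of an element of `SL(2, ℤ)`. -/
def cosetOf (γ : SL(2, ℤ)) : CosetIdx N := (existsUnique_cosetIdx γ).choose

theorem cosetOf_mem (γ : SL(2, ℤ)) : γ * (cosetOf (N := N) γ).rep⁻¹ ∈ Gamma0 N :=
  (existsUnique_cosetIdx γ).choose_spec.1

theorem eq_cosetOf {γ : SL(2, ℤ)} {c : CosetIdx N} (h : γ * c.rep⁻¹ ∈ Gamma0 N) :
    c = cosetOf γ :=
  (existsUnique_cosetIdx γ).choose_spec.2 c h

theorem cosetOf_rep (c : CosetIdx N) : cosetOf c.rep = c :=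
  (eq_cosetOf (by rw [mul_inv_cancel]; exact (Gamma0 N).one_mem)).symm

/-- Right translation on the cosets. -/
def cosetPerm (g : SL(2, ℤ)) : CosetIdx N ≃ CosetIdx N :=
  Equiv.ofBijective (fun c => cosetOf (c.rep * g))
    (Finite.injective_iff_bijective.mp fun c₁ c₂ h => by
      have h1 := cosetOf_mem (N := N) (c₁.rep * g)
      have h2 := cosetOf_mem (N := N) (c₂.rep * g)
      rw [h] at h1
      have h3 := (Gamma0 N).mul_mem h1 ((Gamma0 N).inv_mem h2)
      have h4 : c₁.rep * c₂.rep⁻¹ ∈ Gamma0 N := by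
        convert h3 using 1
        group
      rw [← cosetOf_rep c₁]
      exact (eq_cosetOf h4).symm)

variable (N) in
/-- The ring of pairs (holomorphic function, expansion in `q ^ (1 / N)`). -/
abbrev PairRing : Type :=
  ↥((holPairs (N : ℝ) (nat_pos_real N)).toSubring)

namespace CosetFamily

variable (f : CosetFamily N)

theorem apply_smul (g : SL(2, ℤ)) (c : CosetIdx N) (z : ℍ) :
    f.F c.rep (g • z) = f.F (cosetPerm g c).rep z := by
  rw [f.smul, show cosetPerm g c = cosetOf (c.rep * g) from rfl]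
  conv_lhs => rw [show c.rep * g = (c.rep * g * (cosetOf (N := N) (c.rep * g)).rep⁻¹) *
    (cosetOf (N := N) (c.rep * g)).rep by rw [inv_mul_cancel_right]]
  rw [f.inv (cosetOf_mem _)]

/-- The pairs (function, series). -/
def pairFam (c : CosetIdx N) : PairRing N := ⟨_, f.mem c⟩

end CosetFamily

/-- Evaluation of a pair at a point. -/
def pairAt (z : ℍ) : PairRing N →+* ℂ :=
  ((Pi.evalRingHom (fun _ : ℍ => ℂ) z).comp (RingHom.fst (ℍ → ℂ) (LaurentSeries ℂ))).comp
    (holPairs (N : ℝ) (nat_pos_real N)).toSubring.subtype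

/-- The series of a pair. -/
def pairSer : PairRing N →+* LaurentSeries ℂ :=
  (RingHom.snd (ℍ → ℂ) (LaurentSeries ℂ)).comp (holPairs (N : ℝ) (nat_pos_real N)).toSubring.subtype

theorem coeffMap_injective {R S : Type*} [CommRing R] [CommRing S] {f : R →+* S}
    (hf : Function.Injective f) : Function.Injective (coeffMap f) := fun x y h => by
  ext k
  exact hf (congrArg (fun w : LaurentSeries S => w.coeff k) h)

/-- An invariant pair with expansion over `ℤ[ζ, 1 / N]` is a polynomial in `j`. -/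
theorem mem_polyJ_of_invariant (x : PairRing N)
    (hx : ∀ (g : SL(2, ℤ)) (z : ℍ), pairAt (g • z) x = pairAt z x)
    {w : LaurentSeries (zetaRing N)} (hw : coeffMap (zetaRing N).subtype w = pairSer x) :
    w ∈ polyJ (jUp N (zetaRing N)) := by
  obtain ⟨⟨F, y⟩, hFy⟩ := x
  obtain ⟨y₀, hy₀, hp⟩ := mem_holPairs_one_of_periodic (hN := nat_pos_real N) hFy fun z => hx ModularGroup.T z
  obtain ⟨P, hP, -⟩ := exists_aeval_jq hp hx
  have hB : ∀ k, (Polynomial.aeval (jqModC ℂ) P).coeff k ∈ zetaRing N := by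
    intro k
    rw [hP, ← qScale_coeff_mul (NeZero.ne N) y₀ k, hy₀]
    rw [show y = coeffMap (zetaRing N).subtype w from hw.symm, coeffMap_coeff]
    exact SetLike.coe_mem _
  have hcoef := coeff_mem_of_aeval_jqModC (zetaRing N) P hB
  have hlift : P ∈ Polynomial.lifts (zetaRing N).subtype :=
    (Polynomial.lifts_iff_coeff_lifts P).mpr fun i => ⟨⟨_, hcoef i⟩, rfl⟩
  obtain ⟨Q, hQ⟩ := (Polynomial.mem_lifts P).mp hlift
  refine mem_polyJ_iff.mpr ⟨Q, coeffMap_injective (f := (zetaRing N).subtype) Subtype.val_injective ?_⟩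
  rw [hw, show pairSer (N := N) ⟨(F, y), hFy⟩ = y from rfl, ← hy₀, ← hP, Polynomial.hom_eval₂,
    coeffMap_jUp, ← hQ, Polynomial.aeval_def, Polynomial.eval₂_map, Polynomial.hom_eval₂, jUp]
  congr 1
  refine RingHom.ext fun a => ?_
  simp [coeffMap_C, algebraMap_eq_HC, -HahnSeries.C_apply, qScale_C]

/-- The symmetric expressions of two families lie in `ℤ[ζ, 1 / N][j]`. -/
theorem CosetFamily.isSymFamily (R V : CosetFamily N) :
    IsSymFamily (polyJ (jUp N (zetaRing N))) R.ser V.ser := by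
  classical
  have hser : ∀ f : CosetFamily N,
      (pairSer : PairRing N →+* _) ∘ f.pairFam =
        coeffMap (zetaRing N).subtype ∘ f.ser := fun f => rfl
  have hat : ∀ (f : CosetFamily N) (g : SL(2, ℤ)) (z : ℍ),
      pairAt (g • z) ∘ f.pairFam = (pairAt z ∘ f.pairFam) ∘ cosetPerm g := fun f g z =>
    funext fun c => f.apply_smul g c z
  have hpoly : ∀ (f : CosetFamily N) (i : ℕ),
      (famPoly f.ser).coeff i ∈ polyJ (jUp N (zetaRing N)) := by
    intro f i
    refine mem_polyJ_of_invariant ((famPoly f.pairFam).coeff i) (fun g z => ?_) ?_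
    · rw [← Polynomial.coeff_map, ← Polynomial.coeff_map, famPoly_map, famPoly_map, hat,
        famPoly_comp_equiv]
    · rw [← Polynomial.coeff_map, ← Polynomial.coeff_map, famPoly_map, famPoly_map, hser]
  refine ⟨hpoly R, hpoly V, fun i => ?_⟩
  refine mem_polyJ_of_invariant ((famLagrange R.pairFam V.pairFam).coeff i) (fun g z => ?_) ?_
  · rw [← Polynomial.coeff_map, ← Polynomial.coeff_map, famLagrange_map, famLagrange_map, hat, hat,
      famLagrange_comp_equiv]
  · rw [← Polynomial.coeff_map, ← Polynomial.coeff_map, famLagrange_map, famLagrange_map, hser,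
      hser]

/-! ### The three families -/

theorem coeffMap_subtype_cuspExp (a : ℕ) (b : ℤ) (D : ℕ) :
    coeffMap (zetaRing N).subtype (cuspExp (zetaB N) N a b D (jqModC (zetaRing N))) =
      cuspExp (zetaU N) N a b D (jqModC ℂ) := by
  rw [coeffMap_cuspExp, coeffMap_jqModC, map_zetaB]

variable (N) in
/-- `j (d γ z)`. -/
def jdFamily (d : DivIdx N) : CosetFamily N where
  F γ := jFn N γ d
  ser c := cuspExp (zetaB N) N (triData (d : ℕ) c.rep).a (triData (d : ℕ) c.rep).b
    (triData (d : ℕ) c.rep).D (jqModC (zetaRing N))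
  smul γ γ' z := by simp [jFn, mul_smul]
  inv hδ γ := jFn_mul_of_mem hδ γ d
  mem c := by
    rw [coeffMap_subtype_cuspExp, ← jSer_eq]
    exact jPair_mem N c.rep d

variable (N) in
/-- `N` as a divisor of itself. -/
def topDiv : DivIdx N := ⟨N, Nat.mem_divisors.mpr ⟨dvd_rfl, NeZero.ne N⟩⟩

variable (N) in
/-- `j (N γ z)`. -/
def jTopFamily : CosetFamily N where
  F γ := jFn N γ (topDiv N)
  ser c := jConj (zetaRing N) (zetaB N) c.a c.b
  smul γ γ' z := by simp [jFn, mul_smul]
  inv hδ γ := jFn_mul_of_mem hδ γ _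
  mem c := by
    rw [jConj_eq_cuspExp _ (NeZero.ne N) c.a_dvd, coeffMap_subtype_cuspExp]
    have h := jSer_eq N c.rep (topDiv N)
      ⟨c.repLeft, c.a, c.b, c.D, c.a_mul_D, c.b_lt, c.diag_mul_rep⟩
    rw [show N / c.a = c.D from rfl, ← h]
    exact jPair_mem N c.rep (topDiv N)

variable (N) in
/-- The modular unit. -/
def unitFamily : CosetFamily N where
  F γ := unitFn N γ
  ser c := (gaussUnit (zetaRing N) (zetaB N) c : LaurentSeries (zetaRing N))
  smul γ γ' z := unitFn_smul γ γ' z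
  inv hδ γ := unitFn_mul_of_mem hδ γ
  mem c := by
    rw [coeffMap_gaussUnit _ _ (isUnit_natCast_zetaRing N),
      show Units.map (zetaRing N).subtype.toMonoidHom (zetaB N) = zetaU N from map_zetaB N]
    exact (unitFn_pair c).1

variable (N) in
/-- The coset of infinity. -/
def cosetInf : CosetIdx N :=
  ⟨(N, 0), mem_cosetReps.mpr ⟨dvd_rfl, by rw [Nat.div_self (NeZero.pos N)]; exact Nat.one_pos,
    by simp [Nat.div_self (NeZero.pos N)]⟩⟩

theorem cosetInf_rep_mem : (cosetInf N).rep ∈ Gamma0 N :=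
  mem_Gamma0_iff_conj.mpr (dvd_refl _)

theorem eq_cosetInf_of_a_eq {c : CosetIdx N} (h : c.a = N) : c = cosetInf N := by
  refine CosetIdx.ext' h ?_
  have h1 := c.b_lt
  rw [CosetIdx.D_def, h, Nat.div_self (NeZero.pos N)] at h1
  exact Nat.lt_one_iff.mp h1

theorem jdFamily_ser_cosetInf (d : DivIdx N) :
    (jdFamily N d).ser (cosetInf N) =
      qScale (zetaRing N) N (qScale (zetaRing N) (d : ℕ) (jqModC (zetaRing N))) := by
  refine coeffMap_injective (f := (zetaRing N).subtype) Subtype.val_injective ?_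
  show coeffMap (zetaRing N).subtype (cuspExp _ _ _ _ _ _) = _
  rw [coeffMap_subtype_cuspExp, ← jSer_eq, coeffMap_qScale, coeffMap_qScale, coeffMap_jqModC]
  have h := jSer_mul_of_mem (cosetInf_rep_mem (N := N)) 1 (MvPolynomial.X d)
  simp only [mul_one, serEval, MvPolynomial.aeval_X] at h
  rw [h, jSer_one]
  rfl

theorem jTopFamily_ser_cosetInf :
    (jTopFamily N).ser (cosetInf N) =
      qScale (zetaRing N) N (qScale (zetaRing N) N (jqModC (zetaRing N))) := by
  show jConj _ (zetaB N) N 0 = _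
  rw [jConj, Nat.mul_zero, Nat.cast_zero, zpow_zero, twist_one,
    qScale_qScale (NeZero.ne N) (NeZero.ne N)]

end FLTAgent.Reduction
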