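import Mathlib
import Fermat.Prelude.Def_ModularCurve_X0ModL
import Fermat.Agent.Reduction.GaussFamily

/-!
# Igusa irreducibility of the modular equation

For a field `k` with a homomorphism from `ℤ[ζ, 1 / N]` (any characteristic prime to `N`), the
conjugates `rootsOf` of `j (N z)` are distinct and form one orbit over `k(j)`
(`minpoly_rootsOf`): apply the criterion of `GaussCore` to the family of the modular unit.
Consequently `j (N z)` has degree `ψ(N)` over `k(j)` and generates the full function field
(`natDegree_minpoly_jTopC`, `fullC_eq_adjoin_pair`).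
-/

set_option autoImplicit false

noncomputable section

open ModularCurve IntermediateField
open scoped IntermediateField

namespace FLTAgent.Reduction

open FLTAgent.ModularCosets

variable {N : ℕ} [NeZero N] {k : Type*} [Field k] (φ : zetaRing N →+* k)

/-- The image of `exp (2πi / N)`. -/
def zetaOf : kˣ := Units.map φ.toMonoidHom (zetaB N)

include φ in
theorem natCast_ne_zero_of_hom : (N : k) ≠ 0 := by
  have h := (isUnit_natCast_zetaRing N).map φ
  rw [map_natCast] at h
  exact h.ne_zero

theorem zetaOf_primitive : IsPrimitiveRoot (zetaOf φ) N := by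
  have : NeZero (N : k) := ⟨natCast_ne_zero_of_hom φ⟩
  rw [← IsPrimitiveRoot.coe_units_iff]
  refine Polynomial.isRoot_cyclotomic_iff.mp ?_
  have h0 : (Polynomial.cyclotomic N (zetaRing N)).eval (zetaB N : zetaRing N) = 0 := by
    apply Subtype.val_injective
    show (zetaRing N).subtype _ = (zetaRing N).subtype 0
    rw [map_zero, ← Polynomial.eval₂_hom, ← Polynomial.eval_map, Polynomial.map_cyclotomic]
    exact (IsPrimitiveRoot.coe_units_iff.mpr (zetaU_primitive N)).isRoot_cyclotomic (NeZero.pos N)
  have h := congrArg φ h0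
  rw [map_zero, ← Polynomial.eval₂_hom, ← Polynomial.eval_map, Polynomial.map_cyclotomic] at h
  exact h

/-- The conjugates of `j (N z)` in `k((q^(1/N)))`. -/
def rootsOf (c : CosetIdx N) : LaurentSeries k := jConj k (zetaOf φ) c.a c.b

theorem coeffMap_jTop_ser (c : CosetIdx N) :
    coeffMap φ ((jTopFamily N).ser c) = rootsOf φ c :=
  coeffMap_jConj φ _ _ _

theorem rootsOf_injective : Function.Injective (rootsOf φ) := fun c c' h => by
  obtain ⟨h1, h2⟩ := jConj_inj (NeZero.ne N) (zetaOf_primitive φ) c.a_dvd c'.a_dvd c.b_lt c'.b_lt h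
  exact CosetIdx.ext' h1 h2

theorem order_jqModC : (jqModC k).order = -1 := by
  refine le_antisymm (HahnSeries.order_le_of_coeff_ne_zero
    (by rw [coeff_jqModC_neg_one]; exact one_ne_zero)) ?_
  by_contra h
  push Not at h
  exact jqModC_ne_zero_of_nontrivial k
    (HahnSeries.coeff_order_eq_zero.mp (coeff_jqModC_of_lt k h))

omit [NeZero N] in
theorem order_jUp_neg [NeZero N] : (jUp N k).order < 0 := by
  rw [jUp, order_qScale (NeZero.ne N) (jqModC_ne_zero_of_nontrivial k), order_jqModC]
  have := NeZero.pos N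
  omega

theorem isSymFamily_map (V : CosetFamily N) :
    IsSymFamily (polyJ (jUp N k)) (rootsOf φ) (coeffMap φ ∘ V.ser) := by
  have h := ((jTopFamily N).isSymFamily V).map (coeffMap φ) (Q := polyJ (jUp N k))
    fun x hx => by
      have := coeffMap_mem_polyJ φ hx
      rwa [coeffMap_jUp] at this
  have e : rootsOf φ = coeffMap φ ∘ (jTopFamily N).ser :=
    funext fun c => (coeffMap_jTop_ser φ c).symm
  rw [e]
  exact h

theorem coeffMap_unit_ser (c : CosetIdx N) :
    coeffMap φ ((unitFamily N).ser c) = (gaussUnit k (zetaOf φ) c : LaurentSeries k) :=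
  coeffMap_gaussUnit φ _ (isUnit_natCast_zetaRing N) c

/-- **Igusa**: the conjugates of `j (N z)` form a single orbit. -/
theorem minpoly_rootsOf :
    IsIntegral k⟮jUp N k⟯ (rootsOf φ (cosetInf N)) ∧
      (minpoly k⟮jUp N k⟯ (rootsOf φ (cosetInf N))).natDegree = Fintype.card (CosetIdx N) := by
  refine natDegree_minpoly_eq_card order_jUp_neg (rootsOf_injective φ)
    (isSymFamily_map φ (unitFamily N)) (cosetInf N) (fun c => ?_) fun c hc => ?_
  · simp only [Function.comp_apply, coeffMap_unit_ser]
    exact Units.ne_zero _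
  · simp only [Function.comp_apply, coeffMap_unit_ser]
    exact order_gaussUnit_pos _ c fun h => hc (eq_cosetInf_of_a_eq h)

theorem rootsOf_cosetInf :
    rootsOf φ (cosetInf N) = qScale k N (qScale k N (jqModC k)) := by
  rw [← coeffMap_jTop_ser, jTopFamily_ser_cosetInf, coeffMap_qScale, coeffMap_qScale,
    coeffMap_jqModC]

variable (N k) in
/-- `q ↦ q ^ N` as an algebra homomorphism. -/
def upHom : LaurentSeries k →ₐ[k] LaurentSeries k := qExpandAlgHomC k N

theorem upHom_apply (x : LaurentSeries k) : upHom N k x = qScale k N x := by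
  rw [qScale_eq]; rfl

theorem polyJ_jUp_eq_image {x : LaurentSeries k} (hx : x ∈ polyJ (jUp N k)) :
    ∃ y ∈ polyJ (jqModC k), upHom N k y = x := by
  obtain ⟨p, rfl⟩ := mem_polyJ_iff.mp hx
  refine ⟨p.eval₂ HahnSeries.C (jqModC k), mem_polyJ_iff.mpr ⟨p, rfl⟩, ?_⟩
  show (upHom N k).toRingHom _ = _
  rw [Polynomial.hom_eval₂, show (upHom N k).toRingHom (jqModC k) = jUp N k from upHom_apply _]
  congr 1
  refine RingHom.ext fun a => ?_
  show upHom N k (HahnSeries.C a) = HahnSeries.C a
  rw [← algebraMap_eq_C, AlgHom.commutes]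

theorem map_adjoin_jqModC : (k⟮jqModC k⟯).map (upHom N k) = k⟮jUp N k⟯ := by
  rw [adjoin_map, Set.image_singleton, upHom_apply]
  rfl

variable (N k) in
/-- `j (N z)` in `k((q))`. -/
def jTopC : LaurentSeries k := qExpand k N (jqModC k)

theorem upHom_jTopC : upHom N k (jTopC N k) = qScale k N (qScale k N (jqModC k)) := by
  rw [upHom_apply, jTopC, ← qScale_eq]

include φ in
/-- `j (N z)` has degree `ψ(N)` over `k(j)`, inside `k((q))`. -/
theorem natDegree_minpoly_jTopC :
    IsIntegral k⟮jqModC k⟯ (jTopC N k) ∧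
      (minpoly k⟮jqModC k⟯ (jTopC N k)).natDegree = dedekindPsi N := by
  obtain ⟨-, hdeg⟩ := minpoly_rootsOf φ
  rw [card_cosetIdx] at hdeg
  -- the modular polynomial over `k(jq)`
  have hroot := isSymFamily_map φ (jTopFamily N)
  have hlift : famPoly (rootsOf φ) ∈ Polynomial.lifts
      ((upHom N k).toRingHom.comp (algebraMap k⟮jqModC k⟯ (LaurentSeries k))) := by
    rw [Polynomial.lifts_iff_coeff_lifts]
    intro i
    obtain ⟨y, hy, hyx⟩ := polyJ_jUp_eq_image (hroot.coeff_root i)
    exact ⟨⟨y, polyJ_le_adjoin _ hy⟩, hyx⟩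
  obtain ⟨P, hPmap, hPdeg, hPm⟩ :=
    Polynomial.lifts_and_natDegree_eq_and_monic hlift (famPoly_monic _)
  have hev : ∀ Q : Polynomial k⟮jqModC k⟯, upHom N k (Polynomial.aeval (jTopC N k) Q) =
      (Q.map ((upHom N k).toRingHom.comp (algebraMap k⟮jqModC k⟯ (LaurentSeries k)))).eval
        (rootsOf φ (cosetInf N)) := by
    intro Q
    rw [rootsOf_cosetInf, ← upHom_jTopC, Polynomial.eval_map, Polynomial.aeval_def]
    exact Polynomial.hom_eval₂ _ _ (upHom N k).toRingHom _
  have hP0 : Polynomial.aeval (jTopC N k) P = 0 := by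
    apply (upHom N k).toRingHom.injective
    show upHom N k _ = upHom N k 0
    rw [map_zero, hev, hPmap, famPoly_eval_self]
  have hint : IsIntegral k⟮jqModC k⟯ (jTopC N k) := ⟨P, hPm, hP0⟩
  refine ⟨hint, le_antisymm ?_ ?_⟩
  · refine le_trans (Polynomial.natDegree_le_of_dvd (minpoly.dvd _ _ hP0) hPm.ne_zero) ?_
    rw [hPdeg, famPoly, Polynomial.natDegree_finsetProd_X_sub_C_eq_card, Finset.card_univ,
      card_cosetIdx]
  · set Q := minpoly k⟮jqModC k⟯ (jTopC N k)
    let τ : k⟮jqModC k⟯ →+* k⟮jUp N k⟯ :=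
      ((upHom N k).toRingHom.comp (algebraMap k⟮jqModC k⟯ (LaurentSeries k))).codRestrict
        (k⟮jUp N k⟯).toSubfield.toSubring fun x => by
          show upHom N k (x : LaurentSeries k) ∈ k⟮jUp N k⟯
          rw [← map_adjoin_jqModC]
          exact (mem_map _).mpr ⟨x, x.2, rfl⟩
    have h0 : Polynomial.aeval (rootsOf φ (cosetInf N)) (Q.map τ) = 0 := by
      rw [Polynomial.aeval_def, Polynomial.eval₂_map,
        show (algebraMap k⟮jUp N k⟯ (LaurentSeries k)).comp τ =
          (upHom N k).toRingHom.comp (algebraMap k⟮jqModC k⟯ (LaurentSeries k)) from rfl,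
        ← Polynomial.eval_map, ← hev, minpoly.aeval, map_zero]
    have hQ0 : Q.map τ ≠ 0 := Polynomial.map_ne_zero (minpoly.ne_zero hint)
    have hle := minpoly.degree_le_of_ne_zero k⟮jUp N k⟯ (rootsOf φ (cosetInf N)) hQ0 h0
    rw [← hdeg]
    refine (Polynomial.natDegree_le_natDegree hle).trans ?_
    rw [Polynomial.natDegree_map]

include φ in
/-- `j` and `j (N z)` generate the full function field. -/
theorem fullC_eq_adjoin_pair :
    modularFunctionFieldFullC k N = IntermediateField.adjoin k {jqModC k, jTopC N k} := by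
  classical
  refine le_antisymm ?_ ?_
  · rw [modularFunctionFieldFullC, adjoin_le_iff]
    rintro x ⟨d, hd0, hdN, rfl⟩
    let di : DivIdx N := ⟨d, Nat.mem_divisors.mpr ⟨hdN, NeZero.ne N⟩⟩
    set E := IntermediateField.adjoin k {jUp N k, rootsOf φ (cosetInf N)}
    have hv : coeffMap φ ((jdFamily N di).ser (cosetInf N)) = upHom N k (qExpand k d (jqModC k)) := by
      rw [jdFamily_ser_cosetInf, coeffMap_qScale, coeffMap_qScale, coeffMap_jqModC, upHom_apply,
        show (di : ℕ) = d from rfl, ← qScale_eq d]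
    have hsym := isSymFamily_map φ (jdFamily N di)
    have hle : ∀ y ∈ polyJ (jUp N k), y ∈ E := fun y hy =>
      IntermediateField.adjoin.mono k _ _ (Set.singleton_subset_iff.mpr (Set.mem_insert _ _))
        (polyJ_le_adjoin _ hy)
    have hr : rootsOf φ (cosetInf N) ∈ E :=
      subset_adjoin k _ (Set.mem_insert_of_mem _ rfl)
    have heval : ∀ P : Polynomial (LaurentSeries k), (∀ i, P.coeff i ∈ E) →
        P.eval (rootsOf φ (cosetInf N)) ∈ E := fun P hP => by
      rw [Polynomial.eval_eq_sum, Polynomial.sum_def]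
      exact sum_mem fun i _ => mul_mem (hP i) (pow_mem hr i)
    have hder : (Polynomial.derivative (famPoly (rootsOf φ))).eval (rootsOf φ (cosetInf N)) ≠ 0 := by
      rw [famPoly_derivative_eval]
      exact Finset.prod_ne_zero_iff.mpr fun δ hδ =>
        sub_ne_zero.mpr fun h => (Finset.mem_erase.mp hδ).1 (rootsOf_injective φ h).symm
    have hmem : upHom N k (qExpand k d (jqModC k)) ∈ E := by
      have h := famLagrange_eval (rootsOf φ) (coeffMap φ ∘ (jdFamily N di).ser) (cosetInf N)
      rw [Function.comp_apply, hv] at h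
      rw [← mul_div_cancel_right₀ (upHom N k (qExpand k d (jqModC k))) hder, ← h]
      refine div_mem (heval _ fun i => hle _ (hsym.coeff_lagrange i)) (heval _ fun i => ?_)
      rw [Polynomial.coeff_derivative]
      exact mul_mem (hle _ (hsym.coeff_root (i + 1)))
        (by exact_mod_cast IntermediateField.natCast_mem E (i + 1))
    have hE : E = (IntermediateField.adjoin k {jqModC k, jTopC N k}).map (upHom N k) := by
      rw [adjoin_map, Set.image_pair, upHom_jTopC, upHom_apply, ← rootsOf_cosetInf φ]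
      rfl
    rw [hE, mem_map] at hmem
    obtain ⟨y, hy, hyx⟩ := hmem
    rw [← (upHom N k).toRingHom.injective hyx]
    exact hy
  · rw [adjoin_le_iff, Set.insert_subset_iff, Set.singleton_subset_iff]
    exact ⟨jqModC_mem_full k N, jqModCd_mem_full k N dvd_rfl⟩

end FLTAgent.Reduction
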