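import Mathlib
import Fermat.Prelude.Def_FLTPrelim_Ramification
import Fermat.Agent.FF.Defs
import Fermat.Agent.Reduction.GaussIrreducible

/-!
# The function field of `X₀(N)` over `k`

For `k` receiving `ℤ[ζ, 1 / N]`: `finrank_jF` (degree `ψ(N)` over `k(j)`), `isSeparable_jF` and
`isFF_fullC`. A place of `ℚ̄` over `ℓ ∤ N` gives such a homomorphism to its residue field
(`zetaToResidue`), whence the `*_residue` versions used for the reduction.
-/

set_option autoImplicit false

noncomputable section

open ModularCurve IntermediateField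
open scoped IntermediateField

namespace FLTAgent.Reduction

open FLTAgent.ModularCosets

/-! ### Ring homomorphisms out of `ℤ[ζ, 1 / N]` -/

/-- A fixed embedding of `ℚ̄` into `ℂ`. -/
def barToC : AlgebraicClosure ℚ →ₐ[ℚ] ℂ :=
  letI : Algebra.IsAlgebraic ℚ (AlgebraicClosure ℚ) := AlgebraicClosure.isAlgebraic ℚ
  IsAlgClosed.lift

theorem barToC_injective : Function.Injective barToC :=
  fun _ _ h => barToC.toRingHom.injective h

theorem natCast_isUnit_of_liesOverPrime {A : ValuationSubring (AlgebraicClosure ℚ)} {ℓ : ℕ}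
    [hℓ : Fact ℓ.Prime] (hA : A.LiesOverPrime ℓ) {N : ℕ} (hN : ¬ ℓ ∣ N) : IsUnit (N : A) := by
  obtain ⟨u, v, huv⟩ := (Nat.Coprime.isCoprime ((Nat.Prime.coprime_iff_not_dvd hℓ.out).mpr hN))
  by_contra h
  have h1 : (N : A) ∈ IsLocalRing.maximalIdeal A := h
  have h2 : (ℓ : A) ∈ IsLocalRing.maximalIdeal A := by
    obtain ⟨_, hm⟩ := ValuationSubring.mem_nonunits_iff_exists_mem_maximalIdeal.mp hA
    convert hm using 1
    exact Subtype.ext rfl
  have h3 : ((u * (ℓ : ℤ) + v * (N : ℤ) : ℤ) : A) ∈ IsLocalRing.maximalIdeal A := by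
    push_cast
    exact add_mem (Ideal.mul_mem_left _ _ h2) (Ideal.mul_mem_left _ _ h1)
  rw [huv, Int.cast_one] at h3
  exact (IsLocalRing.maximalIdeal A).ne_top_iff_one.mp
    (IsLocalRing.maximalIdeal.isMaximal A).ne_top h3

variable (N : ℕ) [NeZero N]

theorem exists_barToC_eq (A : ValuationSubring (AlgebraicClosure ℚ)) (hN : IsUnit (N : A))
    {x : ℂ} (hx : x ∈ zetaRing N) : ∃ a : A, barToC (a : AlgebraicClosure ℚ) = x := by
  have hle : zetaRing N ≤ ((barToC : AlgebraicClosure ℚ →+* ℂ).comp A.subtype).range := by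
    rw [zetaRing, Subring.closure_le, Set.insert_subset_iff, Set.singleton_subset_iff]
    refine ⟨?_, ?_⟩
    · obtain ⟨z, hz⟩ : ∃ z : AlgebraicClosure ℚ, barToC z = ((zetaU N : ℂˣ) : ℂ) := by
        have : NeZero (N : AlgebraicClosure ℚ) := ⟨by exact_mod_cast NeZero.ne N⟩
        obtain ⟨w, hw⟩ := HasEnoughRootsOfUnity.exists_primitiveRoot (AlgebraicClosure ℚ) N
        obtain ⟨i, -, hi⟩ := (hw.map_of_injective barToC_injective).eq_pow_of_pow_eq_one
          (zetaU_val_pow N)
        exact ⟨w ^ i, by rw [map_pow, hi]⟩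
      have hzA : z ∈ A := by
        have hpow : z ^ N = 1 := barToC_injective (by rw [map_pow, hz, zetaU_val_pow, map_one])
        rcases A.mem_or_inv_mem z with h | h
        · exact h
        · have : z = z⁻¹ ^ (N - 1) := by
            have hz0 : z ≠ 0 := fun h0 => by simp [h0, NeZero.ne N] at hpow
            rw [inv_pow]
            refine eq_inv_of_mul_eq_one_left ?_
            rw [← pow_succ', Nat.sub_add_cancel (NeZero.pos N), hpow]
          rw [this]
          exact pow_mem h _
      exact ⟨⟨z, hzA⟩, hz⟩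
    · obtain ⟨a, ha⟩ := hN.exists_right_inv
      refine ⟨a, ?_⟩
      have h := congrArg (fun b : A => barToC (b : AlgebraicClosure ℚ)) ha
      simp only [MulMemClass.coe_mul, map_mul, OneMemClass.coe_one, map_one] at h
      rw [show ((N : A) : AlgebraicClosure ℚ) = (N : AlgebraicClosure ℚ) from map_natCast A.subtype N,
        map_natCast] at h
      exact eq_inv_of_mul_eq_one_right h
  obtain ⟨a, ha⟩ := hle hx
  exact ⟨a, ha⟩

/-- The element of `A` with image `x`. -/
def zetaValAux (A : ValuationSubring (AlgebraicClosure ℚ)) (hN : IsUnit (N : A))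
    (x : zetaRing N) : A :=
  (exists_barToC_eq N A hN x.2).choose

theorem barToC_zetaValAux (A : ValuationSubring (AlgebraicClosure ℚ)) (hN : IsUnit (N : A))
    (x : zetaRing N) : barToC (zetaValAux N A hN x : AlgebraicClosure ℚ) = x :=
  (exists_barToC_eq N A hN x.2).choose_spec

/-- `ℤ[ζ, 1 / N] → A`, when `N` is a unit in `A`. -/
def zetaToValuation (A : ValuationSubring (AlgebraicClosure ℚ)) (hN : IsUnit (N : A)) :
    zetaRing N →+* A where
  toFun := zetaValAux N A hN
  map_one' := Subtype.ext (barToC_injective (by simp [barToC_zetaValAux]))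
  map_zero' := Subtype.ext (barToC_injective (by simp [barToC_zetaValAux]))
  map_mul' x y := Subtype.ext (barToC_injective (by simp [barToC_zetaValAux]))
  map_add' x y := Subtype.ext (barToC_injective (by simp [barToC_zetaValAux]))

theorem barToC_zetaToValuation (A : ValuationSubring (AlgebraicClosure ℚ)) (hN : IsUnit (N : A))
    (x : zetaRing N) : barToC (zetaToValuation N A hN x : AlgebraicClosure ℚ) = x :=
  barToC_zetaValAux N A hN x

/-- The structure map into the residue field. -/
def zetaToResidue (A : ValuationSubring (AlgebraicClosure ℚ)) {ℓ : ℕ} [Fact ℓ.Prime]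
    (hA : A.LiesOverPrime ℓ) (hℓN : ¬ ℓ ∣ N) : zetaRing N →+* IsLocalRing.ResidueField A :=
  (IsLocalRing.residue A).comp
    (zetaToValuation N A (natCast_isUnit_of_liesOverPrime hA hℓN))

/-! ### The full function field over `k` -/

variable (k : Type*) [Field k]

/-- `j` in the function field. -/
def jF : modularFunctionFieldFullC k N := ⟨jqModC k, jqModC_mem_full k N⟩

/-- `j (N z)` in the function field. -/
def jTopF : modularFunctionFieldFullC k N := ⟨jTopC N k, jqModCd_mem_full k N dvd_rfl⟩

theorem transcendental_jF : Transcendental k (jF N k) := fun h =>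
  transcendental_jqModC k (h.algHom (modularFunctionFieldFullC k N).val)

theorem map_adjoin_jF :
    (k⟮jF N k⟯).map (modularFunctionFieldFullC k N).val = k⟮jqModC k⟯ := by
  rw [adjoin_map, Set.image_singleton]
  rfl

variable {N k} (φ : zetaRing N →+* k)

include φ in
theorem adjoin_jTopF_eq_top : adjoin k⟮jF N k⟯ {jTopF N k} = ⊤ := by
  apply restrictScalars_injective k
  rw [restrictScalars_top, adjoin_simple_adjoin_simple]
  apply IntermediateField.map_injective (modularFunctionFieldFullC k N).val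
  rw [adjoin_map, Set.image_pair, ← AlgHom.fieldRange_eq_map, fieldRange_val]
  exact (fullC_eq_adjoin_pair φ).symm

include φ in
/-- `j (N z)` has degree `ψ(N)` over `k(j)`. -/
theorem minpoly_jTopF :
    IsIntegral k⟮jF N k⟯ (jTopF N k) ∧
      (minpoly k⟮jF N k⟯ (jTopF N k)).natDegree = dedekindPsi N := by
  obtain ⟨hint, hdeg⟩ := natDegree_minpoly_jTopC φ
  let e : k⟮jF N k⟯ ≃ₐ[k] k⟮jqModC k⟯ :=
    (equivMap k⟮jF N k⟯ (modularFunctionFieldFullC k N).val).trans
      (equivOfEq (map_adjoin_jF N k))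
  have hcomp : (algebraMap k⟮jqModC k⟯ (LaurentSeries k)).comp (e : k⟮jF N k⟯ →+* k⟮jqModC k⟯) =
      ((modularFunctionFieldFullC k N).val : modularFunctionFieldFullC k N →+* LaurentSeries k).comp
        (algebraMap k⟮jF N k⟯ (modularFunctionFieldFullC k N)) := RingHom.ext fun x => rfl
  have hroot : ∀ P : Polynomial k⟮jF N k⟯,
      Polynomial.aeval (jTopC N k) (P.map (e : k⟮jF N k⟯ →+* k⟮jqModC k⟯)) =
        (modularFunctionFieldFullC k N).val (Polynomial.aeval (jTopF N k) P) := by
    intro P
    rw [Polynomial.aeval_def, Polynomial.eval₂_map, hcomp, Polynomial.aeval_def]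
    exact (Polynomial.hom_eval₂ P _
      ((modularFunctionFieldFullC k N).val : modularFunctionFieldFullC k N →+* LaurentSeries k)
      (jTopF N k)).symm
  have hP' : ∃ P : Polynomial k⟮jF N k⟯, P.Monic ∧ Polynomial.aeval (jTopF N k) P = 0 ∧
      P.natDegree = dedekindPsi N := by
    refine ⟨(minpoly k⟮jqModC k⟯ (jTopC N k)).map (e.symm : k⟮jqModC k⟯ →+* k⟮jF N k⟯),
      (minpoly.monic hint).map _, ?_, by rw [Polynomial.natDegree_map, hdeg]⟩
    apply Subtype.val_injective
    show (modularFunctionFieldFullC k N).val _ = (modularFunctionFieldFullC k N).val 0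
    rw [← hroot, Polynomial.map_map, map_zero,
      show (e : k⟮jF N k⟯ →+* k⟮jqModC k⟯).comp (e.symm : k⟮jqModC k⟯ →+* k⟮jF N k⟯) =
        RingHom.id _ from RingHom.ext fun x => e.apply_symm_apply x,
      Polynomial.map_id, minpoly.aeval]
  obtain ⟨P, hPm, hP0, hPdeg⟩ := hP'
  have hint' : IsIntegral k⟮jF N k⟯ (jTopF N k) := ⟨P, hPm, hP0⟩
  refine ⟨hint', le_antisymm ?_ ?_⟩
  · rw [← hPdeg]
    exact Polynomial.natDegree_le_of_dvd (minpoly.dvd _ _ hP0) hPm.ne_zero
  · rw [← hdeg]
    refine le_trans (Polynomial.natDegree_le_of_dvd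
      (q := (minpoly k⟮jF N k⟯ (jTopF N k)).map (e : k⟮jF N k⟯ →+* k⟮jqModC k⟯))
      (minpoly.dvd _ _ ?_) (Polynomial.map_ne_zero (minpoly.ne_zero hint')))
      (by rw [Polynomial.natDegree_map])
    rw [hroot, minpoly.aeval, map_zero]

include φ in
theorem finiteDimensional_jF :
    FiniteDimensional k⟮jF N k⟯ (modularFunctionFieldFullC k N) := by
  have h := IntermediateField.adjoin.finiteDimensional (minpoly_jTopF φ).1
  rw [adjoin_jTopF_eq_top φ] at h
  exact LinearEquiv.finiteDimensional IntermediateField.topEquiv.toLinearEquiv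

include φ in
/-- `[k(X₀(N)) : k(j)] = ψ(N)`. -/
theorem finrank_jF :
    Module.finrank k⟮jF N k⟯ (modularFunctionFieldFullC k N) = dedekindPsi N := by
  have h := IntermediateField.adjoin.finrank (minpoly_jTopF φ).1
  rw [adjoin_jTopF_eq_top φ, (minpoly_jTopF φ).2] at h
  rw [← IntermediateField.topEquiv.toLinearEquiv.finrank_eq]
  exact h

include φ in
/-- `k(X₀(N))` is separable over `k(j)`. -/
theorem isSeparable_jF :
    Algebra.IsSeparable k⟮jF N k⟯ (modularFunctionFieldFullC k N) := by
  have hroots : (minpoly k⟮jqModC k⟯ (jTopC N k)).Separable := by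
    obtain ⟨hint, hdeg⟩ := natDegree_minpoly_jTopC φ
    set σ := (upHom N k).toRingHom.comp (algebraMap k⟮jqModC k⟯ (LaurentSeries k))
    have hroot := isSymFamily_map φ (jTopFamily N)
    have hlift : famPoly (rootsOf φ) ∈ Polynomial.lifts σ := by
      rw [Polynomial.lifts_iff_coeff_lifts]
      intro i
      obtain ⟨y, hy, hyx⟩ := polyJ_jUp_eq_image (hroot.coeff_root i)
      exact ⟨⟨y, polyJ_le_adjoin _ hy⟩, hyx⟩
    obtain ⟨P, hPmap, hPdeg, hPm⟩ :=
      Polynomial.lifts_and_natDegree_eq_and_monic hlift (famPoly_monic _)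
    have hsep : P.Separable := by
      rw [← Polynomial.separable_map σ, hPmap, famPoly]
      exact Polynomial.separable_prod_X_sub_C_iff.mpr (rootsOf_injective φ)
    have hP0 : Polynomial.aeval (jTopC N k) P = 0 := by
      apply (upHom N k).toRingHom.injective
      rw [Polynomial.aeval_def, Polynomial.hom_eval₂, map_zero, ← Polynomial.eval_map, hPmap,
        show (upHom N k).toRingHom (jTopC N k) = rootsOf φ (cosetInf N) by
          rw [rootsOf_cosetInf]; exact upHom_jTopC, famPoly_eval_self]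
    exact hsep.of_dvd (minpoly.dvd _ _ hP0)
  have : IsScalarTower k k⟮jF N k⟯ (modularFunctionFieldFullC k N) := inferInstance
  rw [← AlgEquiv.Algebra.isSeparable_iff (IntermediateField.topEquiv
    (F := k⟮jF N k⟯) (E := modularFunctionFieldFullC k N)), ← adjoin_jTopF_eq_top φ,
    isSeparable_adjoin_simple_iff_isSeparable]
  let e : k⟮jF N k⟯ ≃ₐ[k] k⟮jqModC k⟯ :=
    (equivMap k⟮jF N k⟯ (modularFunctionFieldFullC k N).val).trans
      (equivOfEq (map_adjoin_jF N k))
  show (minpoly k⟮jF N k⟯ (jTopF N k)).Separable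
  refine Polynomial.Separable.of_dvd (g := minpoly k⟮jF N k⟯ (jTopF N k))
    (f := (minpoly k⟮jqModC k⟯ (jTopC N k)).map (e.symm : k⟮jqModC k⟯ →+* k⟮jF N k⟯))
    hroots.map (minpoly.dvd _ _ ?_)
  apply Subtype.val_injective
  show (modularFunctionFieldFullC k N).val _ = (modularFunctionFieldFullC k N).val 0
  have hcomp : (algebraMap k⟮jqModC k⟯ (LaurentSeries k)) =
      ((modularFunctionFieldFullC k N).val : modularFunctionFieldFullC k N →+* LaurentSeries k).comp
        ((algebraMap k⟮jF N k⟯ (modularFunctionFieldFullC k N)).comp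
          (e.symm : k⟮jqModC k⟯ →+* k⟮jF N k⟯)) := RingHom.ext fun x => by
    conv_lhs => rw [← e.apply_symm_apply x]
    rfl
  rw [map_zero, Polynomial.aeval_def, Polynomial.eval₂_map]
  refine Eq.trans (Polynomial.hom_eval₂ _ _
    ((modularFunctionFieldFullC k N).val : modularFunctionFieldFullC k N →+* LaurentSeries k) _) ?_
  rw [← hcomp]
  exact minpoly.aeval _ _

include φ in
/-- `k(X₀(N))` is a function field. -/
theorem isFF_fullC : FLTAgent.FF.IsFF k (modularFunctionFieldFullC k N) :=
  ⟨jF N k, transcendental_jF N k, finiteDimensional_jF φ, isSeparable_jF φ⟩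

section Residue

variable (N) (A : ValuationSubring (AlgebraicClosure ℚ)) {ℓ : ℕ} [Fact ℓ.Prime]

include ℓ in
theorem isFF_fullC_residue (hA : A.LiesOverPrime ℓ) (hℓN : ¬ ℓ ∣ N) :
    FLTAgent.FF.IsFF (IsLocalRing.ResidueField A)
      (modularFunctionFieldFullC (IsLocalRing.ResidueField A) N) :=
  isFF_fullC (zetaToResidue N A hA hℓN)

include ℓ in
theorem finrank_fullC_residue (hA : A.LiesOverPrime ℓ) (hℓN : ¬ ℓ ∣ N) :
    Module.finrank (IsLocalRing.ResidueField A)⟮jF N (IsLocalRing.ResidueField A)⟯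
      (modularFunctionFieldFullC (IsLocalRing.ResidueField A) N) = dedekindPsi N :=
  finrank_jF (zetaToResidue N A hA hℓN)

include ℓ in
theorem isSeparable_fullC_residue (hA : A.LiesOverPrime ℓ) (hℓN : ¬ ℓ ∣ N) :
    Algebra.IsSeparable (IsLocalRing.ResidueField A)⟮jF N (IsLocalRing.ResidueField A)⟯
      (modularFunctionFieldFullC (IsLocalRing.ResidueField A) N) :=
  isSeparable_jF (zetaToResidue N A hA hℓN)

end Residue

end FLTAgent.Reduction
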