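import Mathlib
import Fermat.Agent.Reduction.PlacesGauss
import Fermat.Prelude.Def_ModularCurve_ReductionModL

/-!
# The Gauss reduction of `X₀(N)`

For a place `A` of `ℚ̄`, `modularGauss A N` reduces a quotient of two expansions with coefficients
in `A` lying in the function field (`integralExp`) to the quotient of the reduced expansions,
provided the denominator survives. It is surjective because the generators of the reduced field
are reductions (`exists_frac`).
-/

set_option autoImplicit false
set_option linter.style.haveILetI false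
set_option linter.unusedSectionVars false
set_option synthInstance.maxHeartbeats 400000
set_option maxHeartbeats 1000000

noncomputable section

open ModularCurve IntermediateField

namespace FLTAgent.Reduction

section Frac

variable {K k F Fb : Type*} [Field K] [Field k] [Field F] [Field Fb] [Algebra K F] [Algebra k Fb]
variable {B : Type*} [CommRing B]

/-- The fractions `φ a / φ b` with `ψ b ≠ 0`. -/
def fracRing (φ : B →+* F) (ψ : B →+* Fb) : Subring F where
  carrier := {y | ∃ a b : B, ψ b ≠ 0 ∧ y * φ b = φ a}
  one_mem' := ⟨1, 1, by simp, by simp⟩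
  zero_mem' := ⟨0, 1, by simp, by simp⟩
  mul_mem' := by
    rintro y z ⟨a, b, hb, h⟩ ⟨a', b', hb', h'⟩
    exact ⟨a * a', b * b', by rw [map_mul]; exact mul_ne_zero hb hb', by
      rw [map_mul, map_mul, ← h, ← h']; ring⟩
  add_mem' := by
    rintro y z ⟨a, b, hb, h⟩ ⟨a', b', hb', h'⟩
    exact ⟨a * b' + a' * b, b * b', by rw [map_mul]; exact mul_ne_zero hb hb', by
      simp only [map_add, map_mul, ← h, ← h']; ring⟩
  neg_mem' := by
    rintro y ⟨a, b, hb, h⟩
    exact ⟨-a, b, hb, by rw [map_neg, ← h]; ring⟩

open Classical in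
/-- The reduction of a fraction. -/
def fracRed (φ : B →+* F) (ψ : B →+* Fb) (y : F) : Fb :=
  if h : ∃ a b : B, ψ b ≠ 0 ∧ y * φ b = φ a then ψ h.choose / ψ h.choose_spec.choose else 0

variable {φ : B →+* F} {ψ : B →+* Fb}

theorem fracRed_eq (hφ : Function.Injective φ) {y : F} {a b : B} (hb : ψ b ≠ 0)
    (h : y * φ b = φ a) : fracRed φ ψ y = ψ a / ψ b := by
  classical
  have hex : ∃ a b : B, ψ b ≠ 0 ∧ y * φ b = φ a := ⟨a, b, hb, h⟩
  rw [fracRed, dif_pos hex]
  obtain ⟨hb', h'⟩ := hex.choose_spec.choose_spec
  set a' := hex.choose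
  set b' := hex.choose_spec.choose
  rw [div_eq_div_iff hb' hb, ← map_mul, ← map_mul]
  exact congrArg ψ (hφ (by rw [map_mul, map_mul, ← h, ← h']; ring))

/-- The reduction given by fractions of integral elements. -/
def GaussRed.ofFrac {A : ValuationSubring K} {π : A →+* k} (hπ : Function.Surjective π)
    (φ : B →+* F) (ψ : B →+* Fb) (hφ : Function.Injective φ)
    (hconst : ∀ a : A, ∃ b : B, φ b = algebraMap K F a ∧ ψ b = algebraMap k Fb (π a))
    (hgen : ∀ w : Fb, ∃ a b : B, ψ b ≠ 0 ∧ w = ψ a / ψ b) : GaussRed A π F Fb where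
  V := fracRing φ ψ
  red := fracRed φ ψ
  red_one := by rw [fracRed_eq hφ (a := 1) (b := 1) (by simp) (by simp)]; simp
  red_add := by
    rintro y z ⟨a, b, hb, h⟩ ⟨a', b', hb', h'⟩
    rw [fracRed_eq hφ hb h, fracRed_eq hφ hb' h', fracRed_eq hφ (a := a * b' + a' * b) (b := b * b')
      (by rw [map_mul]; exact mul_ne_zero hb hb') (by simp only [map_add, map_mul, ← h, ← h']; ring)]
    simp only [map_add, map_mul]
    field_simp
  red_mul := by
    rintro y z ⟨a, b, hb, h⟩ ⟨a', b', hb', h'⟩
    rw [fracRed_eq hφ hb h, fracRed_eq hφ hb' h', fracRed_eq hφ (a := a * a') (b := b * b')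
      (by rw [map_mul]; exact mul_ne_zero hb hb') (by simp only [map_mul, ← h, ← h']; ring),
      map_mul, map_mul]
    field_simp
  const_mem a := by
    obtain ⟨b, hb, -⟩ := hconst a
    exact ⟨b, 1, by simp, by simp [hb]⟩
  red_const a := by
    obtain ⟨b, hb, hb'⟩ := hconst a
    rw [fracRed_eq hφ (a := b) (b := 1) (by simp) (by simp [hb]), map_one, div_one, hb']
  inv_mem := by
    rintro y ⟨a, b, hb, h⟩ h0
    rw [fracRed_eq hφ hb h, div_ne_zero_iff] at h0
    refine ⟨b, a, h0.1, ?_⟩
    have hy : y ≠ 0 := fun hy0 => h0.1 (by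
      rw [hy0, zero_mul, ← map_zero φ] at h
      rw [← hφ h, map_zero])
    rw [← h, inv_mul_cancel_left₀ hy]
  red_surj w := by
    obtain ⟨a, b, hb, rfl⟩ := hgen w
    have hb0 : φ b ≠ 0 := fun h => hb (by rw [← map_zero φ] at h; rw [hφ h, map_zero])
    refine ⟨φ a / φ b, ⟨a, b, hb, div_mul_cancel₀ _ hb0⟩,
      fracRed_eq hφ hb (div_mul_cancel₀ _ hb0)⟩
  res_surj := hπ

end Frac

/-! ### The modular function field -/

section Modular

variable (A : ValuationSubring (AlgebraicClosure ℚ)) (N : ℕ)

local notation "k" => IsLocalRing.ResidueField A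

-- the instances that the search finds anyway, tried first to shorten it
attribute [local instance high] SubalgebraClass.toAlgebra HahnSeries.powerSeriesAlgebra

/-- Expansions with integral coefficients, lying in the function field and reducing into the
function field of the reduction. -/
def integralExp : Subring (LaurentSeries A) :=
  (modularFunctionFieldBar N).toSubfield.toSubring.comap (coeffMap A.subtype) ⊓
    (modularFunctionFieldFullC k N).toSubfield.toSubring.comap (coeffMap (IsLocalRing.residue A))

variable {A N}

theorem mem_integralExp {y : LaurentSeries A} :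
    y ∈ integralExp A N ↔ coeffMap A.subtype y ∈ modularFunctionFieldBar N ∧
      coeffMap (IsLocalRing.residue A) y ∈ modularFunctionFieldFullC k N := Iff.rfl

variable (A N)

/-- An integral expansion as a function. -/
def expToBar : integralExp A N →+* modularFunctionFieldBar N :=
  ((coeffMap A.subtype).comp (integralExp A N).subtype).codRestrict
    (modularFunctionFieldBar N).toSubfield.toSubring fun y => (mem_integralExp.mp y.2).1

/-- The reduction of an integral expansion. -/
def expToRes : integralExp A N →+* modularFunctionFieldFullC k N :=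
  ((coeffMap (IsLocalRing.residue A)).comp (integralExp A N).subtype).codRestrict
    (modularFunctionFieldFullC k N).toSubfield.toSubring fun y => (mem_integralExp.mp y.2).2

variable {A N}

@[simp]
theorem coe_expToBar (y : integralExp A N) :
    (expToBar A N y : LaurentSeries (AlgebraicClosure ℚ)) = coeffMap A.subtype y := rfl

@[simp]
theorem coe_expToRes (y : integralExp A N) :
    (expToRes A N y : LaurentSeries k) = coeffMap (IsLocalRing.residue A) y := rfl

theorem expToBar_injective : Function.Injective (expToBar A N) := fun y z h => by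
  have h' := congrArg Subtype.val h
  simp only [coe_expToBar] at h'
  refine Subtype.ext (HahnSeries.ext (funext fun i => Subtype.ext ?_))
  exact congrArg (fun s : LaurentSeries (AlgebraicClosure ℚ) => s.coeff i) h'

theorem coeffEmb_jqd (d : ℕ) [NeZero d] :
    coeffEmb (AlgebraicClosure ℚ) (qExpand ℚ d jq) = qExpand (AlgebraicClosure ℚ) d
      (jqModC (AlgebraicClosure ℚ)) :=
  coeffMap_jqNModC (algebraMap ℚ (AlgebraicClosure ℚ)) d

theorem jqd_mem_integralExp {d : ℕ} [NeZero d] (hd : d ∣ N) :
    qExpand A d (jqModC A) ∈ integralExp A N := by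
  rw [mem_integralExp]
  refine ⟨?_, ?_⟩
  · rw [show coeffMap A.subtype (qExpand A d (jqModC A)) = jqNModC (AlgebraicClosure ℚ) d from
      coeffMap_jqNModC A.subtype d, jqNModC, ← coeffEmb_jqd]
    exact coeffEmb_mem_laurentBaseChange _ (jqd_mem_full N hd)
  · rw [show coeffMap (IsLocalRing.residue A) (qExpand A d (jqModC A)) = jqNModC k d from
      coeffMap_jqNModC (IsLocalRing.residue A) d]
    exact jqModCd_mem_full k N hd

theorem const_mem_integralExp (a : A) : HahnSeries.C a ∈ integralExp A N := by
  rw [mem_integralExp]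
  refine ⟨?_, ?_⟩
  · rw [show coeffMap A.subtype (HahnSeries.C a) = algebraMap (AlgebraicClosure ℚ) _ (a : AlgebraicClosure ℚ) by
      rw [algebraMap_laurentSeries_eq_single]; exact coeffMap_single _ _ _]
    exact (modularFunctionFieldBar N).algebraMap_mem _
  · rw [show coeffMap (IsLocalRing.residue A) (HahnSeries.C a) = algebraMap k _ (IsLocalRing.residue A a) by
      rw [algebraMap_laurentSeries_eq_single]; exact coeffMap_single _ _ _]
    exact (modularFunctionFieldFullC k N).algebraMap_mem _

theorem exists_const_exp (a : A) : ∃ b : integralExp A N,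
    expToBar A N b = algebraMap (AlgebraicClosure ℚ) _ (a : AlgebraicClosure ℚ) ∧
      expToRes A N b = algebraMap k _ (IsLocalRing.residue A a) := by
  refine ⟨⟨_, const_mem_integralExp a⟩, Subtype.ext ?_, Subtype.ext ?_⟩
  · show coeffMap A.subtype (HahnSeries.C a) = algebraMap (AlgebraicClosure ℚ) _ (a : AlgebraicClosure ℚ)
    rw [algebraMap_laurentSeries_eq_single]; exact coeffMap_single _ _ _
  · show coeffMap (IsLocalRing.residue A) (HahnSeries.C a) = algebraMap k _ (IsLocalRing.residue A a)
    rw [algebraMap_laurentSeries_eq_single]; exact coeffMap_single _ _ _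

theorem exists_frac (w : modularFunctionFieldFullC k N) : ∃ a b : integralExp A N,
    expToRes A N b ≠ 0 ∧ w = expToRes A N a / expToRes A N b := by
  obtain ⟨w, hw⟩ := w
  have key : ∀ z, z ∈ modularFunctionFieldFullC k N → ∃ a b : integralExp A N,
      (expToRes A N b : LaurentSeries k) ≠ 0 ∧
        z = (expToRes A N a : LaurentSeries k) / (expToRes A N b : LaurentSeries k) := by
    intro z hz
    unfold modularFunctionFieldFullC at hz
    induction hz using IntermediateField.adjoin_induction with
    | mem z hz =>
      obtain ⟨d, hne, hd, rfl⟩ := hz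
      haveI := hne
      refine ⟨⟨_, jqd_mem_integralExp hd⟩, 1, by simp, ?_⟩
      rw [map_one, OneMemClass.coe_one, div_one, coe_expToRes]
      exact (coeffMap_jqNModC (IsLocalRing.residue A) d).symm
    | algebraMap c =>
      obtain ⟨a, rfl⟩ := IsLocalRing.residue_surjective c
      obtain ⟨b, -, hb⟩ := exists_const_exp (N := N) a
      refine ⟨b, 1, by simp, ?_⟩
      rw [hb, map_one, OneMemClass.coe_one, div_one]
      rfl
    | add u v _ _ hu hv =>
      obtain ⟨a, b, hb, rfl⟩ := hu
      obtain ⟨a', b', hb', rfl⟩ := hv
      refine ⟨a * b' + a' * b, b * b', by simp only [map_mul, MulMemClass.coe_mul]; exact mul_ne_zero hb hb', ?_⟩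
      simp only [map_add, map_mul, AddMemClass.coe_add, MulMemClass.coe_mul]
      rw [div_add_div _ _ hb hb']
      ring
    | inv u _ hu =>
      obtain ⟨a, b, hb, rfl⟩ := hu
      by_cases ha : (expToRes A N a : LaurentSeries k) = 0
      · exact ⟨0, 1, by simp, by simp [ha]⟩
      · exact ⟨b, a, ha, by rw [inv_div]⟩
    | mul u v _ _ hu hv =>
      obtain ⟨a, b, hb, rfl⟩ := hu
      obtain ⟨a', b', hb', rfl⟩ := hv
      refine ⟨a * a', b * b', by simp only [map_mul, MulMemClass.coe_mul]; exact mul_ne_zero hb hb', ?_⟩
      simp only [map_mul, MulMemClass.coe_mul]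
      rw [div_mul_div_comm]
  obtain ⟨a, b, hb, h⟩ := key w hw
  exact ⟨a, b, fun h0 => hb (by rw [h0]; rfl), Subtype.ext h⟩

variable (A N)

/-- The Gauss reduction of `X₀(N)` at `A`. -/
def modularGauss : GaussRed A (IsLocalRing.residue A) (modularFunctionFieldBar N)
    (modularFunctionFieldFullC k N) :=
  GaussRed.ofFrac IsLocalRing.residue_surjective (expToBar A N) (expToRes A N) expToBar_injective
    exists_const_exp exists_frac

variable {A N}

theorem modularGauss_mem {y : modularFunctionFieldBar N} :
    y ∈ (modularGauss A N).V ↔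
      ∃ a b : integralExp A N, expToRes A N b ≠ 0 ∧ y * expToBar A N b = expToBar A N a := Iff.rfl

theorem modularGauss_red {y : modularFunctionFieldBar N} {a b : integralExp A N}
    (hb : expToRes A N b ≠ 0) (h : y * expToBar A N b = expToBar A N a) :
    (modularGauss A N).red y = expToRes A N a / expToRes A N b :=
  fracRed_eq (φ := expToBar A N) (ψ := expToRes A N) expToBar_injective hb h

theorem expToBar_mem (a : integralExp A N) : expToBar A N a ∈ (modularGauss A N).V :=
  modularGauss_mem.mpr ⟨a, 1, by simp, by simp⟩

theorem red_expToBar (a : integralExp A N) :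
    (modularGauss A N).red (expToBar A N a) = expToRes A N a := by
  rw [modularGauss_red (a := a) (b := 1) (by simp) (by simp), map_one, div_one]

end Modular

end FLTAgent.Reduction
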