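import Mathlib
import Fermat.Agent.Reduction.InputsGauss
import Fermat.Agent.Reduction.InputsCurve
import Fermat.Agent.Reduction.GaussField
import Fermat.Agent.ModularCosets.Corollaries
import Fermat.Agent.GalCommon.Basic

/-!
# The parameter `j`

`j` is an integral expansion reducing to `j` (`jParam`, `red_jParam`) of degree `ψ(N)` on both
sides when `ℓ ∤ N`. So functions on `X₀(N)` can be normalised (`modularGauss_scale`), and `j` is a
good parameter as soon as both sides have the same genus (`goodParam_of_genus`).
-/

set_option autoImplicit false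
set_option linter.style.haveILetI false
set_option linter.unusedSectionVars false
set_option synthInstance.maxHeartbeats 400000
set_option maxHeartbeats 1000000

noncomputable section

open ModularCurve IntermediateField AlgebraicCurve

namespace FLTAgent.Reduction

variable (A : ValuationSubring (AlgebraicClosure ℚ)) (N : ℕ) [NeZero N]

local notation "Qb" => AlgebraicClosure ℚ
local notation "k" => IsLocalRing.ResidueField A

theorem jqModC_mem_integralExp : jqModC A ∈ integralExp A N := by
  rw [mem_integralExp]
  refine ⟨?_, ?_⟩
  · rw [coeffMap_jqModC A.subtype, ← ModularCosets.coeffEmb_jq_eq]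
    exact coeffEmb_mem_laurentBaseChange _ (modularFunctionField_le_full N (jq_mem N))
  · rw [coeffMap_jqModC (IsLocalRing.residue A)]
    exact jqModC_mem_full _ N

/-- `j` as an integral expansion. -/
def jExp : integralExp A N := ⟨jqModC A, jqModC_mem_integralExp A N⟩

/-- `j` as a parameter on `X₀(N)`. -/
def jParam : modularFunctionFieldBar N := expToBar A N (jExp A N)

theorem coe_jParam : (jParam A N : LaurentSeries Qb) = coeffEmb Qb jq := by
  rw [ModularCosets.coeffEmb_jq_eq, jParam, coe_expToBar]
  exact coeffMap_jqModC A.subtype

theorem jParam_mem : jParam A N ∈ (modularGauss A N).V := expToBar_mem _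

theorem red_jParam : (modularGauss A N).red (jParam A N) = jF N k := by
  rw [jParam, red_expToBar]
  exact Subtype.ext (by rw [coe_expToRes]; exact coeffMap_jqModC (IsLocalRing.residue A))

theorem transcendental_jParam : Transcendental Qb (jParam A N) := fun h =>
  ModularCosets.transcendental_jqModC Qb ((ModularCosets.coeffEmb_jq_eq Qb ▸ coe_jParam A N) ▸ h.algHom (modularFunctionFieldBar N).val)

theorem finrank_jParam : Module.finrank Qb⟮jParam A N⟯ (modularFunctionFieldBar N) = dedekindPsi N :=
  ModularCosets.finrank_bar_over_j N _ (coe_jParam A N)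

theorem finiteDimensional_jParam :
    FiniteDimensional Qb⟮jParam A N⟯ (modularFunctionFieldBar N) :=
  FiniteDimensional.of_finrank_pos (by
    rw [finrank_jParam]; exact ModularCosets.dedekindPsi_pos N)

theorem red_not_const (c : k) :
    (modularGauss A N).red (jParam A N) ≠ algebraMap k (modularFunctionFieldFullC k N) c := by
  rw [red_jParam]
  intro h
  exact transcendental_jF N k (h ▸ isAlgebraic_algebraMap c)

theorem isFF_bar_curve : FF.IsFF Qb (modularFunctionFieldBar N) := by
  haveI := finiteDimensional_jParam (⊤ : ValuationSubring Qb) N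
  exact FF.IsFF.of_finiteDimensional (jParam ⊤ N) (transcendental_jParam ⊤ N)

/-- `X₀(N)` over `ℚ̄` satisfies the curve axioms. -/
theorem curveData_bar :
    CurveData Qb (modularFunctionFieldBar N) (genusFF Qb (modularFunctionFieldBar N)) := by
  haveI := isFF_bar_curve N
  exact curveData_of_isFF _ _

theorem isSeparable_jParam : Algebra.IsSeparable Qb⟮jParam A N⟯ (modularFunctionFieldBar N) := by
  haveI := isFF_bar_curve N
  exact FF.isSeparable_adjoin_of_charZero (transcendental_jParam A N)

theorem degree_poleDiv_jParam :
    Divisor.degree (poleDiv (jParam A N) : Divisor Qb (modularFunctionFieldBar N)) = dedekindPsi N := by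
  haveI := isFF_bar_curve N
  haveI := isSeparable_jParam A N
  rw [degree_poleDiv_eq (transcendental_jParam A N), finrank_jParam]

variable {ℓ : ℕ} [Fact ℓ.Prime]

include ℓ in
/-- The reduction of `X₀(N)` satisfies the curve axioms. -/
theorem curveData_res (hA : A.LiesOverPrime ℓ) (hℓN : ¬ ℓ ∣ N) :
    CurveData k (modularFunctionFieldFullC k N) (genusFF k (modularFunctionFieldFullC k N)) := by
  haveI := isFF_fullC_residue N A hA hℓN
  haveI := GalCommon.isAlgClosed_residueField A (Fact.out : ℓ.Prime) hA
  exact curveData_of_isFF _ _

include ℓ in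
theorem degree_poleDiv_jF (hA : A.LiesOverPrime ℓ) (hℓN : ¬ ℓ ∣ N) :
    Divisor.degree (poleDiv (jF N k) : Divisor k (modularFunctionFieldFullC k N)) = dedekindPsi N := by
  haveI := isFF_fullC_residue N A hA hℓN
  haveI := GalCommon.isAlgClosed_residueField A (Fact.out : ℓ.Prime) hA
  haveI := isSeparable_fullC_residue N A hA hℓN
  rw [degree_poleDiv_eq (transcendental_jF N k), finrank_fullC_residue N A hA hℓN]

include ℓ in
/-- Every function on `X₀(N)` can be normalised to have nonzero reduction. -/
theorem modularGauss_scale (hA : A.LiesOverPrime ℓ) (hℓN : ¬ ℓ ∣ N) :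
    ∀ y : modularFunctionFieldBar N, y ≠ 0 → ∃ c : Qb, c ≠ 0 ∧
      c • y ∈ (modularGauss A N).V ∧ (modularGauss A N).red (c • y) ≠ 0 := by
  haveI := finiteDimensional_jParam A N
  haveI : FiniteDimensional k⟮(modularGauss A N).red (jParam A N)⟯ (modularFunctionFieldFullC k N) := by
    rw [red_jParam]; exact finiteDimensional_jF (zetaToResidue N A hA hℓN)
  refine GaussRed.exists_smul_of_finrank _ (curveData_res A N hA hℓN) (jParam_mem A N)
    (red_not_const A N) ?_
  rw [finrank_jParam, red_jParam, finrank_fullC_residue N A hA hℓN]

include ℓ in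
/-- `j` is a good parameter when the genus does not drop. -/
theorem goodParam_of_genus (hA : A.LiesOverPrime ℓ) (hℓN : ¬ ℓ ∣ N)
    (hg : genusFF k (modularFunctionFieldFullC k N) = genusFF Qb (modularFunctionFieldBar N)) :
    GoodParam (modularGauss A N) (genusFF Qb (modularFunctionFieldBar N)) (jParam A N) where
  curve := curveData_bar N
  curveBar := hg ▸ curveData_res A N hA hℓN
  mem := jParam_mem A N
  not_const := red_not_const A N
  deg_eq := by rw [degree_poleDiv_jParam, red_jParam, degree_poleDiv_jF A N hA hℓN]

end FLTAgent.Reduction
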