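import Fermat.Agent.Reduction.GaussLE
import Fermat.Agent.Reduction.InputsLevel
import Fermat.Agent.Reduction.GaussGenusLower
import Fermat.Agent.ModularPlaces.Genus

/-!
# Genus of the reduction at admissible level

For `ℓ ∤ M` with `4 ∣ M` or `9 ∣ M`, the reduction of `X₀(M)` has the genus of `X₀(M)`
(`genusFF_fullC_residue`): `≤` is `GaussRed.genusFF_le` applied to the parameter `j`, and `≥` is
`genusFF_lower` over the rational curves `X₀(4)` and `X₀(9)`, matched with the genus formula
without elliptic points (`two_genusFF_bar`).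
-/

set_option autoImplicit false
set_option linter.style.haveILetI false

noncomputable section

open ModularCurve IntermediateField AlgebraicCurve

namespace FLTAgent.Reduction

open FLTAgent.ModularCosets

theorem nuTwo_eq_zero {M : ℕ} (hM : 4 ∣ M ∨ 9 ∣ M) : nuTwo M = 0 := by
  rw [nuTwo, Nat.card_eq_zero]
  left
  refine ⟨fun ⟨y, hy⟩ => ?_⟩
  rcases hM with h | h
  · have h1 := congrArg (ZMod.castHom h (ZMod 4)) hy
    simp only [map_add, map_pow, map_one, map_zero] at h1
    exact (by decide : ∀ z : ZMod 4, z ^ 2 + 1 ≠ 0) _ h1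
  · have h1 := congrArg (ZMod.castHom ((show (3 : ℕ) ∣ 9 by norm_num).trans h) (ZMod 3)) hy
    simp only [map_add, map_pow, map_one, map_zero] at h1
    exact (by decide : ∀ z : ZMod 3, z ^ 2 + 1 ≠ 0) _ h1

theorem nuThree_eq_zero {M : ℕ} (hM : 4 ∣ M ∨ 9 ∣ M) : nuThree M = 0 := by
  rw [nuThree, Nat.card_eq_zero]
  left
  refine ⟨fun ⟨y, hy⟩ => ?_⟩
  rcases hM with h | h
  · have h1 := congrArg (ZMod.castHom h (ZMod 4)) hy
    simp only [map_add, map_pow, map_one, map_zero] at h1
    exact (by decide : ∀ z : ZMod 4, z ^ 2 + z + 1 ≠ 0) _ h1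
  · have h1 := congrArg (ZMod.castHom h (ZMod 9)) hy
    simp only [map_add, map_pow, map_one, map_zero] at h1
    exact (by decide : ∀ z : ZMod 9, z ^ 2 + z + 1 ≠ 0) _ h1

theorem dedekindPsi_four : dedekindPsi 4 = 6 := by
  rw [← card_cosetIdx 4, Fintype.card_coe]
  decide

theorem dedekindPsi_nine : dedekindPsi 9 = 12 := by
  rw [← card_cosetIdx 9, Fintype.card_coe]
  decide

variable (M : ℕ) [NeZero M]

/-- The genus in characteristic zero at admissible level. -/
theorem two_genusFF_bar (hM : 4 ∣ M ∨ 9 ∣ M) :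
    6 * (2 * (genusFF (AlgebraicClosure ℚ) ↥(modularFunctionFieldBar M) : ℤ) - 2) =
      (dedekindPsi M : ℤ) - 6 * cuspCount M := by
  have h := ModularPlaces.genusFF_bar M
  rw [genusFormula, nuTwo_eq_zero hM, nuThree_eq_zero hM] at h
  have : (6 : ℚ) * (2 * (genusFF (AlgebraicClosure ℚ) ↥(modularFunctionFieldBar M) : ℚ) - 2) =
      (dedekindPsi M : ℚ) - 6 * cuspCount M := by
    rw [h]; push_cast; ring
  exact_mod_cast this

variable (A : ValuationSubring (AlgebraicClosure ℚ)) {ℓ : ℕ} [Fact ℓ.Prime]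

local notation "k" => IsLocalRing.ResidueField A

include ℓ in
/-- The genus of the reduction is at most the genus of `X₀(M)`. -/
theorem genusFF_fullC_residue_le (hA : A.LiesOverPrime ℓ) (hlM : ¬ ℓ ∣ M) :
    genusFF k ↥(modularFunctionFieldFullC k M) ≤
      genusFF (AlgebraicClosure ℚ) ↥(modularFunctionFieldBar M) := by
  haveI := isFF_bar_curve M
  haveI := isFF_fullC_residue M A hA hlM
  haveI := GalCommon.isAlgClosed_residueField A (Fact.out : ℓ.Prime) hA
  haveI := finiteDimensional_jParam A M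
  haveI : FiniteDimensional k⟮(modularGauss A M).red (jParam A M)⟯
      ↥(modularFunctionFieldFullC k M) := by
    rw [red_jParam]; exact finiteDimensional_jF (zetaToResidue M A hA hlM)
  haveI : Algebra.IsSeparable k⟮(modularGauss A M).red (jParam A M)⟯
      ↥(modularFunctionFieldFullC k M) := by
    rw [red_jParam]; exact isSeparable_fullC_residue M A hA hlM
  refine GaussRed.genusFF_le (modularGauss_scale A M hA hlM) (jParam_mem A M) ?_ ?_
  · rw [red_jParam]; exact transcendental_jF M k
  · rw [finrank_jParam, red_jParam, finrank_fullC_residue M A hA hlM]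

include ℓ in
theorem genusFF_fullC_residue_small (hA : A.LiesOverPrime ℓ) {d : ℕ} [NeZero d]
    (hd : d = 4 ∨ d = 9) (hld : ¬ ℓ ∣ d) :
    genusFF k ↥(modularFunctionFieldFullC k d) = 0 := by
  have h := genusFF_fullC_residue_le d A hA hld
  have h2 := two_genusFF_bar d (by rcases hd with rfl | rfl <;> norm_num)
  have h3 : cuspCount 4 = 3 := by decide
  have h4 : cuspCount 9 = 4 := by decide
  rcases hd with rfl | rfl
  · rw [dedekindPsi_four, h3] at h2; omega
  · rw [dedekindPsi_nine, h4] at h2; omega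

include ℓ in
theorem genusFF_lower_residue (hA : A.LiesOverPrime ℓ) (hlM : ¬ ℓ ∣ M) {d : ℕ} [NeZero d]
    (hd : d = 4 ∨ d = 9) (hdM : d ∣ M) (s : Finset (CosetIdx d))
    (hs : ∀ c ∈ s, ∀ c' ∈ s, c.a = c'.a → c.a * c.a = d ∨ c = c') :
    ∃ n : ℕ, dedekindPsi d * n = dedekindPsi M ∧
      ((s.card : ℤ) - 2) * n - cuspCount M ≤
        2 * (genusFF k ↥(modularFunctionFieldFullC k M) : ℤ) - 2 := by
  haveI := GalCommon.isAlgClosed_residueField A (Fact.out : ℓ.Prime) hA
  have hld : ¬ ℓ ∣ d := fun h => hlM (h.trans hdM)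
  exact genusFF_lower hdM (zetaToResidue M A hA hlM) (zetaToResidue d A hA hld)
    (genusFF_fullC_residue_small A hA hd hld) s (le_card_cuspPlace _ s hs)

include ℓ in
/-- **Genus equality at admissible level.** -/
theorem genusFF_fullC_residue (hA : A.LiesOverPrime ℓ) (hlM : ¬ ℓ ∣ M) (hM : 4 ∣ M ∨ 9 ∣ M) :
    genusFF (IsLocalRing.ResidueField A)
        ↥(modularFunctionFieldFullC (IsLocalRing.ResidueField A) M) =
      genusFF (AlgebraicClosure ℚ) ↥(modularFunctionFieldBar M) := by
  refine le_antisymm (genusFF_fullC_residue_le M A hA hlM) ?_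
  have h0 := two_genusFF_bar M hM
  rcases hM with h | h
  · obtain ⟨n, hn, hb⟩ := genusFF_lower_residue M A hA hlM (Or.inl rfl) h
      (Finset.univ.filter fun c : CosetIdx 4 => c.b ≤ 1 ∧ (c.a = 1 → c.b = 0)) (by decide)
    rw [show (Finset.univ.filter fun c : CosetIdx 4 => c.b ≤ 1 ∧ (c.a = 1 → c.b = 0)).card = 3 by
      decide] at hb
    rw [dedekindPsi_four] at hn
    omega
  · obtain ⟨n, hn, hb⟩ := genusFF_lower_residue M A hA hlM (Or.inr rfl) h
      (Finset.univ.filter fun c : CosetIdx 9 => c.a = 1 → c.b = 0) (by decide)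
    rw [show (Finset.univ.filter fun c : CosetIdx 9 => c.a = 1 → c.b = 0).card = 4 by decide] at hb
    rw [dedekindPsi_nine] at hn
    omega

end FLTAgent.Reduction
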