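import Mathlib
import Fermat.Agent.Reduction.PlacesMap

/-!
# Injectivity of reduction on torsion

`GoodParam.mem_principal_of_nsmul`: a degree zero divisor `D` with `m D` principal, `m` prime to
the residue characteristic, and principal reduction is principal. One replaces `D` by `E - D₀`
with `D₀` lifting `g` places in general position, so `E` and `D₀` have the same reduction;
expanding the normalised function with divisor `m (E - D₀)` in residue discs (`exists_expansion`)
forces `E = D₀`.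
-/

set_option autoImplicit false
set_option linter.style.haveILetI false
set_option linter.unusedSectionVars false

noncomputable section

open AlgebraicCurve Module Polynomial

namespace FLTAgent.Reduction

theorem exists_sub_C_pow {R : Type*} [CommRing R] (a : R) (M : ℕ) :
    ∃ T : R[X], (X - C a) ^ (M + 1) =
      X ^ (M + 1) - C ((M + 1 : ℕ) * a) * X ^ M + C (a ^ 2) * T := by
  induction M with
  | zero => exact ⟨0, by simp⟩
  | succ M ih =>
    obtain ⟨T, hT⟩ := ih
    refine ⟨C ((M + 1 : ℕ) : R) * X ^ M + T * (X - C a), ?_⟩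
    rw [pow_succ, hT]
    push_cast
    simp only [map_mul, map_add, map_natCast, map_one, map_pow]
    ring

variable {K k F Fb : Type*} [Field K] [Field k] [Field F] [Field Fb] [Algebra K F] [Algebra k Fb]
variable {A : ValuationSubring K} {π : A →+* k}

/-- A polynomial in a uniformiser vanishing to order `m` has no coefficients below `m`. -/
theorem coeff_eq_zero_of_vanish {P : Place K F} {s : F} (hs : P.ord s = 1) (R : K[X]) {m : ℕ}
    (h : Vanish P (aeval s R) (m : ℤ)) : ∀ j, j < m → R.coeff j = 0 := by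
  classical
  intro j
  induction j using Nat.strong_induction_on with
  | _ j ih =>
    intro hj
    by_contra hne
    have hs0 : s ≠ 0 := fun h0 => by simp [h0] at hs
    have hterm : Vanish P (algebraMap K F (R.coeff j) * s ^ j) ((j : ℤ) + 1) := by
      set S := Finset.range (R.natDegree + j + 1) with hS
      have hsum : aeval s R = ∑ i ∈ S, algebraMap K F (R.coeff i) * s ^ i := by
        rw [aeval_eq_sum_range' (n := R.natDegree + j + 1) (by omega)]
        simp [Algebra.smul_def, hS]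
      have hj' : j ∈ S := Finset.mem_range.mpr (by omega)
      have e : algebraMap K F (R.coeff j) * s ^ j =
          aeval s R - ∑ i ∈ S.erase j, algebraMap K F (R.coeff i) * s ^ i := by
        rw [hsum, ← Finset.add_sum_erase S _ hj']
        ring
      rw [e]
      refine (h.mono (by omega)).sub (Vanish.sum _ _ fun i hi => ?_)
      rcases lt_or_gt_of_ne (Finset.mem_erase.mp hi).1 with hlt | hgt
      · rw [ih i hlt (by omega), map_zero, zero_mul]
        exact Vanish.zero_left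
      · refine ((Vanish.const (R.coeff i)).mul ((Vanish.self s).pow i)).mono ?_
        rw [hs]; omega
    have h1 := hterm.resolve_left (mul_ne_zero (by simpa using hne) (pow_ne_zero j hs0))
    rw [P.ord_mul (by simpa using hne) (pow_ne_zero j hs0), FF.ord_algebraMap, FF.ord_pow, hs] at h1
    omega

namespace IsRed

variable {G : GaussRed A π F Fb} {g : ℕ} {r : Place K F → Place k Fb} (hr : IsRed G g r)
include hr

theorem red_mem_L {D : Divisor K F} {y : F} (hy : y ∈ riemannRochSpace D) (hyV : y ∈ G.V) :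
    G.red y ∈ riemannRochSpace (Finsupp.mapDomain r D) := by
  refine mem_L_iff.mpr fun Q => ?_
  rcases eq_or_ne (G.red y) 0 with h0 | h0
  · exact Or.inl h0
  refine Or.inr ?_
  have h : (0 : Divisor K F) ≤ divOf y + D := fun P => by
    have := (mem_L_iff.mp hy P).resolve_left (G.ne_zero_of_red h0)
    rw [Finsupp.add_apply, hr.curve.divOf_apply, Finsupp.zero_apply]
    omega
  have h2 := hr.mapDomain_nonneg h Q
  rw [Finsupp.mapDomain_add, Finsupp.add_apply, hr.mapDomain_divOf hyV h0,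
    hr.curveBar.choose_spec.divOf_apply, Finsupp.zero_apply] at h2
  omega

/-- A function with a simple reduced zero on a fibre has exactly one simple zero there. -/
theorem unique_zero {Q : Place k Fb} {s : F} (hs : s ∈ G.V) (hord : Q.ord (G.red s) = 1)
    (hreg : RegFibre r Q s) {P : Place K F} (hP : r P = Q) (hPs : Vanish P s 1) :
    P.ord s = 1 ∧ ∀ P', r P' = Q → P' ≠ P → P'.ord s = 0 := by
  have h0 : G.red s ≠ 0 := fun h => by simp [h] at hord
  have hnn : ∀ P', r P' = Q → 0 ≤ (divOf s : Divisor K F) P' := fun P' hP' => by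
    rw [hr.curve.divOf_apply]; exact Vanish.zero_iff.mp (hreg P' hP')
  have hsum := hr.ord_eq s hs h0 Q
  rw [hord] at hsum
  have hP1 := hPs.resolve_left (G.ne_zero_of_red h0)
  have h1 := le_mapDomain_of_nonneg r (divOf s : Divisor K F) Q hnn hP
  rw [hr.curve.divOf_apply] at h1
  refine ⟨by omega, fun P' hP' hne => ?_⟩
  have h2 := add_le_mapDomain_of_nonneg r (divOf s : Divisor K F) Q hnn hP hP' hne.symm
  have h3 := hnn P' hP'
  simp only [hr.curve.divOf_apply] at h2 h3
  omega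

/-- Taylor expansion on a residue disc. -/
theorem exists_expansion {Q : Place k Fb} {s : F} (hs : s ∈ G.V) (hord : Q.ord (G.red s) = 1)
    (hreg : RegFibre r Q s) {P : Place K F} (hP : r P = Q) (hPs : Vanish P s 1) {y : F}
    (hy : y ∈ G.V) (hyr : RegFibre r Q y) (n : ℕ) :
    ∃ (c : ℕ → A) (y' : F), y' ∈ G.V ∧ RegFibre r Q y' ∧
      y = (∑ i ∈ Finset.range n, algebraMap K F (c i : K) * s ^ i) + s ^ n * y' := by
  classical
  have h0 : G.red s ≠ 0 := fun h => by simp [h] at hord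
  obtain ⟨hsP, hsP'⟩ := hr.unique_zero hs hord hreg hP hPs
  induction n with
  | zero => exact ⟨fun _ => 0, y, hy, hyr, by simp⟩
  | succ n ih =>
    obtain ⟨c, y', hy'V, hy'r, hy'⟩ := ih
    obtain ⟨hcA, -, -⟩ := hr.value_of_regFibre hy'V hy'r hP
    set a : A := ⟨_, hcA⟩ with ha
    refine ⟨Function.update c n a, (y' - algebraMap K F (a : K)) * s⁻¹,
      G.V.mul_mem (G.V.sub_mem hy'V (G.const_mem a)) (G.inv_mem hs h0), fun P' hP' => ?_, ?_⟩
    · by_cases e : P' = P
      · subst e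
        exact ((hr.curve.exists_valAt (hy'r P' hP')).mul (Vanish.self s⁻¹)).mono
          (by rw [P'.ord_inv, hsP]; norm_num)
      · exact ((hy'r P' hP').sub (Vanish.const _)).mul_zero'
          (Or.inr (by rw [P'.ord_inv, hsP' P' hP' e]; rfl))
    · rw [hy', Finset.sum_range_succ]
      simp only [Function.update_self]
      have : ∑ i ∈ Finset.range n, algebraMap K F ((Function.update c n a i : A) : K) * s ^ i
          = ∑ i ∈ Finset.range n, algebraMap K F (c i : K) * s ^ i :=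
        Finset.sum_congr rfl fun i hi => by
          rw [Function.update_of_ne (by have := Finset.mem_range.mp hi; omega)]
      rw [this]
      have hs0 := G.ne_zero_of_red h0
      field_simp
      ring

end IsRed

namespace GoodParam

variable [Infinite k] {G : GaussRed A π F Fb} {g : ℕ} {x : F} (hx : GoodParam G g x)
include hx

/-- A divisor of degree zero with `m • D` principal and principal reduction is principal. -/
theorem mem_principal_of_nsmul {m : ℕ} (hm : (m : k) ≠ 0) {D : Divisor K F}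
    (hD : Divisor.degree D = 0) (hmD : m • D ∈ Divisor.principal (K := K) (F := F))
    (hred : Finsupp.mapDomain (redMap hx) D ∈ Divisor.principal (K := k) (F := Fb)) :
    D ∈ Divisor.principal (K := K) (F := F) := by
  classical
  have hr := hx.isRed
  set r := redMap hx with hr'
  obtain ⟨S, hST, hScard, hSell⟩ := hx.curveBar.exists_general_position hx.infinite_finite_image
  choose P hP using fun Q : S => (hST Q.2).1
  replace hP : ∀ Q : S, r (P Q) = Q := hP
  set D₀b : Divisor k Fb := ∑ Q ∈ S, Finsupp.single Q (1 : ℤ) with hD₀b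
  set D₀ : Divisor K F := ∑ Q : S, Finsupp.single (P Q) (1 : ℤ) with hD₀
  have hmapD₀ : Finsupp.mapDomain r D₀ = D₀b := by
    rw [hD₀, Finsupp.mapDomain_finsetSum, hD₀b, ← Finset.sum_coe_sort S]
    exact Finset.sum_congr rfl fun Q _ => by rw [Finsupp.mapDomain_single, hP]
  have hD₀0 : 0 ≤ D₀ := Finset.sum_nonneg fun _ _ => Finsupp.single_nonneg.mpr zero_le_one
  have hD₀deg : Divisor.degree D₀ = g := by
    rw [← hr.degree_mapDomain, hmapD₀, hD₀b, map_sum]
    simp [hx.curveBar.degree_single, hScard]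
  have hconstb : ∀ w ∈ riemannRochSpace D₀b, ∃ c : k, algebraMap k Fb c = w := by
    intro w hw
    haveI := hx.curveBar.finite_L' D₀b
    have h1 : (1 : Fb) ∈ riemannRochSpace D₀b :=
      CurveData.one_mem_L (Finset.sum_nonneg fun _ _ => Finsupp.single_nonneg.mpr zero_le_one)
    have hle : Submodule.span k {(1 : Fb)} ≤ riemannRochSpace D₀b :=
      (Submodule.span_singleton_le_iff_mem 1 _).mpr h1
    have heq := Submodule.eq_of_le_of_finrank_eq hle (by
      rw [finrank_span_singleton (K := k) (one_ne_zero : (1 : Fb) ≠ 0)]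
      exact hSell.symm)
    rw [← heq] at hw
    obtain ⟨c, hc⟩ := Submodule.mem_span_singleton.mp hw
    exact ⟨c, by rw [← hc, Algebra.algebraMap_eq_smul_one]⟩
  -- the effective representative
  haveI := hx.curve.finite_L' (D₀ + D)
  have hpos : 0 < finrank K (riemannRochSpace (D₀ + D)) := by
    have := hx.curve.riemann (D₀ + D)
    rw [map_add, hD₀deg, hD] at this
    omega
  haveI := Module.finrank_pos_iff.mp hpos
  obtain ⟨⟨f₀, hf₀⟩, hf₀ne⟩ := exists_ne (0 : riemannRochSpace (D₀ + D))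
  have hf₀0 : f₀ ≠ 0 := fun h => hf₀ne (Subtype.ext h)
  set E : Divisor K F := divOf f₀ + (D₀ + D) with hE
  have hE0 : 0 ≤ E := fun v => by
    have := (mem_L_iff.mp hf₀ v).resolve_left hf₀0
    rw [hE, Finsupp.add_apply, hx.curve.divOf_apply, Finsupp.zero_apply]
    omega
  have hdiv₀ : (divOf f₀ : Divisor K F) ∈ Divisor.principal (K := K) (F := F) :=
    hx.curve.isPrincipal_divOf hf₀0
  have hmapE : Finsupp.mapDomain r E = D₀b := by
    obtain ⟨w, hw, hwdiv⟩ := AddSubgroup.add_mem _ (hr.mapDomain_principal hdiv₀) hred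
    have hval : ∀ v, Finsupp.mapDomain r E v = v.ord w + D₀b v := fun v => by
      have := hwdiv v
      rw [Finsupp.add_apply] at this
      rw [hE, Finsupp.mapDomain_add, Finsupp.mapDomain_add, Finsupp.add_apply, Finsupp.add_apply,
        hmapD₀, ← this]
      ring
    have hwL : w ∈ riemannRochSpace D₀b := mem_L_iff.mpr fun v => Or.inr (by
      have := hr.mapDomain_nonneg hE0 v
      rw [hval, Finsupp.zero_apply] at this
      omega)
    obtain ⟨c, rfl⟩ := hconstb w hwL
    exact Finsupp.ext fun v => by rw [hval, FF.ord_algebraMap, zero_add]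
  suffices hED : E = D₀ by
    rw [hE] at hED
    have : D = -divOf f₀ := by linear_combination (norm := module) hED
    rw [this]
    exact AddSubgroup.neg_mem _ hdiv₀
  by_contra hne
  -- the normalised function
  obtain ⟨f, hf, hfdiv⟩ : Divisor.IsPrincipal (m • (E - D₀)) := by
    have : m • (E - D₀) = m • (divOf f₀ : Divisor K F) + m • D := by
      rw [hE, ← smul_add]; congr 1; abel
    rw [this]
    exact AddSubgroup.add_mem _ (AddSubgroup.nsmul_mem _ hdiv₀ m) hmD
  obtain ⟨c, hc, hcV, hcr⟩ := hr.scale f hf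
  set W : Submodule K F := riemannRochSpace (m • D₀) with hW
  have hfW : c • f ∈ W := Submodule.smul_mem _ _ (mem_L_iff.mpr fun v => Or.inr (by
    have h1 := hfdiv v
    have h2 : 0 ≤ E v := hE0 v
    simp only [Finsupp.smul_apply, Finsupp.sub_apply, nsmul_eq_mul] at h1 ⊢
    nlinarith [(Nat.cast_nonneg m : (0 : ℤ) ≤ (m : ℤ))]))
  have hdivcf : (divOf (c • f) : Divisor K F) = m • (E - D₀) :=
    Finsupp.ext fun v => by rw [hr.divOf_smul hc hf, hx.curve.divOf_apply, hfdiv]
  obtain ⟨cb, hcb⟩ := hx.curveBar.const (G.red (c • f)) fun v => by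
    rw [hr.ord_eq _ hcV hcr, hdivcf]
    simp [Finsupp.mapDomain_smul, Finsupp.mapDomain_sub, hmapD₀, hmapE]
  have hcb0 : cb ≠ 0 := fun h => hcr (by rw [← hcb, h, map_zero])
  obtain ⟨e, he⟩ := G.res_surj cb
  have heinv : (e : K)⁻¹ ∈ A := G.res_ne_zero_inv_mem (he ▸ hcb0)
  have he0 : (e : K) ≠ 0 := fun h => hcb0 (by
    rw [← he, show e = 0 from Subtype.ext h, map_zero])
  set f₁ : F := (e : K)⁻¹ • (c • f) with hf₁
  have hf₁V : f₁ ∈ G.V := G.smul_mem' heinv hcV
  have hf₁W : f₁ ∈ W := Submodule.smul_mem _ _ hfW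
  have hf₁red : G.red f₁ = 1 := by
    rw [hf₁, G.red_smul ⟨_, heinv⟩ hcV, ← hcb, Algebra.smul_def, ← map_mul, ← he, ← map_mul]
    rw [show (⟨(e : K)⁻¹, heinv⟩ : A) * e = 1 from Subtype.ext (inv_mul_cancel₀ he0), map_one,
      map_one]
  have hdivf₁ : (divOf f₁ : Divisor K F) = m • (E - D₀) := by
    rw [hf₁, hr.divOf_smul (inv_ne_zero he0) (smul_ne_zero hc hf), hdivcf]
  -- a basis of `W`
  obtain ⟨t, ht⟩ := (Module.Finite.iff_fg.mp (hx.curve.finite_L' (m • D₀)) : W.FG)
  obtain ⟨ι, _, b, hb, hmem⟩ := hx.exists_redIndep_span t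
  obtain ⟨n, w, hw, hwspan⟩ := hb.exists_basis W
    (by rw [← ht]; exact Submodule.span_le.mpr fun y hy => hmem y hy)
  have h1W : (1 : F) ∈ W := CurveData.one_mem_L (nsmul_nonneg hD₀0 m)
  have hrep : ∀ z ∈ W, ∃ d : Fin n → K, ∑ i, d i • w i = z := fun z hz => by
    rw [← hwspan] at hz; exact (Submodule.mem_span_range_iff_exists_fun K).mp hz
  obtain ⟨d₁, hd₁⟩ := hrep 1 h1W
  have hd₁A : ∀ i, d₁ i ∈ A := fun i => hw.coeff_mem (hd₁ ▸ G.V.one_mem) i
  obtain ⟨i₀, hi₀⟩ : ∃ i, π ⟨d₁ i, hd₁A i⟩ ≠ 0 := by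
    by_contra h
    push Not at h
    have h' := G.red_sum_smul hw.1 (fun i => ⟨d₁ i, hd₁A i⟩)
    rw [hd₁, G.red_one] at h'
    simp [h] at h'
  have hd₁0 : d₁ i₀ ≠ 0 := fun h0 => hi₀ (by
    rw [show (⟨d₁ i₀, hd₁A i₀⟩ : A) = 0 from Subtype.ext h0, map_zero])
  obtain ⟨df, hdf⟩ := hrep f₁ hf₁W
  have hdfA : ∀ i, df i ∈ A := fun i => hw.coeff_mem (hdf ▸ hf₁V) i
  have hc₀mem : df i₀ / d₁ i₀ ∈ A := by
    rw [div_eq_mul_inv]
    exact A.mul_mem _ _ (hdfA i₀) (G.res_ne_zero_inv_mem (a := ⟨d₁ i₀, hd₁A i₀⟩) hi₀)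
  set c₀ : A := ⟨_, hc₀mem⟩ with hc₀
  set h : F := f₁ - algebraMap K F (c₀ : K) with hh
  have hhsum : h = ∑ i, (df i - (c₀ : K) * d₁ i) • w i := by
    simp only [sub_smul, Finset.sum_sub_distrib, mul_smul, ← Finset.smul_sum, hdf, hd₁, hh,
      Algebra.algebraMap_eq_smul_one]
  have hh0 : h ≠ 0 := by
    intro h0
    apply hne
    have hf₁c : f₁ = algebraMap K F (c₀ : K) := sub_eq_zero.mp h0
    refine Finsupp.ext fun v => ?_
    have := congrArg (fun D : Divisor K F => D v) hdivf₁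
    simp only [hx.curve.divOf_apply, hf₁c, FF.ord_algebraMap, Finsupp.smul_apply,
      Finsupp.sub_apply, nsmul_eq_mul] at this
    rcases mul_eq_zero.mp this.symm with h1 | h1
    · exact absurd (show m = 0 by exact_mod_cast h1) (fun h2 => hm (by simp [h2]))
    · omega
  obtain ⟨lam, h₁, hlam0, hh₁V, hh₁red, hlamh⟩ :=
    hx.exists_eq_smul (G.V.sub_mem hf₁V (G.const_mem c₀)) hh0
  rw [← hh] at hlamh
  have hh₁eq : h₁ = ∑ i, ((df i - (c₀ : K) * d₁ i) / (lam : K)) • w i := by
    have : h₁ = (lam : K)⁻¹ • h := by rw [hlamh, smul_smul, inv_mul_cancel₀ hlam0, one_smul]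
    rw [this, hhsum, Finset.smul_sum]
    exact Finset.sum_congr rfl fun i _ => by rw [smul_smul, inv_mul_eq_div]
  have hh₁W : h₁ ∈ W := by
    rw [hh₁eq, ← hwspan]
    exact Submodule.sum_mem _ fun i _ => Submodule.smul_mem _ _ (Submodule.subset_span ⟨i, rfl⟩)
  have hnc : ∀ cc : k, G.red h₁ ≠ algebraMap k Fb cc := by
    intro cc hcc
    set d₂ : Fin n → K := fun i => (df i - (c₀ : K) * d₁ i) / (lam : K)
    have hd₂A : ∀ i, d₂ i ∈ A := fun i => hw.coeff_mem (hh₁eq ▸ hh₁V) i
    have e1 : G.red h₁ = ∑ i, π ⟨d₂ i, hd₂A i⟩ • G.red (w i) := by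
      rw [← G.red_sum_smul hw.1 fun i => ⟨d₂ i, hd₂A i⟩]; exact congrArg G.red hh₁eq
    have e2 : (1 : Fb) = ∑ i, π ⟨d₁ i, hd₁A i⟩ • G.red (w i) := by
      rw [← G.red_sum_smul hw.1 fun i => ⟨d₁ i, hd₁A i⟩, hd₁, G.red_one]
    have key : ∑ i, (π ⟨d₂ i, hd₂A i⟩ - cc * π ⟨d₁ i, hd₁A i⟩) • G.red (w i) = 0 := by
      simp only [sub_smul, Finset.sum_sub_distrib, mul_smul, ← Finset.smul_sum]
      rw [← e1, ← e2, hcc, Algebra.algebraMap_eq_smul_one, sub_self]
    have hi := Fintype.linearIndependent_iff.mp hw.2 _ key i₀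
    have hz : (⟨d₂ i₀, hd₂A i₀⟩ : A) = 0 := Subtype.ext (by
      show (df i₀ - (c₀ : K) * d₁ i₀) / (lam : K) = 0
      simp [hc₀, div_mul_cancel₀ _ hd₁0])
    rw [hz, map_zero, zero_sub, neg_eq_zero, mul_eq_zero] at hi
    rw [hi.resolve_right hi₀, map_zero] at hcc
    exact hh₁red hcc
  have hsplit : π lam = 0 ∧ π c₀ = 1 := by
    have h1 : G.red h = π lam • G.red h₁ := by rw [hlamh, G.red_smul lam hh₁V]
    rw [hh, G.red_sub hf₁V (G.const_mem c₀), hf₁red, G.red_const] at h1
    have hl : π lam = 0 := by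
      by_contra hl
      refine hnc ((π lam)⁻¹ * (1 - π c₀)) ?_
      rw [map_mul, map_sub, map_one, h1, Algebra.smul_def, ← mul_assoc, ← map_mul,
        inv_mul_cancel₀ hl, map_one, one_mul]
    refine ⟨hl, ?_⟩
    rw [hl, zero_smul, sub_eq_zero] at h1
    exact (algebraMap k Fb).injective (by rw [← h1, map_one])
  obtain ⟨Q, hQS, hQk⟩ : ∃ Q ∈ S, Q.ord (G.red h₁) < -1 := by
    by_contra hall
    push Not at hall
    have hmem₁ := hr.red_mem_L hh₁W hh₁V
    suffices hL : ∀ v, -D₀b v ≤ v.ord (G.red h₁) by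
      obtain ⟨cc, hcc⟩ := hconstb (G.red h₁) (mem_L_iff.mpr fun v => Or.inr (hL v))
      exact hnc cc hcc.symm
    intro v
    have hv := (mem_L_iff.mp hmem₁ v).resolve_left hh₁red
    simp only [Finsupp.mapDomain_smul, hmapD₀, Finsupp.smul_apply] at hv
    by_cases hvS : v ∈ S
    · have := hall v hvS
      have : D₀b v = 1 := by simp [hD₀b, Finsupp.finsetSum_apply, Finsupp.single_apply, hvS]
      omega
    · have h0 : D₀b v = 0 := by simp [hD₀b, Finsupp.finsetSum_apply, Finsupp.single_apply, hvS]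
      rw [h0, smul_zero] at hv
      omega
  -- the residue disc at `Q`
  set P₀ := P ⟨Q, hQS⟩ with hP₀def
  have hP₀ : r P₀ = Q := hP ⟨Q, hQS⟩
  have hD₀fib : ∀ v, r v = Q → D₀ v = if v = P₀ then 1 else 0 := by
    intro v hv
    rw [hD₀, Finsupp.finsetSum_apply]
    by_cases e : v = P₀
    · rw [if_pos e, Finset.sum_eq_single (⟨Q, hQS⟩ : S)]
      · rw [e, hP₀def, Finsupp.single_eq_same]
      · intro Q' _ hne'
        refine Finsupp.single_eq_of_ne fun h' => hne' (Subtype.ext ?_)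
        rw [← hP Q', ← h', hv]
      · intro h'; exact absurd (Finset.mem_univ _) h'
    · rw [if_neg e]
      refine Finset.sum_eq_zero fun Q' _ => Finsupp.single_eq_of_ne fun h' => e ?_
      have hQ' : Q' = ⟨Q, hQS⟩ := Subtype.ext (show (Q' : Place k Fb) = Q by rw [← hP Q', ← h', hv])
      rw [h', hQ']
  have hEQ : Finsupp.mapDomain r E Q = 1 := by
    rw [hmapE, hD₀b]; simp [Finsupp.finsetSum_apply, Finsupp.single_apply, hQS]
  obtain ⟨P₁, hP₁, hEfib⟩ : ∃ P₁, r P₁ = Q ∧ ∀ v, r v = Q → E v = if v = P₁ then 1 else 0 := by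
    obtain ⟨P₁, hP₁, hE1⟩ : ∃ P₁, r P₁ = Q ∧ 1 ≤ E P₁ := by
      by_contra hall
      push Not at hall
      rw [mapDomain_apply_eq_sum, Finset.sum_eq_zero] at hEQ
      · exact zero_ne_one hEQ
      intro v hv
      have := hall v (Finset.mem_filter.mp hv).2
      have : 0 ≤ E v := hE0 v
      omega
    refine ⟨P₁, hP₁, fun v hv => ?_⟩
    have h1 := le_mapDomain_of_nonneg r E Q (fun a _ => hE0 a) hP₁
    split_ifs with e
    · subst e; omega
    · have h2 := add_le_mapDomain_of_nonneg r E Q (fun a _ => hE0 a) hP₁ hv (Ne.symm e)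
      have : 0 ≤ E v := hE0 v
      omega
  obtain ⟨s₀, hs₀, hs₀ord, hs₀reg⟩ := hx.exists_uniformizer (Q := Q) (hST hQS).2
  obtain ⟨hv₀, -, hv₀'⟩ := hr.value_of_regFibre hs₀ hs₀reg hP₀
  set α₀ : A := ⟨_, hv₀⟩
  have hα₀ : π α₀ = 0 := by
    rw [← resVal_of_eq P₀ s₀ α₀ rfl, ← hv₀']
    exact valAt_eq_zero_of_vanish (Or.inr hs₀ord.ge)
  set s := s₀ - algebraMap K F (α₀ : K) with hs
  have hsV : s ∈ G.V := G.V.sub_mem hs₀ (G.const_mem α₀)
  have hsred : G.red s = G.red s₀ := by
    rw [hs, G.red_sub hs₀ (G.const_mem α₀), G.red_const, hα₀, map_zero, sub_zero]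
  have hsord : Q.ord (G.red s) = 1 := hsred ▸ hs₀ord
  have hsreg : RegFibre r Q s := fun v hv => (hs₀reg v hv).sub (Vanish.const _)
  have hsP₀ : Vanish P₀ s 1 := hr.curve.exists_valAt (hs₀reg P₀ hP₀)
  obtain ⟨hsord₀, hsord₀'⟩ := hr.unique_zero hsV hsord hsreg hP₀ hsP₀
  obtain ⟨hv₁, -, hv₁'⟩ := hr.value_of_regFibre hsV hsreg hP₁
  set a : A := ⟨_, hv₁⟩
  have ha : π a = 0 := by
    rw [← resVal_of_eq P₁ s a rfl, ← hv₁']
    exact valAt_eq_zero_of_vanish (Or.inr hsord.ge)
  set s₁ := s - algebraMap K F (a : K) with hs₁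
  have hs₁V : s₁ ∈ G.V := G.V.sub_mem hsV (G.const_mem a)
  have hs₁red : G.red s₁ = G.red s := by
    rw [hs₁, G.red_sub hsV (G.const_mem a), G.red_const, ha, map_zero, sub_zero]
  have hs₁reg : RegFibre r Q s₁ := fun v hv => (hsreg v hv).sub (Vanish.const _)
  obtain ⟨hs₁ord, hs₁ord'⟩ := hr.unique_zero hs₁V (hs₁red ▸ hsord) hs₁reg hP₁
    (hr.curve.exists_valAt (hsreg P₁ hP₁))
  have hsbar0 : G.red s ≠ 0 := fun h0 => by simp [h0] at hsord
  have hs₁bar0 : G.red s₁ ≠ 0 := hs₁red ▸ hsbar0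
  obtain ⟨M, rfl⟩ : ∃ M, m = M + 1 := ⟨m - 1, by
    rcases m with _ | m
    · exact absurd Nat.cast_zero hm
    · omega⟩
  set m := M + 1 with hmdef
  -- the two sides
  set H := s ^ m * h₁ with hH
  have hHV : H ∈ G.V := G.V.mul_mem (pow_mem hsV m) hh₁V
  have hHreg : RegFibre r Q H := by
    intro v hv
    have h2 := mem_L_iff.mp hh₁W v
    rw [Finsupp.smul_apply, nsmul_eq_mul, hD₀fib v hv] at h2
    refine (((Vanish.self s).pow m).mul h2).mono ?_
    split_ifs with e
    · subst e; rw [hsord₀]; simp [hmdef]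
    · rw [hsord₀' v hv e]; simp
  set U := s ^ m * f₁ * (s₁⁻¹) ^ m with hU
  have hs₁inv := G.inv_mem hs₁V hs₁bar0
  have hUV : U ∈ G.V := G.V.mul_mem (G.V.mul_mem (pow_mem hsV m) hf₁V) (pow_mem hs₁inv m)
  have hUred : G.red U = 1 := by
    rw [hU, G.red_mul (G.V.mul_mem (pow_mem hsV m) hf₁V) (pow_mem hs₁inv m),
      G.red_mul (pow_mem hsV m) hf₁V, G.red_pow hsV, G.red_pow hs₁inv, G.red_inv hs₁V hs₁bar0,
      hs₁red, hf₁red, mul_one, ← mul_pow, mul_inv_cancel₀ hsbar0, one_pow]
  have hf₁0 : f₁ ≠ 0 := G.ne_zero_of_red (by rw [hf₁red]; exact one_ne_zero)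
  have hUreg : RegFibre r Q U := by
    intro v hv
    have h3 : v.ord f₁ = (m : ℤ) * ((if v = P₁ then 1 else 0) - if v = P₀ then 1 else 0) := by
      rw [← hr.curve.divOf_apply, hdivf₁, Finsupp.smul_apply, Finsupp.sub_apply, hEfib v hv,
        hD₀fib v hv, nsmul_eq_mul]
    refine ((((Vanish.self s).pow m).mul (Vanish.self f₁)).mul
      ((Vanish.self s₁⁻¹).pow m)).mono (le_of_eq ?_)
    rw [h3, v.ord_inv]
    by_cases e₀ : v = P₀ <;> by_cases e₁ : v = P₁
    · rw [if_pos e₀, if_pos e₁, e₀, hsord₀, ← e₀, e₁, hs₁ord]; ring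
    · rw [if_pos e₀, if_neg e₁, hs₁ord' v hv e₁, e₀, hsord₀]; ring
    · rw [if_neg e₀, if_pos e₁, hsord₀' v hv e₀, e₁, hs₁ord]; ring
    · rw [if_neg e₀, if_neg e₁, hsord₀' v hv e₀, hs₁ord' v hv e₁]; ring
  have hident : algebraMap K F (c₀ : K) * s ^ m + algebraMap K F (lam : K) * H = s₁ ^ m * U := by
    have hs₁0 := G.ne_zero_of_red hs₁bar0
    have e1 : s₁ ^ m * U = s ^ m * f₁ := by
      rw [hU, mul_comm (s₁ ^ m), mul_assoc, ← mul_pow, inv_mul_cancel₀ hs₁0, one_pow, mul_one]
    rw [e1, show f₁ = algebraMap K F (c₀ : K) + h by rw [hh]; ring, hlamh, hH, Algebra.smul_def]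
    ring
  obtain ⟨q, H', hH'V, hH'reg, hHexp⟩ := hr.exists_expansion hsV hsord hsreg hP₀ hsP₀ hHV hHreg m
  obtain ⟨p, U', hU'V, hU'reg, hUexp⟩ := hr.exists_expansion hsV hsord hsreg hP₀ hsP₀ hUV hUreg m
  obtain ⟨i₁, hi₁M, hi₁⟩ : ∃ i, i + 1 ≤ M ∧ π (q i) ≠ 0 := by
    by_contra hall
    push Not at hall
    have hvan : Vanish Q (G.red H) (M : ℤ) := by
      rw [hHexp, G.red_add (G.V.sum_mem fun i _ => G.V.mul_mem (G.const_mem _) (pow_mem hsV i))
        (G.V.mul_mem (pow_mem hsV m) hH'V),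
        G.red_sum _ _ (fun i _ => G.V.mul_mem (G.const_mem _) (pow_mem hsV i))]
      refine Vanish.add (Vanish.sum _ _ fun i hi => ?_) ?_
      · rw [G.red_mul (G.const_mem _) (pow_mem hsV i), G.red_const, G.red_pow hsV]
        by_cases hiM : i + 1 ≤ M
        · rw [hall i hiM, map_zero, zero_mul]; exact Vanish.zero_left
        · refine ((Vanish.const _).mul ((Vanish.self (G.red s)).pow i)).mono ?_
          rw [hsord]; omega
      · rw [G.red_mul (pow_mem hsV m) hH'V, G.red_pow hsV]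
        refine (((Vanish.self (G.red s)).pow m).mul
          (hr.value_of_regFibre hH'V hH'reg hP₀).2.1).mono ?_
        rw [hsord]; omega
    rw [hH, G.red_mul (pow_mem hsV m) hh₁V, G.red_pow hsV] at hvan
    have h4 := hvan.resolve_left (mul_ne_zero (pow_ne_zero _ hsbar0) hh₁red)
    rw [Q.ord_mul (pow_ne_zero _ hsbar0) hh₁red, FF.ord_pow, hsord] at h4
    omega
  -- compare the expansions at `P₀`
  set pA : A[X] := ∑ i ∈ Finset.range m, C (p i) * X ^ i with hpA
  set qA : A[X] := ∑ i ∈ Finset.range m, C (q i) * X ^ i with hqA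
  set R : A[X] := C c₀ * X ^ m + C lam * qA - (X - C a) ^ m * pA with hR
  have hcoeff : ∀ j, j < m → R.coeff j = 0 := by
    intro j hj
    have hz : Vanish P₀ (aeval s (R.map A.subtype)) (m : ℤ) := by
      have e1 : aeval s (R.map A.subtype) = s₁ ^ m * (s ^ m * U') -
          algebraMap K F (lam : K) * (s ^ m * H') := by
        rw [hHexp, hUexp] at hident
        simp only [hR, hpA, hqA, Polynomial.map_sub, Polynomial.map_add, Polynomial.map_mul,
          Polynomial.map_pow, Polynomial.map_C, Polynomial.map_X, Polynomial.map_sum, map_sub,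
          map_add, map_mul, map_pow, map_sum, aeval_C, aeval_X]
        show algebraMap K F (c₀ : K) * s ^ m
            + algebraMap K F (lam : K) * (∑ i ∈ Finset.range m, algebraMap K F (q i : K) * s ^ i)
            - (s - algebraMap K F (a : K)) ^ m
              * (∑ i ∈ Finset.range m, algebraMap K F (p i : K) * s ^ i)
          = s₁ ^ m * (s ^ m * U') - algebraMap K F (lam : K) * (s ^ m * H')
        rw [← hs₁]
        linear_combination hident
      rw [e1]
      have hsm : Vanish P₀ (s ^ m) (m : ℤ) :=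
        ((Vanish.self s).pow m).mono (by rw [hsord₀]; simp)
      refine Vanish.sub ?_ ?_
      · refine Vanish.mul_zero' (by simpa using (hs₁reg P₀ hP₀).pow m) ?_
        simpa using hsm.mul (hU'reg P₀ hP₀)
      · refine Vanish.mul_zero' (Vanish.const _) ?_
        simpa using hsm.mul (hH'reg P₀ hP₀)
    have := coeff_eq_zero_of_vanish hsord₀ _ hz j hj
    rw [Polynomial.coeff_map] at this
    exact Subtype.ext this
  obtain ⟨T, hT⟩ := exists_sub_C_pow a M
  have hcR : ∀ j, j < m → lam * q j =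
      -((if M ≤ j then (m : A) * a * pA.coeff (j - M) else 0)) + a ^ 2 * (T * pA).coeff j := by
    intro j hj
    have h5 := hcoeff j hj
    rw [hR, hmdef, hT] at h5
    rw [Polynomial.coeff_sub, Polynomial.coeff_add, Polynomial.coeff_C_mul, Polynomial.coeff_C_mul,
      Polynomial.coeff_X_pow, if_neg (by omega), mul_zero, zero_add] at h5
    rw [show qA.coeff j = q j by
      simp [hqA, Polynomial.finsetSum_coeff, Polynomial.coeff_X_pow, hj]] at h5
    rw [add_mul, sub_mul, Polynomial.coeff_add, Polynomial.coeff_sub, mul_assoc, mul_assoc,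
      Polynomial.coeff_C_mul, Polynomial.coeff_C_mul, Polynomial.coeff_X_pow_mul',
      Polynomial.coeff_X_pow_mul', if_neg (by omega)] at h5
    rw [← hmdef] at h5
    split_ifs at h5 ⊢ with hMj <;> linear_combination h5
  have hp0 : π (p 0) = 1 := by
    have h6 := (hr.value_of_regFibre hUV hUreg hP₀).2.2
    rw [hUred, valAt_one, resVal_of_eq P₀ U (p 0)] at h6
    · exact h6.symm
    refine valAt_eq ?_
    rw [hUexp, hmdef, Finset.sum_range_succ', pow_zero, mul_one, add_right_comm, add_sub_cancel_right]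
    refine Vanish.add (Vanish.sum _ _ fun i _ => ?_) ?_
    · exact ((Vanish.const _).mul (hsP₀.pow (i + 1))).mono (by push_cast; omega)
    · exact ((hsP₀.pow (M + 1)).mul (hU'reg P₀ hP₀)).mono (by push_cast; omega)
  obtain ⟨u, hu⟩ : IsUnit (q i₁) := by
    by_contra h'
    exact hi₁ ((G.res_eq_zero_iff _).mpr h')
  have h7 := hcR i₁ (by omega)
  rw [if_neg (by omega), neg_zero, zero_add] at h7
  obtain ⟨w₁, hw₁⟩ : ∃ w₁, lam = a ^ 2 * w₁ :=
    ⟨(T * pA).coeff i₁ * ↑u⁻¹, by rw [← mul_assoc, ← h7, ← hu, mul_assoc, u.mul_inv, mul_one]⟩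
  have h8 := hcR M (by omega)
  rw [if_pos le_rfl, Nat.sub_self] at h8
  rw [show pA.coeff 0 = p 0 by
    simp [hpA, Polynomial.finsetSum_coeff, Polynomial.coeff_X_pow]] at h8
  obtain ⟨v, hv⟩ : IsUnit ((m : A) * p 0 - a * (T * pA).coeff M) := by
    by_contra h'
    have h9 := (G.res_eq_zero_iff _).mpr h'
    rw [map_sub, map_mul, map_mul, map_natCast, hp0, ha, zero_mul, sub_zero, mul_one] at h9
    exact hm h9
  obtain ⟨w₂, hw₂⟩ : ∃ w₂, a = lam * w₂ :=
    ⟨-(q M) * ↑v⁻¹, by
      rw [← mul_assoc, mul_neg, h8,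
        show -(-((m : A) * a * p 0) + a ^ 2 * (T * pA).coeff M)
          = a * ((m : A) * p 0 - a * (T * pA).coeff M) by ring, ← hv, mul_assoc, v.mul_inv, mul_one]⟩
  obtain ⟨u', hu'⟩ : IsUnit (1 - lam * (w₂ ^ 2 * w₁)) := by
    by_contra h'
    have h9 := (G.res_eq_zero_iff _).mpr h'
    rw [map_sub, map_one, map_mul, hsplit.1, zero_mul, sub_zero] at h9
    exact one_ne_zero h9
  have hlz : lam * (1 - lam * (w₂ ^ 2 * w₁)) = 0 := by
    have h10 : lam = lam ^ 2 * (w₂ ^ 2 * w₁) := by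
      conv_lhs => rw [hw₁, hw₂]
      ring
    linear_combination h10
  rw [← hu', u'.mul_left_eq_zero] at hlz
  exact hlam0 (by rw [hlz]; rfl)

end GoodParam

end FLTAgent.Reduction
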