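import Mathlib
import Fermat.Agent.Reduction.TorsionInjective
import Fermat.Prelude.Def_AlgebraicCurve_DivisorPushPull

/-!
# Descent to a subfield

`SubRed G G'` says that `G'` is the restriction of `G` to a subfield `F'`. If the extension keeps
its degree under reduction, an `m`-th root in `F` of a function of `F'` whose reduction is an
`m`-th power comes from `F'` (`exists_root`), so injectivity of reduction on torsion descends
(`GoodParam.mem_principal_of_nsmul_sub`).
-/

set_option autoImplicit false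
set_option linter.style.haveILetI false
set_option linter.unusedSectionVars false

noncomputable section

open AlgebraicCurve Module

namespace FLTAgent.Reduction

theorem exists_add_pow_remainder {R : Type*} [CommRing R] (S : Subring R) {x y : R} (hx : x ∈ S)
    (hy : y ∈ S) (n : ℕ) :
    ∃ T ∈ S, (x + y) ^ (n + 1) = x ^ (n + 1) + (n + 1 : ℕ) * x ^ n * y + y ^ 2 * T := by
  induction n with
  | zero => exact ⟨0, S.zero_mem, by simp⟩
  | succ n ih =>
    obtain ⟨T, hT, hTeq⟩ := ih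
    refine ⟨(n + 1 : ℕ) * x ^ n + T * (x + y),
      S.add_mem (S.mul_mem (natCast_mem S _) (pow_mem hx n)) (S.mul_mem hT (S.add_mem hx hy)), ?_⟩
    rw [pow_succ, hTeq]
    push_cast
    ring

variable {K k F Fb F' Fb' : Type*} [Field K] [Field k] [Field F] [Field Fb] [Field F'] [Field Fb']
variable [Algebra K F] [Algebra k Fb] [Algebra K F'] [Algebra k Fb']
variable [Algebra F' F] [IsScalarTower K F' F] [Algebra Fb' Fb] [IsScalarTower k Fb' Fb]
variable {A : ValuationSubring K} {π : A →+* k}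

/-- The reduction `G'` is the restriction of `G`. -/
structure SubRed (G : GaussRed A π F Fb) (G' : GaussRed A π F' Fb') : Prop where
  mem : ∀ {y : F'}, y ∈ G'.V → algebraMap F' F y ∈ G.V
  red_eq : ∀ {y : F'}, y ∈ G'.V → G.red (algebraMap F' F y) = algebraMap Fb' Fb (G'.red y)

namespace SubRed

variable {G : GaussRed A π F Fb} {G' : GaussRed A π F' Fb'} (hS : SubRed G G')
variable (hscale : ∀ y : F', y ≠ 0 → ∃ c : K, c ≠ 0 ∧ c • y ∈ G'.V ∧ G'.red (c • y) ≠ 0)
variable (hscaleF : ∀ y : F, y ≠ 0 → ∃ c : K, c ≠ 0 ∧ c • y ∈ G.V ∧ G.red (c • y) ≠ 0)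
include hS hscale

theorem mem_A {c : K} {u : F} (hu : u ∈ G.V) (hu0 : G.red u ≠ 0) (h : c • u ∈ G.V) : c ∈ A := by
  by_contra hc
  have h1 := congrArg G.red (show ((⟨c⁻¹, (A.mem_or_inv_mem c).resolve_left hc⟩ : A) : K) • (c • u)
      = u by rw [smul_smul, inv_mul_cancel₀ (fun h0 : c = 0 => hc (h0 ▸ A.zero_mem)), one_smul])
  rw [G.red_smul _ h, G.res_inv_of_notMem hc, zero_smul] at h1
  exact hu0 h1.symm

theorem mem_of_algebraMap_mem {y : F'} (hy : algebraMap F' F y ∈ G.V) : y ∈ G'.V := by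
  rcases eq_or_ne y 0 with rfl | h0
  · exact G'.V.zero_mem
  obtain ⟨c, hc, hcV, hcr⟩ := hscale y h0
  have hy' : c⁻¹ • (c • y) = y := by rw [smul_smul, inv_mul_cancel₀ hc, one_smul]
  have hmem : c⁻¹ • algebraMap F' F (c • y) ∈ G.V := by
    rw [← IsScalarTower.toAlgHom_apply K F' F, ← map_smul, hy']
    exact hy
  have hcA : c⁻¹ ∈ A := hS.mem_A hscale (hS.mem hcV)
    (by rw [hS.red_eq hcV]; simpa using hcr) hmem
  rw [← hy']
  exact G'.smul_mem' hcA hcV

theorem coeff_mem {ι : Type*} [Fintype ι] {e : ι → F} (he : ∀ i, e i ∈ G.V)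
    (hind : LinearIndependent Fb' fun i => G.red (e i)) {b : ι → F'}
    (h : (∑ i, algebraMap F' F (b i) * e i) ∈ G.V) (i : ι) : b i ∈ G'.V := by
  classical
  by_contra hi
  have hb0 : b i ≠ 0 := fun h0 => hi (h0 ▸ G'.V.zero_mem)
  choose c hc hcV hcr using fun (j : {j // b j ≠ 0}) => hscale (b j) j.2
  let μ : ι → K := fun j => if hj : b j ≠ 0 then (c ⟨j, hj⟩)⁻¹ else 0
  let u : ι → F' := fun j => if hj : b j ≠ 0 then c ⟨j, hj⟩ • b j else 0
  have hbu : ∀ j, b j = μ j • u j := fun j => by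
    by_cases hj : b j = 0
    · simp [μ, u, hj]
    · simp only [μ, u, dif_pos (show b j ≠ 0 from hj), smul_smul, inv_mul_cancel₀ (hc ⟨j, hj⟩),
        one_smul]
  have huV : ∀ j, u j ∈ G'.V := fun j => by
    by_cases hj : b j = 0
    · simp [u, hj]
    · simp only [u, dif_pos (show b j ≠ 0 from hj)]; exact hcV ⟨j, hj⟩
  haveI : Nonempty ι := ⟨i⟩
  obtain ⟨i₀, hi₀, hmax⟩ := G.exists_max_of_field μ ⟨i, by simp [μ, hb0, hc ⟨i, hb0⟩]⟩
  have hbad : μ i₀ ∉ A := fun h0 => hi (by
    rw [hbu i]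
    exact G'.smul_mem' (by simpa [div_mul_cancel₀ _ hi₀] using A.mul_mem _ _ (hmax i) h0) (huV i))
  let a : ι → A := fun j => ⟨μ j / μ i₀, hmax j⟩
  have heq : ((⟨(μ i₀)⁻¹, (A.mem_or_inv_mem _).resolve_left hbad⟩ : A) : K) •
      (∑ j, algebraMap F' F (b j) * e j) = ∑ j, (a j : K) • (algebraMap F' F (u j) * e j) := by
    rw [Finset.smul_sum]
    refine Finset.sum_congr rfl fun j _ => ?_
    rw [hbu j, ← IsScalarTower.toAlgHom_apply K F' F, map_smul, smul_mul_assoc, smul_smul,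
      inv_mul_eq_div]
    rfl
  have h1 := congrArg G.red heq
  rw [G.red_smul _ h, G.res_inv_of_notMem hbad, zero_smul,
    G.red_sum_smul fun j => G.V.mul_mem (hS.mem (huV j)) (he j)] at h1
  have h2 : ∑ j, (π (a j) • G'.red (u j)) • G.red (e j) = 0 := by
    rw [h1]
    refine Finset.sum_congr rfl fun j _ => ?_
    rw [G.red_mul (hS.mem (huV j)) (he j), hS.red_eq (huV j), smul_assoc, Algebra.smul_def
      (G'.red (u j))]
  have h3 := Fintype.linearIndependent_iff.mp hind _ h2 i₀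
  rw [show a i₀ = 1 from Subtype.ext (div_self hi₀), map_one, one_smul] at h3
  have hb₀ : b i₀ ≠ 0 := fun h0 => hi₀ (by simp [μ, h0])
  exact hcr ⟨i₀, hb₀⟩ (by simpa [u, hb₀] using h3)

include hscaleF in
/-- A root of a function whose reduction is a power lies in the subfield. -/
theorem exists_root [IsAlgClosed k] [FiniteDimensional F' F] [FiniteDimensional Fb' Fb]
    (hfin : finrank F' F = finrank Fb' Fb) {m : ℕ} (hm : (m : k) ≠ 0) {f : F'} (hf : f ∈ G'.V)
    {w : Fb'} (hw : w ≠ 0) (hfw : G'.red f = w ^ m) {g : F} (hg : g ^ m = algebraMap F' F f) :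
    ∃ g' : F', algebraMap F' F g' = g := by
  classical
  have hm0 : m ≠ 0 := fun h => hm (by simp [h])
  have hfr : G'.red f ≠ 0 := hfw ▸ pow_ne_zero m hw
  have hf0 : f ≠ 0 := G'.ne_zero_of_red hfr
  have hg0 : g ≠ 0 := fun h => hf0 ((algebraMap F' F).injective
    (by rw [map_zero, ← hg, h, zero_pow hm0]))
  obtain ⟨c, hc, huV, hur⟩ := hscaleF g hg0
  set u := c • g with hu
  have hum : u ^ m = c ^ m • algebraMap F' F f := by rw [hu, smul_pow, hg]
  have hcm : c ^ m ∈ A := hS.mem_A hscale (hS.mem hf) (by rw [hS.red_eq hf]; simpa using hfr)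
    (hum ▸ pow_mem huV m)
  -- the reduction of `u` is a constant times `w`
  have hpow : G.red u ^ m = π ⟨_, hcm⟩ • algebraMap Fb' Fb (w ^ m) := by
    rw [← G.red_pow huV, hum, G.red_smul ⟨_, hcm⟩ (hS.mem hf), hS.red_eq hf, hfw]
  have hq : (G.red u / algebraMap Fb' Fb w) ^ m = algebraMap k Fb (π ⟨_, hcm⟩) := by
    rw [div_pow, hpow, Algebra.smul_def, ← map_pow, mul_div_assoc,
      div_self (by simpa using pow_ne_zero m hw), mul_one]
  obtain ⟨ζ, hζ⟩ : ∃ ζ : k, algebraMap k Fb ζ = G.red u / algebraMap Fb' Fb w := by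
    have hint : IsIntegral k (G.red u / algebraMap Fb' Fb w) :=
      ⟨Polynomial.X ^ m - Polynomial.C (π ⟨_, hcm⟩), Polynomial.monic_X_pow_sub_C _ hm0,
        by simp [hq]⟩
    exact minpoly.mem_range_of_degree_eq_one k _
      (IsAlgClosed.degree_eq_one_of_irreducible k (minpoly.irreducible hint))
  have hz : G.red u = algebraMap Fb' Fb (algebraMap k Fb' ζ * w) := by
    rw [map_mul, ← IsScalarTower.algebraMap_apply, hζ, div_mul_cancel₀ _ (by simpa using hw)]
  obtain ⟨a, haV, har⟩ := G'.red_surj (algebraMap k Fb' ζ * w)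
  have haF : G.red (algebraMap F' F a) = G.red u := by rw [hS.red_eq haV, har, hz]
  have ha0 : G.red (algebraMap F' F a) ≠ 0 := haF ▸ hur
  set t := u * (algebraMap F' F a)⁻¹ with ht
  have haI := G.inv_mem (hS.mem haV) ha0
  have htV : t ∈ G.V := G.V.mul_mem huV haI
  have htr : G.red t = 1 := by
    rw [ht, G.red_mul huV haI, G.red_inv (hS.mem haV) ha0, haF, mul_inv_cancel₀ hur]
  -- a basis with independent reductions
  obtain ⟨e, he, hered⟩ : ∃ e : Fin (finrank Fb' Fb) → F, (∀ i, e i ∈ G.V) ∧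
      LinearIndependent Fb' fun i => G.red (e i) := by
    choose e he hered using fun i => G.red_surj (Module.finBasis Fb' Fb i)
    exact ⟨e, he, by simp only [hered]; exact (Module.finBasis Fb' Fb).linearIndependent⟩
  have heind : LinearIndependent F' e := by
    rw [Fintype.linearIndependent_iff]
    intro b hb i
    by_contra hbi
    obtain ⟨c, hc, hcV, hcr⟩ := hscale (b i) hbi
    have hsum : ∑ j, algebraMap F' F (c • b j) * e j = 0 := by
      have h0 : c • ∑ j, b j • e j = (0 : F) := by rw [hb, smul_zero]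
      rw [Finset.smul_sum] at h0
      rw [← h0]
      refine Finset.sum_congr rfl fun j _ => ?_
      rw [← IsScalarTower.toAlgHom_apply K F' F, map_smul, smul_mul_assoc,
        Algebra.smul_def (b j)]
      rfl
    have hmem := fun j => hS.coeff_mem hscale he hered (b := fun j => c • b j)
      (by rw [hsum]; exact G.V.zero_mem) j
    have h2 : ∑ j, G'.red (c • b j) • G.red (e j) = 0 := by
      have h3 := congrArg G.red hsum
      rw [G.red_sum _ _ (fun j _ => G.V.mul_mem (hS.mem (hmem j)) (he j)), G.red_zero] at h3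
      rw [← h3]
      refine Finset.sum_congr rfl fun j _ => ?_
      rw [G.red_mul (hS.mem (hmem j)) (he j), hS.red_eq (hmem j), Algebra.smul_def]
    exact hcr (Fintype.linearIndependent_iff.mp hered _ h2 i)
  have hspan : Submodule.span F' (Set.range e) = ⊤ :=
    heind.span_eq_top_of_card_eq_finrank' (by rw [Fintype.card_fin, hfin])
  have hcoord : ∀ y, ∃ b : Fin (finrank Fb' Fb) → F', ∑ i, algebraMap F' F (b i) * e i = y := by
    intro y
    obtain ⟨b, hb⟩ := (Submodule.mem_span_range_iff_exists_fun F').mp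
      (hspan.symm ▸ Submodule.mem_top : y ∈ Submodule.span F' (Set.range e))
    exact ⟨b, by simpa [Algebra.smul_def] using hb⟩
  have hredsum : ∀ (y : F) (hyV : y ∈ G.V) (b : Fin (finrank Fb' Fb) → F'),
      ∑ i, algebraMap F' F (b i) * e i = y →
      (∀ i, b i ∈ G'.V) ∧ G.red y = ∑ i, G'.red (b i) • G.red (e i) := by
    intro y hyV b hb
    have hmem := fun i => hS.coeff_mem hscale he hered (hb ▸ hyV) i
    refine ⟨hmem, ?_⟩
    rw [← hb, G.red_sum _ _ (fun i _ => G.V.mul_mem (hS.mem (hmem i)) (he i))]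
    exact Finset.sum_congr rfl fun i _ => by
      rw [G.red_mul (hS.mem (hmem i)) (he i), hS.red_eq (hmem i), Algebra.smul_def]
  obtain ⟨d, hd⟩ := hcoord 1
  obtain ⟨hdV, hdred⟩ := hredsum 1 G.V.one_mem d hd
  rw [G.red_one] at hdred
  obtain ⟨i₀, hi₀⟩ : ∃ i, G'.red (d i) ≠ 0 := by
    by_contra h
    push Not at h
    simp [h] at hdred
  obtain ⟨b, hb⟩ := hcoord t
  obtain ⟨hbV, hbred⟩ := hredsum t htV b hb
  rw [htr] at hbred
  set β : F' := b i₀ * (d i₀)⁻¹ with hβ
  have hdinv := G'.inv_mem (hdV i₀) hi₀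
  have hβV : β ∈ G'.V := G'.V.mul_mem (hbV i₀) hdinv
  have hβr : G'.red β = 1 := by
    have hsub : ∑ i, (G'.red (b i) - G'.red (d i)) • G.red (e i) = 0 := by
      simp only [sub_smul, Finset.sum_sub_distrib, ← hbred, ← hdred, sub_self]
    have := Fintype.linearIndependent_iff.mp hered _ hsub i₀
    rw [hβ, G'.red_mul (hbV i₀) hdinv, G'.red_inv (hdV i₀) hi₀, sub_eq_zero.mp this,
      mul_inv_cancel₀ hi₀]
  set ε := t - algebraMap F' F β with hε
  have hεV : ε ∈ G.V := G.V.sub_mem htV (hS.mem hβV)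
  have hεsum : ∑ i, algebraMap F' F (b i - β * d i) * e i = ε := by
    simp only [map_sub, map_mul, sub_mul, Finset.sum_sub_distrib, mul_assoc, ← Finset.mul_sum,
      hb, hd, mul_one, hε]
  rcases eq_or_ne ε 0 with hε0 | hε0
  · refine ⟨c⁻¹ • (β * a), ?_⟩
    rw [← IsScalarTower.toAlgHom_apply K F' F, map_smul, map_mul, IsScalarTower.toAlgHom_apply,
      IsScalarTower.toAlgHom_apply, ← sub_eq_zero.mp hε0, ht, mul_assoc,
      inv_mul_cancel₀ (G.ne_zero_of_red ha0), mul_one, hu, smul_smul, inv_mul_cancel₀ hc, one_smul]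
  exfalso
  obtain ⟨c₁, hc₁, hε₀V, hε₀r⟩ := hscaleF ε hε0
  set ε₀ := c₁ • ε with hε₀
  have hl : c₁⁻¹ ∈ A := hS.mem_A hscale hε₀V hε₀r
    (by rwa [hε₀, smul_smul, inv_mul_cancel₀ hc₁, one_smul])
  set lam : A := ⟨_, hl⟩
  have hlε : ε = (lam : K) • ε₀ := by
    show ε = c₁⁻¹ • ε₀
    rw [hε₀, smul_smul, inv_mul_cancel₀ hc₁, one_smul]
  have hlam : π lam = 0 := by
    have h1 : G.red ε = 0 := by
      rw [hε, G.red_sub htV (hS.mem hβV), htr, hS.red_eq hβV, hβr, map_one, sub_self]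
    rw [hlε, G.red_smul lam hε₀V] at h1
    exact (smul_eq_zero.mp h1).resolve_right hε₀r
  have hnot : ∀ z : Fb', G.red ε₀ ≠ algebraMap Fb' Fb z := by
    intro z hz
    have hε₀sum : ∑ i, algebraMap F' F (c₁ • (b i - β * d i)) * e i = ε₀ := by
      rw [hε₀, ← hεsum, Finset.smul_sum]
      exact Finset.sum_congr rfl fun i _ => by
        rw [← IsScalarTower.toAlgHom_apply K F' F, map_smul, smul_mul_assoc]; rfl
    obtain ⟨-, hε₀red⟩ := hredsum ε₀ hε₀V _ hε₀sum
    have key : ∑ i, (G'.red (c₁ • (b i - β * d i)) - z * G'.red (d i)) • G.red (e i) = 0 := by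
      simp only [sub_smul, Finset.sum_sub_distrib, mul_smul, ← Finset.smul_sum, ← hε₀red, ← hdred]
      rw [hz, Algebra.smul_def, mul_one, sub_self]
    have := Fintype.linearIndependent_iff.mp hered _ key i₀
    have hz0 : c₁ • (b i₀ - β * d i₀) = 0 := by
      rw [hβ, mul_assoc, inv_mul_cancel₀ (G'.ne_zero_of_red hi₀), mul_one, sub_self, smul_zero]
    rw [hz0, G'.red_zero, zero_sub, neg_eq_zero, mul_eq_zero] at this
    rw [this.resolve_right hi₀, map_zero] at hz
    exact hε₀r hz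
  obtain ⟨n, rfl⟩ : ∃ n, m = n + 1 := ⟨m - 1, by omega⟩
  obtain ⟨T, hT, hTeq⟩ := exists_add_pow_remainder G.V (hS.mem hβV) (G.smul_mem lam hε₀V) n
  set δ : F' := c₁ • ((c • (1 : F')) ^ (n + 1) * f * (a⁻¹) ^ (n + 1) - β ^ (n + 1)) with hδ
  have hδF : algebraMap F' F δ
      = (n + 1 : ℕ) * algebraMap F' F β ^ n * ε₀ + (lam : K) • (ε₀ ^ 2 * T) := by
    have h1 : algebraMap F' F ((c • (1 : F')) ^ (n + 1) * f * (a⁻¹) ^ (n + 1)) = t ^ (n + 1) := by
      rw [map_mul, map_mul, map_pow, map_pow, ← hg, map_inv₀, ← IsScalarTower.toAlgHom_apply K F' F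
        (c • 1), map_smul, map_one, ht, hu, mul_pow, Algebra.smul_def, Algebra.smul_def, mul_one,
        mul_pow]
    have htsum : t = algebraMap F' F β + (lam : K) • ε₀ := by rw [← hlε, hε]; ring
    have h2 : t ^ (n + 1) - algebraMap F' F β ^ (n + 1) = (lam : K) •
        (((n + 1 : ℕ) : F) * algebraMap F' F β ^ n * ε₀ + (lam : K) • (ε₀ ^ 2 * T)) := by
      rw [htsum, hTeq]
      simp only [Algebra.smul_def]
      ring
    rw [hδ, ← IsScalarTower.toAlgHom_apply K F' F, map_smul, IsScalarTower.toAlgHom_apply, map_sub,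
      h1, map_pow, h2, smul_smul, show c₁ * (lam : K) = 1 from mul_inv_cancel₀ hc₁, one_smul]
  have hnV : ((n + 1 : ℕ) : F) ∈ G.V := natCast_mem G.V _
  have hx1 : (n + 1 : ℕ) * algebraMap F' F β ^ n * ε₀ ∈ G.V :=
    G.V.mul_mem (G.V.mul_mem hnV (pow_mem (hS.mem hβV) n)) hε₀V
  have hx2 : ε₀ ^ 2 * T ∈ G.V := G.V.mul_mem (pow_mem hε₀V 2) hT
  have hδV : δ ∈ G'.V := hS.mem_of_algebraMap_mem hscale
    (by rw [hδF]; exact G.V.add_mem hx1 (G.smul_mem lam hx2))
  have hredδ := congrArg G.red hδF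
  rw [hS.red_eq hδV, G.red_add hx1 (G.smul_mem lam hx2), G.red_smul lam hx2, hlam, zero_smul,
    add_zero, G.red_mul (G.V.mul_mem hnV (pow_mem (hS.mem hβV) n)) hε₀V,
    G.red_mul hnV (pow_mem (hS.mem hβV) n), G.red_pow (hS.mem hβV), hS.red_eq hβV, hβr, map_one,
    one_pow, mul_one] at hredδ
  have hcast : G.red (((n + 1 : ℕ) : F)) = algebraMap k Fb ((n + 1 : ℕ) : k) := by
    have := G.red_const ((n + 1 : ℕ) : A)
    simpa using this
  rw [hcast] at hredδ
  refine hnot (algebraMap k Fb' ((n + 1 : ℕ) : k)⁻¹ * G'.red δ) ?_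
  rw [map_mul, hredδ, ← IsScalarTower.algebraMap_apply, ← mul_assoc, ← map_mul,
    inv_mul_cancel₀ hm, map_one, one_mul]

end SubRed

variable [IsAlgClosed K] [IsAlgClosed k] [Infinite k]

/-- Injectivity descends to a subfield with the same degree as its reduction. -/
theorem GoodParam.mem_principal_of_nsmul_sub {G : GaussRed A π F Fb} {G' : GaussRed A π F' Fb'}
    {g g' : ℕ} {x : F} (hx : GoodParam G g x) (hS : SubRed G G')
    [Algebra.IsIntegral F' F] [FiniteDimensional F' F] [FiniteDimensional Fb' Fb]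
    (hfin : finrank F' F = finrank Fb' Fb)
    {r' : Place K F' → Place k Fb'} (hr' : IsRed G' g' r') {m : ℕ} (hm : (m : k) ≠ 0)
    {D : Divisor K F'} (hmD : m • D ∈ Divisor.principal (K := K) (F := F'))
    (hred : Finsupp.mapDomain r' D ∈ Divisor.principal (K := k) (F := Fb')) :
    D ∈ Divisor.principal (K := K) (F := F') := by
  classical
  haveI : HasPrincipalDivisors K F := ⟨hx.curve.exists_divisor⟩
  have hm0 : m ≠ 0 := fun h => hm (by simp [h])
  have hmZ : (m : ℤ) ≠ 0 := by exact_mod_cast hm0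
  obtain ⟨f₀, hf₀, hf₀div⟩ := hmD
  obtain ⟨c, hc, hcV, hcr⟩ := hr'.scale f₀ hf₀
  -- the reduction is an `m`-th power
  obtain ⟨w, hw, hwdiv⟩ := hred
  have hord : ∀ v : Place k Fb', v.ord (G'.red (c • f₀) / w ^ m) = 0 := by
    intro v
    rw [FF.ord_div v hcr (pow_ne_zero m hw), FF.ord_pow, hr'.ord_eq _ hcV hcr,
      hr'.divOf_smul hc hf₀, show (divOf f₀ : Divisor K F') = m • D from
        Finsupp.ext fun v => by rw [hr'.curve.divOf_apply, hf₀div],
      Finsupp.mapDomain_smul, Finsupp.smul_apply, hwdiv, nsmul_eq_mul, sub_self]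
  obtain ⟨cb, hcb⟩ := hr'.curveBar.choose_spec.const _ fun v => (hord v).ge
  obtain ⟨z, hz⟩ := IsAlgClosed.exists_pow_nat_eq cb (Nat.pos_of_ne_zero hm0)
  set w' := algebraMap k Fb' z * w with hw'def
  have hfw : G'.red (c • f₀) = w' ^ m := by
    rw [hw'def, mul_pow, ← map_pow, hz, hcb, div_mul_cancel₀ _ (pow_ne_zero m hw)]
  have hw' : w' ≠ 0 := fun h => hcr (by rw [hfw, h, zero_pow hm0])
  have hdivw : (divOf w' : Divisor k Fb') = Finsupp.mapDomain r' D := by
    have hz0 : z ≠ 0 := by rintro rfl; exact hw' (by simp [hw'def])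
    exact Finsupp.ext fun v => by
      rw [hr'.curveBar.choose_spec.divOf_apply, hw'def, v.ord_mul (by simpa using hz0) hw,
        FF.ord_algebraMap, zero_add, hwdiv]
  set f := c • f₀
  have hf : f ≠ 0 := smul_ne_zero hc hf₀
  have hdivf : ∀ v, v.ord f = (m : ℤ) * D v := fun v => by
    rw [← hr'.curve.divOf_apply, hr'.divOf_smul hc hf₀, hr'.curve.divOf_apply, ← hf₀div,
      Finsupp.smul_apply, nsmul_eq_mul]
  -- upstairs
  set DF : Divisor K F := Divisor.pullback F D with hDF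
  have hfF : algebraMap F' F f ∈ G.V := hS.mem hcV
  have hfF0 : G.red (algebraMap F' F f) ≠ 0 := by rw [hS.red_eq hcV]; simpa using hcr
  have hmDF : (divOf (algebraMap F' F f) : Divisor K F) = m • DF := Finsupp.ext fun v => by
    rw [hx.curve.divOf_apply, hDF, Finsupp.smul_apply, Divisor.pullback_apply, nsmul_eq_mul,
      Place.ord_restrict, hdivf]
    ring
  have hdeg : Divisor.degree DF = 0 := by
    have := hx.curve.degree_divOf (algebraMap F' F f)
    rw [hmDF, map_nsmul, nsmul_eq_mul] at this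
    exact (mul_eq_zero.mp this).resolve_left hmZ
  have hredF : Finsupp.mapDomain (redMap hx) DF ∈ Divisor.principal (K := k) (F := Fb) := by
    refine ⟨algebraMap Fb' Fb w', by simpa using hw', fun v => ?_⟩
    have h := hx.isRed.ord_eq _ hfF hfF0 v
    rw [hS.red_eq hcV, hfw, map_pow, FF.ord_pow, hmDF, Finsupp.mapDomain_smul, Finsupp.smul_apply,
      nsmul_eq_mul] at h
    exact (mul_left_cancel₀ hmZ h).symm
  obtain ⟨g₀, hg₀, hg₀div⟩ := hx.mem_principal_of_nsmul hm hdeg
    (hmDF ▸ hx.curve.isPrincipal_divOf (G.ne_zero_of_red hfF0)) hredF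
  obtain ⟨cc, hcc⟩ := hx.curve.const (algebraMap F' F f / g₀ ^ m) fun v => by
    rw [FF.ord_div v (G.ne_zero_of_red hfF0) (pow_ne_zero m hg₀), FF.ord_pow, ← hg₀div,
      ← hx.curve.divOf_apply, hmDF, Finsupp.smul_apply, nsmul_eq_mul, sub_self]
  obtain ⟨y, hy⟩ := IsAlgClosed.exists_pow_nat_eq cc (Nat.pos_of_ne_zero hm0)
  have hgm : (algebraMap K F y * g₀) ^ m = algebraMap F' F f := by
    rw [mul_pow, ← map_pow, hy, hcc, div_mul_cancel₀ _ (pow_ne_zero m hg₀)]
  obtain ⟨g'', hg''⟩ := hS.exists_root hr'.scale (fun _ h => hx.exists_smul h) hfin hm hcV hw' hfw hgm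
  have hgpow : g'' ^ m = f := (algebraMap F' F).injective (by rw [map_pow, hg'', hgm])
  refine ⟨g'', fun h => hf (by rw [← hgpow, h, zero_pow hm0]), fun v => ?_⟩
  have := hdivf v
  rw [← hgpow, FF.ord_pow] at this
  exact (mul_left_cancel₀ hmZ this).symm

end FLTAgent.Reduction
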