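import Mathlib
import Fermat.Agent.Reduction.TorsionDescent
import Fermat.Agent.FF.PlacesMain

/-!
# The reduction map of a subfield

With a good parameter upstairs and an extension whose degree is preserved, restricting the
reduction of places gives a well defined map (`restrict_redMap_congr`: separate two places by a
lifted function and take its norm, `norm_mem_red`), compatible with divisors by pushforward
(`exists_isRed_sub`).
-/

set_option autoImplicit false
set_option linter.style.haveILetI false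
set_option linter.unusedSectionVars false

noncomputable section

open AlgebraicCurve Module

namespace FLTAgent.Reduction

variable {K k F Fb F' Fb' : Type*} [Field K] [Field k] [Field F] [Field Fb] [Field F'] [Field Fb']
variable [Algebra K F] [Algebra k Fb] [Algebra K F'] [Algebra k Fb']
variable [Algebra F' F] [IsScalarTower K F' F] [Algebra Fb' Fb] [IsScalarTower k Fb' Fb]
variable {A : ValuationSubring K} {π : A →+* k}

/-- The reduction as a ring homomorphism on its domain. -/
def GaussRed.redHom (G : GaussRed A π F Fb) : G.V →+* Fb where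
  toFun y := G.red y
  map_one' := G.red_one
  map_zero' := G.red_zero
  map_mul' y z := G.red_mul y.2 z.2
  map_add' y z := G.red_add y.2 z.2

namespace SubRed

variable {G : GaussRed A π F Fb} {G' : GaussRed A π F' Fb'} (hS : SubRed G G')
variable (hscale : ∀ y : F', y ≠ 0 → ∃ c : K, c ≠ 0 ∧ c • y ∈ G'.V ∧ G'.red (c • y) ≠ 0)
variable [FiniteDimensional F' F] [FiniteDimensional Fb' Fb]
variable (hfin : finrank F' F = finrank Fb' Fb)

include hS hscale hfin in
/-- A basis lifting a basis of the reduction. -/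
theorem exists_basis :
    ∃ (b : Basis (Fin (finrank Fb' Fb)) F' F) (bb : Basis (Fin (finrank Fb' Fb)) Fb' Fb),
      (∀ i, b i ∈ G.V) ∧ (∀ i, G.red (b i) = bb i) ∧
      ∀ y ∈ G.V, ∀ i, b.repr y i ∈ G'.V ∧ G'.red (b.repr y i) = bb.repr (G.red y) i := by
  classical
  set bb := Module.finBasis Fb' Fb
  choose e he hered using fun i => G.red_surj (bb i)
  have hind : LinearIndependent Fb' fun i => G.red (e i) := by
    simp only [hered]; exact bb.linearIndependent
  have hsum : ∀ c : Fin (finrank Fb' Fb) → F',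
      ∑ i, c i • e i = ∑ i, algebraMap F' F (c i) * e i := fun c =>
    Finset.sum_congr rfl fun i _ => Algebra.smul_def _ _
  have hred : ∀ c : Fin (finrank Fb' Fb) → F', ∑ i, c i • e i ∈ G.V →
      (∀ i, c i ∈ G'.V) ∧ G.red (∑ i, c i • e i) = ∑ i, G'.red (c i) • bb i := by
    intro c hc
    rw [hsum] at hc ⊢
    have hmem := fun i => hS.coeff_mem hscale he hind hc i
    refine ⟨hmem, ?_⟩
    rw [G.red_sum _ _ fun i _ => G.V.mul_mem (hS.mem (hmem i)) (he i)]
    exact Finset.sum_congr rfl fun i _ => by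
      rw [G.red_mul (hS.mem (hmem i)) (he i), hS.red_eq (hmem i), Algebra.smul_def, hered]
  have heind : LinearIndependent F' e := by
    rw [Fintype.linearIndependent_iff]
    intro c hc i
    by_contra hci
    obtain ⟨a, -, haV, har⟩ := hscale (c i) hci
    have hzero : ∑ j, (a • c j) • e j = 0 := by
      simp only [smul_assoc, ← Finset.smul_sum, hc, smul_zero]
    obtain ⟨-, h0⟩ := hred (fun j => a • c j) (by rw [hzero]; exact G.V.zero_mem)
    rw [hzero, G.red_zero] at h0
    exact har (Fintype.linearIndependent_iff.mp bb.linearIndependent _ h0.symm i)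
  obtain ⟨b, hb⟩ : ∃ b : Basis (Fin (finrank Fb' Fb)) F' F, ⇑b = e :=
    ⟨Basis.mk heind (heind.span_eq_top_of_card_eq_finrank' (by rw [Fintype.card_fin, hfin])).ge,
      Basis.coe_mk _ _⟩
  refine ⟨b, bb, fun i => hb ▸ he i, fun i => hb ▸ hered i, fun y hy i => ?_⟩
  have hy' : ∑ j, b.repr y j • e j = y := by rw [← hb]; exact b.sum_repr y
  obtain ⟨hmem, heq⟩ := hred (fun j => b.repr y j) (by rwa [hy'])
  refine ⟨hmem i, ?_⟩
  rw [hy'] at heq
  rw [heq, map_sum, Finsupp.coe_finsetSum, Finset.sum_apply]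
  simp [bb.repr_self, Finsupp.single_apply]

include hS hscale hfin in
/-- The norm commutes with reduction. -/
theorem norm_mem_red {Y : F} (hY : Y ∈ G.V) :
    Algebra.norm F' Y ∈ G'.V ∧ G'.red (Algebra.norm F' Y) = Algebra.norm Fb' (G.red Y) := by
  classical
  obtain ⟨b, bb, hb, hbb, hrepr⟩ := hS.exists_basis hscale hfin
  have hentry : ∀ i j, Algebra.leftMulMatrix b Y i j ∈ G'.V ∧
      G'.red (Algebra.leftMulMatrix b Y i j) = Algebra.leftMulMatrix bb (G.red Y) i j := fun i j => by
    rw [Algebra.leftMulMatrix_eq_repr_mul, Algebra.leftMulMatrix_eq_repr_mul, ← hbb,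
      ← G.red_mul hY (hb j)]
    exact hrepr _ (G.V.mul_mem hY (hb j)) i
  let M : Matrix (Fin (finrank Fb' Fb)) (Fin (finrank Fb' Fb)) G'.V :=
    fun i j => ⟨_, (hentry i j).1⟩
  have h1 : Algebra.leftMulMatrix b Y = G'.V.subtype.mapMatrix M := rfl
  have h2 : Algebra.leftMulMatrix bb (G.red Y) = G'.redHom.mapMatrix M :=
    Matrix.ext fun i j => (hentry i j).2.symm
  rw [Algebra.norm_eq_matrix_det b, Algebra.norm_eq_matrix_det bb, h1, h2, ← RingHom.map_det,
    ← RingHom.map_det]
  exact ⟨M.det.2, rfl⟩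

end SubRed

theorem valAt_algebraMap_restrict {g' : ℕ} (hC : CurveData K F' g') [Algebra.IsIntegral F' F]
    (P : Place K F) {y : F'} (hy : Vanish (P.restrict F') y 0) :
    valAt P (algebraMap F' F y) = valAt (P.restrict F') y := by
  refine valAt_eq ?_
  rw [IsScalarTower.algebraMap_apply K F' F, ← map_sub]
  rcases hC.exists_valAt hy with h | h
  · exact Or.inl (by rw [h, map_zero])
  · refine Or.inr ?_
    rw [P.ord_restrict]
    exact le_trans h (le_mul_of_one_le_left (le_trans (by norm_num) h)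
      (by exact_mod_cast P.ramificationIndex_pos (F := F')))

theorem ord_algebraMap_nonneg_iff [Algebra.IsIntegral F' F] (P : Place K F) (y : F') :
    0 ≤ P.ord (algebraMap F' F y) ↔ 0 ≤ (P.restrict F').ord y := by
  rw [P.ord_restrict]
  exact mul_nonneg_iff_of_pos_left (by exact_mod_cast P.ramificationIndex_pos (F := F'))

namespace GoodParam

variable [IsAlgClosed K] [IsAlgClosed k] [Infinite k]
variable [FF.IsFF K F] [FF.IsFF K F']
variable [FiniteDimensional F' F] [FiniteDimensional Fb' Fb] [Algebra.IsSeparable F' F]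
variable [Algebra.IsIntegral F' F] [Algebra.IsIntegral Fb' Fb]
variable {G : GaussRed A π F Fb} {G' : GaussRed A π F' Fb'} {g g' gb' : ℕ} {x : F'}

theorem restrict_redMap_eq_of_disc (hS : SubRed G G') (hC : CurveData K F' g')
    (hCb : CurveData k Fb' gb') (hxV : x ∈ G'.V)
    (hscale : ∀ y : F', y ≠ 0 → ∃ c : K, c ≠ 0 ∧ c • y ∈ G'.V ∧ G'.red (c • y) ≠ 0)
    (hfin : finrank F' F = finrank Fb' Fb) (hx : GoodParam G g (algebraMap F' F x))
    {P₁ P₂ : Place K F} (hP : P₁.restrict F' = P₂.restrict F')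
    (h₁ : IsDisc A (algebraMap F' F x) P₁) (h₂ : IsDisc A (algebraMap F' F x) P₂) :
    (redMap hx P₁).restrict Fb' = (redMap hx P₂).restrict Fb' := by
  classical
  set Q₁ := redMap hx P₁ with hQ₁def
  set Q₂ := redMap hx P₂ with hQ₂def
  by_contra hne
  have hxb : G.red (algebraMap F' F x) = algebraMap Fb' Fb (G'.red x) := hS.red_eq hxV
  have hQ₁ : 0 ≤ Q₁.ord (G.red (algebraMap F' F x)) := by
    rw [hQ₁def, redMap, if_pos h₁]; exact hx.ord_centreMap_nonneg h₁
  have hQ₂ : 0 ≤ Q₂.ord (G.red (algebraMap F' F x)) := by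
    rw [hQ₂def, redMap, if_pos h₂]; exact hx.ord_centreMap_nonneg h₂
  have hQ₁' : 0 ≤ (Q₁.restrict Fb').ord (G'.red x) :=
    (ord_algebraMap_nonneg_iff Q₁ _).mp (hxb ▸ hQ₁)
  have hQ₂' : 0 ≤ (Q₂.restrict Fb').ord (G'.red x) :=
    (ord_algebraMap_nonneg_iff Q₂ _).mp (hxb ▸ hQ₂)
  -- a function separating the two places
  obtain ⟨C, hCC⟩ := hCb.exists_C
  have hpole : 1 ≤ Divisor.degree (poleDiv (G'.red x) : Divisor k Fb') := by
    obtain ⟨Q, hQ⟩ := hx.exists_pole_bar
    have hQ' : (Q.restrict Fb').ord (G'.red x) < 0 := by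
      by_contra hn
      exact absurd ((ord_algebraMap_nonneg_iff Q (G'.red x)).mpr (not_lt.mp hn))
        (not_le.mpr (hxb ▸ hQ))
    calc (1 : ℤ) ≤ Divisor.degree (Finsupp.single (Q.restrict Fb') 1 : Divisor k Fb') := by
          rw [hCb.degree_single]
      _ ≤ _ := hCb.degree_mono (fun v => by
          rw [hCb.poleDiv_apply, Finsupp.single_apply]
          split_ifs with h
          · subst h; omega
          · omega)
  obtain ⟨f, hf, hf0, hford⟩ := hCb.exists_exact (Q₂.restrict Fb') C hCC
    (D := boundDiv (G'.red x) (C + 2).toNat (Finsupp.single (Q₁.restrict Fb') 1 : Divisor k Fb')) (by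
      rw [hCb.degree_boundDiv, hCb.degree_single]
      have : ((C + 2).toNat : ℤ) ≤ (C + 2).toNat * Divisor.degree (poleDiv (G'.red x) : Divisor k Fb') :=
        le_mul_of_one_le_right (by positivity) hpole
      omega)
  rw [hCb.boundDiv_apply, max_eq_left (by omega), mul_zero, zero_sub, neg_neg,
    Finsupp.single_eq_of_ne (Ne.symm hne)] at hford
  have hfL := hCb.mem_L_bound.mp hf
  have hfQ₁ : Vanish (Q₁.restrict Fb') f 1 := by
    have := hfL (Q₁.restrict Fb')
    rwa [Finsupp.single_eq_same, max_eq_left (by omega), mul_zero, sub_zero] at this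
  have hfreg : RegAway (K := k) (G'.red x) f :=
    hCb.regAway_of_mem_polesLe (hCb.L_bound_le_polesLe (Finsupp.single_nonneg.mpr zero_le_one) hf)
  -- lift, then take the norm
  obtain ⟨Y, hYV, hYreg, hYred⟩ := hx.exists_lift_reg (f := algebraMap Fb' Fb f) fun R hR =>
    Vanish.zero_iff.mpr ((ord_algebraMap_nonneg_iff R f).mpr
      (Vanish.zero_iff.mp (hfreg _ ((ord_algebraMap_nonneg_iff R _).mp (hxb ▸ hR)))))
  obtain ⟨hyV, hyred⟩ := hS.norm_mem_red hscale hfin hYV
  rw [hYred, Algebra.norm_algebraMap] at hyred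
  set y := Algebra.norm F' Y with hydef
  set n := finrank Fb' Fb with hn
  have hn0 : n ≠ 0 := Module.finrank_pos.ne'
  have hY0 : Y ≠ 0 := G.ne_zero_of_red (by rw [hYred]; simpa using hf0)
  haveI : HasPrincipalDivisors K F := ⟨hx.curve.exists_divisor⟩
  have hyreg : RegAway (K := K) x y := fun P hP' => Vanish.zero_iff.mpr (by
    have h := FF.normFormula (K := K) (F := F') (F' := F) Y hY0 (divOf Y)
      (fun w => hx.curve.divOf_apply Y w) P
    rw [hydef, ← h, Divisor.pushforward_apply]
    refine Finset.sum_nonneg fun w _ => ?_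
    split_ifs with hw
    · refine mul_nonneg ?_ (by positivity)
      rw [hx.curve.divOf_apply]
      exact Vanish.zero_iff.mp (hYreg w ((ord_algebraMap_nonneg_iff w x).mpr (hw ▸ hP')))
    · rfl)
  have hyregF : RegAway (K := K) (algebraMap F' F x) (algebraMap F' F y) := fun P hP' =>
    Vanish.zero_iff.mpr ((ord_algebraMap_nonneg_iff P y).mpr
      (Vanish.zero_iff.mp (hyreg _ ((ord_algebraMap_nonneg_iff P x).mp hP'))))
  have hyx : ∀ P : Place K F, IsDisc A (algebraMap F' F x) P →
      Vanish (P.restrict F') y 0 := fun P hP' =>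
    hyreg _ ((ord_algebraMap_nonneg_iff P x).mp hP'.1)
  -- compare the values
  have hval : ∀ P : Place K F, IsDisc A (algebraMap F' F x) P →
      0 ≤ (redMap hx P).ord (G.red (algebraMap F' F x)) →
      valAt ((redMap hx P).restrict Fb') f ^ n = resVal π P (algebraMap F' F y) := by
    intro P hP' hQ
    have h := (hx.isRed.value_of_regFibre (hS.mem hyV) (hx.regFibre_of_regAway hyregF hQ)
      (P := P) rfl).2.2
    have hfQ : Vanish ((redMap hx P).restrict Fb') f 0 :=
      hfreg _ ((ord_algebraMap_nonneg_iff _ _).mp (hxb ▸ hQ))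
    rw [← h, hS.red_eq hyV, hyred, valAt_algebraMap_restrict hCb _ (by simpa using hfQ.pow n)]
    have hpow : ∀ m, valAt ((redMap hx P).restrict Fb') f ^ m
        = valAt ((redMap hx P).restrict Fb') (f ^ m) := by
      intro m
      induction m with
      | zero => simp [valAt_one]
      | succ m ih => rw [pow_succ, pow_succ, hCb.valAt_mul (by simpa using hfQ.pow m) hfQ, ih]
    exact hpow n
  have heq : resVal π P₁ (algebraMap F' F y) = resVal π P₂ (algebraMap F' F y) := by
    have h1 := valAt_algebraMap_restrict hC P₁ (hyx P₁ h₁)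
    have h2 := valAt_algebraMap_restrict hC P₂ (hyx P₂ h₂)
    rw [hP, ← h2] at h1
    simp only [resVal, h1]
  rw [← hval P₁ h₁ hQ₁, ← hval P₂ h₂ hQ₂, ← hQ₁def, ← hQ₂def,
    valAt_eq_zero_of_vanish hfQ₁, zero_pow hn0] at heq
  exact pow_ne_zero n ((hCb.vanish_one_iff (Vanish.zero_iff.mpr hford.ge)).not.mp
    (fun h => h.elim hf0 (fun h' => by omega))) heq.symm

theorem restrict_redMap_congr (hS : SubRed G G') (hC : CurveData K F' g')
    (hCb : CurveData k Fb' gb') (hxV : x ∈ G'.V)
    (hscale : ∀ y : F', y ≠ 0 → ∃ c : K, c ≠ 0 ∧ c • y ∈ G'.V ∧ G'.red (c • y) ≠ 0)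
    (hfin : finrank F' F = finrank Fb' Fb) (hx : GoodParam G g (algebraMap F' F x))
    {P₁ P₂ : Place K F} (hP : P₁.restrict F' = P₂.restrict F') :
    (redMap hx P₁).restrict Fb' = (redMap hx P₂).restrict Fb' := by
  have hiff : ∀ P : Place K F, IsDisc A (algebraMap F' F x) P ↔
      0 ≤ (P.restrict F').ord x ∧ valAt (P.restrict F') x ∈ A := fun P => by
    rw [IsDisc, ord_algebraMap_nonneg_iff]
    refine and_congr_right fun h => ?_
    rw [valAt_algebraMap_restrict hC P (Vanish.zero_iff.mpr h)]
  by_cases h₁ : IsDisc A (algebraMap F' F x) P₁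
  · exact restrict_redMap_eq_of_disc hS hC hCb hxV hscale hfin hx hP h₁
      ((hiff P₂).mpr (hP ▸ (hiff P₁).mp h₁))
  · have h₂ : ¬ IsDisc A (algebraMap F' F x) P₂ := fun h =>
      h₁ ((hiff P₁).mpr (hP.symm ▸ (hiff P₂).mp h))
    have hx' : GoodParam G g (algebraMap F' F x⁻¹) := by rw [map_inv₀]; exact hx.inv
    have hxr : G'.red x ≠ 0 := fun h => hx.red_ne_zero (by rw [hS.red_eq hxV, h, map_zero])
    rw [hx.isRed.unique hx'.isRed]
    exact restrict_redMap_eq_of_disc hS hC hCb (G'.inv_mem hxV hxr) hscale hfin hx' hP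
      (by rw [map_inv₀]; exact hx.isDisc_inv h₁) (by rw [map_inv₀]; exact hx.isDisc_inv h₂)

end GoodParam

section Descend

variable [Algebra.IsIntegral F' F] [HasPrincipalDivisors K F] [SumRamificationInertia K F' F]

theorem mapRestrict_pullback (hdeg : ∀ w : Place K F, w.inertiaDeg F' = 1) (D : Divisor K F') :
    Divisor.mapRestrict F' (Divisor.pullback F D) = (finrank F' F : ℤ) • D := by
  induction D using Finsupp.induction with
  | zero => simp
  | single_add v a D _ _ ih =>
    rw [map_add, map_add, ih, smul_add]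
    congr 1
    rw [Divisor.pullback_single, map_sum, Finset.sum_congr rfl (fun w hw => by
        rw [Divisor.mapRestrict_single, Place.mem_fiber.mp hw]),
      ← Finsupp.single_finsetSum, ← Finset.mul_sum, Finsupp.smul_single, smul_eq_mul,
      ← SumRamificationInertia.sum_ramificationIndex_mul_inertiaDeg (K := K) (F' := F) v,
      mul_comm]
    simp [hdeg]

theorem mapRestrict_divOf_algebraMap {g g' : ℕ} (hC : CurveData K F g) (hC' : CurveData K F' g')
    (hdeg : ∀ w : Place K F, w.inertiaDeg F' = 1) (u : F') :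
    Divisor.mapRestrict F' (divOf (algebraMap F' F u) : Divisor K F) =
      (finrank F' F : ℤ) • divOf u := by
  rw [← mapRestrict_pullback hdeg]
  refine congrArg _ (Finsupp.ext fun w => ?_)
  rw [hC.divOf_apply, Divisor.pullback_apply_eq_ord (fun v => hC'.divOf_apply u v)]

end Descend

namespace GoodParam

variable [IsAlgClosed K] [IsAlgClosed k] [Infinite k]
variable [FF.IsFF K F] [FF.IsFF K F'] [FF.IsFF k Fb] [FF.IsFF k Fb']
variable [FiniteDimensional F' F] [FiniteDimensional Fb' Fb] [Algebra.IsSeparable F' F]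
variable [Algebra.IsSeparable Fb' Fb]
variable [Algebra.IsIntegral F' F] [Algebra.IsIntegral Fb' Fb]
variable {G : GaussRed A π F Fb} {G' : GaussRed A π F' Fb'} {g g' gb' : ℕ} {x : F'}

/-- The reduction map of the subfield. -/
theorem exists_isRed_sub (hS : SubRed G G') (hC : CurveData K F' g')
    (hCb : CurveData k Fb' gb') (hxV : x ∈ G'.V)
    (hscale : ∀ y : F', y ≠ 0 → ∃ c : K, c ≠ 0 ∧ c • y ∈ G'.V ∧ G'.red (c • y) ≠ 0)
    (hfin : finrank F' F = finrank Fb' Fb) (hx : GoodParam G g (algebraMap F' F x)) :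
    ∃ r : Place K F' → Place k Fb', IsRed G' g' r := by
  classical
  haveI : HasPrincipalDivisors K F := ⟨hx.curve.exists_divisor⟩
  haveI : HasPrincipalDivisors k Fb := ⟨hx.curveBar.exists_divisor⟩
  choose up hup using fun P : Place K F' => FF.exists_restrict_eq (F' := F) P
  set r : Place K F' → Place k Fb' := fun P => (redMap hx (up P)).restrict Fb'
  have hr : ∀ P : Place K F, r (P.restrict F') = (redMap hx P).restrict Fb' := fun P =>
    restrict_redMap_congr hS hC hCb hxV hscale hfin hx (hup _)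
  have hcomm : ∀ D : Divisor K F, Finsupp.mapDomain r (Divisor.mapRestrict F' D) =
      Divisor.mapRestrict Fb' (Finsupp.mapDomain (redMap hx) D) := by
    intro D
    induction D using Finsupp.induction with
    | zero => simp
    | single_add v a D _ _ ih =>
      rw [map_add, Finsupp.mapDomain_add, Finsupp.mapDomain_add, map_add, ih,
        Divisor.mapRestrict_single, Finsupp.mapDomain_single, Finsupp.mapDomain_single,
        Divisor.mapRestrict_single, hr]
  refine ⟨r, hC, ⟨_, hCb⟩, hscale, fun u hu hu0 Q => ?_⟩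
  have h1 : Finsupp.mapDomain (redMap hx) (divOf (algebraMap F' F u) : Divisor K F) =
      divOf (algebraMap Fb' Fb (G'.red u)) := by
    rw [← hS.red_eq hu]
    exact hx.isRed.mapDomain_divOf (hS.mem hu) (by rw [hS.red_eq hu]; simpa using hu0)
  have h2 := hcomm (divOf (algebraMap F' F u))
  rw [h1, mapRestrict_divOf_algebraMap hx.curve hC (fun w => FF.inertiaDeg_eq_one w),
    mapRestrict_divOf_algebraMap hx.curveBar hCb (fun w => FF.inertiaDeg_eq_one w), ← hfin,
    Finsupp.mapDomain_smul] at h2
  have hn : (finrank F' F : ℤ) ≠ 0 := by exact_mod_cast Module.finrank_pos.ne'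
  rw [← hCb.divOf_apply]
  exact congrFun (congrArg (⇑) (smul_right_injective _ hn h2.symm)) Q

end GoodParam

end FLTAgent.Reduction
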