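import Mathlib
import Fermat.Agent.Reduction.InputsLevel
import Fermat.Agent.Reduction.InputsSub

/-!
# The tower `X₀(M) → X₀(N)`

For `N ∣ M`, the inclusions of function fields on both sides of the reduction (`barAlgebra`,
`resAlgebra`) are compatible with `modularGauss` (`subRed_modularGauss`), separable on the special
fibre and of equal degree (`finrank_tower_eq`, by comparing the degrees of `j`).
-/

set_option autoImplicit false
set_option linter.style.haveILetI false
set_option linter.unusedSectionVars false
set_option synthInstance.maxHeartbeats 400000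
set_option maxHeartbeats 1000000

noncomputable section

open ModularCurve IntermediateField AlgebraicCurve

namespace FLTAgent.Reduction

section Generic

variable {K F F' : Type*} [Field K] [Field F] [Field F'] [Algebra K F] [Algebra K F']
  [Algebra F' F] [IsScalarTower K F' F]

theorem poleDiv_algebraMap {g g' : ℕ} (hC : CurveData K F g) (hC' : CurveData K F' g')
    [Algebra.IsIntegral F' F] [HasPrincipalDivisors K F] (x : F') :
    (poleDiv (algebraMap F' F x) : Divisor K F) = Divisor.pullback F (poleDiv x) :=
  Finsupp.ext fun w => by
    rw [hC.poleDiv_apply, Divisor.pullback_apply, hC'.poleDiv_apply, w.ord_restrict,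
      mul_max_of_nonneg _ _ (by positivity : (0 : ℤ) ≤ w.ramificationIndex F'), mul_zero,
      mul_neg]

theorem degree_poleDiv_algebraMap {g g' : ℕ} (hC : CurveData K F g) (hC' : CurveData K F' g')
    [IsAlgClosed K] [FF.IsFF K F] [FF.IsFF K F'] [Algebra.IsSeparable F' F]
    [Algebra.IsIntegral F' F] (x : F') :
    Divisor.degree (poleDiv (algebraMap F' F x) : Divisor K F) =
      Module.finrank F' F * Divisor.degree (poleDiv x : Divisor K F') := by
  haveI : HasPrincipalDivisors K F := ⟨hC.exists_divisor⟩
  rw [poleDiv_algebraMap hC hC', Divisor.degree_pullback]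

theorem isSeparable_of_mem_range {x : F} (hx : x ∈ (algebraMap F' F).range)
    [Algebra.IsSeparable K⟮x⟯ F] : Algebra.IsSeparable F' F := by
  refine ⟨fun a => ?_⟩
  obtain ⟨x', hx'⟩ := hx
  have hle : ∀ z : K⟮x⟯, (z : F) ∈ (algebraMap F' F).range := fun z => by
    have h : K⟮x⟯ ≤ (IsScalarTower.toAlgHom K F' F).fieldRange := by
      rw [adjoin_simple_le_iff]; exact ⟨x', hx'⟩
    exact h z.2
  have hlift : (minpoly K⟮x⟯ a).map (algebraMap K⟮x⟯ F) ∈
      Polynomial.lifts (algebraMap F' F) := by
    rw [Polynomial.lifts_iff_coeff_lifts]
    intro i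
    rw [Polynomial.coeff_map]
    exact hle _
  obtain ⟨Q, hQ⟩ := hlift
  have hsep : Q.Separable := by
    rw [← Polynomial.separable_map (algebraMap F' F), show Q.map (algebraMap F' F) = _ from hQ,
      Polynomial.separable_map]
    exact Algebra.IsSeparable.isSeparable K⟮x⟯ a
  refine hsep.of_dvd (minpoly.dvd F' a ?_)
  rw [Polynomial.aeval_def, ← Polynomial.eval_map, show Q.map (algebraMap F' F) = _ from hQ,
    Polynomial.eval_map, ← Polynomial.aeval_def, minpoly.aeval]

end Generic

variable {N M : ℕ} [NeZero N] [NeZero M]

theorem bar_le (h : N ∣ M) : modularFunctionFieldBar N ≤ modularFunctionFieldBar M := by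
  show laurentBaseChange _ _ ≤ laurentBaseChange _ _
  unfold laurentBaseChange
  exact adjoin.mono _ _ _ (Set.image_mono (full_degeneracy_le h))

variable (A : ValuationSubring (AlgebraicClosure ℚ))

local notation "Qb" => AlgebraicClosure ℚ
local notation "k" => IsLocalRing.ResidueField A

theorem integralExp_le (h : N ∣ M) : integralExp A N ≤ integralExp A M := fun _ hy =>
  mem_integralExp.mpr
    ⟨bar_le h (mem_integralExp.mp hy).1, full_degeneracyC_le k h (mem_integralExp.mp hy).2⟩

/-- The function field of `X₀(N)` inside that of `X₀(M)`. -/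
@[reducible]
def barAlgebra (h : N ∣ M) : Algebra (modularFunctionFieldBar N) (modularFunctionFieldBar M) :=
  (IntermediateField.inclusion (bar_le h)).toRingHom.toAlgebra

/-- The function field of the reduction of `X₀(N)` inside that of `X₀(M)`. -/
@[reducible]
def resAlgebra (h : N ∣ M) :
    Algebra (modularFunctionFieldFullC k N) (modularFunctionFieldFullC k M) :=
  (IntermediateField.inclusion (full_degeneracyC_le k h)).toRingHom.toAlgebra

theorem barTower (h : N ∣ M) :
    letI := barAlgebra h
    IsScalarTower Qb (modularFunctionFieldBar N) (modularFunctionFieldBar M) :=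
  letI := barAlgebra h
  IsScalarTower.of_algebraMap_eq fun c => ((IntermediateField.inclusion (bar_le h)).commutes c).symm

theorem resTower (h : N ∣ M) :
    letI := resAlgebra A h
    IsScalarTower k (modularFunctionFieldFullC k N) (modularFunctionFieldFullC k M) :=
  letI := resAlgebra A h
  IsScalarTower.of_algebraMap_eq fun c =>
    ((IntermediateField.inclusion (full_degeneracyC_le k h)).commutes c).symm

theorem coe_algebraMap_bar (h : N ∣ M) (y : modularFunctionFieldBar N) :
    letI := barAlgebra h
    (algebraMap (modularFunctionFieldBar N) (modularFunctionFieldBar M) y : LaurentSeries Qb) = y :=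
  IntermediateField.coe_inclusion (bar_le h) y

theorem coe_algebraMap_res (h : N ∣ M) (y : modularFunctionFieldFullC k N) :
    letI := resAlgebra A h
    (algebraMap (modularFunctionFieldFullC k N) (modularFunctionFieldFullC k M) y : LaurentSeries k)
      = y :=
  IntermediateField.coe_inclusion (full_degeneracyC_le k h) y

theorem algebraMap_jParam (h : N ∣ M) :
    letI := barAlgebra h
    algebraMap (modularFunctionFieldBar N) (modularFunctionFieldBar M) (jParam A N) = jParam A M := by
  letI := barAlgebra h
  exact Subtype.ext (by rw [coe_algebraMap_bar, coe_jParam, coe_jParam])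

theorem algebraMap_jF (h : N ∣ M) :
    letI := resAlgebra A h
    algebraMap (modularFunctionFieldFullC k N) (modularFunctionFieldFullC k M) (jF N k) = jF M k := by
  letI := resAlgebra A h
  exact Subtype.ext (by rw [coe_algebraMap_res]; simp only [jF])

theorem subRed_modularGauss (h : N ∣ M) :
    letI := barAlgebra h
    letI := resAlgebra A h
    SubRed (modularGauss A M) (modularGauss A N) := by
  letI := barAlgebra h
  letI := resAlgebra A h
  let i : integralExp A N →+* integralExp A M := Subring.inclusion (integralExp_le A h)
  have hi : ∀ a : integralExp A N, (i a : LaurentSeries A) = (a : LaurentSeries A) := fun a =>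
    Subring.coe_inclusion _ a
  have hbar : ∀ a, algebraMap (modularFunctionFieldBar N) (modularFunctionFieldBar M)
      (expToBar A N a) = expToBar A M (i a) := fun a =>
    Subtype.ext (by rw [coe_algebraMap_bar, coe_expToBar, coe_expToBar, hi])
  have hres : ∀ a, algebraMap (modularFunctionFieldFullC k N) (modularFunctionFieldFullC k M)
      (expToRes A N a) = expToRes A M (i a) := fun a =>
    Subtype.ext (by rw [coe_algebraMap_res, coe_expToRes, coe_expToRes, hi])
  have key : ∀ {y : modularFunctionFieldBar N} {a b : integralExp A N}, expToRes A N b ≠ 0 →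
      y * expToBar A N b = expToBar A N a →
      expToRes A M (i b) ≠ 0 ∧ algebraMap _ (modularFunctionFieldBar M) y * expToBar A M (i b)
        = expToBar A M (i a) := by
    intro y a b hb hy
    refine ⟨?_, ?_⟩
    · rw [← hres]; simpa using hb
    · rw [← hbar, ← map_mul, hy, hbar]
  refine ⟨fun {y} hy => ?_, fun {y} hy => ?_⟩ <;>
    obtain ⟨a, b, hb, hy⟩ := modularGauss_mem.mp hy <;> obtain ⟨hb', hy'⟩ := key hb hy
  · exact modularGauss_mem.mpr ⟨_, _, hb', hy'⟩
  · rw [modularGauss_red hb' hy', modularGauss_red hb hy, map_div₀, hres, hres]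

variable {ℓ : ℕ} [Fact ℓ.Prime]

include ℓ in
theorem isSeparable_resTower (hA : A.LiesOverPrime ℓ) (hℓM : ¬ ℓ ∣ M) (h : N ∣ M) :
    letI := resAlgebra A h
    Algebra.IsSeparable (modularFunctionFieldFullC k N) (modularFunctionFieldFullC k M) := by
  letI := resAlgebra A h
  haveI := resTower A h
  haveI := isSeparable_fullC_residue M A hA hℓM
  exact isSeparable_of_mem_range (K := k) (x := jF M k) ⟨jF N k, algebraMap_jF A h⟩

include ℓ in
/-- The tower has the same degree on both sides. -/
theorem finrank_tower_eq (hA : A.LiesOverPrime ℓ) (hℓM : ¬ ℓ ∣ M) (h : N ∣ M) :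
    letI := barAlgebra h
    letI := resAlgebra A h
    Module.finrank (modularFunctionFieldBar N) (modularFunctionFieldBar M) =
      Module.finrank (modularFunctionFieldFullC k N) (modularFunctionFieldFullC k M) := by
  letI := barAlgebra h
  letI := resAlgebra A h
  haveI := barTower h
  haveI := resTower A h
  have hℓN : ¬ ℓ ∣ N := fun hd => hℓM (hd.trans h)
  haveI := isFF_bar_curve N
  haveI := isFF_bar_curve M
  haveI := isFF_fullC_residue N A hA hℓN
  haveI := isFF_fullC_residue M A hA hℓM
  haveI := GalCommon.isAlgClosed_residueField A (Fact.out : ℓ.Prime) hA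
  haveI := FF.module_finite_extension Qb (F := modularFunctionFieldBar N) (F' := modularFunctionFieldBar M)
  haveI := FF.module_finite_extension k (F := modularFunctionFieldFullC k N) (F' := modularFunctionFieldFullC k M)
  haveI := FF.isSeparable_extension Qb (F := modularFunctionFieldBar N) (F' := modularFunctionFieldBar M)
  haveI := isSeparable_resTower A hA hℓM h
  have h1 := degree_poleDiv_algebraMap (curveData_bar M) (curveData_bar N) (jParam A N)
  have h2 := degree_poleDiv_algebraMap (curveData_res A M hA hℓM) (curveData_res A N hA hℓN) (jF N k)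
  rw [algebraMap_jParam A h, degree_poleDiv_jParam, degree_poleDiv_jParam] at h1
  rw [algebraMap_jF A h, degree_poleDiv_jF A M hA hℓM, degree_poleDiv_jF A N hA hℓN] at h2
  have hne : (dedekindPsi N : ℤ) ≠ 0 := by exact_mod_cast (ModularCosets.dedekindPsi_pos N).ne'
  exact_mod_cast mul_right_cancel₀ hne (h1.symm.trans h2)

end FLTAgent.Reduction
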