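import Mathlib
import Fermat.Agent.Reduction.InputsTower
import Fermat.Agent.Reduction.GaussGenus
import Fermat.Prelude.Def_ModularCurve_ReductionModL
import Fermat.Prelude.Def_EllipticCurve_FrobeniusTrace

/-!
# Reduction of `X₀(N)` at `ℓ ∤ N`

Every level has a multiple prime to `ℓ` and divisible by `4` or `9`, where `j` is a good
parameter; restricting to level `N` gives a reduction of places (`exists_isRed_modular`), hence
`reductionInputsModL`. In the same way reduction is injective on torsion of order prime to `ℓ`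
(`eq_zero_of_reductionModL_eq_zero`, used for S18).
-/

set_option autoImplicit false
set_option linter.style.haveILetI false
set_option linter.unusedSectionVars false
set_option synthInstance.maxHeartbeats 400000
set_option maxHeartbeats 1000000

noncomputable section

open ModularCurve AlgebraicCurve IntermediateField

namespace FLTAgent.Reduction

variable (N : ℕ) [NeZero N] (A : ValuationSubring (AlgebraicClosure ℚ)) {ℓ : ℕ} [Fact ℓ.Prime]

local notation "Qb" => AlgebraicClosure ℚ
local notation "k" => IsLocalRing.ResidueField A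

include ℓ in
/-- The reduction has the genus of `X₀(N)` at admissible level. -/
theorem genus_eq_of_admissible (hA : A.LiesOverPrime ℓ) (hℓN : ¬ ℓ ∣ N) (hM : 4 ∣ N ∨ 9 ∣ N) :
    genusFF k (modularFunctionFieldFullC k N) = genusFF Qb (modularFunctionFieldBar N) :=
  genusFF_fullC_residue N A hA hℓN hM

include ℓ in
/-- An auxiliary level where the genus can be computed. -/
theorem exists_admissible_level (hℓN : ¬ ℓ ∣ N) :
    ∃ (M : ℕ) (_ : NeZero M), N ∣ M ∧ ¬ ℓ ∣ M ∧ (4 ∣ M ∨ 9 ∣ M) := by
  have hp : ℓ.Prime := Fact.out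
  obtain ⟨q, hq, hℓq⟩ : ∃ q : ℕ, (q = 4 ∨ q = 9) ∧ ¬ ℓ ∣ q := by
    by_cases h2 : ℓ = 2
    · exact ⟨9, Or.inr rfl, by subst h2; decide⟩
    · refine ⟨4, Or.inl rfl, fun h => h2 ?_⟩
      exact (Nat.prime_dvd_prime_iff_eq hp Nat.prime_two).mp
        (hp.dvd_of_dvd_pow (show ℓ ∣ 2 ^ 2 from h))
  refine ⟨N * q, ⟨by rcases hq with rfl | rfl <;> simp [NeZero.ne N]⟩, dvd_mul_right N q,
    fun h => (hp.dvd_mul.mp h).elim hℓN hℓq, ?_⟩
  rcases hq with rfl | rfl
  · exact Or.inl (dvd_mul_left 4 N)
  · exact Or.inr (dvd_mul_left 9 N)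

include ℓ in
/-- The reduction map at every level prime to `ℓ`. -/
theorem exists_isRed_modular (hA : A.LiesOverPrime ℓ) (hℓN : ¬ ℓ ∣ N) :
    ∃ r, IsRed (modularGauss A N) (genusFF Qb (modularFunctionFieldBar N)) r := by
  obtain ⟨M, hMne, hNM, hℓM, hadm⟩ := exists_admissible_level N hℓN
  haveI := hMne
  letI := barAlgebra hNM
  letI := resAlgebra A hNM
  haveI := barTower hNM
  haveI := resTower A hNM
  haveI := isFF_bar_curve N
  haveI := isFF_bar_curve M
  haveI := isFF_fullC_residue N A hA hℓN
  haveI := isFF_fullC_residue M A hA hℓM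
  haveI := GalCommon.isAlgClosed_residueField A (Fact.out : ℓ.Prime) hA
  haveI := FF.module_finite_extension Qb (F := modularFunctionFieldBar N) (F' := modularFunctionFieldBar M)
  haveI := FF.module_finite_extension k (F := modularFunctionFieldFullC k N) (F' := modularFunctionFieldFullC k M)
  haveI := FF.isSeparable_extension Qb (F := modularFunctionFieldBar N) (F' := modularFunctionFieldBar M)
  haveI := isSeparable_resTower A hA hℓM hNM
  have hx : GoodParam (modularGauss A M) (genusFF Qb (modularFunctionFieldBar M))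
      (algebraMap (modularFunctionFieldBar N) (modularFunctionFieldBar M) (jParam A N)) := by
    rw [algebraMap_jParam A hNM]
    exact goodParam_of_genus A M hA hℓM (genus_eq_of_admissible M A hA hℓM hadm)
  exact hx.exists_isRed_sub (subRed_modularGauss A hNM) (curveData_bar N)
    (curveData_res A N hA hℓN) (jParam_mem A N) (modularGauss_scale A N hA hℓN)
    (finrank_tower_eq A hA hℓM hNM)

include ℓ in
/-- A reduction of places for the Gauss reduction is a place reduction mod `ℓ`. -/
theorem isPlaceReductionModL_of_isRed (hA : A.LiesOverPrime ℓ) (hℓN : ¬ ℓ ∣ N) {g : ℕ} {r}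
    (hr : IsRed (modularGauss A N) g r) : IsPlaceReductionModL A N r := by
  haveI := isFF_bar_curve N
  haveI := isFF_fullC_residue N A hA hℓN
  haveI := GalCommon.isAlgClosed_residueField A (Fact.out : ℓ.Prime) hA
  refine ⟨fun P => (FF.deg_eq_one (r P)).trans (FF.deg_eq_one P).symm, ?_⟩
  intro y hy hyk hne D hD Q
  set b : integralExp A N := ⟨y, mem_integralExp.mpr ⟨hy, hyk⟩⟩
  have hb : expToRes A N b ≠ 0 := fun h => hne (congrArg Subtype.val h)
  have hDb : D = divOf (expToBar A N b) :=
    Finsupp.ext fun P => (hD P).trans (hr.curve.divOf_apply (expToBar A N b) P).symm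
  have h := hr.ord_eq _ (expToBar_mem b) (by rwa [red_expToBar]) Q
  rw [red_expToBar] at h
  rw [hDb]
  exact h.symm

include ℓ in
/-- Principal divisors come from integral expansions with nonzero reduction. -/
theorem principalGeneratedByIntegral (hA : A.LiesOverPrime ℓ) (hℓN : ¬ ℓ ∣ N) :
    PrincipalGeneratedByIntegral A (IsLocalRing.residue A) N := by
  intro D hD
  obtain ⟨f, hf, hfD⟩ := hD
  obtain ⟨c, hc, hcV, hcr⟩ := modularGauss_scale A N hA hℓN f hf
  obtain ⟨a, b, hb, hab⟩ := modularGauss_mem.mp hcV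
  have ha : expToRes A N a ≠ 0 := fun h => hcr (by rw [modularGauss_red hb hab, h, zero_div])
  have hC := curveData_bar N
  have hmem : ∀ y : integralExp A N, expToRes A N y ≠ 0 →
      (divOf (expToBar A N y) : Divisor Qb (modularFunctionFieldBar N)) ∈
        AddSubgroup.closure (integralPrincipalDivisors A (IsLocalRing.residue A) N) := fun y hy =>
    AddSubgroup.subset_closure ⟨y, (mem_integralExp.mp y.2).1, (mem_integralExp.mp y.2).2,
      fun h => hy (Subtype.ext h), fun P => hC.divOf_apply (expToBar A N y) P⟩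
  have hb' : expToBar A N b ≠ 0 := fun h => hb (by rw [expToBar_injective (h.trans (map_zero _).symm), map_zero])
  have hcf : c • f ≠ 0 := smul_ne_zero hc hf
  have h : D = divOf (expToBar A N a) - divOf (expToBar A N b) := by
    rw [← hab, hC.divOf_mul hcf hb', add_sub_cancel_right]
    refine Finsupp.ext fun P => ?_
    rw [hC.divOf_apply, hfD, Algebra.smul_def, P.ord_mul (by simpa using hc) hf, FF.ord_algebraMap,
      zero_add]
  rw [h]
  exact AddSubgroup.sub_mem _ (hmem a ha) (hmem b hb)

/-- The reduction inputs for `X₀(N)` at a prime `ℓ ∤ N`. -/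
theorem reductionInputsModL (N : ℕ) [NeZero N] {ℓ : ℕ} [Fact ℓ.Prime] (hℓN : ¬ ℓ ∣ N)
    (A : ValuationSubring (AlgebraicClosure ℚ)) (hA : A.LiesOverPrime ℓ) :
    ReductionInputsModL A N := by
  obtain ⟨r, hr⟩ := exists_isRed_modular N A hA hℓN
  exact ⟨r, isPlaceReductionModL_of_isRed N A hA hℓN hr, principalGeneratedByIntegral N A hA hℓN⟩

include ℓ in
/-- Any reduction map of places is a reduction map for the Gauss reduction. -/
theorem isRed_of_isPlaceReductionModL (hA : A.LiesOverPrime ℓ) (hℓN : ¬ ℓ ∣ N) {r}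
    (hr : IsPlaceReductionModL A N r) :
    IsRed (modularGauss A N) (genusFF Qb (modularFunctionFieldBar N)) r := by
  have hC := curveData_bar N
  have hCb := curveData_res A N hA hℓN
  refine ⟨hC, ⟨_, hCb⟩, modularGauss_scale A N hA hℓN, fun u hu hu0 Q => ?_⟩
  obtain ⟨a, b, hb, hab⟩ := modularGauss_mem.mp hu
  rw [modularGauss_red hb hab] at hu0 ⊢
  have ha : expToRes A N a ≠ 0 := (div_ne_zero_iff.mp hu0).1
  have hu' : u ≠ 0 := fun h => ha (by
    rw [h, zero_mul] at hab
    rw [← expToBar_injective ((map_zero (expToBar A N)).trans hab), map_zero])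
  have hb' : expToBar A N b ≠ 0 := fun h => hb (by
    rw [expToBar_injective (h.trans (map_zero _).symm), map_zero])
  have key : ∀ y : integralExp A N, expToRes A N y ≠ 0 →
      Finsupp.mapDomain r (divOf (expToBar A N y) : Divisor Qb (modularFunctionFieldBar N)) Q
        = Q.ord (expToRes A N y) := fun y hy =>
    hr.2 y (mem_integralExp.mp y.2).1 (mem_integralExp.mp y.2).2 (fun h => hy (Subtype.ext h))
      (divOf (expToBar A N y)) (fun P => hC.divOf_apply (expToBar A N y) P) Q
  have h1 := key a ha
  rw [← hab, hC.divOf_mul hu' hb', Finsupp.mapDomain_add, Finsupp.add_apply, key b hb] at h1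
  rw [FF.ord_div Q ha hb, ← h1, add_sub_cancel_right]

/-- Reduction is injective on torsion of order prime to `ℓ`. -/
theorem eq_zero_of_reductionModL_eq_zero (N : ℕ) [NeZero N] {ℓ : ℕ}
    [Fact ℓ.Prime] (hℓN : ¬ ℓ ∣ N) (A : ValuationSubring (AlgebraicClosure ℚ))
    (hA : A.LiesOverPrime ℓ) (h : ReductionInputsModL A N) (m : ℕ) (hm : ¬ ℓ ∣ m) (z : JZero N)
    (hmz : m • z = 0) (hz : reductionModL A N z = 0) :
    z = 0 := by
  obtain ⟨M, hMne, hNM, hℓM, hadm⟩ := exists_admissible_level N hℓN
  haveI := hMne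
  letI := barAlgebra hNM
  letI := resAlgebra A hNM
  haveI := barTower hNM
  haveI := resTower A hNM
  haveI := isFF_bar_curve N
  haveI := isFF_bar_curve M
  haveI := isFF_fullC_residue N A hA hℓN
  haveI := isFF_fullC_residue M A hA hℓM
  haveI := GalCommon.isAlgClosed_residueField A (Fact.out : ℓ.Prime) hA
  haveI := FF.module_finite_extension Qb (F := modularFunctionFieldBar N) (F' := modularFunctionFieldBar M)
  haveI := FF.module_finite_extension (IsLocalRing.ResidueField A)
    (F := modularFunctionFieldFullC (IsLocalRing.ResidueField A) N)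
    (F' := modularFunctionFieldFullC (IsLocalRing.ResidueField A) M)
  have hm' : (m : IsLocalRing.ResidueField A) ≠ 0 := fun h0 =>
    hm ((GalCommon.natCast_residue_eq_zero_iff (Fact.out : ℓ.Prime) hA m).mp h0)
  have hr := isRed_of_isPlaceReductionModL N A hA hℓN (isPlaceReductionModL_placeReductionModL h)
  obtain ⟨D, rfl⟩ := Pic0.mk_surjective z
  rw [reductionModL_mk h, Pic0.mk, QuotientAddGroup.eq_zero_iff, AddSubgroup.mem_addSubgroupOf,
    coe_reductionDegZeroAlong] at hz
  have hmD : m • (D : Divisor Qb (modularFunctionFieldBar N)) ∈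
      Divisor.principal (K := Qb) (F := modularFunctionFieldBar N) := by
    rw [Pic0.mk, ← QuotientAddGroup.mk_nsmul, QuotientAddGroup.eq_zero_iff,
      AddSubgroup.mem_addSubgroupOf, AddSubgroupClass.coe_nsmul] at hmz
    exact hmz
  have hres := (goodParam_of_genus A M hA hℓM
    (genus_eq_of_admissible M A hA hℓM hadm)).mem_principal_of_nsmul_sub
      (subRed_modularGauss A hNM) (finrank_tower_eq A hA hℓM hNM) hr hm' hmD hz
  rw [Pic0.mk, QuotientAddGroup.eq_zero_iff, AddSubgroup.mem_addSubgroupOf]
  exact hres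

end FLTAgent.Reduction
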