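import Fermat.Agent.Reduction.InputsMain
import Fermat.Agent.RedSurj.Main
import Fermat.Agent.Torsion.Equiv
import Fermat.Agent.ModularPlaces.Genus

/-!
# Genus of the reduction at every level prime to `ℓ`

`genusFF_fullC_eq`. The inequality `≤` comes from `GaussGenus`; for `≥`, reduction is injective
on `r^m`-torsion (`eq_zero_of_reductionModL_eq_zero`) and the torsion of the special fibre is at
most `C · r^(2 g' m)` (`RedSurj.card_torsion_residue_le`), while that of `X₀(M)` is `r^(2 g m)`.
-/

set_option autoImplicit false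
set_option linter.style.haveILetI false

noncomputable section

open ModularCurve AlgebraicCurve

namespace FLTAgent.Reduction

variable (M : ℕ) [NeZero M] (A : ValuationSubring (AlgebraicClosure ℚ)) {ℓ : ℕ} [Fact ℓ.Prime]

local notation "Qb" => AlgebraicClosure ℚ
local notation "k" => IsLocalRing.ResidueField A

include ℓ in
/-- The genus of the reduction of `X₀(M)` is the genus of `X₀(M)`, for every `M` prime to `ℓ`. -/
theorem genusFF_fullC_eq (hA : A.LiesOverPrime ℓ) (hlM : ¬ ℓ ∣ M) :
    genusFF k ↥(modularFunctionFieldFullC k M) = genusFF Qb ↥(modularFunctionFieldBar M) := by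
  refine le_antisymm (genusFF_fullC_residue_le M A hA hlM) ?_
  obtain ⟨r, hr, hrl⟩ : ∃ r : ℕ, r.Prime ∧ ¬ ℓ ∣ r := by
    obtain ⟨r, hge, hr⟩ := Nat.exists_infinite_primes (ℓ + 1)
    exact ⟨r, hr, fun h => by
      have := (Nat.prime_dvd_prime_iff_eq (Fact.out : ℓ.Prime) hr).mp h; omega⟩
  haveI := Fact.mk hr
  obtain ⟨C, hC⟩ := RedSurj.card_torsion_residue_le A M r hA hlM
  have hin := reductionInputsModL M hlM A hA
  set g := genusFF Qb ↥(modularFunctionFieldBar M)
  set g' := genusFF k ↥(modularFunctionFieldFullC k M)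
  by_contra hlt
  push Not at hlt
  have key : ∀ m : ℕ, r ^ (2 * g * m) ≤ C * r ^ (2 * g' * m) := by
    intro m
    obtain ⟨hfin, hcard⟩ := hC m
    haveI : NeZero (r ^ m) := ⟨pow_ne_zero _ hr.ne_zero⟩
    have hg : Nat.card (Pic0.torsion Qb ↥(modularFunctionFieldBar M) (r ^ m)) =
        (r ^ m) ^ (2 * g) :=
      Torsion.natCard_jTorsion (r ^ m) g (ModularPlaces.genusFF_bar M)
    have hm' : ¬ ℓ ∣ r ^ m := fun h => hrl ((Fact.out : ℓ.Prime).dvd_of_dvd_pow h)
    let f : Pic0.torsion Qb ↥(modularFunctionFieldBar M) (r ^ m) →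
        Pic0.torsion k ↥(modularFunctionFieldFullC k M) (r ^ m) := fun z =>
      ⟨reductionModL A M z.1, by
        have hz := z.2
        rw [Pic0.mem_torsion, natCast_zsmul] at hz ⊢
        rw [← map_nsmul, hz, map_zero]⟩
    have hf : Function.Injective f := by
      intro z z' h
      have h0 : reductionModL A M (z.1 - z'.1) = 0 := by
        rw [map_sub, sub_eq_zero]
        exact congrArg Subtype.val h
      have hz : (r ^ m) • (z.1 - z'.1) = 0 := by
        have a := z.2
        have b := z'.2
        rw [Pic0.mem_torsion, natCast_zsmul] at a b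
        rw [nsmul_sub, a, b, sub_zero]
      exact Subtype.ext (sub_eq_zero.mp
        (eq_zero_of_reductionModL_eq_zero M hlM A hA hin (r ^ m) hm' _ hz h0))
    have h1 := Nat.card_le_card_of_injective f hf
    rw [hg, ← pow_mul, mul_comm m] at h1
    exact h1.trans hcard
  have hr2 : 2 ≤ r := hr.two_le
  have h := key (C + 1)
  have h2 : r ^ (2 * g' * (C + 1) + (C + 1)) ≤ r ^ (2 * g * (C + 1)) :=
    Nat.pow_le_pow_right hr.pos (by nlinarith)
  rw [pow_add] at h2
  have h3 : C + 1 < r ^ (C + 1) := Nat.lt_pow_self hr2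
  have h4 : 0 < r ^ (2 * g' * (C + 1)) := pow_pos hr.pos _
  nlinarith

end FLTAgent.Reduction
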