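import Mathlib
import Fermat.Agent.GalCommon.Basic
import Fermat.Agent.Reduction.GaussField

/-!
# The modular equation over `ℤ[ζ, 1 / N]`

`modEqZeta` is the monic equation of degree `ψ(N)` of `j (N z)` over polynomials in `j`; no
relation of smaller degree holds over a field (`eq_zero_of_eval₂_evJ`). Its coefficients are
rational (`modEqZeta_rational`: apply a `ℚ`-linear form fixing `1`, use uniqueness), so their
denominators are prime to every `ℓ ∤ N` (`den_coprime_of_mem_zetaRing`).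
-/

set_option autoImplicit false

noncomputable section

open ModularCurve Polynomial
open scoped IntermediateField

namespace FLTAgent.Reduction

open FLTAgent.ModularCosets

/-- Evaluation of a polynomial in `j`. -/
def evJ (R : Type*) [CommRing R] : R[X] →+* LaurentSeries R :=
  eval₂RingHom (HahnSeries.C : R →+* LaurentSeries R) (jqModC R)

/-- `j (N z)` over any ring. -/
def jTopR (N : ℕ) (R : Type*) [CommRing R] : LaurentSeries R := qScale R N (jqModC R)

theorem jTopR_eq_jTopC (N : ℕ) [NeZero N] (k : Type*) [Field k] : jTopR N k = jTopC N k := by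
  rw [jTopR, qScale_eq, jTopC]

theorem coeffMap_evJ {R S : Type*} [CommRing R] [CommRing S] (f : R →+* S) (p : R[X]) :
    coeffMap f (evJ R p) = evJ S (p.map f) := by
  rw [evJ, evJ, coe_eval₂RingHom, coe_eval₂RingHom, hom_eval₂, eval₂_map, coeffMap_jqModC]
  congr 1
  ext1 a
  simp

theorem coeffMap_jTopR {R S : Type*} [CommRing R] [CommRing S] (f : R →+* S) (N : ℕ) :
    coeffMap f (jTopR N R) = jTopR N S := by
  rw [jTopR, coeffMap_qScale, coeffMap_jqModC]; rfl

theorem coeffMap_eval₂_evJ {R S : Type*} [CommRing R] [CommRing S] (f : R →+* S) (N : ℕ)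
    (P : R[X][X]) :
    coeffMap f (P.eval₂ (evJ R) (jTopR N R)) =
      (P.map (mapRingHom f)).eval₂ (evJ S) (jTopR N S) := by
  rw [hom_eval₂, eval₂_map, coeffMap_jTopR]
  congr 1
  exact RingHom.ext fun p => coeffMap_evJ f p

variable {N : ℕ} [NeZero N]

section OverField

variable {k : Type*} [Field k] (φ : zetaRing N →+* k)

theorem evJ_injective : Function.Injective (evJ k) :=
  eval₂_C_injective (by rw [order_jqModC]; norm_num)

include φ in
/-- There is no relation of degree `< ψ(N)` in `j (N z)`. -/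
theorem eq_zero_of_eval₂_evJ (P : k[X][X]) (hdeg : P.natDegree < dedekindPsi N)
    (h : P.eval₂ (evJ k) (jTopR N k) = 0) : P = 0 := by
  obtain ⟨hint, hd⟩ := natDegree_minpoly_jTopC φ
  let e : k[X] →+* k⟮jqModC k⟯ :=
    (evJ k).codRestrict (k⟮jqModC k⟯).toSubfield.toSubring fun p => eval₂_mem_adjoin _ p
  have he : Function.Injective e := fun p q hpq => evJ_injective (congrArg Subtype.val hpq)
  have h0 : aeval (jTopC N k) (P.map e) = 0 := by
    rw [aeval_def, eval₂_map, ← jTopR_eq_jTopC]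
    exact h
  by_contra hP
  have hne : P.map e ≠ 0 := fun h => hP (map_injective e he (by rw [h, Polynomial.map_zero]))
  have := natDegree_le_of_dvd (minpoly.dvd _ _ h0) hne
  rw [hd, natDegree_map_eq_of_injective he] at this
  omega

end OverField

section OverZeta

variable (N)

/-- `q ↦ q ^ N` sends `ℤ[ζ, 1/N][j]` to `ℤ[ζ, 1/N][j (q ^ N)]`. -/
theorem exists_evJ_of_mem_polyJ {x : LaurentSeries (zetaRing N)}
    (hx : x ∈ polyJ (jUp N (zetaRing N))) :
    ∃ p : (zetaRing N)[X], qScale (zetaRing N) N (evJ (zetaRing N) p) = x := by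
  obtain ⟨p, rfl⟩ := mem_polyJ_iff.mp hx
  refine ⟨p, ?_⟩
  rw [evJ, coe_eval₂RingHom, hom_eval₂]
  congr 1
  ext1 a
  simp [qScale_C, -HahnSeries.C_apply]

theorem qScale_eval_family {F : Polynomial (LaurentSeries (zetaRing N))}
    (hF : ∀ i, F.coeff i ∈ polyJ (jUp N (zetaRing N))) :
    ∃ P : (zetaRing N)[X][X],
      P.map ((qScale (zetaRing N) N).comp (evJ (zetaRing N))) = F ∧
      qScale (zetaRing N) N (P.eval₂ (evJ (zetaRing N)) (jTopR N (zetaRing N))) =
        F.eval ((jTopFamily N).ser (cosetInf N)) ∧ P.natDegree = F.natDegree ∧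
        (F.Monic → P.Monic) := by
  have hinj : Function.Injective ((qScale (zetaRing N) N).comp (evJ (zetaRing N))) := by
    intro p q hpq
    have h1 := congrArg (coeffMap (zetaRing N).subtype) (qScale_injective (R := zetaRing N) N hpq)
    rw [coeffMap_evJ, coeffMap_evJ] at h1
    exact map_injective _ Subtype.val_injective (evJ_injective h1)
  have hl : F ∈ lifts ((qScale (zetaRing N) N).comp (evJ (zetaRing N))) :=
    (lifts_iff_coeff_lifts F).mpr fun i => exists_evJ_of_mem_polyJ N (hF i)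
  obtain ⟨P, hP⟩ := (mem_lifts F).mp hl
  refine ⟨P, hP, ?_, by rw [← hP, natDegree_map_eq_of_injective hinj], fun hm => ?_⟩
  · rw [hom_eval₂, ← hP, eval_map, jTopFamily_ser_cosetInf]
    rfl
  · rw [← hP] at hm
    exact monic_of_injective hinj hm

theorem exists_modEqZeta : ∃ Φ : (zetaRing N)[X][X], Φ.Monic ∧ Φ.natDegree = dedekindPsi N ∧
    Φ.eval₂ (evJ (zetaRing N)) (jTopR N (zetaRing N)) = 0 := by
  obtain ⟨P, -, hev, hdeg, hm⟩ := qScale_eval_family N
    (((jTopFamily N).isSymFamily (jTopFamily N)).coeff_root)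
  refine ⟨P, hm (famPoly_monic _), ?_, qScale_injective (R := zetaRing N) N ?_⟩
  · rw [hdeg, ← card_cosetIdx, famPoly, natDegree_finsetProd_X_sub_C_eq_card, Finset.card_univ]
  · rw [hev, famPoly_eval_self, map_zero]

/-- The modular equation over `ℤ[ζ, 1 / N]`. -/
def modEqZeta : (zetaRing N)[X][X] := (exists_modEqZeta N).choose

theorem modEqZeta_monic : (modEqZeta N).Monic := (exists_modEqZeta N).choose_spec.1

theorem modEqZeta_natDegree : (modEqZeta N).natDegree = dedekindPsi N :=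
  (exists_modEqZeta N).choose_spec.2.1

theorem modEqZeta_eval : (modEqZeta N).eval₂ (evJ (zetaRing N)) (jTopR N (zetaRing N)) = 0 :=
  (exists_modEqZeta N).choose_spec.2.2

theorem modEqZeta_map_eq :
    (modEqZeta N).map ((qScale (zetaRing N) N).comp (evJ (zetaRing N))) =
      famPoly (jTopFamily N).ser := by
  obtain ⟨P, hP, hev, hdeg, hm⟩ := qScale_eval_family N
    (((jTopFamily N).isSymFamily (jTopFamily N)).coeff_root)
  have hPm := hm (famPoly_monic _)
  have hPd : P.natDegree = dedekindPsi N := by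
    rw [hdeg, ← card_cosetIdx, famPoly, natDegree_finsetProd_X_sub_C_eq_card, Finset.card_univ]
  rw [← hP]
  congr 1
  by_contra hne
  have hz : (modEqZeta N - P).eval₂ (evJ (zetaRing N)) (jTopR N (zetaRing N)) = 0 := by
    rw [eval₂_sub, modEqZeta_eval, zero_sub, neg_eq_zero]
    exact qScale_injective (R := zetaRing N) N (by rw [hev, famPoly_eval_self, map_zero])
  have hlt : (modEqZeta N - P).natDegree < dedekindPsi N := by
    rw [natDegree_lt_iff_degree_lt (sub_ne_zero.mpr hne)]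
    refine (degree_sub_lt_left ?_ (modEqZeta_monic N).ne_zero ?_).trans_le ?_
    · rw [degree_eq_natDegree (modEqZeta_monic N).ne_zero, degree_eq_natDegree hPm.ne_zero,
        modEqZeta_natDegree, hPd]
    · rw [(modEqZeta_monic N).leadingCoeff, hPm.leadingCoeff]
    · rw [degree_eq_natDegree (modEqZeta_monic N).ne_zero, modEqZeta_natDegree]
  have h0 := eq_zero_of_eval₂_evJ (zetaRing N).subtype
    ((modEqZeta N - P).map (mapRingHom (zetaRing N).subtype))
    (lt_of_le_of_lt natDegree_map_le hlt) (by rw [← coeffMap_eval₂_evJ, hz, map_zero])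
  exact hne (sub_eq_zero.mp (map_injective _ (map_injective _ Subtype.val_injective)
    (by rw [h0, Polynomial.map_zero])))

/-- The derivative of the modular equation at `j (N z)` is monic as a series. -/
theorem derivative_modEqZeta_eval :
    qScale (zetaRing N) N
        ((derivative (modEqZeta N)).eval₂ (evJ (zetaRing N)) (jTopR N (zetaRing N))) =
      ∏ c ∈ Finset.univ.erase (cosetInf N),
        ((jTopFamily N).ser (cosetInf N) - (jTopFamily N).ser c) := by
  rw [hom_eval₂, ← eval_map, ← derivative_map, modEqZeta_map_eq,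
    show qScale (zetaRing N) N (jTopR N (zetaRing N)) = (jTopFamily N).ser (cosetInf N) from
      (jTopFamily_ser_cosetInf).symm, famPoly_derivative_eval]

theorem exists_jdEqZeta (d : DivIdx N) : ∃ G : (zetaRing N)[X][X],
    G.eval₂ (evJ (zetaRing N)) (jTopR N (zetaRing N)) =
      qScale (zetaRing N) (d : ℕ) (jqModC (zetaRing N)) *
        (derivative (modEqZeta N)).eval₂ (evJ (zetaRing N)) (jTopR N (zetaRing N)) := by
  obtain ⟨P, -, hev, -, -⟩ := qScale_eval_family N
    (((jTopFamily N).isSymFamily (jdFamily N d)).coeff_lagrange)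
  refine ⟨P, qScale_injective (R := zetaRing N) N ?_⟩
  rw [hev, map_mul, derivative_modEqZeta_eval, famLagrange_eval, famPoly_derivative_eval,
    jdFamily_ser_cosetInf]

end OverZeta

section Descent

/-- A linear form on `ℂ` sending `1` to `1`. -/
theorem exists_ratForm : ∃ f : ℂ →ₗ[ℚ] ℚ, f 1 = 1 :=
  LinearMap.exists_extend_of_notMem
    (0 : (⊥ : Submodule ℚ ℂ) →ₗ[ℚ] ℚ) (v := (1 : ℂ)) (by simp) 1 |>.imp fun _ h => h.2

/-- The form applied to the coefficients of a polynomial. -/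
def formPoly (f : ℂ →ₗ[ℚ] ℚ) (p : ℂ[X]) : ℚ[X] := ∑ a ∈ p.support, monomial a (f (p.coeff a))

theorem formPoly_coeff (f : ℂ →ₗ[ℚ] ℚ) (p : ℂ[X]) (a : ℕ) :
    (formPoly f p).coeff a = f (p.coeff a) := by
  simp only [formPoly, finsetSum_coeff, coeff_monomial]
  rw [Finset.sum_ite_eq']
  split_ifs with h
  · rfl
  · rw [notMem_support_iff.mp h, map_zero]

theorem formPoly_map_ratCast (f : ℂ →ₗ[ℚ] ℚ) (hf : f 1 = 1) (p : ℚ[X]) :
    formPoly f (p.map (Rat.castHom ℂ)) = p := by
  ext a
  rw [formPoly_coeff, coeff_map, eq_ratCast, ← Rat.smul_one_eq_cast, map_smul, hf, smul_eq_mul,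
    mul_one]

/-- The form applied to the coefficients of a bivariate polynomial. -/
def formPoly₂ (f : ℂ →ₗ[ℚ] ℚ) (P : ℂ[X][X]) : ℚ[X][X] :=
  ∑ i ∈ P.support, monomial i (formPoly f (P.coeff i))

theorem formPoly₂_coeff (f : ℂ →ₗ[ℚ] ℚ) (P : ℂ[X][X]) (i : ℕ) :
    (formPoly₂ f P).coeff i = formPoly f (P.coeff i) := by
  simp only [formPoly₂, finsetSum_coeff, coeff_monomial]
  rw [Finset.sum_ite_eq']
  split_ifs with h
  · rfl
  · rw [notMem_support_iff.mp h]
    simp [formPoly]

theorem coeff_evJ_mul {R : Type*} [CommRing R] (p : R[X]) (y : LaurentSeries R) (k : ℤ) :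
    (evJ R p * y).coeff k =
      ∑ a ∈ p.support, p.coeff a * (jqModC R ^ a * y).coeff k := by
  rw [evJ, coe_eval₂RingHom, eval₂_eq_sum, sum_def, Finset.sum_mul, HahnSeries.coeff_sum]
  refine Finset.sum_congr rfl fun a _ => ?_
  rw [mul_assoc, HahnSeries.C_mul_eq_smul, HahnSeries.coeff_smul, smul_eq_mul]

theorem coeff_eval₂_evJ {R : Type*} [CommRing R] (P : R[X][X]) (y : LaurentSeries R) (k : ℤ) :
    (P.eval₂ (evJ R) y).coeff k =
      ∑ i ∈ P.support, ∑ a ∈ (P.coeff i).support,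
        (P.coeff i).coeff a * (jqModC R ^ a * y ^ i).coeff k := by
  rw [eval₂_eq_sum, sum_def, HahnSeries.coeff_sum]
  exact Finset.sum_congr rfl fun i _ => coeff_evJ_mul _ _ _

theorem eval₂_formPoly₂ (f : ℂ →ₗ[ℚ] ℚ) (N : ℕ) (P : ℂ[X][X]) (k : ℤ) :
    ((formPoly₂ f P).eval₂ (evJ ℚ) (jTopR N ℚ)).coeff k =
      f ((P.eval₂ (evJ ℂ) (jTopR N ℂ)).coeff k) := by
  rw [formPoly₂, eval₂_finsetSum, HahnSeries.coeff_sum, coeff_eval₂_evJ, map_sum]
  refine Finset.sum_congr rfl fun i _ => ?_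
  rw [eval₂_monomial, formPoly, map_sum, Finset.sum_mul, HahnSeries.coeff_sum, map_sum]
  refine Finset.sum_congr rfl fun a _ => ?_
  rw [evJ, coe_eval₂RingHom, eval₂_monomial, mul_assoc, HahnSeries.C_mul_eq_smul,
    HahnSeries.coeff_smul, smul_eq_mul]
  have h : (jqModC ℂ ^ a * jTopR N ℂ ^ i).coeff k =
      algebraMap ℚ ℂ ((jqModC ℚ ^ a * jTopR N ℚ ^ i).coeff k) := by
    rw [← coeffMap_jTopR (algebraMap ℚ ℂ), ← coeffMap_jqModC (algebraMap ℚ ℂ), ← map_pow,
      ← map_pow, ← map_mul, coeffMap_coeff]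
  rw [h, mul_comm ((P.coeff i).coeff a), ← Algebra.smul_def, map_smul, smul_eq_mul, mul_comm]

variable (N)

/-- The coefficients of the modular equation are rational. -/
theorem modEqZeta_rational (i a : ℕ) :
    ∃ q : ℚ, (((modEqZeta N).coeff i).coeff a : ℂ) = q := by
  obtain ⟨f, hf⟩ := exists_ratForm
  set P := (modEqZeta N).map (mapRingHom (zetaRing N).subtype) with hP
  set Q := formPoly₂ f P with hQ
  have hQ0 : Q.eval₂ (evJ ℚ) (jTopR N ℚ) = 0 := by
    ext k
    rw [hQ, eval₂_formPoly₂, ← coeffMap_eval₂_evJ, modEqZeta_eval, map_zero]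
    simp
  have hQC : (Q.map (mapRingHom (algebraMap ℚ ℂ))).eval₂ (evJ ℂ) (jTopR N ℂ) = 0 := by
    rw [← coeffMap_eval₂_evJ, hQ0, map_zero]
  have hPm : P.Monic := (modEqZeta_monic N).map _
  have hPd : P.natDegree = dedekindPsi N := by
    rw [hP, (modEqZeta_monic N).natDegree_map, modEqZeta_natDegree]
  have hlt : (P - Q.map (mapRingHom (algebraMap ℚ ℂ))).natDegree < dedekindPsi N := by
    have hψ := dedekindPsi_pos N
    refine lt_of_le_of_lt (natDegree_le_iff_coeff_eq_zero.mpr fun m hm => ?_)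
      (Nat.sub_lt hψ one_pos)
    rw [coeff_sub, show (Q.map (mapRingHom (algebraMap ℚ ℂ))).coeff m =
      (formPoly f (P.coeff m)).map (algebraMap ℚ ℂ) by
        rw [coeff_map, hQ, formPoly₂_coeff, coe_mapRingHom]]
    rcases eq_or_lt_of_le (show dedekindPsi N ≤ m by omega) with h | h
    · have h1 : P.coeff m = (1 : ℚ[X]).map (Rat.castHom ℂ) := by
        rw [← h, ← hPd, hPm.coeff_natDegree, Polynomial.map_one]
      rw [h1, formPoly_map_ratCast f hf, Polynomial.map_one, Polynomial.map_one, sub_self]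
    · rw [coeff_eq_zero_of_natDegree_lt (show P.natDegree < m by omega)]
      simp [formPoly]
  have h0 := eq_zero_of_eval₂_evJ (zetaRing N).subtype _ hlt (by
    rw [eval₂_sub, hQC, sub_zero, hP, ← coeffMap_eval₂_evJ, modEqZeta_eval, map_zero])
  refine ⟨(Q.coeff i).coeff a, ?_⟩
  have h1 := congrArg (fun p : ℂ[X][X] => (p.coeff i).coeff a) (sub_eq_zero.mp h0)
  simpa [hP] using h1

end Descent

/-- Rational numbers in `ℤ[ζ, 1 / N]` are integral at `ℓ ∤ N`. -/
theorem den_coprime_of_mem_zetaRing {ℓ : ℕ} [hℓ : Fact ℓ.Prime] (hℓN : ¬ ℓ ∣ N) {q : ℚ}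
    (hq : (q : ℂ) ∈ zetaRing N) : q.den.Coprime ℓ := by
  obtain ⟨A, hA⟩ := FLTAgent.GalCommon.exists_liesOverPrime hℓ.out
  obtain ⟨a, ha⟩ := exists_barToC_eq N A (natCast_isUnit_of_liesOverPrime hA hℓN) hq
  have haq : (a : AlgebraicClosure ℚ) = (q : AlgebraicClosure ℚ) :=
    barToC_injective (by rw [ha, map_ratCast])
  by_contra hc
  have hdvd : ℓ ∣ q.den := by
    by_contra h
    exact hc ((Nat.Prime.coprime_iff_not_dvd hℓ.out).mpr h).symm
  obtain ⟨m, hm⟩ := hdvd
  have hnum : ¬ (ℓ : ℤ) ∣ q.num := by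
    intro h
    have h1 : ℓ ∣ Nat.gcd q.num.natAbs q.den :=
      Nat.dvd_gcd (Int.natCast_dvd.mp h) (Dvd.intro m hm.symm)
    rw [q.reduced.gcd_eq_one] at h1
    exact hℓ.out.one_lt.ne' (Nat.dvd_one.mp h1)
  have hl0 : ((ℓ : ℕ) : AlgebraicClosure ℚ) ∈ A.nonunits := hA
  have h2 : (q.num : AlgebraicClosure ℚ) = (ℓ : AlgebraicClosure ℚ) * ((m : AlgebraicClosure ℚ) * a) := by
    rw [haq, ← mul_assoc, ← Nat.cast_mul, ← hm]
    rw [← Rat.cast_natCast q.den, ← Rat.cast_intCast, ← Rat.cast_mul, Rat.den_mul_eq_num]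
  have h3 : (q.num : AlgebraicClosure ℚ) ∈ A.nonunits := by
    rw [ValuationSubring.mem_nonunits_iff_exists_mem_maximalIdeal] at hl0 ⊢
    obtain ⟨hlA, hlm⟩ := hl0
    rw [h2]
    refine ⟨mul_mem hlA (mul_mem (natCast_mem A m) a.2), ?_⟩
    exact Ideal.mul_mem_right (⟨_, mul_mem (natCast_mem A m) a.2⟩ : A) _ hlm
  exact hnum ((FLTAgent.GalCommon.intCast_mem_nonunits_iff hℓ.out hA q.num).mp h3)

end FLTAgent.Reduction
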