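import Mathlib
import Fermat.Prelude.Def_GaloisRep_Flat
import Fermat.Agent.Reduction.IgusaModEq

/-!
# The modular equation over `ℤ_(ℓ)`

Basic facts on `ℤ_(ℓ)` (`zlRes`, `zl_prime`, principality) and `modEqInt`, the modular equation
descended to `ℤ_(ℓ)` for `ℓ ∤ N`. No smaller relation holds mod `ℓ`
(`eq_zero_of_eval₂_evJ_zmod`) and its derivative at `j (N z)` is a unit as a series
(`isUnit_derivative_modEqInt`).
-/

set_option autoImplicit false

noncomputable section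

open ModularCurve Polynomial

namespace FLTAgent.Reduction

open FLTAgent.ModularCosets

section Local

variable (ℓ : ℕ) [hℓ : Fact ℓ.Prime]

set_option quotPrecheck false in
local notation "ℤℓ" => ↥(GaloisRep.ratLocalizedAt ℓ)

theorem zl_den_ne_zero (q : ℤℓ) : (((q : ℚ).den : ℕ) : ZMod ℓ) ≠ 0 := by
  rw [Ne, ZMod.natCast_eq_zero_iff]
  intro h
  exact hℓ.out.one_lt.ne' (Nat.Coprime.eq_one_of_dvd ((q.2 : (q : ℚ).den.Coprime ℓ)).symm h)

/-- The residue map of `ℤ_(ℓ)`. -/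
def zlRes : ℤℓ →+* ZMod ℓ where
  toFun q := ((q : ℚ) : ZMod ℓ)
  map_one' := by simp
  map_zero' := by simp
  map_add' p q := by
    simp only [AddMemClass.coe_add]
    exact Rat.cast_add_of_ne_zero (zl_den_ne_zero ℓ p) (zl_den_ne_zero ℓ q)
  map_mul' p q := by
    simp only [MulMemClass.coe_mul]
    exact Rat.cast_mul_of_ne_zero (zl_den_ne_zero ℓ p) (zl_den_ne_zero ℓ q)

theorem zl_isUnit_den (q : ℤℓ) : IsUnit (((q : ℚ).den : ℕ) : ℤℓ) := by
  have hmem : ((q : ℚ).den : ℚ)⁻¹ ∈ GaloisRep.ratLocalizedAt ℓ := by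
    show (((q : ℚ).den : ℚ)⁻¹).den.Coprime ℓ
    rw [Rat.inv_natCast_den, if_neg (q : ℚ).den_ne_zero]
    exact q.2
  refine IsUnit.of_mul_eq_one ⟨_, hmem⟩ (Subtype.ext ?_)
  simp [(q : ℚ).den_ne_zero]

theorem zl_num_eq (q : ℤℓ) : q * (((q : ℚ).den : ℕ) : ℤℓ) = (((q : ℚ).num : ℤ) : ℤℓ) :=
  Subtype.ext (by simp [Rat.mul_den_eq_num])

theorem zl_dvd_iff (q : ℤℓ) : (ℓ : ℤℓ) ∣ q ↔ zlRes ℓ q = 0 := by
  constructor
  · rintro ⟨c, rfl⟩
    rw [map_mul, map_natCast, ZMod.natCast_self, zero_mul]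
  · intro h
    have h2 : (((q : ℚ).num : ℤ) : ZMod ℓ) = 0 := by
      rw [← map_intCast (zlRes ℓ), ← zl_num_eq, map_mul, h, zero_mul]
    obtain ⟨c, hc⟩ := (ZMod.intCast_zmod_eq_zero_iff_dvd _ _).mp h2
    have h3 : (ℓ : ℤℓ) ∣ q * (((q : ℚ).den : ℕ) : ℤℓ) :=
      ⟨(c : ℤℓ), by rw [zl_num_eq, hc]; push_cast; ring⟩
    exact (zl_isUnit_den ℓ q).dvd_mul_right.mp h3

theorem zl_prime : Prime (ℓ : ℤℓ) := by
  refine ⟨fun h => ?_, fun h => ?_, fun a b h => ?_⟩
  · exact hℓ.out.ne_zero (by exact_mod_cast congrArg Subtype.val h)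
  · have := h.map (zlRes ℓ)
    rw [map_natCast, ZMod.natCast_self] at this
    exact not_isUnit_zero this
  · rw [zl_dvd_iff, map_mul, mul_eq_zero] at h
    rw [zl_dvd_iff, zl_dvd_iff]
    exact h

theorem zl_exists_unit_mul_pow {q : ℤℓ} (hq : q ≠ 0) :
    ∃ (n : ℕ) (u : ℤℓˣ), (ℓ : ℤℓ) ^ n * u = q := by
  have hnum : (q : ℚ).num ≠ 0 := Rat.num_ne_zero.mpr fun h => hq (Subtype.ext h)
  obtain ⟨n, m, hm, hmn⟩ := Nat.exists_eq_pow_mul_and_not_dvd
    (Int.natAbs_ne_zero.mpr hnum) ℓ hℓ.out.ne_one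
  have hunit : IsUnit (((q : ℚ).num.sign * m : ℤ) : ℤℓ) := by
    have hs : IsUnit ((((q : ℚ).num.sign : ℤ)) : ℤℓ) := by
      rcases lt_or_gt_of_ne hnum with h | h
      · rw [Int.sign_eq_neg_one_of_neg h]; simp
      · rw [Int.sign_eq_one_of_pos h]; simp
    have hmu : IsUnit ((m : ℕ) : ℤℓ) := by
      have hmem : ((m : ℚ))⁻¹ ∈ GaloisRep.ratLocalizedAt ℓ := by
        show ((m : ℚ)⁻¹).den.Coprime ℓ
        rw [Rat.inv_natCast_den]
        split_ifs
        · exact Nat.coprime_one_left ℓ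
        · exact ((Nat.Prime.coprime_iff_not_dvd hℓ.out).mpr hm).symm
      refine IsUnit.of_mul_eq_one ⟨_, hmem⟩ (Subtype.ext ?_)
      have : m ≠ 0 := fun h => hm (by simp [h])
      simp [this]
    push_cast
    exact hs.mul hmu
  obtain ⟨u, hu⟩ := hunit
  obtain ⟨v, hv⟩ := zl_isUnit_den ℓ q
  refine ⟨n, u * v⁻¹, ?_⟩
  rw [Units.val_mul, ← mul_assoc, Units.mul_inv_eq_iff_eq_mul, hv, zl_num_eq, hu]
  have h : (q : ℚ).num = (q : ℚ).num.sign * ((ℓ : ℤ) ^ n * m) := by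
    conv_lhs => rw [← Int.sign_mul_natAbs (q : ℚ).num, hmn]
    push_cast
    rfl
  conv_rhs => rw [h]
  push_cast
  ring

theorem zl_isPrincipalIdealRing : IsPrincipalIdealRing ℤℓ := by
  have : IsDiscreteValuationRing ℤℓ :=
    IsDiscreteValuationRing.ofHasUnitMulPowIrreducibleFactorization
      ⟨(ℓ : ℤℓ), (zl_prime ℓ).irreducible, fun {x} hx => by
        obtain ⟨n, u, hu⟩ := zl_exists_unit_mul_pow ℓ hx
        exact ⟨n, u, hu⟩⟩
  infer_instance

instance zlIsPID : IsPrincipalIdealRing ℤℓ := zl_isPrincipalIdealRing ℓ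

theorem zl_C_dvd_iff (p : (ℤℓ)[X]) : C (ℓ : ℤℓ) ∣ p ↔ p.map (zlRes ℓ) = 0 := by
  rw [C_dvd_iff_dvd_coeff, Polynomial.ext_iff]
  simp only [zl_dvd_iff, coeff_map, coeff_zero]

theorem zl_C_prime : Prime (C (ℓ : ℤℓ)) := Polynomial.prime_C_iff.mpr (zl_prime ℓ)

variable (K : Type*) [Field K] [CharP K ℓ]

theorem zl_hom_eq (f : ℤℓ →+* K) : f = (ZMod.castHom dvd_rfl K).comp (zlRes ℓ) := by
  refine RingHom.ext fun q => ?_
  obtain ⟨v, hv⟩ := zl_isUnit_den ℓ q
  have h1 := congrArg f (zl_num_eq ℓ q)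
  have h2 := congrArg ((ZMod.castHom dvd_rfl K).comp (zlRes ℓ)) (zl_num_eq ℓ q)
  rw [map_mul, map_natCast, map_intCast] at h1 h2
  have hne : (((q : ℚ).den : ℕ) : K) ≠ 0 := by
    rw [← map_natCast f, ← hv]
    exact (Units.map f.toMonoidHom v).ne_zero
  exact mul_right_cancel₀ hne (h1.trans h2.symm)

theorem zl_hom_eq_zero_iff (f : ℤℓ →+* K) (q : ℤℓ) : f q = 0 ↔ (ℓ : ℤℓ) ∣ q := by
  rw [zl_dvd_iff, zl_hom_eq ℓ K f, RingHom.comp_apply, map_eq_zero]

end Local

section ModEq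

variable (N : ℕ) [NeZero N] (ℓ : ℕ) [hℓ : Fact ℓ.Prime]

set_option quotPrecheck false in
local notation "ℤℓ" => ↥(GaloisRep.ratLocalizedAt ℓ)

/-- `ℤ_(ℓ) → ℂ`. -/
def zlToC : ℤℓ →+* ℂ := (Rat.castHom ℂ).comp (GaloisRep.ratLocalizedAt ℓ).subtype

theorem zlToC_injective : Function.Injective (zlToC ℓ) :=
  (Rat.castHom ℂ).injective.comp Subtype.val_injective

variable (hℓN : ¬ ℓ ∣ N)

include hℓN in
theorem exists_modEqInt : ∃ Φ : (ℤℓ)[X][X],
    Φ.map (mapRingHom (zlToC ℓ)) = (modEqZeta N).map (mapRingHom (zetaRing N).subtype) := by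
  have hmem : (modEqZeta N).map (mapRingHom (zetaRing N).subtype) ∈
      lifts (mapRingHom (zlToC ℓ)) := by
    rw [lifts_iff_coeff_lifts]
    intro i
    rw [coeff_map, coe_mapRingHom]
    refine (mem_lifts _).mp ((lifts_iff_coeff_lifts _).mpr fun a => ?_)
    rw [coe_mapRingHom, coeff_map]
    obtain ⟨q, hq⟩ := modEqZeta_rational N i a
    have hqm : (q : ℂ) ∈ zetaRing N := by
      rw [← hq]; exact SetLike.coe_mem _
    exact ⟨⟨q, den_coprime_of_mem_zetaRing hℓN hqm⟩, hq.symm⟩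
  exact (mem_lifts _).mp hmem

/-- The modular equation over `ℤ_(ℓ)`. -/
def modEqInt : (ℤℓ)[X][X] := (exists_modEqInt N ℓ hℓN).choose

theorem modEqInt_map :
    (modEqInt N ℓ hℓN).map (mapRingHom (zlToC ℓ)) =
      (modEqZeta N).map (mapRingHom (zetaRing N).subtype) :=
  (exists_modEqInt N ℓ hℓN).choose_spec

theorem modEqInt_monic : (modEqInt N ℓ hℓN).Monic :=
  monic_of_injective (map_injective _ (zlToC_injective ℓ))
    (modEqInt_map N ℓ hℓN ▸ (modEqZeta_monic N).map _)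

theorem modEqInt_natDegree : (modEqInt N ℓ hℓN).natDegree = dedekindPsi N := by
  have h := congrArg natDegree (modEqInt_map N ℓ hℓN)
  rwa [(modEqInt_monic N ℓ hℓN).natDegree_map, (modEqZeta_monic N).natDegree_map,
    modEqZeta_natDegree] at h

theorem modEqInt_eval :
    (modEqInt N ℓ hℓN).eval₂ (evJ ℤℓ) (jTopR N ℤℓ) = 0 := by
  apply coeffMap_injective (zlToC_injective ℓ)
  rw [coeffMap_eval₂_evJ, modEqInt_map, ← coeffMap_eval₂_evJ, modEqZeta_eval, map_zero, map_zero]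

theorem coeffMap_derivative_eval :
    coeffMap (zlToC ℓ) ((derivative (modEqInt N ℓ hℓN)).eval₂ (evJ ℤℓ) (jTopR N ℤℓ)) =
      coeffMap (zetaRing N).subtype
        ((derivative (modEqZeta N)).eval₂ (evJ (zetaRing N)) (jTopR N (zetaRing N))) := by
  rw [coeffMap_eval₂_evJ, coeffMap_eval₂_evJ, ← derivative_map, ← derivative_map, modEqInt_map]

/-- No relation of degree `< ψ(N)` survives over `𝔽_ℓ`. -/
theorem eq_zero_of_eval₂_evJ_zmod (hℓN : ¬ ℓ ∣ N) (P : (ZMod ℓ)[X][X])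
    (hdeg : P.natDegree < dedekindPsi N) (h : P.eval₂ (evJ (ZMod ℓ)) (jTopR N (ZMod ℓ)) = 0) :
    P = 0 := by
  obtain ⟨A, hA⟩ := FLTAgent.GalCommon.exists_liesOverPrime hℓ.out
  have := FLTAgent.GalCommon.charP_residueField hℓ.out hA
  set f : ZMod ℓ →+* IsLocalRing.ResidueField A := ZMod.castHom dvd_rfl _
  have h0 := eq_zero_of_eval₂_evJ (zetaToResidue N A hA hℓN) (P.map (mapRingHom f))
    (lt_of_le_of_lt natDegree_map_le hdeg) (by rw [← coeffMap_eval₂_evJ, h, map_zero])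
  exact map_injective _ (map_injective _ f.injective) (by rw [h0, Polynomial.map_zero])

end ModEq

section Leading

variable {R S : Type*} [CommRing R] [CommRing S]

theorem leadingCoeff_coeffMap {f : R →+* S} (hf : Function.Injective f) (x : LaurentSeries R) :
    (coeffMap f x).leadingCoeff = f x.leadingCoeff := by
  rcases eq_or_ne x 0 with rfl | hx
  · simp
  have h0 : (coeffMap f x).coeff x.order ≠ 0 := by
    rw [coeffMap_coeff, map_ne_zero_iff f hf]
    exact fun h => hx (HahnSeries.coeff_order_eq_zero.mp h)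
  have ho : (coeffMap f x).order = x.order := by
    refine le_antisymm (HahnSeries.order_le_of_coeff_ne_zero h0) ?_
    by_contra hlt
    push Not at hlt
    apply HahnSeries.ne_zero_of_coeff_ne_zero h0
    apply HahnSeries.coeff_order_eq_zero.mp
    rw [coeffMap_coeff, HahnSeries.coeff_eq_zero_of_lt_order hlt, map_zero]
  rw [HahnSeries.leadingCoeff_eq, HahnSeries.leadingCoeff_eq, ho, coeffMap_coeff]

theorem leadingCoeff_qScale {m : ℕ} (hm : m ≠ 0) (x : LaurentSeries R) :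
    (qScale R m x).leadingCoeff = x.leadingCoeff := by
  rcases eq_or_ne x 0 with rfl | hx
  · simp
  have h0 : (qScale R m x).coeff ((m : ℤ) * x.order) ≠ 0 := by
    rw [qScale_coeff_mul hm]
    exact fun h => hx (HahnSeries.coeff_order_eq_zero.mp h)
  have ho : (qScale R m x).order = (m : ℤ) * x.order := by
    refine le_antisymm (HahnSeries.order_le_of_coeff_ne_zero h0) ?_
    by_contra hlt
    push Not at hlt
    apply HahnSeries.ne_zero_of_coeff_ne_zero h0
    apply HahnSeries.coeff_order_eq_zero.mp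
    by_cases hdvd : (m : ℤ) ∣ (qScale R m x).order
    · obtain ⟨i, hi⟩ := hdvd
      rw [hi, qScale_coeff_mul hm]
      refine HahnSeries.coeff_eq_zero_of_lt_order ?_
      rw [hi] at hlt
      exact lt_of_mul_lt_mul_left hlt (Int.natCast_nonneg m)
    · exact qScale_coeff_of_not_dvd hm _ hdvd
  rw [HahnSeries.leadingCoeff_eq, HahnSeries.leadingCoeff_eq, ho, qScale_coeff_mul hm]

theorem leadingCoeff_sub_eq_one {x y : LaurentSeries R} [Nontrivial R] {n : ℤ}
    (hx : x.coeff n = 1) (hxl : ∀ k < n, x.coeff k = 0) (hy : ∀ k ≤ n, y.coeff k = 0) :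
    (x - y).leadingCoeff = 1 := by
  have h0 : (x - y).coeff n = 1 := by rw [HahnSeries.coeff_sub, hx, hy n le_rfl, sub_zero]
  have hne : (x - y).coeff n ≠ 0 := by rw [h0]; exact one_ne_zero
  have ho : (x - y).order = n := by
    refine le_antisymm (HahnSeries.order_le_of_coeff_ne_zero hne) ?_
    by_contra hlt
    push Not at hlt
    apply HahnSeries.ne_zero_of_coeff_ne_zero hne
    apply HahnSeries.coeff_order_eq_zero.mp
    rw [HahnSeries.coeff_sub, hxl _ hlt, hy _ hlt.le, sub_zero]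
  rw [HahnSeries.leadingCoeff_eq, ho, h0]

end Leading

theorem derivative_modEqZeta_leadingCoeff (N : ℕ) [NeZero N] :
    ((derivative (modEqZeta N)).eval₂ (evJ (zetaRing N))
      (jTopR N (zetaRing N))).leadingCoeff = 1 := by
  classical
  rw [← leadingCoeff_qScale (NeZero.ne N), derivative_modEqZeta_eval]
  refine Finset.prod_induction _ (fun x : LaurentSeries (zetaRing N) => x.leadingCoeff = 1)
    (fun a b ha hb => by rw [HahnSeries.leadingCoeff_mul, ha, hb, mul_one]) (by simp) ?_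
  intro c hc
  have hca : c.a < N := by
    refine lt_of_le_of_ne (Nat.le_of_dvd (NeZero.pos N) c.a_dvd) fun h => ?_
    exact (Finset.mem_erase.mp hc).1 (eq_cosetInf_of_a_eq h)
  refine leadingCoeff_sub_eq_one (n := -((N * N : ℕ) : ℤ)) ?_ (fun k hk => ?_) fun k hk => ?_
  · show (jConj _ (zetaB N) N 0).coeff _ = _
    rw [jConj_coeff_neg_sq _ (NeZero.ne N)]
    simp
  · exact jConj_coeff_of_lt _ (NeZero.ne N) 0 hk
  · refine jConj_coeff_of_lt _ c.a_ne_zero c.b (lt_of_le_of_lt hk ?_)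
    exact neg_lt_neg (by exact_mod_cast Nat.mul_self_lt_mul_self hca)

theorem isUnit_derivative_modEqInt (N : ℕ) [NeZero N] (ℓ : ℕ) [Fact ℓ.Prime] (hℓN : ¬ ℓ ∣ N) :
    IsUnit ((derivative (modEqInt N ℓ hℓN)).eval₂ (evJ ↥(GaloisRep.ratLocalizedAt ℓ))
      (jTopR N ↥(GaloisRep.ratLocalizedAt ℓ))) := by
  rw [HahnSeries.isUnit_iff]
  have h := congrArg HahnSeries.leadingCoeff (coeffMap_derivative_eval N ℓ hℓN)
  rw [leadingCoeff_coeffMap (zlToC_injective ℓ),
    leadingCoeff_coeffMap (f := (zetaRing N).subtype) Subtype.val_injective,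
    derivative_modEqZeta_leadingCoeff, map_one] at h
  rw [zlToC_injective ℓ (h.trans (map_one _).symm)]
  exact isUnit_one

end FLTAgent.Reduction
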