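import Mathlib
import Fermat.Prelude.Def_ModularCurve_IgusaScheme
import Fermat.Agent.Reduction.IgusaRing
import Fermat.Agent.ModularCosets.Corollaries

/-!
# The charts of the Igusa model

The finite chart is the integral closure of `ℤ_(ℓ)[j]` in `ℚ(X₀(N))` (`mem_chartAlgFin_iff`).
Such an element times the derivative of the modular equation is a polynomial in `j (N z)`
(`exists_mul_derivative_eq`, trace duality), so its expansion is integral
(`exists_serZ_of_isIntegral`), and if the expansion is divisible by `ℓ` so is the element in the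
chart (`isIntegral_div_of_serZ`, by irreducibility mod `ℓ`).
-/

set_option autoImplicit false

noncomputable section

open ModularCurve ModularCurve.IgusaScheme Polynomial
open scoped IntermediateField

namespace FLTAgent.Reduction

open FLTAgent.ModularCosets

/-- If `p ^ n y` and `D y` are integral over an integrally closed domain, with `p` prime and not
dividing `D`, then `y` is integral. -/
theorem isIntegral_of_scaled {A L : Type*} [CommRing A] [IsDomain A] [IsIntegrallyClosed A]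
    [Field L] [Algebra A L] [FaithfulSMul A L] {p D : A} (hp : Prime p) (hD : ¬ p ∣ D) {y : L}
    {n : ℕ} (hl : IsIntegral A (algebraMap A L (p ^ n) * y))
    (hDy : IsIntegral A (algebraMap A L D * y)) : IsIntegral A y := by
  let := FractionRing.liftAlgebra A L
  have : IsScalarTower A (FractionRing A) L := FractionRing.isScalarTower_liftAlgebra A L
  set K := FractionRing A
  set c : A := p ^ n with hc
  have hc0 : c ≠ 0 := pow_ne_zero _ hp.ne_zero
  have hD0 : D ≠ 0 := fun h => hD (h ▸ dvd_zero _)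
  have hK : ∀ a : A, algebraMap A L a = algebraMap K L (algebraMap A K a) :=
    IsScalarTower.algebraMap_apply A K L
  have hne : ∀ a : A, a ≠ 0 → algebraMap A K a ≠ 0 := fun a ha =>
    (map_ne_zero_iff _ (IsFractionRing.injective A K)).mpr ha
  have hyK : IsIntegral K y := by
    have h3 := (isIntegral_algebraMap (R := K) (A := L) (x := (algebraMap A K c)⁻¹)).mul
      hl.tower_top
    rwa [hK, ← mul_assoc, ← map_mul, inv_mul_cancel₀ (hne c hc0), map_one, one_mul] at h3
  set M := minpoly K y with hM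
  have hscale : ∀ a : A, a ≠ 0 → IsIntegral A (algebraMap A L a * y) → ∀ i,
      ∃ b : A, algebraMap A K b = M.coeff i * algebraMap A K a ^ (M.natDegree - i) := by
    intro a ha hay i
    set s := algebraMap A K a with hs
    have hmon : (M.scaleRoots s).Monic := (monic_scaleRoots_iff s).mpr (minpoly.monic hyK)
    have hroot : aeval (algebraMap K L s * y) (M.scaleRoots s) = 0 :=
      scaleRoots_aeval_eq_zero (minpoly.aeval _ _)
    rw [← hK] at hroot
    have hirr : minpoly K (algebraMap A L a * y) = M.scaleRoots s := by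
      refine (eq_of_monic_of_dvd_of_natDegree_le (minpoly.monic hay.tower_top) hmon
        (minpoly.dvd _ _ hroot) ?_).symm
      rw [natDegree_scaleRoots]
      refine natDegree_le_of_dvd (minpoly.dvd _ _ ?_) ?_ |>.trans_eq
        (natDegree_scaleRoots (minpoly K (algebraMap A L a * y)) s⁻¹)
      · have h := scaleRoots_aeval_eq_zero (r := s⁻¹)
          (minpoly.aeval K (algebraMap A L a * y))
        rwa [map_inv₀, hK, ← mul_assoc, inv_mul_cancel₀ ((_root_.map_ne_zero _).mpr (hne a ha)),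
          one_mul, ← hK] at h
      · exact ((monic_scaleRoots_iff _).mpr (minpoly.monic hay.tower_top)).ne_zero
    have h := minpoly.isIntegrallyClosed_eq_field_fractions' K hay
    rw [hirr] at h
    refine ⟨(minpoly A (algebraMap A L a * y)).coeff i, ?_⟩
    rw [← coeff_map, ← h, coeff_scaleRoots]
  have hlifts : M ∈ lifts (algebraMap A K) := by
    rw [lifts_iff_coeff_lifts]
    intro i
    obtain ⟨b₁, hb₁⟩ := hscale c hc0 hl i
    obtain ⟨b₂, hb₂⟩ := hscale D hD0 hDy i
    set m := M.natDegree - i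
    have hdvd : p ^ (n * m) ∣ b₁ := by
      refine hp.pow_dvd_of_dvd_mul_right _ (b := D ^ m) ?_ ⟨b₂, ?_⟩
      · exact fun h => hD (hp.dvd_of_dvd_pow h)
      · apply IsFractionRing.injective A K
        rw [map_mul, map_mul, map_pow, map_pow, hb₁, hb₂, hc, map_pow]
        ring
    obtain ⟨b, hb⟩ := hdvd
    refine ⟨b, mul_right_cancel₀ (pow_ne_zero m (hne c hc0)) ?_⟩
    rw [← hb₁, hb, map_mul, hc, map_pow (algebraMap A K) p, map_pow (algebraMap A K) p]
    ring
  obtain ⟨P, hP, -, hPm⟩ := lifts_and_natDegree_eq_and_monic hlifts (minpoly.monic hyK)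
  refine ⟨P, hPm, ?_⟩
  have h := minpoly.aeval K y
  rw [← hM, ← hP, aeval_map_algebraMap] at h
  exact h


variable (N : ℕ) [NeZero N] (ℓ : ℕ) [hℓ : Fact ℓ.Prime]

set_option quotPrecheck false in
local notation "ℤℓ" => ↥(GaloisRep.ratLocalizedAt ℓ)

set_option quotPrecheck false in
local notation "F" => ↥(modularFunctionFieldFull N)

/-- `j (N z)` in `ℚ(X₀(N))`. -/
def jTopFull : F := ⟨jTopR N ℚ, by
  rw [jTopR, qScale_eq, jqModC_rat]; exact jqd_mem_full N dvd_rfl⟩

/-- The expansion of an element of `ℚ(X₀(N))`. -/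
abbrev serF : F →+* LaurentSeries ℚ := (modularFunctionFieldFull N).toSubfield.subtype

/-- Laurent series over `ℤ_(ℓ)` as series over `ℚ`. -/
abbrev serZ : LaurentSeries ℤℓ →+* LaurentSeries ℚ :=
  coeffMap (GaloisRep.ratLocalizedAt ℓ).subtype

theorem serZ_injective : Function.Injective (serZ ℓ) :=
  coeffMap_injective Subtype.val_injective

/-- `ℤ_(ℓ)[s] → ℚ(X₀(N))`. -/
def sEval (s : F) : (ℤℓ)[X] →+* F := eval₂RingHom (algebraMap ℤℓ F) s

/-- `ℤ_(ℓ)[j] → ℚ(X₀(N))`. -/
abbrev jEval : (ℤℓ)[X] →+* F := sEval N ℓ (jFull N)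

theorem serF_algebraMap (a : ℤℓ) : serF N (algebraMap ℤℓ F a) = HahnSeries.C (a : ℚ) := by
  show ((algebraMap ℚ F (a : ℚ) : F) : LaurentSeries ℚ) = _
  exact map_ratCast (serF N) _ |>.trans (map_ratCast (HahnSeries.C : ℚ →+* LaurentSeries ℚ) _).symm |>.trans (by rw [Rat.cast_id])

theorem serF_jEval (p : (ℤℓ)[X]) : serF N (jEval N ℓ p) = serZ ℓ (evJ ℤℓ p) := by
  have h : (serF N).comp (jEval N ℓ) = (serZ ℓ).comp (evJ ℤℓ) := by
    refine Polynomial.ringHom_ext (fun a => ?_) ?_
    · simp only [RingHom.comp_apply, jEval, sEval, evJ, coe_eval₂RingHom, eval₂_C, serF_algebraMap]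
      simp [coeffMap_C, -HahnSeries.C_apply]
    · simp only [RingHom.comp_apply, jEval, sEval, evJ, coe_eval₂RingHom, eval₂_X, coeffMap_jqModC]
      rfl
  exact RingHom.congr_fun h p

theorem jEval_injective : Function.Injective (jEval N ℓ) := fun p q h => by
  have h1 := congrArg (serF N) h
  rw [serF_jEval, serF_jEval, coeffMap_evJ, coeffMap_evJ] at h1
  exact map_injective _ Subtype.val_injective (evJ_injective h1)

theorem serF_eval₂ (P : (ℤℓ)[X][X]) :
    serF N (P.eval₂ (jEval N ℓ) (jTopFull N)) = serZ ℓ (P.eval₂ (evJ ℤℓ) (jTopR N ℤℓ)) := by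
  rw [hom_eval₂, hom_eval₂, show serZ ℓ (jTopR N ℤℓ) = serF N (jTopFull N) from coeffMap_jTopR _ _]
  congr 1
  exact RingHom.ext fun p => serF_jEval N ℓ p

theorem serF_injective : Function.Injective (serF N) := fun _ _ h => Subtype.ext h

variable (hℓN : ¬ ℓ ∣ N)

theorem modEqInt_eval_jEval : (modEqInt N ℓ hℓN).eval₂ (jEval N ℓ) (jTopFull N) = 0 := by
  apply serF_injective N
  rw [serF_eval₂, modEqInt_eval, map_zero, map_zero]

include hℓN in
theorem eq_zero_of_eval₂_jEval (P : (ℤℓ)[X][X]) (hdeg : P.natDegree < dedekindPsi N)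
    (h : P.eval₂ (jEval N ℓ) (jTopFull N) = 0) : P = 0 := by
  have h1 := congrArg (serF N) h
  rw [serF_eval₂, map_zero] at h1
  have h2 := congrArg (coeffMap (Rat.castHom ℂ)) h1
  rw [serZ, coeffMap_coeffMap, coeffMap_eval₂_evJ, map_zero] at h2
  have h3 := eq_zero_of_eval₂_evJ (N := N) (zetaRing N).subtype _
    (lt_of_le_of_lt natDegree_map_le hdeg) h2
  exact map_injective _ (map_injective _ (zlToC_injective ℓ))
    (h3.trans (Polynomial.map_zero _).symm)

theorem generated_by_jTopFull :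
    IntermediateField.adjoin ℚ ({jFull N, jTopFull N} : Set F) = ⊤ := by
  rw [eq_top_iff]
  intro x hx
  clear hx
  set E := IntermediateField.adjoin ℚ ({jFull N, jTopFull N} : Set F)
  have hle : (modularFunctionField N).toSubfield ≤ E.toSubfield.map (serF N) := by
    rw [modularFunctionField, IntermediateField.adjoin_toSubfield, Subfield.closure_le]
    rintro z (⟨c, rfl⟩ | rfl | rfl)
    · exact ⟨(c : F), SubfieldClass.ratCast_mem E.toSubfield c, by rw [map_ratCast, eq_ratCast]⟩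
    · exact ⟨jFull N, IntermediateField.subset_adjoin _ _ (Set.mem_insert _ _), rfl⟩
    · refine ⟨jTopFull N, IntermediateField.subset_adjoin _ _ (Set.mem_insert_of_mem _ rfl), ?_⟩
      show jTopR N ℚ = _
      rw [jTopR, qScale_eq, jqModC_rat]
  obtain ⟨y, hy, hyx⟩ :=
    Subfield.mem_map.mp (hle ((modularFunctionField_eq_full N).ge x.2))
  rwa [← serF_injective N hyx]

/-! ### `ℤ_(ℓ)[j]`, its fraction field and the minimal polynomial of `j (N z)` -/

/-- `ℚ(j)`. -/
abbrev jField : IntermediateField ℚ F := ℚ⟮jFull N⟯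

theorem jEval_mem (p : (ℤℓ)[X]) : jEval N ℓ p ∈ jField N := by
  rw [jEval, sEval, coe_eval₂RingHom, eval₂_eq_sum, sum_def]
  refine sum_mem fun i _ => mul_mem ?_ (pow_mem (IntermediateField.mem_adjoin_simple_self ℚ _) i)
  exact (jField N).algebraMap_mem ((p.coeff i : ℤℓ) : ℚ)

/-- The algebra structure of `ℤ_(ℓ)[j]` on `ℚ(X₀(N))`. -/
abbrev jAlgebra : Algebra (ℤℓ)[X] F := (jEval N ℓ).toAlgebra

/-- The algebra structure of `ℤ_(ℓ)[j]` on `ℚ(j)`. -/
abbrev jFieldAlgebra : Algebra (ℤℓ)[X] (jField N) :=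
  ((jEval N ℓ).codRestrict (jField N).toSubfield.toSubring (jEval_mem N ℓ)).toAlgebra

attribute [local instance] jAlgebra jFieldAlgebra

theorem jTower : IsScalarTower (ℤℓ)[X] (jField N) F :=
  IsScalarTower.of_algebraMap_eq' rfl

attribute [local instance] jTower

theorem isFractionRing_jField : IsFractionRing (ℤℓ)[X] (jField N) := by
  have hinj : Function.Injective (algebraMap (ℤℓ)[X] (jField N)) := fun p q h =>
    jEval_injective N ℓ (congrArg Subtype.val h)
  have : FaithfulSMul (ℤℓ)[X] (jField N) := (faithfulSMul_iff_algebraMap_injective _ _).mpr hinj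
  refine IsFractionRing.of_field _ _ fun z => ?_
  obtain ⟨z, hz⟩ := z
  obtain ⟨r, s, rfl⟩ := (IntermediateField.mem_adjoin_simple_iff ℚ z).mp hz
  have key : ∀ r : ℚ[X], ∃ (d : ℕ) (p : (ℤℓ)[X]), d ≠ 0 ∧
      jEval N ℓ p = (d : F) * aeval (jFull N) r := by
    intro r
    induction r using Polynomial.induction_on' with
    | add p q hp hq =>
      obtain ⟨d, p', hd, hp'⟩ := hp
      obtain ⟨e, q', he, hq'⟩ := hq
      refine ⟨d * e, C (e : ℤℓ) * p' + C (d : ℤℓ) * q', Nat.mul_ne_zero hd he, ?_⟩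
      simp only [map_add, map_mul, map_natCast, hp', hq', Nat.cast_mul]
      ring
    | monomial n c =>
      refine ⟨c.den, monomial n (c.num : ℤℓ), c.den_ne_zero, ?_⟩
      simp only [jEval, sEval, coe_eval₂RingHom, eval₂_monomial, aeval_monomial, map_intCast, ← mul_assoc]
      congr 1
      rw [← map_natCast (algebraMap ℚ F), ← map_mul, mul_comm, Rat.mul_den_eq_num, map_intCast]
  obtain ⟨d, p, hd, hp⟩ := key r
  obtain ⟨e, q, he, hq⟩ := key s
  refine ⟨C (e : ℤℓ) * p, C (d : ℤℓ) * q, Subtype.ext ?_⟩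
  show aeval (jFull N) r / aeval (jFull N) s =
    jEval N ℓ (C (e : ℤℓ) * p) / jEval N ℓ (C (d : ℤℓ) * q)
  simp only [map_mul, map_natCast, hp, hq]
  rcases eq_or_ne (aeval (jFull N) s) 0 with h | h
  · simp [h]
  · field_simp

attribute [local instance] isFractionRing_jField

include hℓN in
theorem isIntegral_jTopFull : IsIntegral (ℤℓ)[X] (jTopFull N) :=
  ⟨modEqInt N ℓ hℓN, modEqInt_monic N ℓ hℓN, modEqInt_eval_jEval N ℓ hℓN⟩

theorem minpoly_jTopFull : minpoly (ℤℓ)[X] (jTopFull N) = modEqInt N ℓ hℓN := by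
  have : Module.IsTorsionFree (ℤℓ)[X] F := by
    have : FaithfulSMul (ℤℓ)[X] F :=
      (faithfulSMul_iff_algebraMap_injective _ _).mpr (jEval_injective N ℓ)
    infer_instance
  have hint := isIntegral_jTopFull N ℓ hℓN
  refine eq_of_monic_of_dvd_of_natDegree_le (minpoly.monic hint) (modEqInt_monic N ℓ hℓN)
    ?_ ?_ |>.symm
  · exact minpoly.isIntegrallyClosed_dvd hint (modEqInt_eval_jEval N ℓ hℓN)
  · rw [modEqInt_natDegree]
    by_contra h
    push Not at h
    exact minpoly.ne_zero hint (eq_zero_of_eval₂_jEval N ℓ hℓN _ h (minpoly.aeval (ℤℓ)[X] (jTopFull N)))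

theorem minpoly_jField :
    minpoly (jField N) (jTopFull N) =
      (modEqInt N ℓ hℓN).map (algebraMap (ℤℓ)[X] (jField N)) := by
  rw [← minpoly_jTopFull N ℓ hℓN]
  exact minpoly.isIntegrallyClosed_eq_field_fractions' (jField N) (isIntegral_jTopFull N ℓ hℓN)

include hℓN in
theorem adjoin_jTopFull : Algebra.adjoin (jField N) ({jTopFull N} : Set F) = ⊤ := by
  have hint : IsIntegral (jField N) (jTopFull N) := (isIntegral_jTopFull N ℓ hℓN).tower_top
  rw [← IntermediateField.adjoin_simple_toSubalgebra_of_isAlgebraic hint.isAlgebraic]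
  have h : (jField N)⟮jTopFull N⟯ = ⊤ := by
    rw [eq_top_iff]
    intro x hx0
    clear hx0
    have hx : x ∈ IntermediateField.adjoin ℚ ({jFull N, jTopFull N} : Set F) := by
      rw [generated_by_jTopFull N]
      exact IntermediateField.mem_top
    induction hx using IntermediateField.adjoin_induction with
    | mem y hy =>
      rcases hy with rfl | rfl
      · exact IntermediateField.algebraMap_mem _
          (⟨_, IntermediateField.mem_adjoin_simple_self ℚ (jFull N)⟩ : jField N)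
      · exact IntermediateField.mem_adjoin_simple_self _ _
    | algebraMap c =>
      exact IntermediateField.algebraMap_mem _
        (⟨_, (jField N).algebraMap_mem c⟩ : jField N)
    | add u v _ _ hu hv => exact add_mem hu hv
    | inv u _ hu => exact inv_mem hu
    | mul u v _ _ hu hv => exact mul_mem hu hv
  rw [h, IntermediateField.top_toSubalgebra]

include hℓN in
theorem finiteDimensional_jField : FiniteDimensional (jField N) F := by
  have hint : IsIntegral (jField N) (jTopFull N) := (isIntegral_jTopFull N ℓ hℓN).tower_top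
  have h := hint.fg_adjoin_singleton
  rw [adjoin_jTopFull N ℓ hℓN, Algebra.top_toSubmodule] at h
  exact ⟨h⟩

include hℓN in
/-- Integral elements, times `Φ'(j (N z))`, are polynomials in `j (N z)`. -/
theorem exists_mul_derivative_eq {x : F} (hx : IsIntegral (ℤℓ)[X] x) :
    ∃ P : (ℤℓ)[X][X], P.natDegree < dedekindPsi N ∧
      x * (derivative (modEqInt N ℓ hℓN)).eval₂ (jEval N ℓ) (jTopFull N) =
        P.eval₂ (jEval N ℓ) (jTopFull N) := by
  have := finiteDimensional_jField N ℓ hℓN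
  have hdual : x ∈ (Algebra.traceForm (jField N) F).dualSubmodule
      (Subalgebra.toSubmodule (Algebra.adjoin (ℤℓ)[X] ({jTopFull N} : Set F))) := by
    rw [LinearMap.BilinForm.mem_dualSubmodule]
    intro z hz
    rw [Submodule.mem_one]
    have hzint : IsIntegral (ℤℓ)[X] z := by
      rw [Subalgebra.mem_toSubmodule, Algebra.adjoin_singleton_eq_range_aeval] at hz
      obtain ⟨p, rfl⟩ := hz
      show IsIntegral _ (aeval (jTopFull N) p)
      rw [aeval_def, eval₂_eq_sum, sum_def]
      exact IsIntegral.sum _ fun i _ =>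
        isIntegral_algebraMap.mul ((isIntegral_jTopFull N ℓ hℓN).pow i)
    exact IsIntegrallyClosed.isIntegral_iff.mp (Algebra.isIntegral_trace (hx.mul hzint))
  rw [traceForm_dualSubmodule_adjoin (ℤℓ)[X] (jField N) (adjoin_jTopFull N ℓ hℓN)
    (isIntegral_jTopFull N ℓ hℓN), Submodule.mem_smul_pointwise_iff_exists] at hdual
  obtain ⟨w, hw, hxw⟩ := hdual
  rw [Subalgebra.mem_toSubmodule, Algebra.adjoin_singleton_eq_range_aeval] at hw
  obtain ⟨Q, rfl⟩ := hw
  refine ⟨Q %ₘ modEqInt N ℓ hℓN, ?_, ?_⟩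
  · rw [← modEqInt_natDegree N ℓ hℓN]
    refine natDegree_modByMonic_lt _ (modEqInt_monic N ℓ hℓN) fun h => ?_
    have := congrArg natDegree h
    rw [modEqInt_natDegree, natDegree_one] at this
    exact absurd this (dedekindPsi_pos N).ne'
  · have hQ : (Q %ₘ modEqInt N ℓ hℓN).eval₂ (jEval N ℓ) (jTopFull N) = aeval (jTopFull N) Q := by
      rw [aeval_def]
      exact eval₂_modByMonic_eq_self_of_root (modEqInt_eval_jEval N ℓ hℓN)
    have hder : aeval (jTopFull N) (derivative (minpoly (jField N) (jTopFull N))) =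
        (derivative (modEqInt N ℓ hℓN)).eval₂ (jEval N ℓ) (jTopFull N) := by
      rw [minpoly_jField N ℓ hℓN, derivative_map, aeval_map_algebraMap]
      rfl
    have hder0 : (derivative (modEqInt N ℓ hℓN)).eval₂ (jEval N ℓ) (jTopFull N) ≠ 0 := by
      intro h
      have h1 := congrArg (serF N) h
      rw [serF_eval₂, map_zero, ← map_zero (serZ ℓ)] at h1
      exact (isUnit_derivative_modEqInt N ℓ hℓN).ne_zero (serZ_injective ℓ h1)
    rw [hQ, ← hxw, hder, smul_eq_mul, mul_comm, ← mul_assoc, mul_inv_cancel₀ hder0, one_mul]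
    rfl

/-! ### Integrality and saturation -/

include hℓN in
/-- Integral elements have integral expansions. -/
theorem exists_serZ_of_isIntegral {x : F} (hx : IsIntegral (ℤℓ)[X] x) :
    ∃ y, serZ ℓ y = serF N x := by
  obtain ⟨P, -, hP⟩ := exists_mul_derivative_eq N ℓ hℓN hx
  obtain ⟨u, hu⟩ := isUnit_derivative_modEqInt N ℓ hℓN
  refine ⟨P.eval₂ (evJ ℤℓ) (jTopR N ℤℓ) * ↑u⁻¹, ?_⟩
  have h := congrArg (serF N) hP
  rw [map_mul, serF_eval₂, serF_eval₂, ← hu] at h
  rw [map_mul, ← h, mul_assoc, ← map_mul, Units.mul_inv, map_one, mul_one]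

include hℓN in
theorem exists_jEval_mul_derivative :
    ∃ (D : (ℤℓ)[X]) (W : (ℤℓ)[X][X]), ¬ C (ℓ : ℤℓ) ∣ D ∧
      jEval N ℓ D = (derivative (modEqInt N ℓ hℓN)).eval₂ (jEval N ℓ) (jTopFull N) *
        W.eval₂ (jEval N ℓ) (jTopFull N) := by
  classical
  have := finiteDimensional_jField N ℓ hℓN
  set β := (derivative (modEqInt N ℓ hℓN)).eval₂ (jEval N ℓ) (jTopFull N) with hβ
  have hβ0 : β ≠ 0 := by
    intro h
    have h1 := congrArg (serF N) h
    rw [serF_eval₂, map_zero, ← map_zero (serZ ℓ)] at h1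
    exact (isUnit_derivative_modEqInt N ℓ hℓN).ne_zero (serZ_injective ℓ h1)
  suffices key : ∀ (D : (ℤℓ)[X]) (W : (ℤℓ)[X][X]), D ≠ 0 →
      jEval N ℓ D = β * W.eval₂ (jEval N ℓ) (jTopFull N) →
      ∃ (D' : (ℤℓ)[X]) (W' : (ℤℓ)[X][X]), ¬ C (ℓ : ℤℓ) ∣ D' ∧
        jEval N ℓ D' = β * W'.eval₂ (jEval N ℓ) (jTopFull N) by
    have : Module.IsTorsionFree (ℤℓ)[X] F := by
      have : FaithfulSMul (ℤℓ)[X] F :=
        (faithfulSMul_iff_algebraMap_injective _ _).mpr (jEval_injective N ℓ)
      infer_instance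
    have hint : IsIntegral (ℤℓ)[X] β := by
      rw [hβ, eval₂_eq_sum, sum_def]
      exact IsIntegral.sum _ fun i _ =>
        isIntegral_algebraMap.mul ((isIntegral_jTopFull N ℓ hℓN).pow i)
    set M := minpoly (ℤℓ)[X] β
    have h0 : M.coeff 0 ≠ 0 := by
      intro h
      exact hβ0 ((minpoly.coeff_zero_eq_zero (A := jField N) hint.tower_top).mp (by
        rw [minpoly.isIntegrallyClosed_eq_field_fractions' (jField N) hint, coeff_map]
        exact (congrArg _ h).trans (map_zero _)))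
    refine key (M.coeff 0) (-((M.divX).comp (derivative (modEqInt N ℓ hℓN)))) h0 ?_
    have hroot := minpoly.aeval (ℤℓ)[X] β
    change aeval β M = 0 at hroot
    rw [← divX_mul_X_add M, map_add, map_mul, aeval_X, aeval_C] at hroot
    have h1 : ((M.divX).comp (derivative (modEqInt N ℓ hℓN))).eval₂ (jEval N ℓ) (jTopFull N) =
        aeval β M.divX := by
      rw [eval₂_comp, aeval_def]
      rfl
    rw [eval₂_neg, h1]
    change jEval N ℓ (M.coeff 0) = _
    rw [show algebraMap (ℤℓ)[X] F (M.coeff 0) = jEval N ℓ (M.coeff 0) from rfl] at hroot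
    linear_combination hroot
  intro D
  induction D using (wellFounded_dvdNotUnit (α := (ℤℓ)[X])).induction with
  | h D ih => ?_
  intro W hD hDW
  by_cases hdvd : C (ℓ : ℤℓ) ∣ D
  swap
  · exact ⟨D, W, hdvd, hDW⟩
  obtain ⟨D₁, rfl⟩ := hdvd
  set R := W %ₘ modEqInt N ℓ hℓN
  have hR : R.eval₂ (jEval N ℓ) (jTopFull N) = W.eval₂ (jEval N ℓ) (jTopFull N) :=
    eval₂_modByMonic_eq_self_of_root (modEqInt_eval_jEval N ℓ hℓN)
  have hRdeg : R.natDegree < dedekindPsi N := by
    rw [← modEqInt_natDegree N ℓ hℓN]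
    refine natDegree_modByMonic_lt _ (modEqInt_monic N ℓ hℓN) fun h => ?_
    have := congrArg natDegree h
    rw [modEqInt_natDegree, natDegree_one] at this
    exact absurd this (dedekindPsi_pos N).ne'
  rw [← hR] at hDW
  have hred := congrArg (serF N) hDW
  rw [serF_jEval, hβ, map_mul (serF N), serF_eval₂, serF_eval₂,
    ← map_mul (serZ ℓ)] at hred
  have hred' := congrArg (coeffMap (zlRes ℓ)) (serZ_injective ℓ hred)
  rw [coeffMap_evJ, map_mul, Polynomial.map_mul, map_C, map_natCast, ZMod.natCast_self, C_0,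
    zero_mul, map_zero] at hred'
  have hW0 : R.map (mapRingHom (zlRes ℓ)) = 0 := by
    refine eq_zero_of_eval₂_evJ_zmod N ℓ hℓN _ (lt_of_le_of_lt natDegree_map_le hRdeg) ?_
    rw [← coeffMap_eval₂_evJ]
    exact (mul_eq_zero.mp hred'.symm).resolve_left
      ((isUnit_derivative_modEqInt N ℓ hℓN).map (coeffMap (zlRes ℓ))).ne_zero
  have hdvdW : C (C (ℓ : ℤℓ)) ∣ R := by
    rw [C_dvd_iff_dvd_coeff]
    intro i
    rw [zl_C_dvd_iff]
    have := congrArg (fun p => p.coeff i) hW0
    simpa [coeff_map] using this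
  obtain ⟨W₁, hW₁⟩ := hdvdW
  rw [hW₁, eval₂_mul, eval₂_C, map_mul] at hDW
  have hl0 : jEval N ℓ (C (ℓ : ℤℓ)) ≠ 0 := by
    rw [map_natCast, map_natCast]
    exact_mod_cast hℓ.out.ne_zero
  have hD1 : D₁ ≠ 0 := fun h => hD (by rw [h, mul_zero])
  refine ih D₁ ?_ W₁ hD1 ?_
  · exact ⟨hD1, C (ℓ : ℤℓ), (zl_C_prime ℓ).not_isUnit, mul_comm _ _⟩
  · apply mul_left_cancel₀ hl0
    rw [hDW]; ring

include hℓN in
/-- An integral element with expansion divisible by `ℓ` is divisible by `ℓ`. -/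
theorem isIntegral_div_of_serZ {x : F} (hx : IsIntegral (ℤℓ)[X] x) {y : LaurentSeries ℤℓ}
    (hy : serZ ℓ y = serF N x) (hy0 : coeffMap (zlRes ℓ) y = 0) :
    IsIntegral (ℤℓ)[X] (x / (ℓ : F)) := by
  obtain ⟨P, hPdeg, hP⟩ := exists_mul_derivative_eq N ℓ hℓN hx
  obtain ⟨D, W, hD, hDW⟩ := exists_jEval_mul_derivative N ℓ hℓN
  have h1 := congrArg (serF N) hP
  rw [map_mul, serF_eval₂, serF_eval₂, ← hy, ← map_mul] at h1
  have h2 := congrArg (coeffMap (zlRes ℓ)) (serZ_injective ℓ h1)
  rw [map_mul, hy0, zero_mul, coeffMap_eval₂_evJ] at h2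
  have hP0 := eq_zero_of_eval₂_evJ_zmod N ℓ hℓN _ (lt_of_le_of_lt natDegree_map_le hPdeg) h2.symm
  have hdvd : C (C (ℓ : ℤℓ)) ∣ P := by
    rw [C_dvd_iff_dvd_coeff]
    intro i
    rw [zl_C_dvd_iff]
    have := congrArg (fun p => p.coeff i) hP0
    simpa [coeff_map] using this
  obtain ⟨P₁, rfl⟩ := hdvd
  rw [eval₂_mul, eval₂_C, map_natCast, map_natCast] at hP
  have hl0 : (ℓ : F) ≠ 0 := by exact_mod_cast hℓ.out.ne_zero
  have : FaithfulSMul (ℤℓ)[X] F :=
    (faithfulSMul_iff_algebraMap_injective _ _).mpr (jEval_injective N ℓ)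
  refine isIntegral_of_scaled (zl_C_prime ℓ) (n := 1) hD ?_ ?_
  · rw [pow_one, show algebraMap (ℤℓ)[X] F (C (ℓ : ℤℓ)) = (ℓ : F) by
      show jEval N ℓ _ = _; rw [map_natCast, map_natCast]]
    rwa [mul_div_cancel₀ _ hl0]
  · show IsIntegral _ (jEval N ℓ D * _)
    have he : jEval N ℓ D * (x / (ℓ : F)) =
        P₁.eval₂ (jEval N ℓ) (jTopFull N) * W.eval₂ (jEval N ℓ) (jTopFull N) := by
      rw [hDW]
      field_simp
      linear_combination (W.eval₂ (jEval N ℓ) (jTopFull N)) * hP
    rw [he]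
    have hev : ∀ Q : (ℤℓ)[X][X], IsIntegral (ℤℓ)[X] (Q.eval₂ (jEval N ℓ) (jTopFull N)) := by
      intro Q
      rw [eval₂_eq_sum, sum_def]
      exact IsIntegral.sum _ fun i _ =>
        isIntegral_algebraMap.mul ((isIntegral_jTopFull N ℓ hℓN).pow i)
    exact (hev _).mul (hev _)

/-- The chart of `s` is the integral closure of `ℤ_(ℓ)[s]`. -/
theorem mem_chartAlg_singleton_iff (s x : F) :
    x ∈ chartAlg N ℓ {s} ↔ @IsIntegral (ℤℓ)[X] F _ _ (sEval N ℓ s).toAlgebra x := by
  have hrange : ∀ p : (ℤℓ)[X], sEval N ℓ s p ∈ Algebra.adjoin ℤℓ ({s} : Set F) := fun p =>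
    aeval_mem_adjoin_singleton ℤℓ s
  rw [mem_chartAlg_iff]
  constructor
  · rintro ⟨p, hpm, hp⟩
    have hsurj : ∀ c : Algebra.adjoin ℤℓ ({s} : Set F), ∃ q, sEval N ℓ s q = (c : F) := by
      intro c
      have hc := c.2
      simp only [Algebra.adjoin_singleton_eq_range_aeval] at hc
      obtain ⟨q, hq⟩ := hc
      exact ⟨q, hq⟩
    have hl : p.map (algebraMap _ F) ∈ lifts (sEval N ℓ s) := by
      rw [lifts_iff_coeff_lifts]
      intro i
      rw [coeff_map]
      exact hsurj _
    obtain ⟨q, hq, -, hqm⟩ := lifts_and_natDegree_eq_and_monic hl (hpm.map _)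
    exact ⟨q, hqm, show q.eval₂ (sEval N ℓ s) x = 0 by rw [← eval_map, hq, eval_map]; exact hp⟩
  · rintro ⟨p, hpm, hp⟩
    refine ⟨p.map ((sEval N ℓ s).codRestrict (Algebra.adjoin ℤℓ ({s} : Set F)).toSubring
      hrange), hpm.map _, ?_⟩
    rw [eval₂_map]
    exact hp

theorem mem_chartAlgFin_iff (x : F) : x ∈ chartAlgFin N ℓ ↔ IsIntegral (ℤℓ)[X] x :=
  mem_chartAlg_singleton_iff N ℓ (jFull N) x

include hℓN in
theorem exists_serZ_of_mem_chartFin {x : F} (hx : x ∈ chartAlgFin N ℓ) :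
    ∃ y, serZ ℓ y = serF N x :=
  exists_serZ_of_isIntegral N ℓ hℓN ((mem_chartAlgFin_iff N ℓ x).mp hx)

include hℓN in
theorem div_mem_chartFin {x : F} (hx : x ∈ chartAlgFin N ℓ) {y : LaurentSeries ℤℓ}
    (hy : serZ ℓ y = serF N x) (hy0 : coeffMap (zlRes ℓ) y = 0) :
    x / (ℓ : F) ∈ chartAlgFin N ℓ :=
  (mem_chartAlgFin_iff N ℓ _).mpr
    (isIntegral_div_of_serZ N ℓ hℓN ((mem_chartAlgFin_iff N ℓ x).mp hx) hy hy0)

end FLTAgent.Reduction
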