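import Fermat.Agent.Reduction.GaussCusps

/-!
# Counting cusps

Cosets with the same `cuspKey` give the same place (`cuspPlace_eq_of_key`, their series differ by
`q ↦ ζ q`), so at most `cuspCount N` places lie over `j = ∞` (`card_poles_le`). Conversely the
place determines `a`, and the whole coset when `a² = N` (`cuspPlace_invariant`), which keeps apart
the chosen cusps of levels `4` and `9` (`le_card_cuspPlace`).
-/

set_option autoImplicit false

noncomputable section

open ModularCurve IntermediateField AlgebraicCurve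
open scoped IntermediateField

namespace FLTAgent.Reduction

open FLTAgent.ModularCosets

/-- `q ↦ u q` as a `k`-algebra homomorphism. -/
def twistHom {k : Type*} [Field k] (u : kˣ) : LaurentSeries k →ₐ[k] LaurentSeries k where
  toRingHom := twist u
  commutes' r := by rw [algebraMap_eq_C]; exact twist_C u r

/-- The invariant of a cusp. -/
def cuspKey {N : ℕ} [NeZero N] (c : CosetIdx N) : Σ _ : ℕ, ℕ :=
  ⟨c.a, c.b % Nat.gcd c.a c.D⟩

theorem card_image_cuspKey (N : ℕ) [NeZero N] :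
    (Finset.univ.image (cuspKey (N := N))).card ≤ cuspCount N := by
  classical
  refine le_trans (Finset.card_le_card (t := N.divisors.sigma fun a =>
    (Finset.range (Nat.gcd a (N / a))).filter (fun b => (Nat.gcd a (N / a)).Coprime b)) ?_) ?_
  · intro p hp
    obtain ⟨c, -, rfl⟩ := Finset.mem_image.mp hp
    refine Finset.mem_sigma.mpr ⟨Nat.mem_divisors.mpr ⟨c.a_dvd, NeZero.ne N⟩,
      Finset.mem_filter.mpr ⟨Finset.mem_range.mpr (Nat.mod_lt _ ?_), ?_⟩⟩
    · exact Nat.gcd_pos_of_pos_left _ (Nat.pos_of_ne_zero c.a_ne_zero)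
    · show (Nat.gcd c.a c.D).Coprime (c.b % Nat.gcd c.a c.D)
      rw [Nat.Coprime, Nat.gcd_comm, ← Nat.gcd_rec]
      exact c.gcd_eq
  · rw [Finset.card_sigma, cuspCount]
    exact le_of_eq (Finset.sum_congr rfl fun a _ => (Nat.totient_eq_card_coprime _).symm)

variable {N : ℕ} [NeZero N] {k : Type*} [Field k] (φ : zetaRing N →+* k)

theorem exists_translate {c c' : CosetIdx N} (h : cuspKey c = cuspKey c') :
    ∃ n : ℤ, (N : ℤ) ∣ ((c'.a * c'.b : ℕ) : ℤ) - ((c.a * c.b : ℕ) : ℤ) - n * (c.a * c.a : ℕ) := by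
  have ha : c.a = c'.a := congrArg Sigma.fst h
  have hD : c.D = c'.D := by rw [CosetIdx.D_def, CosetIdx.D_def, ha]
  have hb : c.b % Nat.gcd c.a c.D = c'.b % Nat.gcd c.a c.D := by
    have := congrArg Sigma.snd h
    simp only [cuspKey] at this
    rwa [← ha, ← hD] at this
  obtain ⟨t, ht⟩ : ((Nat.gcd c.a c.D : ℕ) : ℤ) ∣ (c'.b : ℤ) - c.b :=
    Nat.modEq_iff_dvd.mp hb
  refine ⟨t * Nat.gcdA c.a c.D, ⟨t * Nat.gcdB c.a c.D, ?_⟩⟩
  have hN : (N : ℤ) = (c.a : ℤ) * c.D := by exact_mod_cast c.a_mul_D.symm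
  rw [hN, ← ha]
  push_cast
  rw [Nat.gcd_eq_gcd_ab c.a c.D] at ht
  linear_combination (c.a : ℤ) * ht

theorem zpow_zetaOf_eq {m m' : ℤ} (h : (N : ℤ) ∣ m - m') : zetaOf φ ^ m = zetaOf φ ^ m' := by
  obtain ⟨d, hd⟩ := h
  have : m = m' + N * d := by linarith
  rw [this, zpow_add, zpow_mul, zpow_natCast, (zetaOf_primitive φ).pow_eq_one, one_zpow, mul_one]

theorem exists_twist_rootsOf {c c' : CosetIdx N} (h : cuspKey c = cuspKey c') :
    ∃ u : kˣ, twist u (jUp N k) = jUp N k ∧ twist u (rootsOf φ c) = rootsOf φ c' := by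
  have ha : c.a = c'.a := congrArg Sigma.fst h
  obtain ⟨n, hn⟩ := exists_translate h
  refine ⟨zetaOf φ ^ n, ?_, ?_⟩
  · rw [jUp, twist_qScale _ (NeZero.ne N),
      show (zetaOf φ ^ n) ^ N = 1 by
        rw [← zpow_natCast, ← zpow_mul, mul_comm, zpow_mul, zpow_natCast,
          (zetaOf_primitive φ).pow_eq_one, one_zpow],
      twist_one]
  · rw [rootsOf, rootsOf, jConj, jConj, ← ha,
      twist_qScale _ (Nat.mul_ne_zero c.a_ne_zero c.a_ne_zero), twist_twist, ← zpow_natCast,
      ← zpow_mul, ← zpow_add, zpow_zetaOf_eq φ (m' := ((c.a * c'.b : ℕ) : ℤ)) ?_]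
    rw [← ha] at hn
    obtain ⟨d, hd⟩ := hn
    exact ⟨-d, by linarith⟩

section places

variable [IsAlgClosed k]

include φ in
theorem cuspPlace_eq_of_order {c c' : CosetIdx N}
    (h : ∀ f, (cuspHom φ c' f).order = (cuspHom φ c f).order) :
    cuspPlace φ c = cuspPlace φ c' := by
  obtain ⟨e, he, h1⟩ := cuspPlace_spec φ c
  obtain ⟨e', he', h2⟩ := cuspPlace_spec φ c'
  refine FF.place_eq_of_ord_nonneg fun f hf => ?_
  have := mul_nonneg (Int.natCast_nonneg e) hf
  rw [← h1, ← h, h2] at this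
  exact nonneg_of_mul_nonneg_right this (by exact_mod_cast he')

theorem cuspPlace_eq_of_key {c c' : CosetIdx N} (h : cuspKey c = cuspKey c') :
    cuspPlace φ c = cuspPlace φ c' := by
  obtain ⟨u, hu1, hu2⟩ := exists_twist_rootsOf φ h
  have hhom : cuspHom φ c' = (twistHom u).comp (cuspHom φ c) := by
    refine hom_ext_gen φ ?_ ?_
    · rw [cuspHom_jF, AlgHom.comp_apply, cuspHom_jF]
      exact hu1.symm
    · rw [cuspHom_jTopF, AlgHom.comp_apply, cuspHom_jTopF]
      exact hu2.symm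
  refine cuspPlace_eq_of_order φ fun f => ?_
  rw [hhom, AlgHom.comp_apply]
  exact order_twist u _

include φ in
/-- There are at most `cuspCount N` places over `j = ∞`. -/
theorem card_poles_le (S : Finset (Place k ↥(modularFunctionFieldFullC k N)))
    (hS : ∀ v ∈ S, v.ord (jF N k) < 0) : S.card ≤ cuspCount N := by
  classical
  refine le_trans ?_ (card_image_cuspKey N)
  choose g hg using fun v : S => exists_eq_cuspPlace φ (hS v.1 v.2)
  rw [← Fintype.card_coe S, ← Finset.card_univ]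
  refine Finset.card_le_card_of_injOn (fun v => cuspKey (g v))
    (fun v _ => Finset.mem_image_of_mem _ (Finset.mem_univ _)) fun v _ v' _ hvv => ?_
  refine Subtype.ext ?_
  rw [← hg v, ← hg v']
  exact cuspPlace_eq_of_key φ hvv

/-! ### Distinguishing cusps -/

theorem order_rootsOf (c : CosetIdx N) : (rootsOf φ c).order = -((c.a : ℤ) * c.a) := by
  rw [rootsOf, jConj, order_qScale (Nat.mul_ne_zero c.a_ne_zero c.a_ne_zero), order_twist,
    order_jqModC]
  · push_cast; ring
  · exact fun h => jqModC_ne_zero_of_nontrivial k (twist_injective _ (h.trans (map_zero _).symm))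

theorem coeff_rootsOf (c : CosetIdx N) :
    (rootsOf φ c).coeff (-((c.a : ℤ) * c.a)) =
      (((zetaOf φ ^ ((c.a * c.b : ℕ) : ℤ))⁻¹ : kˣ) : k) := by
  rw [rootsOf, jConj, show -((c.a : ℤ) * c.a) = ((c.a * c.a : ℕ) : ℤ) * (-1) by push_cast; ring,
    qScale_coeff_mul (Nat.mul_ne_zero c.a_ne_zero c.a_ne_zero), twist_coeff, coeff_jqModC_neg_one,
    mul_one, zpow_neg_one]

omit [IsAlgClosed k] in
theorem coeff_jUp : (jUp N k).coeff (-(N : ℤ)) = 1 := by
  rw [jUp, show -(N : ℤ) = (N : ℤ) * (-1) by ring, qScale_coeff_mul (NeZero.ne N),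
    coeff_jqModC_neg_one]

theorem cuspPlace_invariant {c c' : CosetIdx N} (h : cuspPlace φ c = cuspPlace φ c') :
    c.a = c'.a ∧ (c.a * c.a = N → c = c') := by
  obtain ⟨e, he, h1⟩ := cuspPlace_spec φ c
  obtain ⟨e', he', h2⟩ := cuspPlace_spec φ c'
  rw [← h] at h2
  have hj := h1 (jF N k)
  have hj' := h2 (jF N k)
  rw [cuspHom_jF] at hj hj'
  have hneg : (cuspPlace φ c).ord (jF N k) ≠ 0 := (cuspPlace_ord_jF φ c).ne
  have hee : (e : ℤ) = e' := mul_right_cancel₀ hneg (hj.symm.trans hj')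
  have hord : ∀ f, (cuspHom φ c f).order = (cuspHom φ c' f).order := fun f => by
    rw [h1, h2, hee]
  have ha : c.a = c'.a := by
    have := hord (jTopF N k)
    rw [cuspHom_jTopF, cuspHom_jTopF, order_rootsOf, order_rootsOf, neg_inj] at this
    exact Nat.mul_self_inj.mp (by exact_mod_cast this)
  refine ⟨ha, fun haa => ?_⟩
  set lam : k := (((zetaOf φ ^ ((c.a * c.b : ℕ) : ℤ))⁻¹ : kˣ) : k) with hlam
  set f : ↥(modularFunctionFieldFullC k N) := jTopF N k - algebraMap k _ lam * jF N k with hf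
  have hsig : ∀ d : CosetIdx N, cuspHom φ d f = rootsOf φ d - HahnSeries.C lam * jUp N k := fun d => by
    rw [hf, map_sub, map_mul, AlgHom.commutes, cuspHom_jF, cuspHom_jTopF, algebraMap_eq_C]
  have hNa : -(N : ℤ) = -((c.a : ℤ) * c.a) := by
    rw [neg_inj]; exact_mod_cast haa.symm
  have hcoef : ∀ d : CosetIdx N, d.a = c.a → (cuspHom φ d f).coeff (-(N : ℤ)) =
      (((zetaOf φ ^ ((d.a * d.b : ℕ) : ℤ))⁻¹ : kˣ) : k) - lam := fun d hd => by
    rw [hsig, HahnSeries.coeff_sub, HahnSeries.C_apply, HahnSeries.coeff_single_zero_mul,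
      coeff_jUp, mul_one, hNa, ← hd, coeff_rootsOf]
  have h0 : (cuspHom φ c f).coeff (-(N : ℤ)) = 0 := by rw [hcoef c rfl, sub_self]
  have h0' : (cuspHom φ c' f).coeff (-(N : ℤ)) = 0 := by
    rcases eq_or_ne (cuspHom φ c f) 0 with hz | hz
    · have : f = 0 := (map_eq_zero _).mp hz
      rw [this, map_zero, HahnSeries.coeff_zero]
    · refine HahnSeries.coeff_eq_zero_of_lt_order ?_
      rw [← hord]
      rcases lt_trichotomy (cuspHom φ c f).order (-(N : ℤ)) with hlt | heq | hgt
      · exfalso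
        refine HahnSeries.coeff_order_eq_zero.not.mpr hz ?_
        set m := (cuspHom φ c f).order
        have e1 : (rootsOf φ c).coeff m = 0 := HahnSeries.coeff_eq_zero_of_lt_order (by
          rw [order_rootsOf, ← hNa]; exact hlt)
        have e2 : (jUp N k).coeff m = 0 := HahnSeries.coeff_eq_zero_of_lt_order (by
          rw [jUp, order_qScale (NeZero.ne N) (jqModC_ne_zero_of_nontrivial k), order_jqModC,
            mul_neg_one]
          exact hlt)
        rw [hsig, HahnSeries.coeff_sub, HahnSeries.C_apply, HahnSeries.coeff_single_zero_mul,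
          e1, e2, mul_zero, sub_zero]
      · exact absurd h0 (by rw [← heq]; exact HahnSeries.coeff_order_eq_zero.not.mpr hz)
      · exact hgt
  rw [hcoef c' ha.symm, sub_eq_zero, hlam, Units.val_inj, inv_inj, zpow_natCast, zpow_natCast,
    ← ha] at h0'
  refine CosetIdx.ext' ha ?_
  have hlt : ∀ d : CosetIdx N, d.a = c.a → c.a * d.b < N := fun d hd => by
    refine lt_of_lt_of_eq (Nat.mul_lt_mul_of_pos_left d.b_lt (Nat.pos_of_ne_zero c.a_ne_zero)) ?_
    rw [← hd]
    exact d.a_mul_D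
  have := (zetaOf_primitive φ).pow_inj (hlt c' ha.symm) (hlt c rfl) h0'
  exact (Nat.eq_of_mul_eq_mul_left (Nat.pos_of_ne_zero c.a_ne_zero) this).symm

/-- The four cusps of level `9`, resp. three of level `4`, give distinct places. -/
theorem le_card_cuspPlace (s : Finset (CosetIdx N))
    (hs : ∀ c ∈ s, ∀ c' ∈ s, c.a = c'.a → c.a * c.a = N ∨ c = c') :
    Set.InjOn (cuspPlace φ) (s : Set (CosetIdx N)) := by
  intro c hc c' hc' h
  obtain ⟨h1, h2⟩ := cuspPlace_invariant φ h
  rcases hs c hc c' hc' h1 with h3 | h3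
  · exact h2 h3
  · exact h3

end places

end FLTAgent.Reduction
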