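import Mathlib
import Fermat.Prelude.Def_ModularCurve_GenusNumerics
import Fermat.Agent.FF.PlacesMain
import Fermat.Agent.Reduction.GaussField
import Fermat.Agent.Reduction.PlacesParam

/-!
# Places over `j = ∞`

Each coset of `Γ₀(N)` gives an embedding `cuspHom` of `k(X₀(N))` into `k((q^(1/N)))`, hence a
place `cuspPlace` where `j` has a pole. Every such place arises in this way
(`exists_eq_cuspPlace`): the minimal polynomial of a suitable function over `k(j)` splits among
these series.
-/

set_option autoImplicit false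

noncomputable section

open ModularCurve IntermediateField AlgebraicCurve
open scoped IntermediateField

namespace FLTAgent.Reduction

open FLTAgent.ModularCosets

/-! ### The place of a series embedding -/

section serPlace

variable {k F : Type*} [Field k] [Field F] [Algebra k F]

/-- The functions regular at the origin of a series embedding. -/
def serValRing (σ : F →ₐ[k] LaurentSeries k) : ValuationSubring F where
  carrier := {f | 0 ≤ (σ f).order}
  zero_mem' := by simp
  one_mem' := by simp
  add_mem' {a b} ha hb := by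
    simp only [Set.mem_ofPred_eq] at ha hb ⊢
    by_cases h : σ (a + b) = 0
    · simp [h]
    rw [map_add] at h ⊢
    have := HahnSeries.min_order_le_order_add h
    omega
  mul_mem' {a b} ha hb := by
    simp only [Set.mem_ofPred_eq] at ha hb ⊢
    by_cases ha0 : σ a = 0
    · simp [ha0]
    by_cases hb0 : σ b = 0
    · simp [hb0]
    rw [map_mul, HahnSeries.order_mul ha0 hb0]
    omega
  neg_mem' {a} ha := by
    simp only [Set.mem_ofPred_eq] at ha ⊢
    rw [map_neg, HahnSeries.order_neg]
    exact ha
  mem_or_inv_mem' a := by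
    rcases le_total 0 (σ a).order with h | h
    · exact Or.inl h
    · right
      show 0 ≤ (σ a⁻¹).order
      by_cases ha0 : σ a = 0
      · rw [map_inv₀, ha0, inv_zero, HahnSeries.order_zero]
      have h1 : (σ a).order + (σ a⁻¹).order = 0 := by
        have h2 := HahnSeries.order_mul ha0 (map_inv₀ σ a ▸ inv_ne_zero ha0 : σ a⁻¹ ≠ 0)
        rw [← map_mul, mul_inv_cancel₀ (fun h0 => ha0 (by rw [h0, map_zero])), map_one,
          HahnSeries.order_one] at h2
        exact h2.symm
      omega

theorem mem_serValRing (σ : F →ₐ[k] LaurentSeries k) {f : F} :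
    f ∈ serValRing σ ↔ 0 ≤ (σ f).order := Iff.rfl

theorem ordAtPole {v : Place k F} {z : F} (hz : v.ord z < 0) (p : Polynomial k) (hp : p ≠ 0) :
    Polynomial.aeval z p ≠ 0 ∧ v.ord (Polynomial.aeval z p) = p.natDegree * v.ord z :=
  ord_aeval_of_neg hz p hp

theorem exists_serPlace [IsAlgClosed k] [FF.IsFF k F] (σ : F →ₐ[k] LaurentSeries k) {x : F}
    (hx : (σ x).order < 0) :
    ∃ (v : Place k F) (e : ℕ), 0 < e ∧ ∀ f : F, (σ f).order = e * v.ord f := by
  have hconst : ∀ a : k, algebraMap k F a ∈ serValRing σ := fun a => by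
    rw [mem_serValRing, AlgHom.commutes, algebraMap_eq_C]
    rcases eq_or_ne a 0 with rfl | ha
    · simp
    · rw [HahnSeries.C_apply, HahnSeries.order_single ha]
  have htop : serValRing σ ≠ ⊤ := fun h => by
    have h1 : x ∈ serValRing σ := h ▸ trivial
    rw [mem_serValRing] at h1
    omega
  obtain ⟨v, hv⟩ := FF.exists_place_eq (serValRing σ) hconst htop
  have hiff : ∀ f : F, f ≠ 0 → (0 ≤ v.ord f ↔ 0 ≤ (σ f).order) := fun f hf => by
    rw [← FF.mem_iff_ord_nonneg v hf, hv, mem_serValRing]
  obtain ⟨π, hπ0, hπ⟩ := FF.exists_ord_eq v 1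
  have hσ : ∀ f : F, f ≠ 0 → σ f ≠ 0 := fun f hf => (map_ne_zero _).mpr hf
  have hpowo : ∀ n : ℕ, (σ (π ^ n)).order = n * (σ π).order := fun n => by
    rw [map_pow, HahnSeries.order_pow, nsmul_eq_mul]
  have hinvo : ∀ f : F, f ≠ 0 → (σ f⁻¹).order = -(σ f).order := fun f hf => by
    have h2 := HahnSeries.order_mul (hσ f hf) (hσ _ (inv_ne_zero hf))
    rw [← map_mul, mul_inv_cancel₀ hf, map_one, HahnSeries.order_one] at h2
    omega
  have hzpow : ∀ n : ℤ, (σ (π ^ n)).order = n * (σ π).order := by
    intro n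
    obtain ⟨m, rfl | rfl⟩ := n.eq_nat_or_neg
    · rw [zpow_natCast, hpowo]
    · rw [zpow_neg, zpow_natCast, hinvo _ (pow_ne_zero _ hπ0), hpowo, neg_mul]
  have hzord : ∀ n : ℤ, v.ord (π ^ n) = n := by
    intro n
    obtain ⟨m, rfl | rfl⟩ := n.eq_nat_or_neg
    · rw [zpow_natCast, FF.ord_pow, hπ, mul_one]
    · rw [zpow_neg, zpow_natCast, v.ord_inv, FF.ord_pow, hπ, mul_one]
  have key : ∀ f : F, (σ f).order = (σ π).order * v.ord f := by
    intro f
    rcases eq_or_ne f 0 with rfl | hf
    · simp
    set u := f * π ^ (-(v.ord f)) with hu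
    have hu0 : u ≠ 0 := mul_ne_zero hf (zpow_ne_zero _ hπ0)
    have hov : v.ord u = 0 := by
      rw [hu, v.ord_mul hf (zpow_ne_zero _ hπ0), hzord]
      ring
    have h1 := (hiff u hu0).mp hov.ge
    have h2 := (hiff u⁻¹ (inv_ne_zero hu0)).mp (by rw [v.ord_inv, hov, neg_zero])
    rw [hinvo u hu0] at h2
    have h3 : (σ u).order = (σ f).order + -(v.ord f) * (σ π).order := by
      rw [hu, map_mul, HahnSeries.order_mul (hσ f hf) (hσ _ (zpow_ne_zero _ hπ0)), hzpow]
    linarith
  have he : 0 < (σ π).order := by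
    have h1 := key x
    have h2 : v.ord x < 0 := by
      by_contra hcon
      push Not at hcon
      have hx0 : x ≠ 0 := fun h => by rw [h, map_zero, HahnSeries.order_zero] at hx; omega
      have := (hiff x hx0).mp hcon
      omega
    nlinarith
  exact ⟨v, (σ π).order.toNat, by omega, fun f => by rw [key f, Int.toNat_of_nonneg he.le]⟩

end serPlace

variable {N : ℕ} [NeZero N] {k : Type*} [Field k] (φ : zetaRing N →+* k)

set_option quotPrecheck false in
local notation "FN" => ↥(modularFunctionFieldFullC k N)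

variable (N k) in
/-- `k(j)` inside the function field. -/
abbrev jLine : IntermediateField k ↥(modularFunctionFieldFullC k N) := k⟮jF N k⟯

variable (N k) in
/-- The scaled series of a function. -/
abbrev upVal : ↥(modularFunctionFieldFullC k N) →ₐ[k] LaurentSeries k := (upHom N k).comp (modularFunctionFieldFullC k N).val

variable (N k) in
/-- `k(j) → k((q ^ (1 / N)))`. -/
abbrev lineHom : jLine N k →+* LaurentSeries k :=
  (upVal N k).toRingHom.comp (algebraMap (jLine N k) ↥(modularFunctionFieldFullC k N))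

theorem upVal_jF : upVal N k (jF N k) = jUp N k := upHom_apply _

theorem upVal_jTopF : upVal N k (jTopF N k) = rootsOf φ (cosetInf N) := by
  rw [rootsOf_cosetInf]
  exact upHom_jTopC

theorem algebraMap_line_eval (p : Polynomial k) :
    upVal N k (Polynomial.aeval (jF N k) p) = p.eval₂ HahnSeries.C (jUp N k) := by
  rw [← Polynomial.aeval_algHom_apply, upVal_jF, Polynomial.aeval_def, algebraMap_eq_C]

theorem minpoly_jTopF_map :
    (minpoly (jLine N k) (jTopF N k)).map (lineHom N k) = famPoly (rootsOf φ) := by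
  obtain ⟨hint, hdeg⟩ := minpoly_jTopF φ
  have hlift : famPoly (rootsOf φ) ∈ Polynomial.lifts (lineHom N k) := by
    rw [Polynomial.lifts_iff_coeff_lifts]
    intro i
    obtain ⟨p, hp⟩ := mem_polyJ_iff.mp ((isSymFamily_map φ (jTopFamily N)).coeff_root i)
    refine ⟨⟨Polynomial.aeval (jF N k) p, ?_⟩, ?_⟩
    · exact IntermediateField.algebra_adjoin_le_adjoin k _
        (Polynomial.aeval_mem_adjoin_singleton k _)
    · show upVal N k (Polynomial.aeval (jF N k) p) = _
      rw [algebraMap_line_eval, hp]
  obtain ⟨P, hPmap, hPdeg, hPm⟩ :=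
    Polynomial.lifts_and_natDegree_eq_and_monic hlift (famPoly_monic _)
  have hroot : Polynomial.aeval (jTopF N k) P = 0 := by
    apply (upVal N k).toRingHom.injective
    rw [map_zero, Polynomial.aeval_def, Polynomial.hom_eval₂, ← Polynomial.eval_map]
    show (P.map (lineHom N k)).eval
      (upVal N k (jTopF N k)) = 0
    rw [hPmap, upVal_jTopF φ, famPoly_eval_self]
  have hdegP : P.natDegree = dedekindPsi N := by
    rw [← hPm.natDegree_map (lineHom N k), hPmap,
      famPoly, Polynomial.natDegree_prod_of_monic _ _ (fun c _ => Polynomial.monic_X_sub_C _)]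
    simp only [Polynomial.natDegree_X_sub_C, Finset.sum_const, Finset.card_univ, smul_eq_mul,
      mul_one, card_cosetIdx]
  have : minpoly (jLine N k) (jTopF N k) = P := by
    refine (Polynomial.eq_of_monic_of_dvd_of_natDegree_le (minpoly.monic hint) hPm
      (minpoly.dvd _ _ hroot) ?_).symm
    rw [hdegP]
    exact hdeg.ge
  rw [this, hPmap]

theorem exists_cuspHom (c : CosetIdx N) :
    ∃ σ : FN →ₐ[k] LaurentSeries k, σ (jF N k) = jUp N k ∧ σ (jTopF N k) = rootsOf φ c := by
  have hint := (minpoly_jTopF φ).1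
  let hA : Algebra (jLine N k) (LaurentSeries k) := (lineHom N k).toAlgebra
  let pb := adjoin.powerBasis hint
  have hroot : @Polynomial.aeval (jLine N k) (LaurentSeries k) _ _ hA (rootsOf φ c)
      (minpoly (jLine N k) pb.gen) = 0 := by
    rw [adjoin.powerBasis_gen, minpoly_gen, Polynomial.aeval_def, ← Polynomial.eval_map]
    show ((minpoly (jLine N k) (jTopF N k)).map (lineHom N k)).eval _ = 0
    rw [minpoly_jTopF_map φ, famPoly_eval_self]
  let g : (jLine N k)⟮jTopF N k⟯ →ₐ[jLine N k] LaurentSeries k := pb.lift (rootsOf φ c) hroot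
  let top : ↥(modularFunctionFieldFullC k N) ≃ₐ[jLine N k] (jLine N k)⟮jTopF N k⟯ :=
    IntermediateField.topEquiv.symm.trans (equivOfEq (adjoin_jTopF_eq_top φ).symm)
  let f : ↥(modularFunctionFieldFullC k N) →+* LaurentSeries k :=
    g.toRingHom.comp top.toRingEquiv.toRingHom
  refine ⟨{ toRingHom := f, commutes' := fun r => ?_ }, ?_, ?_⟩
  · show g (top (algebraMap (jLine N k) _ (algebraMap k (jLine N k) r))) = _
    rw [AlgEquiv.commutes, AlgHom.commutes]
    exact (upVal N k).commutes r
  · show g (top (jF N k)) = _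
    rw [show (jF N k : FN) = algebraMap (jLine N k) FN
      ⟨jF N k, mem_adjoin_simple_self k _⟩ from rfl, AlgEquiv.commutes, AlgHom.commutes]
    exact upVal_jF
  · show g (top (jTopF N k)) = _
    rw [show top (jTopF N k) = pb.gen by
      rw [adjoin.powerBasis_gen]; exact Subtype.ext rfl]
    exact pb.lift_gen _ _

/-- The embedding attached to a coset. -/
def cuspHom (c : CosetIdx N) : FN →ₐ[k] LaurentSeries k := (exists_cuspHom φ c).choose

theorem cuspHom_jF (c : CosetIdx N) : cuspHom φ c (jF N k) = jUp N k :=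
  (exists_cuspHom φ c).choose_spec.1

theorem cuspHom_jTopF (c : CosetIdx N) : cuspHom φ c (jTopF N k) = rootsOf φ c :=
  (exists_cuspHom φ c).choose_spec.2

include φ in
theorem hom_ext_gen {E : Type*} [Field E] [Algebra k E] {σ τ : FN →ₐ[k] E}
    (h1 : σ (jF N k) = τ (jF N k)) (h2 : σ (jTopF N k) = τ (jTopF N k)) : σ = τ := by
  refine AlgHom.ext fun w => ?_
  have hw : w ∈ k⟮jF N k, jTopF N k⟯ := by
    have h := congrArg (IntermediateField.restrictScalars k) (adjoin_jTopF_eq_top φ)
    rw [adjoin_simple_adjoin_simple, restrictScalars_top] at h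
    rw [h]
    exact IntermediateField.mem_top
  induction hw using IntermediateField.adjoin_induction with
  | mem y hy =>
    rcases hy with rfl | rfl
    · exact h1
    · exact h2
  | algebraMap a => rw [AlgHom.commutes, AlgHom.commutes]
  | add u v _ _ hu hv => rw [map_add, map_add, hu, hv]
  | inv u _ hu => rw [map_inv₀, map_inv₀, hu]
  | mul u v _ _ hu hv => rw [map_mul, map_mul, hu, hv]

section places

variable [IsAlgClosed k]

include φ in
theorem isFF_of_hom : FF.IsFF k FN := isFF_fullC φ

theorem exists_cuspPlace (c : CosetIdx N) :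
    ∃ (v : Place k FN) (e : ℕ), 0 < e ∧ ∀ f : FN, (cuspHom φ c f).order = e * v.ord f := by
  have := isFF_fullC φ
  refine exists_serPlace (cuspHom φ c) (x := jF N k) ?_
  rw [cuspHom_jF]
  exact order_jUp_neg

/-- The place attached to a coset. -/
def cuspPlace (c : CosetIdx N) : Place k FN := (exists_cuspPlace φ c).choose

theorem cuspPlace_spec (c : CosetIdx N) :
    ∃ e : ℕ, 0 < e ∧ ∀ f : FN, (cuspHom φ c f).order = e * (cuspPlace φ c).ord f :=
  (exists_cuspPlace φ c).choose_spec

theorem cuspPlace_ord_jF (c : CosetIdx N) : (cuspPlace φ c).ord (jF N k) < 0 := by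
  obtain ⟨e, he, h⟩ := cuspPlace_spec φ c
  have h1 := h (jF N k)
  rw [cuspHom_jF] at h1
  have h2 : (jUp N k).order < 0 := order_jUp_neg
  by_contra hcon
  push Not at hcon
  have := mul_nonneg (Int.natCast_nonneg e) hcon
  omega

theorem cuspHom_order_nonneg {c : CosetIdx N} {f : FN} (h : 0 ≤ (cuspPlace φ c).ord f) :
    0 ≤ (cuspHom φ c f).order := by
  obtain ⟨e, -, he⟩ := cuspPlace_spec φ c
  rw [he]
  exact mul_nonneg (Int.natCast_nonneg _) h

omit [IsAlgClosed k] in
theorem ord_nonneg_of_line {v : Place k FN} (hv : v.ord (jF N k) < 0)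
    (a : jLine N k)
    (ha : 0 ≤ (lineHom N k a).order) :
    (a : FN) ∈ v.toValuationSubring := by
  obtain ⟨p, q, hpq⟩ := (mem_adjoin_simple_iff k (a : FN)).mp a.2
  change 0 ≤ (upVal N k (a : FN)).order at ha
  rw [hpq] at ha ⊢
  rcases eq_or_ne p 0 with rfl | hp
  · simp
  rcases eq_or_ne q 0 with rfl | hq
  · simp
  obtain ⟨hp1, hp2⟩ := order_eval₂_eq (order_jUp_neg (N := N) (k := k)) hp
  obtain ⟨hq1, hq2⟩ := order_eval₂_eq (order_jUp_neg (N := N) (k := k)) hq
  rw [map_div₀, algebraMap_line_eval, algebraMap_line_eval, div_eq_mul_inv,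
    HahnSeries.order_mul hp1 (inv_ne_zero hq1)] at ha
  have hinv : ((q.eval₂ HahnSeries.C (jUp N k))⁻¹).order = -(q.eval₂ HahnSeries.C (jUp N k)).order := by
    have h2 := HahnSeries.order_mul hq1 (inv_ne_zero hq1)
    rw [mul_inv_cancel₀ hq1, HahnSeries.order_one] at h2
    omega
  rw [hinv, hp2, hq2] at ha
  have hJ : (jUp N k).order < 0 := order_jUp_neg
  have hdeg : (p.natDegree : ℤ) ≤ q.natDegree := by nlinarith
  obtain ⟨hpa, hpo⟩ := ordAtPole hv p hp
  obtain ⟨hqa, hqo⟩ := ordAtPole hv q hq
  refine (FF.mem_iff_ord_nonneg v (div_ne_zero hpa hqa)).mpr ?_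
  rw [FF.ord_div v hpa hqa, hpo, hqo]
  nlinarith

include φ in
/-- Every place over `j = ∞` is the place of a coset. -/
theorem exists_eq_cuspPlace {v : Place k FN} (hv : v.ord (jF N k) < 0) :
    ∃ c, cuspPlace φ c = v := by
  classical
  by_contra hcon
  push Not at hcon
  have := isFF_fullC φ
  have := finiteDimensional_jF φ
  have := isSeparable_jF φ
  obtain ⟨w, hw00, hwv, hwT⟩ := FF.exists_ord_neg_forall_pos v (Finset.univ.image (cuspPlace φ))
    (by simpa using fun c => hcon c)
  have hord : ∀ c, 0 ≤ (cuspHom φ c w).order := fun c =>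
    cuspHom_order_nonneg φ (hwT _ (Finset.mem_image_of_mem _ (Finset.mem_univ c))).le
  set L := jLine N k
  set Ω := AlgebraicClosure (LaurentSeries k)
  let : Algebra L Ω := ((algebraMap (LaurentSeries k) Ω).comp (lineHom N k)).toAlgebra
  have hΩ : algebraMap L Ω = (algebraMap (LaurentSeries k) Ω).comp (lineHom N k) := rfl
  have hintw : IsIntegral L w := IsIntegral.of_finite L w
  set m := minpoly L w
  -- every root of `m` in `Ω` is a series of nonnegative order
  have hroot : ∀ y ∈ m.rootSet Ω, ∃ c, algebraMap (LaurentSeries k) Ω (cuspHom φ c w) = y := by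
    intro y hy
    rw [← Algebra.IsAlgebraic.range_eval_eq_rootSet_minpoly] at hy
    obtain ⟨τ, rfl⟩ := hy
    have hτ : (Polynomial.map (algebraMap (LaurentSeries k) Ω) (famPoly (rootsOf φ))).IsRoot
        (τ (jTopF N k)) := by
      rw [← minpoly_jTopF_map φ, Polynomial.map_map, ← hΩ,
        Polynomial.IsRoot.def, Polynomial.eval_map, ← Polynomial.aeval_def,
        Polynomial.aeval_algHom_apply, minpoly.aeval, map_zero]
    rw [famPoly_map, Polynomial.IsRoot.def, famPoly, Polynomial.eval_prod,
      Finset.prod_eq_zero_iff] at hτ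
    obtain ⟨c, -, hc⟩ := hτ
    rw [Polynomial.eval_sub, Polynomial.eval_X, Polynomial.eval_C, sub_eq_zero] at hc
    refine ⟨c, ?_⟩
    have h := hom_ext_gen φ (σ := (IsScalarTower.toAlgHom k (LaurentSeries k) Ω).comp (cuspHom φ c))
      (τ := ({ toRingHom := (τ : FN →+* Ω)
               commutes' := fun a => by
                 show τ (algebraMap L FN (algebraMap k L a)) = _
                 rw [AlgHom.commutes, IsScalarTower.algebraMap_apply k (LaurentSeries k) Ω]
                 exact congrArg (algebraMap (LaurentSeries k) Ω) ((upVal N k).commutes a) } :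
        FN →ₐ[k] Ω)) ?_ ?_
    · exact congrArg (fun f : FN →ₐ[k] Ω => f w) h
    · show algebraMap (LaurentSeries k) Ω (cuspHom φ c (jF N k)) = τ (jF N k)
      rw [cuspHom_jF, show (jF N k : FN) = algebraMap L FN ⟨jF N k, mem_adjoin_simple_self k _⟩ from
        rfl, τ.commutes]
      show _ = algebraMap (LaurentSeries k) Ω (upVal N k (jF N k))
      rw [upVal_jF]
    · show algebraMap (LaurentSeries k) Ω (cuspHom φ c (jTopF N k)) = τ (jTopF N k)
      rw [cuspHom_jTopF, hc]
      rfl
  set S : Finset (LaurentSeries k) := (Finset.univ.image fun c => cuspHom φ c w).filter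
    (fun s => algebraMap (LaurentSeries k) Ω s ∈ m.rootSet Ω) with hS
  have hprod : m.map (lineHom N k) = ∏ s ∈ S, (Polynomial.X - Polynomial.C s) := by
    apply Polynomial.map_injective (algebraMap (LaurentSeries k) Ω) (RingHom.injective _)
    rw [Polynomial.map_map, ← hΩ, Polynomial.map_prod]
    have hsep : m.Separable := Algebra.IsSeparable.isSeparable L w
    have hsplit := IsAlgClosed.splits (m.map (algebraMap L Ω))
    rw [hsplit.eq_prod_roots_of_monic ((minpoly.monic hintw).map _)]
    have hnd : (m.map (algebraMap L Ω)).roots.Nodup := Polynomial.nodup_roots hsep.map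
    have heq : (m.map (algebraMap L Ω)).roots.toFinset =
        S.image (algebraMap (LaurentSeries k) Ω) := by
      ext y
      rw [Multiset.mem_toFinset, Finset.mem_image]
      have hmem : y ∈ m.rootSet Ω ↔ y ∈ (m.map (algebraMap L Ω)).roots := by
        rw [Polynomial.rootSet_def, Finset.mem_coe, Multiset.mem_toFinset, Polynomial.aroots_def]
      constructor
      · intro hy
        obtain ⟨c, hc⟩ := hroot y (hmem.mpr hy)
        exact ⟨_, Finset.mem_filter.mpr ⟨Finset.mem_image_of_mem _ (Finset.mem_univ c),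
          hc ▸ hmem.mpr hy⟩, hc⟩
      · rintro ⟨s, hs, rfl⟩
        exact hmem.mp (Finset.mem_filter.mp hs).2
    rw [show ((m.map (algebraMap L Ω)).roots.map (Polynomial.X - Polynomial.C ·)).prod =
      ∏ y ∈ (m.map (algebraMap L Ω)).roots.toFinset, (Polynomial.X - Polynomial.C y) by
        rw [Finset.prod, Multiset.toFinset_val, hnd.dedup], heq,
      Finset.prod_image fun _ _ _ _ h => RingHom.injective _ h]
    refine Finset.prod_congr rfl fun s _ => ?_
    rw [Polynomial.map_sub, Polynomial.map_X, Polynomial.map_C]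
  have hcoef : ∀ i, ((m.coeff i : L) : FN) ∈ v.toValuationSubring := by
    intro i
    refine ord_nonneg_of_line hv _ ?_
    let O : ValuationSubring (LaurentSeries k) := serValRing (AlgHom.id k (LaurentSeries k))
    show lineHom N k (m.coeff i) ∈ O
    rw [← Polynomial.coeff_map, hprod]
    have hl : (∏ s ∈ S, (Polynomial.X - Polynomial.C s)) ∈
        Polynomial.lifts (O.subtype) := by
      refine Subsemiring.prod_mem _ fun s hs => ?_
      obtain ⟨c, -, rfl⟩ := Finset.mem_image.mp (Finset.mem_filter.mp hs).1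
      refine (Polynomial.mem_lifts _).mpr
        ⟨Polynomial.X - Polynomial.C ⟨cuspHom φ c w, hord c⟩, ?_⟩
      rw [Polynomial.map_sub, Polynomial.map_X, Polynomial.map_C]
      rfl
    obtain ⟨b, hb⟩ := (Polynomial.lifts_iff_coeff_lifts _).mp hl i
    exact hb ▸ b.2
  have hl : m.map (algebraMap L FN) ∈ Polynomial.lifts v.toValuationSubring.subtype := by
    rw [Polynomial.lifts_iff_coeff_lifts]
    intro i
    exact ⟨⟨_, hcoef i⟩, by rw [Polynomial.coeff_map]; rfl⟩
  obtain ⟨P, hP, -, hPm⟩ :=
    Polynomial.lifts_and_natDegree_eq_and_monic hl ((minpoly.monic hintw).map _)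
  have hwint : IsIntegral v.toValuationSubring w := ⟨P, hPm, by
    rw [← Polynomial.eval_map, show algebraMap v.toValuationSubring FN = v.toValuationSubring.subtype
      from rfl, hP, Polynomial.eval_map, ← Polynomial.aeval_def, minpoly.aeval]⟩
  obtain ⟨z, hz⟩ := IsIntegrallyClosed.isIntegral_iff.mp hwint
  have hw0 : w ≠ 0 := fun h => by rw [h] at hwv; simp at hwv
  have := (FF.mem_iff_ord_nonneg v hw0).mp (hz ▸ z.2)
  omega

end places

end FLTAgent.Reduction
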