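import Fermat.Agent.Reduction.IgusaChart

/-!
# The special fibres of the charts

All three charts (finite, infinite, overlap) have integral expansions saturated at `ℓ`
(`hasGaussExpansion_*`). For a field `K` of characteristic `ℓ` the expansion on `S ⊗ K` is then
injective (`fibreMap_injective`, using an `𝔽_ℓ`-basis of `K`), so these fibres are domains
(`isDomain_fibre`).
-/

set_option autoImplicit false

noncomputable section

open ModularCurve ModularCurve.IgusaScheme Polynomial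
open scoped TensorProduct

namespace FLTAgent.Reduction

variable (N : ℕ) [NeZero N] (ℓ : ℕ) [hℓ : Fact ℓ.Prime] (hℓN : ¬ ℓ ∣ N)

set_option quotPrecheck false in
local notation "ℤℓ" => ↥(GaloisRep.ratLocalizedAt ℓ)

set_option quotPrecheck false in
local notation "F" => ↥(modularFunctionFieldFull N)

/-- Integral expansions and saturation at `ℓ`, for a subset of `ℚ(X₀(N))`. -/
def HasGaussExpansion (S : Set F) : Prop :=
  ∀ x ∈ S, ∃ y : LaurentSeries ℤℓ, serZ ℓ y = serF N x ∧
    (coeffMap (zlRes ℓ) y = 0 → x / (ℓ : F) ∈ S)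

include hℓN in
theorem hasGaussExpansion_fin : HasGaussExpansion N ℓ (chartAlgFin N ℓ : Set F) := fun x hx => by
  obtain ⟨y, hy⟩ := exists_serZ_of_mem_chartFin N ℓ hℓN hx
  exact ⟨y, hy, fun h => div_mem_chartFin N ℓ hℓN hx hy h⟩

theorem leadingCoeff_jqModC (R : Type*) [CommRing R] [Nontrivial R] :
    (jqModC R).leadingCoeff = 1 := by
  have h := leadingCoeff_sub_eq_one (x := jqModC R) (y := 0) (n := -1)
    (coeff_jqModC_neg_one R) (fun k hk => coeff_jqModC_of_lt R hk) (fun k _ => rfl)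
  rwa [sub_zero] at h

theorem exists_serZ_jInv : ∃ u : LaurentSeries ℤℓ, serZ ℓ u = serF N (jFull N)⁻¹ := by
  have hu : IsUnit (jqModC ℤℓ) := by
    refine HahnSeries.isUnit_iff.mpr ?_
    rw [leadingCoeff_jqModC]
    exact isUnit_one
  obtain ⟨u, hu⟩ := hu
  refine ⟨↑u⁻¹, ?_⟩
  rw [map_inv₀]
  apply eq_inv_of_mul_eq_one_left
  have h1 : serF N (jFull N) = serZ ℓ (jqModC ℤℓ) := by
    rw [coeffMap_jqModC, jqModC_rat]; rfl
  rw [h1, ← hu, ← map_mul, Units.inv_mul, map_one]

theorem mid_eq : ({jFull N, (jFull N)⁻¹} : Set F) = insert (jFull N)⁻¹ {jFull N} :=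
  Set.pair_comm _ _

include hℓN in
theorem hasGaussExpansion_mid : HasGaussExpansion N ℓ (chartAlgMid N ℓ : Set F) := fun x hx => by
  have hx' : x ∈ chartAlg N ℓ (insert (jFull N)⁻¹ {jFull N}) := mid_eq N ▸ hx
  obtain ⟨n, hn⟩ := exists_pow_mul_mem_chartAlg (Set.mem_singleton _) (jFull_ne_zero N) hx'
  obtain ⟨y, hy, hsat⟩ := hasGaussExpansion_fin N ℓ hℓN _ hn
  obtain ⟨u, hu⟩ := exists_serZ_jInv N ℓ
  have hxe : x = ((jFull N)⁻¹) ^ n * ((jFull N) ^ n * x) := by
    rw [← mul_assoc, ← mul_pow, inv_mul_cancel₀ (jFull_ne_zero N), one_pow, one_mul]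
  refine ⟨u ^ n * y, ?_, fun h0 => ?_⟩
  · rw [map_mul, map_pow, hy, hu, ← map_pow, ← map_mul, ← hxe]
  have hy0 : coeffMap (zlRes ℓ) y = 0 := by
    rw [map_mul, map_pow] at h0
    refine (mul_eq_zero.mp h0).resolve_left (pow_ne_zero _ fun hu0 => ?_)
    have h1 : serZ ℓ (u * jqModC ℤℓ) = serZ ℓ 1 := by
      rw [map_mul, hu, map_one, coeffMap_jqModC, jqModC_rat, ← coe_jFull N,
        show ((jFull N : F) : LaurentSeries ℚ) = serF N (jFull N) from rfl, ← map_mul,
        inv_mul_cancel₀ (jFull_ne_zero N), map_one]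
    have h2 := congrArg (coeffMap (zlRes ℓ)) (serZ_injective ℓ h1)
    rw [map_mul, hu0, zero_mul, map_one] at h2
    exact zero_ne_one h2
  have h1 : (jFull N) ^ n * x / (ℓ : F) ∈ chartAlgMid N ℓ :=
    chartAlg_mono N ℓ (sFin_subset N) (hsat hy0)
  have hinv : (jFull N)⁻¹ ∈ chartAlgMid N ℓ :=
    subset_chartAlg N ℓ _ (Set.mem_insert_of_mem _ rfl)
  rw [hxe, mul_div_assoc]
  exact mul_mem (pow_mem hinv n) h1

theorem sEval_jInv_injective : Function.Injective (sEval N ℓ (jFull N)⁻¹) := by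
  have h : Transcendental ℤℓ (jFull N) :=
    transcendental_iff_injective.mpr (jEval_injective N ℓ)
  refine transcendental_iff_injective.mp fun halg => h ?_
  have := halg.inv
  rwa [inv_inv] at this

include hℓN in
theorem hasGaussExpansion_inf : HasGaussExpansion N ℓ (chartAlgInf N ℓ : Set F) := fun x hx => by
  obtain ⟨y, hy, hsat⟩ :=
    hasGaussExpansion_mid N ℓ hℓN x (chartAlg_mono N ℓ (sInf_subset N) hx)
  refine ⟨y, hy, fun h0 => ?_⟩
  have hmid : x / (ℓ : F) ∈ chartAlg N ℓ (insert (jFull N)⁻¹⁻¹ {(jFull N)⁻¹}) := by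
    rw [inv_inv]; exact hsat h0
  obtain ⟨m, hm⟩ := exists_pow_mul_mem_chartAlg (Set.mem_singleton _)
    (inv_ne_zero (jFull_ne_zero N)) hmid
  let := (sEval N ℓ (jFull N)⁻¹).toAlgebra
  have : FaithfulSMul (ℤℓ)[X] F :=
    (faithfulSMul_iff_algebraMap_injective _ _).mpr (sEval_jInv_injective N ℓ)
  refine (mem_chartAlg_singleton_iff N ℓ _ _).mpr ?_
  have hl0 : (ℓ : F) ≠ 0 := by exact_mod_cast hℓ.out.ne_zero
  refine isIntegral_of_scaled (zl_C_prime ℓ) (D := (X : (ℤℓ)[X]) ^ m) (n := 1) ?_ ?_ ?_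
  · intro hd
    have h1 := ((zl_C_dvd_iff ℓ _).mp hd)
    rw [Polynomial.map_pow, map_X] at h1
    exact pow_ne_zero m X_ne_zero h1
  · rw [pow_one, show algebraMap (ℤℓ)[X] F (C (ℓ : ℤℓ)) = (ℓ : F) by
      show sEval N ℓ _ _ = _; rw [map_natCast, map_natCast], mul_div_cancel₀ _ hl0]
    exact (mem_chartAlg_singleton_iff N ℓ _ _).mp hx
  · rw [show algebraMap (ℤℓ)[X] F (X ^ m) = (jFull N)⁻¹ ^ m by
      show sEval N ℓ _ _ = _; rw [map_pow, sEval, coe_eval₂RingHom, eval₂_X]]
    exact (mem_chartAlg_singleton_iff N ℓ _ _).mp hm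

/-! ### Tensoring with a field of characteristic `ℓ` -/

section tensor

variable (S : Subalgebra ↥(GaloisRep.ratLocalizedAt ℓ) ↥(modularFunctionFieldFull N))
  (hS : HasGaussExpansion N ℓ (S : Set ↥(modularFunctionFieldFull N)))

/-- The integral expansion on a chart. -/
def chartSeries : S →+* LaurentSeries ℤℓ where
  toFun x := (hS x x.2).choose
  map_one' := serZ_injective ℓ (by
    rw [(hS (1 : S) (1 : S).2).choose_spec.1, map_one]; exact map_one (serF N))
  map_zero' := serZ_injective ℓ (by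
    rw [(hS (0 : S) (0 : S).2).choose_spec.1, map_zero]; exact map_zero (serF N))
  map_mul' x y := serZ_injective ℓ (by
    rw [map_mul, (hS x x.2).choose_spec.1, (hS y y.2).choose_spec.1,
      (hS (x * y : S) (x * y : S).2).choose_spec.1, ← map_mul, Subalgebra.coe_mul])
  map_add' x y := serZ_injective ℓ (by
    rw [map_add, (hS x x.2).choose_spec.1, (hS y y.2).choose_spec.1,
      (hS (x + y : S) (x + y : S).2).choose_spec.1, ← map_add, Subalgebra.coe_add])

theorem serZ_chartSeries (x : S) : serZ ℓ (chartSeries N ℓ S hS x) = serF N x :=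
  (hS x x.2).choose_spec.1

theorem exists_smul_eq_of_chartSeries (x : S) (h : coeffMap (zlRes ℓ) (chartSeries N ℓ S hS x) = 0) :
    ∃ w : S, x = (ℓ : ℤℓ) • w := by
  refine ⟨⟨_, (hS x x.2).choose_spec.2 h⟩, Subtype.ext ?_⟩
  have hl0 : (ℓ : F) ≠ 0 := by exact_mod_cast hℓ.out.ne_zero
  rw [Algebra.smul_def, map_natCast, Subalgebra.coe_mul]
  exact ((mul_comm _ _).trans (div_mul_cancel₀ _ hl0)).symm

theorem chartSeries_algebraMap (a : ℤℓ) :
    chartSeries N ℓ S hS (algebraMap ℤℓ S a) = HahnSeries.C a := serZ_injective ℓ (by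
  rw [serZ_chartSeries, coeffMap_C]
  exact serF_algebraMap N ℓ a)

variable (K : Type) [Field K] [Algebra ↥(GaloisRep.ratLocalizedAt ℓ) K]

/-- `K((q))` as an algebra over `ℤ_(ℓ)`. -/
abbrev seriesAlgebra : Algebra ↥(GaloisRep.ratLocalizedAt ℓ) (LaurentSeries K) :=
  ((HahnSeries.C : K →+* LaurentSeries K).comp (algebraMap _ K)).toAlgebra

attribute [local instance 10000] seriesAlgebra

/-- The reduced expansion on a chart. -/
def fibreSeries : S →ₐ[ℤℓ] LaurentSeries K where
  toRingHom := (coeffMap (algebraMap ℤℓ K)).comp (chartSeries N ℓ S hS)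
  commutes' a := by
    show coeffMap _ (chartSeries N ℓ S hS (algebraMap ℤℓ S a)) = _
    rw [chartSeries_algebraMap, coeffMap_C]
    rfl

/-- The expansion on the fibre over `K`. -/
def fibreMap : S ⊗[ℤℓ] K →ₐ[ℤℓ] LaurentSeries K :=
  Algebra.TensorProduct.productMap (fibreSeries N ℓ S hS K)
    { toRingHom := HahnSeries.C, commutes' := fun _ => rfl }

theorem fibreMap_tmul (x : S) (b : K) :
    fibreMap N ℓ S hS K (x ⊗ₜ b) =
      coeffMap (algebraMap ℤℓ K) (chartSeries N ℓ S hS x) * HahnSeries.C b :=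
  Algebra.TensorProduct.productMap_apply_tmul _ _ _ _

/-- The expansion on the fibre is injective. -/
theorem fibreMap_injective [CharP K ℓ] : Function.Injective (fibreMap N ℓ S hS K) := by
  classical
  rw [injective_iff_map_eq_zero]
  intro z hz
  let : Algebra (ZMod ℓ) K := ZMod.algebra K ℓ
  have halg : ∀ a : ℤℓ, algebraMap ℤℓ K a = algebraMap (ZMod ℓ) K (zlRes ℓ a) := fun a =>
    by
      rw [zl_hom_eq ℓ K (algebraMap ℤℓ K), RingHom.comp_apply,
        RingHom.ext_zmod (ZMod.castHom dvd_rfl K) (algebraMap (ZMod ℓ) K)]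
  have hval : ∀ c : ZMod ℓ, algebraMap ℤℓ K (c.val : ℤℓ) = algebraMap (ZMod ℓ) K c := fun c => by
    rw [halg, map_natCast, ZMod.natCast_zmod_val]
  set b := Module.Basis.ofVectorSpace (ZMod ℓ) K
  have hrep : ∀ w : S ⊗[ℤℓ] K, ∃ f : _ →₀ S, w = f.sum fun i r => r ⊗ₜ[ℤℓ] b i := by
    intro w
    induction w with
    | zero => exact ⟨0, by simp⟩
    | add u v hu hv =>
      obtain ⟨f, rfl⟩ := hu
      obtain ⟨g, rfl⟩ := hv
      exact ⟨f + g, (Finsupp.sum_add_index' (fun i => by simp)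
        (fun i r r' => TensorProduct.add_tmul r r' _)).symm⟩
    | tmul r a =>
      refine ⟨(b.repr a).mapRange (fun c => (c.val : ℤℓ) • r) (by simp), ?_⟩
      rw [Finsupp.sum_mapRange_index (by simp)]
      conv_lhs => rw [← b.linearCombination_repr a, Finsupp.linearCombination_apply,
        Finsupp.sum, TensorProduct.tmul_sum]
      refine Finset.sum_congr rfl fun i _ => ?_
      show r ⊗ₜ[_] (b.repr a i • b i) = (((b.repr a i).val : ℤℓ) • r) ⊗ₜ[_] b i
      rw [TensorProduct.smul_tmul, Algebra.smul_def (R := ZMod ℓ), Algebra.smul_def, hval]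
  obtain ⟨f, rfl⟩ := hrep z
  have hlin : ∀ n i, zlRes ℓ ((chartSeries N ℓ S hS (f i)).coeff n) = 0 := by
    intro n
    have h := congrArg (fun s : LaurentSeries K => s.coeff n) hz
    simp only [Finsupp.sum, map_sum, fibreMap_tmul, HahnSeries.coeff_sum] at h
    rw [HahnSeries.coeff_zero] at h
    have h' : Finsupp.linearCombination (ZMod ℓ) b
        (f.mapRange (fun r => zlRes ℓ ((chartSeries N ℓ S hS r).coeff n)) (by simp)) = 0 := by
      rw [Finsupp.linearCombination_apply, Finsupp.sum_mapRange_index (by simp), Finsupp.sum,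
        ← h]
      refine Finset.sum_congr rfl fun i _ => ?_
      rw [mul_comm, HahnSeries.C_apply, HahnSeries.coeff_single_zero_mul, coeffMap_coeff,
        Algebra.smul_def, halg, mul_comm]
    have h0 := linearIndependent_iff.mp b.linearIndependent _ h'
    intro i
    have := congrArg (fun g => g i) h0
    simpa using this
  refine Finset.sum_eq_zero fun i _ => ?_
  obtain ⟨w, hw⟩ := exists_smul_eq_of_chartSeries N ℓ S hS (f i)
    (HahnSeries.ext (funext fun n => by rw [coeffMap_coeff, hlin n i]; rfl))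
  show f i ⊗ₜ[_] b i = 0
  rw [hw, TensorProduct.smul_tmul, Algebra.smul_def, map_natCast, CharP.cast_eq_zero, zero_mul,
    TensorProduct.tmul_zero]

include hS in
/-- The fibre of a chart is a domain. -/
theorem isDomain_fibre [CharP K ℓ] : IsDomain (S ⊗[ℤℓ] K) := by
  have : Nontrivial (S ⊗[ℤℓ] K) := ⟨⟨1, 0, fun h => one_ne_zero (α := LaurentSeries K) (by
    rw [← map_one (fibreMap N ℓ S hS K), h, map_zero])⟩⟩
  exact (fibreMap_injective N ℓ S hS K).isDomain (fibreMap N ℓ S hS K)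

end tensor

end FLTAgent.Reduction
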