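import Fermat.Agent.Reduction.IgusaFibre

/-!
# Integrality of the special fibre of the Igusa model

`isIntegral_pullback_igusaTo`, used for S28: the base change to a field of characteristic `ℓ` is
covered by two chart fibres which are spectra of domains and whose overlap is nonempty
(`isIntegral_pullback_of_cover`).
-/

set_option autoImplicit false

noncomputable section

open AlgebraicGeometry CategoryTheory CategoryTheory.Limits ModularCurve ModularCurve.IgusaScheme
open scoped TensorProduct

namespace FLTAgent.Reduction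

/-- A base change of a scheme glued from two open pieces is integral as soon as the base changes
of the pieces are integral and the base change of their overlap is nonempty. -/
theorem isIntegral_pullback_of_cover {X S T A B M : Scheme.{0}} (f : X ⟶ S) (g : T ⟶ S)
    (a : A ⟶ X) (b : B ⟶ X) [IsOpenImmersion a] [IsOpenImmersion b]
    (hcov : ∀ x : X, x ∈ Set.range a.base ∨ x ∈ Set.range b.base)
    (iA : M ⟶ A) (iB : M ⟶ B) (hw : iA ≫ a = iB ≫ b)
    [IsIntegral (pullback (a ≫ f) g)] [IsIntegral (pullback (b ≫ f) g)]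
    [Nonempty (pullback (iA ≫ a ≫ f) g : Scheme.{0})] : IsIntegral (pullback f g) := by
  let jA : pullback (a ≫ f) g ⟶ pullback f g :=
    (pullbackRightPullbackFstIso f g a).inv ≫ pullback.snd _ _
  let jB : pullback (b ≫ f) g ⟶ pullback f g :=
    (pullbackRightPullbackFstIso f g b).inv ≫ pullback.snd _ _
  have hrange : ∀ {C : Scheme.{0}} (c : C ⟶ X) [IsOpenImmersion c],
      Set.range ((pullbackRightPullbackFstIso f g c).inv ≫ pullback.snd c (pullback.fst f g)).base =
        (pullback.fst f g).base ⁻¹' Set.range c.base := by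
    intro C c _
    rw [Scheme.Hom.comp_base, TopCat.coe_comp, Set.range_comp,
      show Set.range (pullbackRightPullbackFstIso f g c).inv.base = Set.univ from
        Set.range_eq_univ.mpr (Scheme.homeoOfIso (pullbackRightPullbackFstIso f g c).symm).surjective,
      Set.image_univ, IsOpenImmersion.range_pullbackSnd]
    rfl
  have hU := hrange a
  have hV := hrange b
  have hcov' : ∀ p, p ∈ Set.range jA.base ∨ p ∈ Set.range jB.base := fun p => by
    rw [hU, hV]
    exact hcov _
  have : IsReduced (pullback f g) := by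
    have hred : ∀ x, _root_.IsReduced ((pullback f g).presheaf.stalk x) := by
      intro x
      rcases hcov' x with ⟨y, rfl⟩ | ⟨y, rfl⟩
      · exact isReduced_of_injective (jA.stalkMap y).hom
          (ConcreteCategory.bijective_of_isIso (jA.stalkMap y)).1
      · exact isReduced_of_injective (jB.stalkMap y).hom
          (ConcreteCategory.bijective_of_isIso (jB.stalkMap y)).1
    have := hred
    exact isReduced_of_isReduced_stalk _
  have hirrA : IsPreirreducible (Set.range jA.base) := by
    rw [← Set.image_univ]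
    exact PreirreducibleSpace.isPreirreducible_univ.image _ jA.base.hom.continuous.continuousOn
  have hirrB : IsPreirreducible (Set.range jB.base) := by
    rw [← Set.image_univ]
    exact PreirreducibleSpace.isPreirreducible_univ.image _ jB.base.hom.continuous.continuousOn
  obtain ⟨m⟩ := ‹Nonempty (pullback (iA ≫ a ≫ f) g : Scheme.{0})›
  have hmeet : (Set.range jA.base ∩ Set.range jB.base).Nonempty := by
    let e : pullback (iA ≫ a ≫ f) g ⟶ pullback f g :=
      pullback.map _ _ _ _ (iA ≫ a) (𝟙 T) (𝟙 S) (by simp) (by simp)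
    have he : e ≫ pullback.fst f g = pullback.fst _ _ ≫ iA ≫ a := pullback.lift_fst _ _ _
    have hp : (pullback.fst f g).base (e.base m) =
        a.base (iA.base ((pullback.fst (iA ≫ a ≫ f) g).base m)) := by
      rw [← Scheme.Hom.comp_apply, he]
      rfl
    refine ⟨e.base m, ?_, ?_⟩
    · rw [hU]
      exact ⟨_, hp.symm⟩
    · rw [hV]
      refine ⟨iB.base ((pullback.fst (iA ≫ a ≫ f) g).base m), ?_⟩
      rw [hp, ← Scheme.Hom.comp_apply iA a, hw]
      rfl
  have : IrreducibleSpace (pullback f g : Scheme.{0}) := by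
    have : Nonempty (pullback f g : Scheme.{0}) := ⟨hmeet.some⟩
    refine { isPreirreducible_univ := ?_, toNonempty := inferInstance }
    intro u v hu hv hu0 hv0
    have hVo : IsOpen (Set.range jB.base) := jB.isOpenEmbedding.isOpen_range
    have hUo : IsOpen (Set.range jA.base) := jA.isOpenEmbedding.isOpen_range
    have key : ∀ w : Set (pullback f g : Scheme.{0}), IsOpen w → (Set.univ ∩ w).Nonempty →
        (Set.range jA.base ∩ w).Nonempty := by
      rintro w hw' ⟨p, -, hp⟩
      rcases hcov' p with h | h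
      · exact ⟨p, h, hp⟩
      · obtain ⟨q, -, hqw, hqA⟩ := hirrB w _ hw' hUo ⟨p, h, hp⟩
          ⟨hmeet.some, hmeet.some_mem.2, hmeet.some_mem.1⟩
        exact ⟨q, hqA, hqw⟩
    obtain ⟨q, hq, hqu⟩ := hirrA u v hu hv (key u hu hu0) (key v hv hv0)
    exact ⟨q, trivial, hqu⟩
  exact isIntegral_of_irreducibleSpace_of_isReduced _

variable (N : ℕ) [NeZero N] (ℓ : ℕ) [Fact ℓ.Prime] (hℓN : ¬ ℓ ∣ N)
  (K : Type) [Field K] [CharP K ℓ] [Algebra ↥(GaloisRep.ratLocalizedAt ℓ) K]

/-- The base change to `Spec K`. -/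
abbrev toSpecK : Spec (CommRingCat.of K) ⟶ Spec (CommRingCat.of ↥(GaloisRep.ratLocalizedAt ℓ)) :=
  Spec.map (CommRingCat.ofHom (algebraMap ↥(GaloisRep.ratLocalizedAt ℓ) K))

omit [NeZero N] [Fact ℓ.Prime] in
theorem isIntegral_pullback_spec {S : Type} [CommRing S] [Algebra ↥(GaloisRep.ratLocalizedAt ℓ) S]
    [IsDomain (S ⊗[↥(GaloisRep.ratLocalizedAt ℓ)] K)] :
    IsIntegral (pullback
      (Spec.map (CommRingCat.ofHom (algebraMap ↥(GaloisRep.ratLocalizedAt ℓ) S))) (toSpecK ℓ K)) := by
  let e := pullbackSpecIso ↥(GaloisRep.ratLocalizedAt ℓ) S K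
  have : IsIntegral (Spec (CommRingCat.of (S ⊗[↥(GaloisRep.ratLocalizedAt ℓ)] K))) :=
    (affine_isIntegral_iff _).mpr inferInstance
  have : Nonempty (pullback
      (Spec.map (CommRingCat.ofHom (algebraMap ↥(GaloisRep.ratLocalizedAt ℓ) S)))
      (toSpecK ℓ K) : Scheme.{0}) :=
    ⟨e.inv.base (Classical.arbitrary _)⟩
  exact isIntegral_of_isOpenImmersion e.hom

include hℓN in
/-- The special fibre of the Igusa model is integral. -/
theorem isIntegral_pullback_igusaTo :
    IsIntegral (pullback (igusaTo N ℓ) (toSpecK ℓ K)) := by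
  have := isDomain_fibre N ℓ (chartAlgFin N ℓ) (hasGaussExpansion_fin N ℓ hℓN) K
  have := isDomain_fibre N ℓ (chartAlgInf N ℓ) (hasGaussExpansion_inf N ℓ hℓN) K
  have := isDomain_fibre N ℓ (chartAlgMid N ℓ) (hasGaussExpansion_mid N ℓ hℓN) K
  have : IsIntegral (pullback (ιFin N ℓ ≫ igusaTo N ℓ) (toSpecK ℓ K)) := by
    rw [ιFin_igusaTo]; exact isIntegral_pullback_spec ℓ K
  have : IsIntegral (pullback (ιInf N ℓ ≫ igusaTo N ℓ) (toSpecK ℓ K)) := by
    rw [ιInf_igusaTo]; exact isIntegral_pullback_spec ℓ K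
  have : Nonempty
      (pullback (fFin N ℓ ≫ ιFin N ℓ ≫ igusaTo N ℓ) (toSpecK ℓ K) : Scheme.{0}) := by
    have h : fFin N ℓ ≫ ιFin N ℓ ≫ igusaTo N ℓ =
        Spec.map (CommRingCat.ofHom (algebraMap ↥(GaloisRep.ratLocalizedAt ℓ) (chartAlgMid N ℓ))) := by
      rw [ιFin_igusaTo, ← Spec.map_comp, ← CommRingCat.ofHom_comp]
      congr 2
    rw [h]
    have := isIntegral_pullback_spec ℓ K (S := chartAlgMid N ℓ)
    infer_instance
  exact isIntegral_pullback_of_cover (igusaTo N ℓ) (toSpecK ℓ K) (ιFin N ℓ) (ιInf N ℓ)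
    (mem_range_ιFin_or_mem_range_ιInf N ℓ) (fFin N ℓ) (fInf N ℓ) (glue_condition N ℓ)

end FLTAgent.Reduction
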